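/-
P3-G block (G-N4), pure commutative algebra (Mathlib only): **rational points through a node (or a
smooth point) of an arithmetic surface, ring-theoretically.**

`O` a discrete valuation ring with uniformiser `ϖ`, `S` a noetherian local `O`-algebra (in the
application `S = R_𝔫`, the local ring of the normal model at a closed point `𝔫` of the special
fibre).  An "`O`-point centred at `𝔫`" is an `O`-algebra homomorphism `φ : S →ₐ[O] O`.

* `ker_eq_of_le` : if `I ≤ ker φ` and `𝔪_S ≤ I ⊔ (ϖ)` then `ker φ = I`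
  (`S ⧸ I` is a noetherian local ring whose maximal ideal is generated by `ϖ`; Krull intersection).
* `eq_comp_of_le_ker` : an `O`-algebra homomorphism `φ' : S →ₐ[O] O'` killing `ker φ` is `φ` followed
  by the structure map `O → O'`.
* node `𝔪_S = (u, v, ϖ)`, `u v = c ≠ 0` (`Node.*`): for `α := φ u`, `β := φ v`:
  `ker φ = (u - α, v - β)`, `u * ker φ ≤ (u - α)`, `u ∉ ker φ` (so `ker φ · S_{ker φ} = (u - α)`:
  the function `b_P := u - α_P` has a simple zero at `P`), and any point `φ'` (with values in any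
  domain `O' ⊇ O`) with `φ' (u - α) = 0` is `φ` (so `b_P` is a unit at every other point centred
  at `𝔫`): this is (Loc-P) of the P3-G blueprint.
* smooth point `𝔪_S = (z, ϖ)` (`Smooth.*`): `ker φ = (z - φ z)`, and the same uniqueness.
-/
import Mathlib

set_option autoImplicit false
set_option linter.unusedSectionVars false

namespace Fermat.Agent.P3G.NodeLocal

open IsLocalRing

section General

variable {O S : Type*} [CommRing O] [IsDomain O] [CommRing S] [IsLocalRing S] [IsNoetherianRing S]
  [Algebra O S]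

/-- The kernel of an `O`-point is a proper ideal, hence contained in the maximal ideal. -/
theorem ker_le_maximalIdeal (φ : S →ₐ[O] O) : RingHom.ker φ ≤ maximalIdeal S :=
  le_maximalIdeal (RingHom.ker_ne_top φ.toRingHom)

/-- An `O`-point maps the maximal ideal into the non-units. -/
theorem map_mem_nonunits (φ : S →ₐ[O] O) {x : S} (hx : x ∈ maximalIdeal S) : ¬ IsUnit (φ x) := by
  rintro ⟨w, hw⟩
  have h1 : x * algebraMap O S (↑w⁻¹ : O) - 1 ∈ RingHom.ker φ := by
    rw [RingHom.mem_ker, map_sub, map_mul, map_one, AlgHom.commutes, ← hw]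
    simp
  have h2 := ker_le_maximalIdeal φ h1
  have h3 : x * algebraMap O S (↑w⁻¹ : O) ∈ maximalIdeal S := Ideal.mul_mem_right _ _ hx
  have h4 : (1 : S) ∈ maximalIdeal S := by
    have := (maximalIdeal S).sub_mem h3 h2
    simp at this
  exact (Ideal.ne_top_iff_one _).1 (maximalIdeal.isMaximal S).ne_top h4

/-- **Kernel of a section.**  If `I ≤ ker φ` and the maximal ideal of `S` is `I + (ϖ)` with
`ϖ ≠ 0` in `O`, then `ker φ = I`. -/
theorem ker_eq_of_le (ϖ : O) (hϖ : ϖ ≠ 0) (hϖu : ¬ IsUnit ϖ) (φ : S →ₐ[O] O) (I : Ideal S)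
    (hI : I ≤ RingHom.ker φ)
    (hm : maximalIdeal S ≤ I ⊔ Ideal.span {algebraMap O S ϖ}) : RingHom.ker φ = I := by
  refine le_antisymm ?_ hI
  -- step 1: `ker φ ≤ I + (ϖ ^ k)` for all `k`
  have key : ∀ k : ℕ, ∀ x ∈ RingHom.ker φ, ∃ a ∈ I, ∃ y : S,
      x = a + algebraMap O S ϖ ^ k * y := by
    intro k
    induction k with
    | zero => intro x _; exact ⟨0, I.zero_mem, x, by simp⟩
    | succ k ih =>
      intro x hx
      obtain ⟨a, ha, y, rfl⟩ := ih x hx
      have hy : y ∈ RingHom.ker φ := by
        rw [RingHom.mem_ker] at hx ⊢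
        rw [map_add, map_mul, map_pow, AlgHom.commutes, (RingHom.mem_ker).1 (hI ha), zero_add]
          at hx
        have : ϖ ^ k * φ y = 0 := by simpa using hx
        exact (mul_eq_zero.1 this).resolve_left (pow_ne_zero k hϖ)
      obtain ⟨b, hb, z, hz, hyz⟩ := Submodule.mem_sup.1 (hm (ker_le_maximalIdeal φ hy))
      obtain ⟨w, rfl⟩ := Ideal.mem_span_singleton'.1 hz
      refine ⟨a + algebraMap O S ϖ ^ k * b, I.add_mem ha (I.mul_mem_left _ hb), w, ?_⟩
      rw [← hyz]; ring
  -- step 2: Krull intersection in `S ⧸ I`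
  intro x hx
  have hbot := Ideal.iInf_pow_smul_eq_bot_of_isLocalRing (R := S) (M := S ⧸ I) (maximalIdeal S)
    (maximalIdeal.isMaximal S).ne_top
  have hmem : Ideal.Quotient.mk I x ∈
      (⨅ i : ℕ, maximalIdeal S ^ i • (⊤ : Submodule S (S ⧸ I))) := by
    rw [Submodule.mem_iInf]
    intro k
    obtain ⟨a, ha, y, rfl⟩ := key k x hx
    have h1 : Ideal.Quotient.mk I (a + algebraMap O S ϖ ^ k * y) =
        (algebraMap O S ϖ ^ k) • (Ideal.Quotient.mk I y) := by
      rw [map_add, Ideal.Quotient.eq_zero_iff_mem.2 ha, zero_add, map_mul]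
      rfl
    rw [h1]
    refine Submodule.smul_mem_smul (Ideal.pow_mem_pow ?_ k) Submodule.mem_top
    have hϖm : ¬ IsUnit (algebraMap O S ϖ) := by
      intro hu
      apply hϖu
      have := hu.map φ
      rwa [AlgHom.commutes, Algebra.algebraMap_self_apply] at this
    exact (mem_maximalIdeal _).2 hϖm
  rw [hbot] at hmem
  exact Ideal.Quotient.eq_zero_iff_mem.1 ((Submodule.mem_bot _).1 hmem)

/-- A point `φ' : S →ₐ[O] O'` (values in any `O`-algebra `O'`) killing the kernel of the `O`-point
`φ` is `φ` followed by the structure map. -/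
theorem eq_comp_of_le_ker {O' : Type*} [CommRing O'] [Algebra O O'] (φ : S →ₐ[O] O)
    (φ' : S →ₐ[O] O') (h : RingHom.ker φ ≤ RingHom.ker φ') :
    φ' = (Algebra.ofId O O').comp φ := by
  ext x
  have h1 : x - algebraMap O S (φ x) ∈ RingHom.ker φ := by
    rw [RingHom.mem_ker, map_sub, AlgHom.commutes]
    simp
  have h2 := h h1
  rw [RingHom.mem_ker, map_sub, AlgHom.commutes, sub_eq_zero] at h2
  rw [h2]
  simp [Algebra.ofId_apply]

end General

/-! ### The node `𝔪 = (u, v, ϖ)`, `u v = c` -/

section Node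

variable {O S : Type*} [CommRing O] [IsDomain O] [IsDiscreteValuationRing O]
  [CommRing S] [IsLocalRing S] [IsNoetherianRing S] [Algebra O S]
variable {ϖ : O} {u v : S} {c : O}

/-- Values of an `O`-point on the maximal ideal lie in `(ϖ)`. -/
theorem map_mem_span (hϖ : Irreducible ϖ) (φ : S →ₐ[O] O) {x : S} (hx : x ∈ maximalIdeal S) :
    φ x ∈ Ideal.span {ϖ} := by
  rw [← hϖ.maximalIdeal_eq, mem_maximalIdeal]
  exact map_mem_nonunits φ hx

namespace Node

/-- `u (v - β) = -β (u - α)` when `u v = c = α β`. -/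
theorem mul_sub_eq (huv : u * v = algebraMap O S c) (φ : S →ₐ[O] O) :
    u * (v - algebraMap O S (φ v)) = - algebraMap O S (φ v) * (u - algebraMap O S (φ u)) := by
  have h1 : φ u * φ v = c := by
    rw [← map_mul, huv, AlgHom.commutes]; rfl
  have h2 : algebraMap O S (φ u) * algebraMap O S (φ v) = u * v := by
    rw [← map_mul, h1, huv]
  linear_combination (-1 : S) * h2

/-- The value `α = φ u` is nonzero. -/
theorem map_u_ne_zero (huv : u * v = algebraMap O S c) (hc : c ≠ 0) (φ : S →ₐ[O] O) :
    φ u ≠ 0 := by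
  intro h
  apply hc
  have h1 : φ u * φ v = c := by
    rw [← map_mul, huv, AlgHom.commutes]; rfl
  rw [← h1, h, zero_mul]

theorem u_not_mem_ker (huv : u * v = algebraMap O S c) (hc : c ≠ 0) (φ : S →ₐ[O] O) :
    u ∉ RingHom.ker φ := fun h => map_u_ne_zero huv hc φ ((RingHom.mem_ker).1 h)

/-- **The horizontal prime of an `O`-point through a node**: `ker φ = (u - α, v - β)`. -/
theorem ker_eq (hϖ : Irreducible ϖ)
    (hm : maximalIdeal S = Ideal.span {u, v, algebraMap O S ϖ}) (φ : S →ₐ[O] O) :
    RingHom.ker φ =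
      Ideal.span {u - algebraMap O S (φ u), v - algebraMap O S (φ v)} := by
  have hmem : ∀ x : S, x - algebraMap O S (φ x) ∈ RingHom.ker φ := by
    intro x
    rw [RingHom.mem_ker, map_sub, AlgHom.commutes]
    simp
  refine ker_eq_of_le ϖ hϖ.ne_zero hϖ.not_isUnit φ _ ?_ ?_
  · rw [Ideal.span_le]
    intro x hx
    simp only [Set.mem_insert_iff, Set.mem_singleton_iff] at hx
    rcases hx with hx | hx <;> rw [hx]
    · exact hmem u
    · exact hmem v
  · have hu : u ∈ maximalIdeal S := by rw [hm]; exact Ideal.subset_span (by simp)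
    have hv : v ∈ maximalIdeal S := by rw [hm]; exact Ideal.subset_span (by simp)
    have key : ∀ x ∈ maximalIdeal S, algebraMap O S (φ x) ∈ Ideal.span {algebraMap O S ϖ} := by
      intro x hx
      obtain ⟨w, hw⟩ := Ideal.mem_span_singleton'.1 (map_mem_span hϖ φ hx)
      rw [← hw, map_mul]
      exact Ideal.mul_mem_left _ _ (Ideal.mem_span_singleton_self _)
    rw [hm, Ideal.span_le]
    intro x hx
    simp only [Set.mem_insert_iff, Set.mem_singleton_iff] at hx
    rw [SetLike.mem_coe]
    rcases hx with hx | hx | hx <;> rw [hx]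
    · have h := Submodule.add_mem_sup (Ideal.subset_span
        (s := {u - algebraMap O S (φ u), v - algebraMap O S (φ v)})
        (Set.mem_insert _ _)) (key u hu)
      rwa [sub_add_cancel] at h
    · have h := Submodule.add_mem_sup (Ideal.subset_span
        (s := {u - algebraMap O S (φ u), v - algebraMap O S (φ v)})
        (Set.mem_insert_of_mem _ (Set.mem_singleton _))) (key v hv)
      rwa [sub_add_cancel] at h
    · exact Ideal.mem_sup_right (Ideal.mem_span_singleton_self _)

/-- **Local generator at an `O`-point through a node**: `u · ker φ ⊆ (u - α)` (and `u ∉ ker φ`), so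
in the localisation at `ker φ` the maximal ideal is generated by `b_P := u - α_P`. -/
theorem mul_ker_le (hϖ : Irreducible ϖ)
    (hm : maximalIdeal S = Ideal.span {u, v, algebraMap O S ϖ})
    (huv : u * v = algebraMap O S c) (φ : S →ₐ[O] O) {x : S} (hx : x ∈ RingHom.ker φ) :
    u * x ∈ Ideal.span {u - algebraMap O S (φ u)} := by
  rw [ker_eq hϖ hm φ, Ideal.mem_span_pair] at hx
  obtain ⟨a, b, rfl⟩ := hx
  rw [Ideal.mem_span_singleton']
  refine ⟨u * a - b * algebraMap O S (φ v), ?_⟩
  linear_combination (-b) * mul_sub_eq huv φ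

/-- **Uniqueness** ((Loc-P), "unit at every other point"): a point `φ'` with values in a domain
`O' ⊇ O` at which `u - α` vanishes is `φ`. -/
theorem eq_comp_of_map_eq_zero {O' : Type*} [CommRing O'] [IsDomain O'] [Algebra O O']
    [FaithfulSMul O O'] (hϖ : Irreducible ϖ)
    (hm : maximalIdeal S = Ideal.span {u, v, algebraMap O S ϖ})
    (huv : u * v = algebraMap O S c) (hc : c ≠ 0) (φ : S →ₐ[O] O) (φ' : S →ₐ[O] O')
    (h : φ' (u - algebraMap O S (φ u)) = 0) : φ' = (Algebra.ofId O O').comp φ := by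
  refine eq_comp_of_le_ker φ φ' ?_
  rw [ker_eq hϖ hm φ, Ideal.span_le]
  have hinj : Function.Injective (algebraMap O O') := FaithfulSMul.algebraMap_injective O O'
  rintro x (rfl | rfl)
  · exact (RingHom.mem_ker).2 h
  · rw [SetLike.mem_coe, RingHom.mem_ker]
    have h1 := congrArg φ' (mul_sub_eq huv φ)
    rw [map_mul, map_mul, h, mul_zero] at h1
    rcases mul_eq_zero.1 h1 with h2 | h2
    · exfalso
      rw [map_sub, AlgHom.commutes, sub_eq_zero] at h
      rw [h] at h2
      exact map_u_ne_zero huv hc φ (hinj (by rw [h2, map_zero]))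
    · exact h2

end Node

/-! ### The smooth point `𝔪 = (z, ϖ)` -/

namespace Smooth

variable {z : S}

/-- **The horizontal prime of an `O`-point through a smooth point**: `ker φ = (z - φ z)`. -/
theorem ker_eq (hϖ : Irreducible ϖ)
    (hm : maximalIdeal S = Ideal.span {z, algebraMap O S ϖ}) (φ : S →ₐ[O] O) :
    RingHom.ker φ = Ideal.span {z - algebraMap O S (φ z)} := by
  have hmem : z - algebraMap O S (φ z) ∈ RingHom.ker φ := by
    rw [RingHom.mem_ker, map_sub, AlgHom.commutes]
    simp
  refine ker_eq_of_le ϖ hϖ.ne_zero hϖ.not_isUnit φ _ ?_ ?_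
  · rw [Ideal.span_le]
    intro x hx
    rw [Set.mem_singleton_iff] at hx
    rw [hx]
    exact hmem
  · have hz : z ∈ maximalIdeal S := by rw [hm]; exact Ideal.subset_span (by simp)
    have key : algebraMap O S (φ z) ∈ Ideal.span {algebraMap O S ϖ} := by
      obtain ⟨w, hw⟩ := Ideal.mem_span_singleton'.1 (map_mem_span hϖ φ hz)
      rw [← hw, map_mul]
      exact Ideal.mul_mem_left _ _ (Ideal.mem_span_singleton_self _)
    rw [hm, Ideal.span_le]
    intro x hx
    simp only [Set.mem_insert_iff, Set.mem_singleton_iff] at hx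
    rw [SetLike.mem_coe]
    rcases hx with hx | hx <;> rw [hx]
    · have h := Submodule.add_mem_sup
        (Ideal.mem_span_singleton_self (z - algebraMap O S (φ z))) key
      rwa [sub_add_cancel] at h
    · exact Ideal.mem_sup_right (Ideal.mem_span_singleton_self _)

/-- **Uniqueness** at a smooth point. -/
theorem eq_comp_of_map_eq_zero {O' : Type*} [CommRing O'] [Algebra O O'] (hϖ : Irreducible ϖ)
    (hm : maximalIdeal S = Ideal.span {z, algebraMap O S ϖ}) (φ : S →ₐ[O] O) (φ' : S →ₐ[O] O')
    (h : φ' (z - algebraMap O S (φ z)) = 0) : φ' = (Algebra.ofId O O').comp φ := by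
  refine eq_comp_of_le_ker φ φ' ?_
  rw [ker_eq hϖ hm φ, Ideal.span_le]
  rintro x rfl
  exact (RingHom.mem_ker).2 h

end Smooth

end Node

end Fermat.Agent.P3G.NodeLocal
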