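/-
P3-G, block (G-N), pure algebra (helper16): **the node lemma by `ϖ`-adic iteration, without
completions.**

Setting: `O → C` commutative rings, `ϖ : O`, `u v : C` with `u v = ϖ G`, and the hypothesis
`RatGen ϖ u v`: every `x : C` is `a + u p + v q + ϖ r` with `a ∈ O` (i.e. `(u, v, ϖ)` is a maximal
ideal with residue field `O / ϖ`).

* `exists_approx` : for every `n` there are `u_n ≡ u`, `v_n ≡ v (mod ϖ)` and `c_n ∈ ϖ O` with
  `u_n v_n = c_n + ϖ^(n+1) G_n`;
* `exists_exact_of_unit` : in a local ring `C` with `ϖ ∈ 𝔪_C`, if `c_n = ϖ^e ε` with `ε` a unit and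
  `e ≤ n`, then `u' v' = c_n` EXACTLY for suitable `u' ≡ u`, `v' ≡ v (mod ϖ)`, inside `C`;
* `exact_or_split` : over a discrete valuation ring `O` with uniformiser `ϖ`: either an exact node
  `u' v' = c`, `c ≠ 0`, or `u_n v_n ∈ (ϖ^(n+1))` for every `n` (two separated sheets);
* `exists_exact_of_complete` : the exact form in the `ϖ`-adically complete case (`c = 0` allowed).
-/
import Mathlib

set_option autoImplicit false

namespace Fermat.Agent.P3G.NodeDeform

variable {O C : Type*} [CommRing O] [CommRing C] [Algebra O C]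

section Basic

variable (ϖ : O) (u v : C)

/-- `(u, v, ϖ)` generates a maximal ideal of `C` with residue field `O / ϖ`. -/
def RatGen : Prop :=
  ∀ x : C, ∃ (a : O) (p q r : C),
    x = algebraMap O C a + u * p + v * q + algebraMap O C ϖ * r

/-- An approximate node form of order `n`: `(u + ϖ s)(v + ϖ t) = c + ϖ^(n+1) G`. -/
def IsApprox (n : ℕ) (s t : C) (c : O) (G : C) : Prop :=
  (u + algebraMap O C ϖ * s) * (v + algebraMap O C ϖ * t) =
    algebraMap O C c + algebraMap O C ϖ ^ (n + 1) * G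

variable {ϖ u v}

theorem isApprox_zero {G : C} (h : u * v = algebraMap O C ϖ * G) : IsApprox ϖ u v 0 0 0 0 G := by
  unfold IsApprox
  rw [mul_zero, add_zero, add_zero, map_zero, zero_add, zero_add, pow_one, h]

/-- **The iteration step.** -/
theorem exists_approx_succ (hH : RatGen ϖ u v) {n : ℕ} {s t : C} {c : O} {G : C}
    (h : IsApprox ϖ u v n s t c G) :
    ∃ (s' t' : C) (c' : O) (G' : C), IsApprox ϖ u v (n + 1) s' t' c' G' ∧
      s' - s ∈ Ideal.span {algebraMap O C ϖ ^ n} ∧ t' - t ∈ Ideal.span {algebraMap O C ϖ ^ n} ∧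
      c' - c ∈ Ideal.span {ϖ ^ (n + 1)} := by
  obtain ⟨g, p, q, r, hG⟩ := hH G
  set w := algebraMap O C ϖ with hw
  refine ⟨s - w ^ n * q, t - w ^ n * p, c + ϖ ^ (n + 1) * g,
    r - s * p - t * q + w ^ n * (p * q), ?_, ?_, ?_, ?_⟩
  · unfold IsApprox at h ⊢
    rw [← hw] at h ⊢
    have e1 : (u + w * (s - w ^ n * q)) * (v + w * (t - w ^ n * p)) =
        (u + w * s) * (v + w * t) - w ^ (n + 1) * ((u + w * s) * p + (v + w * t) * q) +
          w ^ (n + 1 + 1) * (w ^ n * (p * q)) := by ring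
    rw [e1, h, hG, map_add, map_mul, map_pow, ← hw]
    ring
  · rw [Ideal.mem_span_singleton']
    exact ⟨-q, by ring⟩
  · rw [Ideal.mem_span_singleton']
    exact ⟨-p, by ring⟩
  · rw [Ideal.mem_span_singleton']
    exact ⟨g, by ring⟩

/-- **Approximate node forms of every order.** -/
theorem exists_approx (hH : RatGen ϖ u v) {G : C} (h : u * v = algebraMap O C ϖ * G) (n : ℕ) :
    ∃ (s t : C) (c : O) (G' : C), IsApprox ϖ u v n s t c G' ∧ c ∈ Ideal.span {ϖ} := by
  induction n with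
  | zero => exact ⟨0, 0, 0, G, isApprox_zero h, Ideal.zero_mem _⟩
  | succ n ih =>
    obtain ⟨s, t, c, G', h1, hc⟩ := ih
    obtain ⟨s', t', c', G'', h2, -, -, hc'⟩ := exists_approx_succ hH h1
    refine ⟨s', t', c', G'', h2, ?_⟩
    have h3 : c' = c + (c' - c) := by ring
    rw [h3]
    refine Ideal.add_mem _ hc ?_
    rw [Ideal.mem_span_singleton'] at hc' ⊢
    obtain ⟨a, ha⟩ := hc'
    exact ⟨a * ϖ ^ n, by rw [← ha]; ring⟩

end Basic

/-! ### Stability of the hypotheses under `u ↦ u'`, `v ↦ v'` -/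

section Congr

variable {ϖ : O} {u v u' v' : C}

theorem ratGen_of_congr (hH : RatGen ϖ u v) (hu : u' - u ∈ Ideal.span {algebraMap O C ϖ})
    (hv : v' - v ∈ Ideal.span {algebraMap O C ϖ}) : RatGen ϖ u' v' := by
  obtain ⟨a1, ha1⟩ := Ideal.mem_span_singleton'.mp hu
  obtain ⟨b1, hb1⟩ := Ideal.mem_span_singleton'.mp hv
  intro x
  obtain ⟨a, p, q, r, hx⟩ := hH x
  refine ⟨a, p, q, r - a1 * p - b1 * q, ?_⟩
  have e1 : u = u' - a1 * algebraMap O C ϖ := by rw [ha1]; ring
  have e2 : v = v' - b1 * algebraMap O C ϖ := by rw [hb1]; ring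
  rw [hx, e1, e2]
  ring

theorem span_eq_of_congr (hu : u' - u ∈ Ideal.span {algebraMap O C ϖ})
    (hv : v' - v ∈ Ideal.span {algebraMap O C ϖ}) :
    Ideal.span {u', v', algebraMap O C ϖ} = Ideal.span {u, v, algebraMap O C ϖ} := by
  obtain ⟨a1, ha1⟩ := Ideal.mem_span_singleton'.mp hu
  obtain ⟨b1, hb1⟩ := Ideal.mem_span_singleton'.mp hv
  have hw : ∀ x y : C, algebraMap O C ϖ ∈ Ideal.span {x, y, algebraMap O C ϖ} := fun x y =>
    Ideal.subset_span (by simp)
  have hx : ∀ x y : C, x ∈ Ideal.span {x, y, algebraMap O C ϖ} := fun x y =>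
    Ideal.subset_span (by simp)
  have hy : ∀ x y : C, y ∈ Ideal.span {x, y, algebraMap O C ϖ} := fun x y =>
    Ideal.subset_span (by simp)
  apply le_antisymm
  · rw [Ideal.span_le]
    intro z hz
    rcases hz with rfl | rfl | rfl
    · have : z = u + a1 * algebraMap O C ϖ := by rw [ha1]; ring
      rw [this]
      exact Ideal.add_mem _ (hx u v) (Ideal.mul_mem_left _ _ (hw u v))
    · have : z = v + b1 * algebraMap O C ϖ := by rw [hb1]; ring
      rw [this]
      exact Ideal.add_mem _ (hy u v) (Ideal.mul_mem_left _ _ (hw u v))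
    · exact hw u v
  · rw [Ideal.span_le]
    intro z hz
    rcases hz with rfl | rfl | rfl
    · have : z = u' - a1 * algebraMap O C ϖ := by rw [ha1]; ring
      rw [this]
      exact Ideal.sub_mem _ (hx u' v') (Ideal.mul_mem_left _ _ (hw u' v'))
    · have : z = v' - b1 * algebraMap O C ϖ := by rw [hb1]; ring
      rw [this]
      exact Ideal.sub_mem _ (hy u' v') (Ideal.mul_mem_left _ _ (hw u' v'))
    · exact hw u' v'

end Congr

/-! ### The exact form inside a local ring -/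

section Local

variable {ϖ : O} {u v : C} [IsLocalRing C]

/-- **Exact node form, no completion**: if the constant of an approximation of order `n` is
`ϖ^e ε`, `ε` a unit, `e ≤ n`, the error term is absorbed by a unit of the local ring `C`. -/
theorem exists_exact_of_unit (hϖ : algebraMap O C ϖ ∈ IsLocalRing.maximalIdeal C)
    {n : ℕ} {s t : C} {c : O} {G : C} (h : IsApprox ϖ u v n s t c G)
    {e : ℕ} {ε : O} (hε : IsUnit ε) (hc : c = ϖ ^ e * ε) (he : e ≤ n) :
    ∃ u' v' : C, u' - u ∈ Ideal.span {algebraMap O C ϖ} ∧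
      v' - v ∈ Ideal.span {algebraMap O C ϖ} ∧ u' * v' = algebraMap O C c := by
  set w := algebraMap O C ϖ with hw
  obtain ⟨ε', hε'⟩ := hε.exists_right_inv
  obtain ⟨k, hk⟩ : ∃ k, n + 1 = e + (k + 1) := ⟨n - e, by omega⟩
  set y := w ^ (k + 1) * (algebraMap O C ε' * G) with hy
  have hym : y ∈ IsLocalRing.maximalIdeal C := by
    rw [hy, pow_succ, mul_assoc]
    exact Ideal.mul_mem_left _ _ (Ideal.mul_mem_right _ _ hϖ)
  have hz : IsUnit (1 + y) := by
    have h1 : IsUnit (1 - -y) :=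
      IsLocalRing.isUnit_one_sub_self_of_mem_nonunits (-y)
        ((IsLocalRing.mem_maximalIdeal _).mp (Ideal.neg_mem_iff _ |>.mpr hym))
    rwa [sub_neg_eq_add] at h1
  obtain ⟨zu, hzu⟩ := hz
  have hzz : (1 + y) * ((zu⁻¹ : Cˣ) : C) = 1 := by
    rw [← hzu]; exact zu.mul_inv
  have hεε : algebraMap O C ε * algebraMap O C ε' = 1 := by
    rw [← map_mul, hε', map_one]
  have hprod : (u + w * s) * (v + w * t) = algebraMap O C c * (1 + y) := by
    unfold IsApprox at h
    rw [← hw] at h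
    rw [h, hc, hk, hy, map_mul, map_pow, ← hw]
    have : w ^ (e + (k + 1)) * G =
        w ^ e * (algebraMap O C ε * algebraMap O C ε') * (w ^ (k + 1) * G) := by
      rw [hεε]; ring
    rw [this]
    ring
  refine ⟨(u + w * s) * ((zu⁻¹ : Cˣ) : C), v + w * t, ?_, ?_, ?_⟩
  · have h1 : (u + w * s) * ((zu⁻¹ : Cˣ) : C) - u =
        (w * s - u * y) * ((zu⁻¹ : Cˣ) : C) := by
      have e2 : u * ((1 + y) * ((zu⁻¹ : Cˣ) : C)) = u := by rw [hzz, mul_one]
      calc (u + w * s) * ((zu⁻¹ : Cˣ) : C) - u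
          = (u + w * s) * ((zu⁻¹ : Cˣ) : C) - u * ((1 + y) * ((zu⁻¹ : Cˣ) : C)) := by rw [e2]
        _ = (w * s - u * y) * ((zu⁻¹ : Cˣ) : C) := by ring
    rw [h1, Ideal.mem_span_singleton']
    refine ⟨(s - u * (w ^ k * (algebraMap O C ε' * G))) * ((zu⁻¹ : Cˣ) : C), ?_⟩
    rw [hy]
    ring
  · rw [Ideal.mem_span_singleton']
    exact ⟨t, by ring⟩
  · calc (u + w * s) * ((zu⁻¹ : Cˣ) : C) * (v + w * t)
        = (u + w * s) * (v + w * t) * ((zu⁻¹ : Cˣ) : C) := by ring
      _ = algebraMap O C c * ((1 + y) * ((zu⁻¹ : Cˣ) : C)) := by rw [hprod]; ring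
      _ = algebraMap O C c := by rw [hzz, mul_one]

/-- **Dichotomy over a discrete valuation ring**: either an exact node `u' v' = c`, `c ≠ 0`, inside
`C`, or the two sheets are separated to every finite order. -/
theorem exact_or_split [IsDomain O] [IsDiscreteValuationRing O] (hirr : Irreducible ϖ)
    (hϖ : algebraMap O C ϖ ∈ IsLocalRing.maximalIdeal C) (hH : RatGen ϖ u v) {G : C}
    (h : u * v = algebraMap O C ϖ * G) :
    (∃ (u' v' : C) (c : O), c ≠ 0 ∧ c ∈ Ideal.span {ϖ} ∧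
      u' - u ∈ Ideal.span {algebraMap O C ϖ} ∧ v' - v ∈ Ideal.span {algebraMap O C ϖ} ∧
      u' * v' = algebraMap O C c) ∨
    (∀ n : ℕ, ∃ u' v' : C, u' - u ∈ Ideal.span {algebraMap O C ϖ} ∧
      v' - v ∈ Ideal.span {algebraMap O C ϖ} ∧
      u' * v' ∈ Ideal.span {algebraMap O C ϖ ^ (n + 1)}) := by
  by_cases hex : ∃ (n : ℕ) (s t : C) (c : O) (G' : C), IsApprox ϖ u v n s t c G' ∧
      c ∈ Ideal.span {ϖ} ∧ c ∉ Ideal.span {ϖ ^ (n + 1)}
  · left
    obtain ⟨n, s, t, c, G', happ, hc1, hc2⟩ := hex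
    have hc0 : c ≠ 0 := fun h0 => hc2 (h0 ▸ Ideal.zero_mem _)
    obtain ⟨e, ε, hcε⟩ := IsDiscreteValuationRing.eq_unit_mul_pow_irreducible hc0 hirr
    have he : e ≤ n := by
      by_contra hlt
      apply hc2
      rw [Ideal.mem_span_singleton', hcε]
      obtain ⟨d, hd⟩ : ∃ d, e = n + 1 + d := ⟨e - (n + 1), by omega⟩
      exact ⟨(ε : O) * ϖ ^ d, by rw [hd]; ring⟩
    obtain ⟨u', v', hu', hv', huv⟩ := exists_exact_of_unit hϖ happ ε.isUnit
      (by rw [hcε]; ring) he
    exact ⟨u', v', c, hc0, hc1, hu', hv', huv⟩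
  · right
    intro n
    obtain ⟨s, t, c, G', happ, hc1⟩ := exists_approx hH h n
    have hc2 : c ∈ Ideal.span {ϖ ^ (n + 1)} := by
      by_contra hc2
      exact hex ⟨n, s, t, c, G', happ, hc1, hc2⟩
    obtain ⟨a, ha⟩ := Ideal.mem_span_singleton'.mp hc2
    refine ⟨u + algebraMap O C ϖ * s, v + algebraMap O C ϖ * t, ?_, ?_, ?_⟩
    · rw [Ideal.mem_span_singleton']
      exact ⟨s, by ring⟩
    · rw [Ideal.mem_span_singleton']
      exact ⟨t, by ring⟩
    · unfold IsApprox at happ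
      rw [happ, ← ha, map_mul, map_pow, Ideal.mem_span_singleton']
      exact ⟨algebraMap O C a + G', by ring⟩

end Local

/-! ### The complete case -/

section Complete

variable {ϖ : O} {u v : C}

/-- A coherent sequence of approximate node forms. -/
theorem exists_seq (hH : RatGen ϖ u v) {G : C} (h : u * v = algebraMap O C ϖ * G) :
    ∃ (s t : ℕ → C) (c : ℕ → O) (G' : ℕ → C),
      (∀ n, IsApprox ϖ u v n (s n) (t n) (c n) (G' n)) ∧
      (∀ n, s (n + 1) - s n ∈ Ideal.span {algebraMap O C ϖ ^ n}) ∧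
      (∀ n, t (n + 1) - t n ∈ Ideal.span {algebraMap O C ϖ ^ n}) ∧
      (∀ n, c (n + 1) - c n ∈ Ideal.span {ϖ ^ (n + 1)}) ∧ c 0 = 0 := by
  classical
  let X : ℕ → Type _ := fun n =>
    {x : C × C × O × C // IsApprox ϖ u v n x.1 x.2.1 x.2.2.1 x.2.2.2}
  have step : ∀ (n : ℕ) (x : X n), ∃ y : X (n + 1),
      y.1.1 - x.1.1 ∈ Ideal.span {algebraMap O C ϖ ^ n} ∧
      y.1.2.1 - x.1.2.1 ∈ Ideal.span {algebraMap O C ϖ ^ n} ∧
      y.1.2.2.1 - x.1.2.2.1 ∈ Ideal.span {ϖ ^ (n + 1)} := by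
    rintro n ⟨⟨s, t, c, G'⟩, hx⟩
    obtain ⟨s', t', c', G'', h2, hs, ht, hc⟩ := exists_approx_succ hH hx
    exact ⟨⟨(s', t', c', G''), h2⟩, hs, ht, hc⟩
  choose f hf using step
  let x0 : X 0 := ⟨(0, 0, 0, G), isApprox_zero h⟩
  let seq : ∀ n, X n := fun n => Nat.rec x0 (fun n x => f n x) n
  exact ⟨fun n => (seq n).1.1, fun n => (seq n).1.2.1, fun n => (seq n).1.2.2.1,
    fun n => (seq n).1.2.2.2, fun n => (seq n).2, fun n => (hf n (seq n)).1,
    fun n => (hf n (seq n)).2.1, fun n => (hf n (seq n)).2.2, rfl⟩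

/-- A sequence with `f (n+1) - f n ∈ (a^n)` is Cauchy for the `a`-adic topology. -/
theorem sModEq_of_succ {R : Type*} [CommRing R] (a : R) (f : ℕ → R)
    (hf : ∀ n, f (n + 1) - f n ∈ Ideal.span {a ^ n}) {m n : ℕ} (hmn : m ≤ n) :
    f m ≡ f n [SMOD (Ideal.span {a} ^ m • ⊤ : Submodule R R)] := by
  rw [SModEq.sub_mem, smul_eq_mul, Ideal.mul_top, Ideal.span_singleton_pow]
  induction n, hmn using Nat.le_induction with
  | base => rw [sub_self]; exact Ideal.zero_mem _
  | succ n hmn ih =>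
    have h1 : f m - f (n + 1) = (f m - f n) - (f (n + 1) - f n) := by ring
    rw [h1]
    refine Ideal.sub_mem _ ih ?_
    obtain ⟨b, hb⟩ := Ideal.mem_span_singleton'.mp (hf n)
    rw [Ideal.mem_span_singleton']
    obtain ⟨d, rfl⟩ : ∃ d, n = m + d := ⟨n - m, by omega⟩
    exact ⟨b * a ^ d, by rw [← hb]; ring⟩

/-- **The exact node form in the `ϖ`-adically complete case** (`c = 0` allowed). -/
theorem exists_exact_of_complete [IsAdicComplete (Ideal.span {ϖ}) O]
    [IsAdicComplete (Ideal.span {algebraMap O C ϖ}) C] (hH : RatGen ϖ u v) {G : C}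
    (h : u * v = algebraMap O C ϖ * G) :
    ∃ (u' v' : C) (c : O), c ∈ Ideal.span {ϖ} ∧ u' - u ∈ Ideal.span {algebraMap O C ϖ} ∧
      v' - v ∈ Ideal.span {algebraMap O C ϖ} ∧ u' * v' = algebraMap O C c := by
  obtain ⟨s, t, c, G', happ, hs, ht, hc, hc0⟩ := exists_seq hH h
  set w := algebraMap O C ϖ with hw
  have hc' : ∀ n, c (n + 1) - c n ∈ Ideal.span {ϖ ^ n} := fun n => by
    obtain ⟨b, hb⟩ := Ideal.mem_span_singleton'.mp (hc n)
    rw [Ideal.mem_span_singleton']
    exact ⟨b * ϖ, by rw [← hb]; ring⟩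
  obtain ⟨s', hs'⟩ := IsPrecomplete.prec' (I := Ideal.span {w}) s
    (fun hmn => sModEq_of_succ w s hs hmn)
  obtain ⟨t', ht'⟩ := IsPrecomplete.prec' (I := Ideal.span {w}) t
    (fun hmn => sModEq_of_succ w t ht hmn)
  obtain ⟨c', hcc'⟩ := IsPrecomplete.prec' (I := Ideal.span {ϖ}) c
    (fun hmn => sModEq_of_succ ϖ c hc' hmn)
  have hs'' : ∀ n, s n - s' ∈ Ideal.span {w ^ n} := fun n => by
    have := hs' n
    rwa [SModEq.sub_mem, smul_eq_mul, Ideal.mul_top, Ideal.span_singleton_pow] at this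
  have ht'' : ∀ n, t n - t' ∈ Ideal.span {w ^ n} := fun n => by
    have := ht' n
    rwa [SModEq.sub_mem, smul_eq_mul, Ideal.mul_top, Ideal.span_singleton_pow] at this
  have hc'' : ∀ n, c n - c' ∈ Ideal.span {ϖ ^ n} := fun n => by
    have := hcc' n
    rwa [SModEq.sub_mem, smul_eq_mul, Ideal.mul_top, Ideal.span_singleton_pow] at this
  refine ⟨u + w * s', v + w * t', c', ?_, ?_, ?_, ?_⟩
  · -- `c' ∈ (ϖ)`
    have h1 : c 1 ∈ Ideal.span {ϖ} := by
      have := hc 0
      rw [hc0, sub_zero, zero_add, pow_one] at this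
      exact this
    have h2 := hc'' 1
    rw [pow_one] at h2
    have h3 : c' = c 1 - (c 1 - c') := by ring
    rw [h3]
    exact Ideal.sub_mem _ h1 h2
  · rw [Ideal.mem_span_singleton']
    exact ⟨s', by ring⟩
  · rw [Ideal.mem_span_singleton']
    exact ⟨t', by ring⟩
  · rw [← sub_eq_zero]
    refine IsHausdorff.haus' (I := Ideal.span {w}) _ (fun n => ?_)
    rw [SModEq.sub_mem, sub_zero, smul_eq_mul, Ideal.mul_top, Ideal.span_singleton_pow]
    obtain ⟨a1, ha1⟩ := Ideal.mem_span_singleton'.mp (hs'' n)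
    obtain ⟨a2, ha2⟩ := Ideal.mem_span_singleton'.mp (ht'' n)
    obtain ⟨a3, ha3⟩ := Ideal.mem_span_singleton'.mp (hc'' n)
    have happn := happ n
    unfold IsApprox at happn
    rw [← hw] at happn
    have e1 : s' = s n - a1 * w ^ n := by rw [ha1]; ring
    have e2 : t' = t n - a2 * w ^ n := by rw [ha2]; ring
    have e3 : algebraMap O C c' = algebraMap O C (c n) - algebraMap O C a3 * w ^ n := by
      have : c' = c n - a3 * ϖ ^ n := by rw [ha3]; ring
      rw [this, map_sub, map_mul, map_pow]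
    rw [Ideal.mem_span_singleton']
    refine ⟨-(w * a1 * (v + w * t n)) - (u + w * s n) * (w * a2) + w * a1 * w * a2 * w ^ n +
      w * G' n + algebraMap O C a3, ?_⟩
    rw [e1, e2, e3]
    have e4 : (u + w * (s n - a1 * w ^ n)) * (v + w * (t n - a2 * w ^ n)) =
        (u + w * s n) * (v + w * t n) - w * a1 * w ^ n * (v + w * t n) -
          (u + w * s n) * (w * a2 * w ^ n) + w * a1 * w ^ n * (w * a2 * w ^ n) := by ring
    rw [e4, happn]
    ring

end Complete

end Fermat.Agent.P3G.NodeDeform
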