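/-
P3-G, block (G-N4), pure algebra (helper16): **(Loc-P) at a crossing point WITHOUT regularity.**

Setting: `O` a discrete valuation ring with uniformiser `ϖ`, `R` a noetherian local domain which is
an `O`-algebra, `w := ϖ · 1 ∈ 𝔫`, `𝔫 = (u, v, w)` with residue field `O / ϖ` (`RatGen ϖ u v`),
`u v ∈ w R`, and the *node syzygy* property `NodeSyz ϖ u v`:
`a u + b v ∈ w R → a ∈ (v, w) ∧ b ∈ (u, w)` (this holds as soon as `(u, w)` and `(v, w)` are prime
ideals different from `𝔫`: the two branches of the special fibre).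

A rational point is an `O`-algebra homomorphism `φ : R → O`; `𝔮 := ker φ`.  If `R_𝔮` is a discrete
valuation ring, in the weak form `∃ g ∈ 𝔮, ∃ r ∉ 𝔮, r 𝔮 ⊆ g R`, then `𝔮 R[1/ϖ]` is generated by ONE
element `b ≡ u` or `b ≡ v (mod w)`:  `∃ b ∈ 𝔮, ∃ m, w ^ m • 𝔮 ⊆ b R`  (`exists_locP`).

No regularity of `R` (i.e. no information on `G` in `u v = w G`) is used: either the node is exact
`u' v' = c ≠ 0` (`NodeDeform.exact_or_split`), or the two sheets are separated to every finite
order and then the only point escaping the argument is the "formal crossing section", which cannot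
be a point at which `R` is regular.
-/
import Mathlib
import Fermat.Agent.P3G.NodeDeform

set_option autoImplicit false

namespace Fermat.Agent.P3G.NodeLocP

open Fermat.Agent.P3G.NodeDeform

variable {O R : Type*} [CommRing O] [CommRing R] [Algebra O R]

/-! ### The node syzygy property -/

section Syz

variable (ϖ : O) (u v : R)

/-- `a u + b v ∈ (w)` forces `a ∈ (v, w)` and `b ∈ (u, w)`. -/
def NodeSyz : Prop :=
  ∀ a b : R, a * u + b * v ∈ Ideal.span {algebraMap O R ϖ} →
    a ∈ Ideal.span {v, algebraMap O R ϖ} ∧ b ∈ Ideal.span {u, algebraMap O R ϖ}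

variable {ϖ u v}

theorem NodeSyz.symm (h : NodeSyz ϖ u v) : NodeSyz ϖ v u := by
  intro a b hab
  have := h b a (by rwa [add_comm])
  exact ⟨this.2, this.1⟩

theorem ratGen_symm (h : RatGen ϖ u v) : RatGen ϖ v u := by
  intro x
  obtain ⟨a, p, q, r, hx⟩ := h x
  exact ⟨a, q, p, r, by rw [hx]; ring⟩

theorem span_pair_congr {u' : R} (hu : u' - u ∈ Ideal.span {algebraMap O R ϖ}) :
    Ideal.span {u', algebraMap O R ϖ} = Ideal.span {u, algebraMap O R ϖ} := by
  obtain ⟨a1, ha1⟩ := Ideal.mem_span_singleton'.mp hu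
  apply le_antisymm
  · rw [Ideal.span_le]
    intro z hz
    rcases hz with rfl | rfl
    · rw [SetLike.mem_coe, Ideal.mem_span_pair]
      exact ⟨1, a1, by rw [ha1]; ring⟩
    · exact Ideal.subset_span (by simp)
  · rw [Ideal.span_le]
    intro z hz
    rcases hz with rfl | rfl
    · rw [SetLike.mem_coe, Ideal.mem_span_pair]
      exact ⟨1, -a1, by rw [neg_mul, ha1]; ring⟩
    · exact Ideal.subset_span (by simp)

theorem nodeSyz_of_congr {u' v' : R} (h : NodeSyz ϖ u v)
    (hu : u' - u ∈ Ideal.span {algebraMap O R ϖ})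
    (hv : v' - v ∈ Ideal.span {algebraMap O R ϖ}) : NodeSyz ϖ u' v' := by
  obtain ⟨a1, ha1⟩ := Ideal.mem_span_singleton'.mp hu
  obtain ⟨b1, hb1⟩ := Ideal.mem_span_singleton'.mp hv
  intro a b hab
  have h1 : a * u + b * v ∈ Ideal.span {algebraMap O R ϖ} := by
    have e : a * u + b * v = (a * u' + b * v') - (a * a1 + b * b1) * algebraMap O R ϖ := by
      have e1 : u = u' - a1 * algebraMap O R ϖ := by rw [ha1]; ring
      have e2 : v = v' - b1 * algebraMap O R ϖ := by rw [hb1]; ring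
      rw [e1, e2]; ring
    rw [e]
    exact Ideal.sub_mem _ hab (Ideal.mul_mem_left _ _ (Ideal.subset_span rfl))
  obtain ⟨h2, h3⟩ := h a b h1
  rw [span_pair_congr hv, span_pair_congr hu]
  exact ⟨h2, h3⟩

/-- The node syzygy property from the two branches: `(u, w)` and `(v, w)` are prime and neither
contains the other generator. -/
theorem nodeSyz_of_isPrime (h1 : (Ideal.span {u, algebraMap O R ϖ}).IsPrime)
    (h2 : (Ideal.span {v, algebraMap O R ϖ}).IsPrime)
    (hv1 : v ∉ Ideal.span {u, algebraMap O R ϖ}) (hu2 : u ∉ Ideal.span {v, algebraMap O R ϖ}) :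
    NodeSyz ϖ u v := by
  intro a b hab
  have hw1 : Ideal.span {algebraMap O R ϖ} ≤ Ideal.span {u, algebraMap O R ϖ} :=
    Ideal.span_mono (by simp)
  have hw2 : Ideal.span {algebraMap O R ϖ} ≤ Ideal.span {v, algebraMap O R ϖ} :=
    Ideal.span_mono (by simp)
  have hu1 : u ∈ Ideal.span {u, algebraMap O R ϖ} := Ideal.subset_span (by simp)
  have hv2 : v ∈ Ideal.span {v, algebraMap O R ϖ} := Ideal.subset_span (by simp)
  constructor
  · have : a * u ∈ Ideal.span {v, algebraMap O R ϖ} := by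
      have e : a * u = (a * u + b * v) - b * v := by ring
      rw [e]
      exact Ideal.sub_mem _ (hw2 hab) (Ideal.mul_mem_left _ _ hv2)
    exact (h2.mem_or_mem this).resolve_right hu2
  · have : b * v ∈ Ideal.span {u, algebraMap O R ϖ} := by
      have e : b * v = (a * u + b * v) - a * u := by ring
      rw [e]
      exact Ideal.sub_mem _ (hw1 hab) (Ideal.mul_mem_left _ _ hu1)
    exact (h1.mem_or_mem this).resolve_right hv1

/-- **Syzygies of a split node are small.**  If `u v ∈ (w^(n+1))` and `a u + b v ∈ (w^(n+1))`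
then `a ∈ (v) + (w^k)` and `b ∈ (u) + (w^k)` for all `k ≤ n + 1`. -/
theorem syz_mem [IsDomain R] (hw0 : algebraMap O R ϖ ≠ 0) (hNS : NodeSyz ϖ u v) {n : ℕ}
    (huv : u * v ∈ Ideal.span {algebraMap O R ϖ ^ (n + 1)}) {a b : R}
    (hab : a * u + b * v ∈ Ideal.span {algebraMap O R ϖ ^ (n + 1)}) (k : ℕ) (hk : k ≤ n + 1) :
    (∃ a₁ a₂ : R, a = a₁ * v + algebraMap O R ϖ ^ k * a₂) ∧
      (∃ b₁ b₂ : R, b = b₁ * u + algebraMap O R ϖ ^ k * b₂) := by
  set w := algebraMap O R ϖ with hw
  induction k with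
  | zero => exact ⟨⟨0, a, by ring⟩, ⟨0, b, by ring⟩⟩
  | succ k ih =>
    obtain ⟨⟨a₁, a₂, ha⟩, ⟨b₁, b₂, hb⟩⟩ := ih (by omega)
    obtain ⟨Y, hY⟩ := Ideal.mem_span_singleton'.mp huv
    obtain ⟨X, hX⟩ := Ideal.mem_span_singleton'.mp hab
    obtain ⟨d, hd⟩ : ∃ d, n + 1 = k + 1 + d := ⟨n - k, by omega⟩
    have key : w ^ k * (a₂ * u + b₂ * v) = w ^ k * (w * (w ^ d * (X - (a₁ + b₁) * Y))) := by
      have e1 : w ^ k * (a₂ * u + b₂ * v) = (a * u + b * v) - (a₁ + b₁) * (u * v) := by
        rw [ha, hb]; ring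
      rw [e1, ← hX, ← hY, hd]
      ring
    have key2 : a₂ * u + b₂ * v = w * (w ^ d * (X - (a₁ + b₁) * Y)) :=
      mul_left_cancel₀ (pow_ne_zero k hw0) key
    have hmem : a₂ * u + b₂ * v ∈ Ideal.span {w} := by
      rw [key2]
      exact Ideal.mul_mem_right _ _ (Ideal.subset_span rfl)
    obtain ⟨h2, h3⟩ := hNS a₂ b₂ hmem
    obtain ⟨a₃, a₄, ha₂⟩ := Ideal.mem_span_pair.mp h2
    obtain ⟨b₃, b₄, hb₂⟩ := Ideal.mem_span_pair.mp h3
    refine ⟨⟨a₁ + w ^ k * a₃, a₄, ?_⟩, ⟨b₁ + w ^ k * b₃, b₄, ?_⟩⟩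
    · rw [ha, ← ha₂]; ring
    · rw [hb, ← hb₂]; ring

end Syz

/-! ### Rational points of a local node -/

section Point

variable {ϖ : O} {u v : R} [IsLocalRing R]

/-- A rational point `φ : R → O` sends the maximal ideal into `(ϖ)`. -/
theorem phi_mem_span [IsDomain O] [IsDiscreteValuationRing O] (hirr : Irreducible ϖ)
    (φ : R →ₐ[O] O) {x : R} (hx : x ∈ IsLocalRing.maximalIdeal R) : φ x ∈ Ideal.span {ϖ} := by
  rw [← hirr.maximalIdeal_eq, IsLocalRing.mem_maximalIdeal, mem_nonunits_iff]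
  intro hunit
  have h1 : IsUnit (algebraMap O R (φ x)) := hunit.map (algebraMap O R)
  have h2 : IsUnit (algebraMap O R (φ x) - x) := by
    have h3 : algebraMap O R (φ x) - x ∉ IsLocalRing.maximalIdeal R := by
      intro h4
      have h5 : algebraMap O R (φ x) ∈ IsLocalRing.maximalIdeal R := by
        have e : algebraMap O R (φ x) = (algebraMap O R (φ x) - x) + x := by ring
        rw [e]
        exact Ideal.add_mem _ h4 hx
      exact (IsLocalRing.mem_maximalIdeal _).mp h5 h1
    rwa [IsLocalRing.mem_maximalIdeal, mem_nonunits_iff, not_not] at h3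
  have h6 : φ (algebraMap O R (φ x) - x) = 0 := by
    rw [map_sub, AlgHom.commutes, Algebra.algebraMap_self_apply, sub_self]
  have h7 : IsUnit (φ (algebraMap O R (φ x) - x)) := h2.map φ
  rw [h6] at h7
  exact not_isUnit_zero h7

/-- **The kernel of a rational point** is generated by `u - φ u` and `v - φ v`. -/
theorem ker_eq_span [IsNoetherianRing R] [IsDomain O] [IsDiscreteValuationRing O]
    (hirr : Irreducible ϖ) (hϖ : algebraMap O R ϖ ∈ IsLocalRing.maximalIdeal R)
    (hu : u ∈ IsLocalRing.maximalIdeal R) (hv : v ∈ IsLocalRing.maximalIdeal R)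
    (hH : RatGen ϖ u v) (φ : R →ₐ[O] O) :
    RingHom.ker (φ : R →+* O) =
      Ideal.span {u - algebraMap O R (φ u), v - algebraMap O R (φ v)} := by
  set w := algebraMap O R ϖ with hw
  set x := u - algebraMap O R (φ u) with hx
  set y := v - algebraMap O R (φ v) with hy
  have hxk : x ∈ RingHom.ker (φ : R →+* O) := by
    rw [RingHom.mem_ker, hx, RingHom.coe_coe, map_sub, AlgHom.commutes,
      Algebra.algebraMap_self_apply, sub_self]
  have hyk : y ∈ RingHom.ker (φ : R →+* O) := by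
    rw [RingHom.mem_ker, hy, RingHom.coe_coe, map_sub, AlgHom.commutes,
      Algebra.algebraMap_self_apply, sub_self]
  apply le_antisymm
  · obtain ⟨α', hα'⟩ := Ideal.mem_span_singleton'.mp (phi_mem_span hirr φ hu)
    obtain ⟨β', hβ'⟩ := Ideal.mem_span_singleton'.mp (phi_mem_span hirr φ hv)
    apply Submodule.le_of_le_smul_of_le_jacobson_bot (I := Ideal.span {w})
      (IsNoetherian.noetherian _)
    · rw [IsLocalRing.jacobson_eq_maximalIdeal ⊥ bot_ne_top, Ideal.span_le]
      intro z hz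
      rw [Set.mem_singleton_iff] at hz
      rw [hz]; exact hϖ
    · intro z hz
      rw [RingHom.mem_ker, RingHom.coe_coe] at hz
      obtain ⟨a, p, q, r, hzr⟩ := hH z
      -- z = a + u p + v q + w r
      set z' : R := algebraMap O R (-(φ (algebraMap O R α' * p + algebraMap O R β' * q + r))) +
        (algebraMap O R α' * p + algebraMap O R β' * q + r) with hz'
      have hz'k : z' ∈ RingHom.ker (φ : R →+* O) := by
        rw [RingHom.mem_ker, RingHom.coe_coe, hz', map_add, AlgHom.commutes,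
          Algebra.algebraMap_self_apply]
        ring
      have hφu : algebraMap O R (φ u) = w * algebraMap O R α' := by
        rw [← hα', map_mul, hw]; ring
      have hφv : algebraMap O R (φ v) = w * algebraMap O R β' := by
        rw [← hβ', map_mul, hw]; ring
      have ha : a = ϖ * (-(φ (algebraMap O R α' * p + algebraMap O R β' * q + r))) := by
        have h1 : φ z = a + φ u * φ p + φ v * φ q + ϖ * φ r := by
          rw [hzr, map_add, map_add, map_add, map_mul, map_mul, map_mul, AlgHom.commutes,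
            AlgHom.commutes, Algebra.algebraMap_self_apply, Algebra.algebraMap_self_apply]
        rw [hz, ← hα', ← hβ'] at h1
        have h2 : φ (algebraMap O R α' * p + algebraMap O R β' * q + r) =
            α' * φ p + β' * φ q + φ r := by
          rw [map_add, map_add, map_mul, map_mul, AlgHom.commutes, AlgHom.commutes,
            Algebra.algebraMap_self_apply, Algebra.algebraMap_self_apply]
        rw [h2]
        linear_combination -h1
      have hzz : z = (x * p + y * q) + w * z' := by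
        rw [hzr, hz', ha, hx, hy, hφu, hφv, map_mul, map_neg, ← hw]
        ring
      rw [hzz]
      apply Submodule.add_mem_sup
      · exact Ideal.add_mem _ (Ideal.mul_mem_right _ _ (Ideal.subset_span (by simp)))
          (Ideal.mul_mem_right _ _ (Ideal.subset_span (by simp)))
      · rw [smul_eq_mul]
        exact Ideal.mul_mem_mul (Ideal.subset_span rfl) hz'k
  · rw [Ideal.span_le]
    intro z hz
    rcases hz with rfl | rfl
    · exact hxk
    · exact hyk

/-- **The good case**: an approximate node `u v = c + w^(n+1) G` and a rational point `φ` with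
`φ u ∉ (ϖ^(n+1))`: then `ker φ` is generated by `u - φ u` after inverting `ϖ`. -/
theorem locP_of_approx [IsNoetherianRing R] [IsDomain O] [IsDiscreteValuationRing O]
    (hirr : Irreducible ϖ) (hϖ : algebraMap O R ϖ ∈ IsLocalRing.maximalIdeal R)
    (hu : u ∈ IsLocalRing.maximalIdeal R) (hv : v ∈ IsLocalRing.maximalIdeal R)
    (hH : RatGen ϖ u v) (φ : R →ₐ[O] O) {n : ℕ} {c : O} {G : R}
    (huv : u * v = algebraMap O R c + algebraMap O R ϖ ^ (n + 1) * G)
    (hα : φ u ∉ Ideal.span {ϖ ^ (n + 1)}) :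
    ∃ m : ℕ, ∀ z ∈ RingHom.ker (φ : R →+* O),
      algebraMap O R ϖ ^ m * z ∈ Ideal.span {u - algebraMap O R (φ u)} := by
  set w := algebraMap O R ϖ with hw
  have hker := ker_eq_span hirr hϖ hu hv hH φ
  set x := u - algebraMap O R (φ u) with hx
  set y := v - algebraMap O R (φ v) with hy
  have hα0 : φ u ≠ 0 := fun h0 => hα (h0 ▸ Ideal.zero_mem _)
  obtain ⟨m, ε, hαε⟩ := IsDiscreteValuationRing.eq_unit_mul_pow_irreducible hα0 hirr
  have hm : m ≤ n := by
    by_contra hlt
    apply hα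
    rw [Ideal.mem_span_singleton', hαε]
    obtain ⟨d, hd⟩ : ∃ d, m = n + 1 + d := ⟨m - (n + 1), by omega⟩
    exact ⟨(ε : O) * ϖ ^ d, by rw [hd]; ring⟩
  obtain ⟨d, hd⟩ : ∃ d, n + 1 = m + (d + 1) := ⟨n - m, by omega⟩
  -- `G - φ G ∈ ker φ`
  have hGk : G - algebraMap O R (φ G) ∈ RingHom.ker (φ : R →+* O) := by
    rw [RingHom.mem_ker, RingHom.coe_coe, map_sub, AlgHom.commutes,
      Algebra.algebraMap_self_apply, sub_self]
  rw [hker] at hGk
  obtain ⟨p, q, hpq⟩ := Ideal.mem_span_pair.mp hGk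
  -- `φ u φ v = c + ϖ^(n+1) φ G`
  have hAB : algebraMap O R (φ u) * algebraMap O R (φ v) =
      algebraMap O R c + w ^ (n + 1) * algebraMap O R (φ G) := by
    have h1 : φ (u * v) = c + ϖ ^ (n + 1) * φ G := by
      rw [huv, map_add, map_mul, map_pow, hw, AlgHom.commutes, AlgHom.commutes,
        Algebra.algebraMap_self_apply, Algebra.algebraMap_self_apply]
    rw [map_mul] at h1
    rw [← map_mul, h1, map_add, map_mul, map_pow]
  have hid : (algebraMap O R (φ u) - w ^ (n + 1) * q) * y = (w ^ (n + 1) * p - v) * x := by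
    have e : (algebraMap O R (φ u) - w ^ (n + 1) * q) * y - (w ^ (n + 1) * p - v) * x =
        u * v - algebraMap O R (φ u) * algebraMap O R (φ v) - w ^ (n + 1) * (p * x + q * y) := by
      rw [hx, hy]; ring
    have e2 : (algebraMap O R (φ u) - w ^ (n + 1) * q) * y - (w ^ (n + 1) * p - v) * x = 0 := by
      rw [e, hpq, huv, hAB]; ring
    exact sub_eq_zero.mp e2
  -- the unit
  set η : R := algebraMap O R (ε : O) - w ^ (d + 1) * q with hη
  have hηu : IsUnit η := by
    have h3 : η ∉ IsLocalRing.maximalIdeal R := by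
      intro h4
      have h5 : algebraMap O R (ε : O) ∈ IsLocalRing.maximalIdeal R := by
        have e : algebraMap O R (ε : O) = η + w ^ (d + 1) * q := by rw [hη]; ring
        rw [e]
        refine Ideal.add_mem _ h4 (Ideal.mul_mem_right _ _ ?_)
        rw [pow_succ]
        exact Ideal.mul_mem_left _ _ hϖ
      exact (IsLocalRing.mem_maximalIdeal _).mp h5 (ε.isUnit.map (algebraMap O R))
    rwa [IsLocalRing.mem_maximalIdeal, mem_nonunits_iff, not_not] at h3
  obtain ⟨η', hη'⟩ := hηu.exists_left_inv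
  have hfac : algebraMap O R (φ u) - w ^ (n + 1) * q = w ^ m * η := by
    rw [hαε, map_mul, map_pow, ← hw, hη, hd]; ring
  have hwy : w ^ m * y = η' * (w ^ (n + 1) * p - v) * x := by
    calc w ^ m * y = (η' * η) * (w ^ m * y) := by rw [hη', one_mul]
      _ = η' * ((w ^ m * η) * y) := by ring
      _ = η' * ((w ^ (n + 1) * p - v) * x) := by rw [← hfac, hid]
      _ = η' * (w ^ (n + 1) * p - v) * x := by ring
  refine ⟨m, fun z hz => ?_⟩
  rw [hker] at hz
  obtain ⟨a, b, hab⟩ := Ideal.mem_span_pair.mp hz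
  rw [Ideal.mem_span_singleton']
  refine ⟨a * w ^ m + b * (η' * (w ^ (n + 1) * p - v)), ?_⟩
  have : w ^ m * z = a * w ^ m * x + b * (w ^ m * y) := by rw [← hab]; ring
  rw [this, hwy]; ring

/-- **The bad case**: if `u v ∈ (w^(n+1))` and `φ u, φ v ∈ (ϖ^(n+1))` (the point is the crossing
section of the two sheets up to order `n`), then every `r` with `r • ker φ ⊆ (g)`, `g ∈ ker φ`,
satisfies `φ r ∈ (ϖ^(n+1))`. -/
theorem phi_r_mem [IsDomain R] [IsNoetherianRing R] [IsDomain O] [IsDiscreteValuationRing O]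
    (hirr : Irreducible ϖ) (hϖ : algebraMap O R ϖ ∈ IsLocalRing.maximalIdeal R)
    (hu : u ∈ IsLocalRing.maximalIdeal R) (hv : v ∈ IsLocalRing.maximalIdeal R)
    (hH : RatGen ϖ u v) (hNS : NodeSyz ϖ u v) (φ : R →ₐ[O] O) {n : ℕ}
    (huv : u * v ∈ Ideal.span {algebraMap O R ϖ ^ (n + 1)})
    (hα : φ u ∈ Ideal.span {ϖ ^ (n + 1)}) (hβ : φ v ∈ Ideal.span {ϖ ^ (n + 1)})
    {g r : R} (hg : g ∈ RingHom.ker (φ : R →+* O)) (hr : r ∉ RingHom.ker (φ : R →+* O))
    (hrg : ∀ z ∈ RingHom.ker (φ : R →+* O), r * z ∈ Ideal.span {g}) :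
    φ r ∈ Ideal.span {ϖ ^ (n + 1)} := by
  set w := algebraMap O R ϖ with hw
  have hw0 : w ≠ 0 := by
    intro h0
    have : φ w = ϖ := by rw [hw, AlgHom.commutes, Algebra.algebraMap_self_apply]
    rw [h0, map_zero] at this
    exact hirr.ne_zero this.symm
  have hr0 : r ≠ 0 := fun h0 => hr (h0 ▸ Ideal.zero_mem _)
  have hker := ker_eq_span hirr hϖ hu hv hH φ
  set x := u - algebraMap O R (φ u) with hx
  set y := v - algebraMap O R (φ v) with hy
  have hxk : x ∈ RingHom.ker (φ : R →+* O) := by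
    rw [hker]; exact Ideal.subset_span (by simp)
  have hyk : y ∈ RingHom.ker (φ : R →+* O) := by
    rw [hker]; exact Ideal.subset_span (by simp)
  obtain ⟨tα, htα⟩ := Ideal.mem_span_singleton'.mp hα
  obtain ⟨tβ, htβ⟩ := Ideal.mem_span_singleton'.mp hβ
  have hA : algebraMap O R (φ u) = algebraMap O R tα * w ^ (n + 1) := by
    rw [← htα, map_mul, map_pow]
  have hB : algebraMap O R (φ v) = algebraMap O R tβ * w ^ (n + 1) := by
    rw [← htβ, map_mul, map_pow]
  obtain ⟨a, ha⟩ := Ideal.mem_span_singleton'.mp (hrg x hxk)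
  obtain ⟨b, hb⟩ := Ideal.mem_span_singleton'.mp (hrg y hyk)
  by_cases hg0 : g = 0
  · exfalso
    rw [hg0, mul_zero] at ha
    have hx0 : x = 0 := by
      rcases mul_eq_zero.mp ha.symm with h | h
      · exact absurd h hr0
      · exact h
    have hu' : u = algebraMap O R tα * w ^ n * w := by
      have : u = algebraMap O R (φ u) := by rw [hx] at hx0; exact sub_eq_zero.mp hx0
      rw [this, hA]; ring
    have h1 : (1 : R) * u + 0 * v ∈ Ideal.span {w} := by
      rw [one_mul, zero_mul, add_zero, hu']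
      exact Ideal.mul_mem_left _ _ (Ideal.subset_span rfl)
    have h2 := (hNS 1 0 h1).1
    have h3 : Ideal.span {v, w} ≤ IsLocalRing.maximalIdeal R := by
      rw [Ideal.span_le]
      intro z hz
      rcases hz with rfl | rfl
      · exact hv
      · exact hϖ
    exact (IsLocalRing.mem_maximalIdeal _).mp (h3 h2) isUnit_one
  · rw [hker] at hg
    obtain ⟨p, q, hpq⟩ := Ideal.mem_span_pair.mp hg
    -- `r = p a + q b`
    have hrpq : r = p * a + q * b := by
      have h1 : g * (r - (p * a + q * b)) = 0 := by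
        have : g * (r - (p * a + q * b)) = r * g - p * (a * g) - q * (b * g) := by ring
        rw [this, ha, hb, ← hpq]; ring
      rcases mul_eq_zero.mp h1 with h | h
      · exact absurd h hg0
      · exact sub_eq_zero.mp h
    -- the syzygy `b x - a y = 0`
    have hsyz : b * x + (-a) * y = 0 := by
      have h1 : r * (b * x + (-a) * y) = 0 := by
        have : r * (b * x + (-a) * y) = b * (r * x) - a * (r * y) := by ring
        rw [this, ← ha, ← hb]; ring
      rcases mul_eq_zero.mp h1 with h | h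
      · exact absurd h hr0
      · exact h
    have hsyz' : b * u + (-a) * v ∈ Ideal.span {w ^ (n + 1)} := by
      have e : b * u + (-a) * v = (b * x + (-a) * y) +
          (b * algebraMap O R tα + (-a) * algebraMap O R tβ) * w ^ (n + 1) := by
        rw [hx, hy, hA, hB]; ring
      rw [e, hsyz, zero_add]
      exact Ideal.mul_mem_left _ _ (Ideal.subset_span rfl)
    obtain ⟨⟨b₁, b₂, hb12⟩, ⟨a₁, a₂, ha12⟩⟩ := syz_mem hw0 hNS huv hsyz' (n + 1) le_rfl
    have hφw : φ w = ϖ := by rw [hw, AlgHom.commutes, Algebra.algebraMap_self_apply]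
    have hφb : φ b ∈ Ideal.span {ϖ ^ (n + 1)} := by
      rw [hb12, map_add, map_mul, map_mul, map_pow, hφw]
      exact Ideal.add_mem _ (Ideal.mul_mem_left _ _ hβ)
        (Ideal.mul_mem_right _ _ (Ideal.subset_span rfl))
    have hφa : φ a ∈ Ideal.span {ϖ ^ (n + 1)} := by
      have h1 : φ (-a) ∈ Ideal.span {ϖ ^ (n + 1)} := by
        rw [ha12, map_add, map_mul, map_mul, map_pow, hφw]
        exact Ideal.add_mem _ (Ideal.mul_mem_left _ _ hα)
          (Ideal.mul_mem_right _ _ (Ideal.subset_span rfl))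
      rw [map_neg] at h1
      exact (Ideal.neg_mem_iff _).mp h1
    rw [hrpq, map_add, map_mul, map_mul]
    exact Ideal.add_mem _ (Ideal.mul_mem_left _ _ hφa) (Ideal.mul_mem_left _ _ hφb)

theorem exists_not_mem_span_pow [IsDomain O] [IsDiscreteValuationRing O] (hirr : Irreducible ϖ)
    {a : O} (ha : a ≠ 0) : ∃ n : ℕ, a ∉ Ideal.span {ϖ ^ (n + 1)} := by
  obtain ⟨m, ε, haε⟩ := IsDiscreteValuationRing.eq_unit_mul_pow_irreducible ha hirr
  refine ⟨m, fun hmem => ?_⟩
  obtain ⟨t, ht⟩ := Ideal.mem_span_singleton'.mp hmem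
  have h1 : ϖ ^ m * (t * ϖ) = ϖ ^ m * (ε : O) := by
    have : ϖ ^ m * (t * ϖ) = t * ϖ ^ (m + 1) := by ring
    rw [this, ht, haε]; ring
  have h2 : t * ϖ = (ε : O) := mul_left_cancel₀ (pow_ne_zero m hirr.ne_zero) h1
  have h3 : IsUnit (t * ϖ) := h2 ▸ ε.isUnit
  exact hirr.not_isUnit (isUnit_of_mul_isUnit_right h3)

theorem mem_maximalIdeal_of_congr {u' : R}
    (hϖ : algebraMap O R ϖ ∈ IsLocalRing.maximalIdeal R)
    (hu : u ∈ IsLocalRing.maximalIdeal R) (hu' : u' - u ∈ Ideal.span {algebraMap O R ϖ}) :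
    u' ∈ IsLocalRing.maximalIdeal R := by
  have h1 : Ideal.span {algebraMap O R ϖ} ≤ IsLocalRing.maximalIdeal R := by
    rw [Ideal.span_le]
    intro z hz
    rw [Set.mem_singleton_iff] at hz
    rw [hz]; exact hϖ
  have e : u' = (u' - u) + u := by ring
  rw [e]
  exact Ideal.add_mem _ (h1 hu') hu

omit [IsLocalRing R] in
theorem sub_phi_mem_ker (φ : R →ₐ[O] O) (z : R) :
    z - algebraMap O R (φ z) ∈ RingHom.ker (φ : R →+* O) := by
  rw [RingHom.mem_ker, RingHom.coe_coe, map_sub, AlgHom.commutes,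
    Algebra.algebraMap_self_apply, sub_self]

theorem sub_phi_sub_mem [IsDomain O] [IsDiscreteValuationRing O] (hirr : Irreducible ϖ)
    (hϖ : algebraMap O R ϖ ∈ IsLocalRing.maximalIdeal R)
    (hu : u ∈ IsLocalRing.maximalIdeal R) (φ : R →ₐ[O] O) {u' : R}
    (hu' : u' - u ∈ Ideal.span {algebraMap O R ϖ}) :
    u' - algebraMap O R (φ u') - u ∈ Ideal.span {algebraMap O R ϖ} := by
  have h1 := phi_mem_span hirr φ (mem_maximalIdeal_of_congr hϖ hu hu')
  obtain ⟨t, ht⟩ := Ideal.mem_span_singleton'.mp h1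
  have e : u' - algebraMap O R (φ u') - u = (u' - u) - algebraMap O R t * algebraMap O R ϖ := by
    rw [← ht, map_mul]; ring
  rw [e]
  exact Ideal.sub_mem _ hu' (Ideal.mul_mem_left _ _ (Ideal.subset_span rfl))

/-- **(Loc-P) at a crossing point, without regularity.**  `R` a noetherian local domain over the
discrete valuation ring `O`, `𝔫 = (u, v, ϖ)` with residue field `O / ϖ`, `u v ∈ ϖ R`, the node
syzygy property, and a rational point `φ : R → O` at which `R` is regular (`R_(ker φ)` has a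
principal maximal ideal).  Then `ker φ` becomes principal after inverting `ϖ`, generated by an
element `b ≡ u` or `b ≡ v (mod ϖ)`. -/
theorem exists_locP [IsDomain R] [IsNoetherianRing R] [IsDomain O] [IsDiscreteValuationRing O]
    (hirr : Irreducible ϖ) (hϖ : algebraMap O R ϖ ∈ IsLocalRing.maximalIdeal R)
    (hu : u ∈ IsLocalRing.maximalIdeal R) (hv : v ∈ IsLocalRing.maximalIdeal R)
    (hH : RatGen ϖ u v) (huv : u * v ∈ Ideal.span {algebraMap O R ϖ}) (hNS : NodeSyz ϖ u v)
    (φ : R →ₐ[O] O)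
    (hreg : ∃ g ∈ RingHom.ker (φ : R →+* O), ∃ r, r ∉ RingHom.ker (φ : R →+* O) ∧
      ∀ z ∈ RingHom.ker (φ : R →+* O), r * z ∈ Ideal.span {g}) :
    ∃ b ∈ RingHom.ker (φ : R →+* O),
      (b - u ∈ Ideal.span {algebraMap O R ϖ} ∨ b - v ∈ Ideal.span {algebraMap O R ϖ}) ∧
      ∃ m : ℕ, ∀ z ∈ RingHom.ker (φ : R →+* O),
        algebraMap O R ϖ ^ m * z ∈ Ideal.span {b} := by
  set w := algebraMap O R ϖ with hw
  obtain ⟨G, hG⟩ := Ideal.mem_span_singleton'.mp huv
  have hG' : u * v = w * G := by rw [← hG]; ring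
  rcases exact_or_split hirr hϖ hH hG' with ⟨u', v', c, hc0, -, hu', hv', hex⟩ | hsplit
  · -- exact node
    have h1 : φ u' * φ v' = c := by
      rw [← map_mul, hex, AlgHom.commutes, Algebra.algebraMap_self_apply]
    have h2 : φ u' ≠ 0 := by
      intro h0
      rw [h0, zero_mul] at h1
      exact hc0 h1.symm
    obtain ⟨n, hn⟩ := exists_not_mem_span_pow hirr h2
    have huv' : u' * v' = algebraMap O R c + w ^ (n + 1) * 0 := by rw [hex, mul_zero, add_zero]
    obtain ⟨m, hm⟩ := locP_of_approx hirr hϖ (mem_maximalIdeal_of_congr hϖ hu hu')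
      (mem_maximalIdeal_of_congr hϖ hv hv') (ratGen_of_congr hH hu' hv') φ huv' hn
    exact ⟨u' - algebraMap O R (φ u'), sub_phi_mem_ker φ u',
      Or.inl (sub_phi_sub_mem hirr hϖ hu φ hu'), m, hm⟩
  · by_cases hgood : ∃ (n : ℕ) (u' v' : R), u' - u ∈ Ideal.span {w} ∧ v' - v ∈ Ideal.span {w} ∧
        u' * v' ∈ Ideal.span {w ^ (n + 1)} ∧
        (φ u' ∉ Ideal.span {ϖ ^ (n + 1)} ∨ φ v' ∉ Ideal.span {ϖ ^ (n + 1)})
    · obtain ⟨n, u', v', hu', hv', huv', hor⟩ := hgood
      obtain ⟨G', hG'⟩ := Ideal.mem_span_singleton'.mp huv'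
      have hum := mem_maximalIdeal_of_congr hϖ hu hu'
      have hvm := mem_maximalIdeal_of_congr hϖ hv hv'
      have hH' := ratGen_of_congr hH hu' hv'
      rcases hor with hn | hn
      · have e : u' * v' = algebraMap O R 0 + w ^ (n + 1) * G' := by
          rw [map_zero, zero_add, ← hG']; ring
        obtain ⟨m, hm⟩ := locP_of_approx hirr hϖ hum hvm hH' φ e hn
        exact ⟨u' - algebraMap O R (φ u'), sub_phi_mem_ker φ u',
          Or.inl (sub_phi_sub_mem hirr hϖ hu φ hu'), m, hm⟩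
      · have e : v' * u' = algebraMap O R 0 + w ^ (n + 1) * G' := by
          rw [map_zero, zero_add, mul_comm v' u', ← hG']; ring
        obtain ⟨m, hm⟩ := locP_of_approx hirr hϖ hvm hum (ratGen_symm hH') φ e hn
        exact ⟨v' - algebraMap O R (φ v'), sub_phi_mem_ker φ v',
          Or.inr (sub_phi_sub_mem hirr hϖ hv φ hv'), m, hm⟩
    · exfalso
      push Not at hgood
      obtain ⟨g, hg, r, hr, hrg⟩ := hreg
      apply hr
      rw [RingHom.mem_ker, RingHom.coe_coe]
      by_contra hne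
      obtain ⟨n, hn⟩ := exists_not_mem_span_pow hirr hne
      obtain ⟨u', v', hu', hv', huv'⟩ := hsplit n
      obtain ⟨h1, h2⟩ := hgood n u' v' hu' hv' huv'
      exact hn (phi_r_mem hirr hϖ (mem_maximalIdeal_of_congr hϖ hu hu')
        (mem_maximalIdeal_of_congr hϖ hv hv') (ratGen_of_congr hH hu' hv')
        (nodeSyz_of_congr hNS hu' hv') φ huv' h1 h2 hg hr hrg)

/-- **(Loc-P), consumer form.**  There is `b` with `φ b = 0`, `b ≡ u` or `b ≡ v (mod ϖ)`, such
that `ϖ^m · ker φ ⊆ (b)` (so `b` generates `ker φ` in the localisation at `ker φ`: a simple zero at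
`P`, with the cofactor `ϖ^m ∉ ker φ`), and every prime `𝔮 ∋ b` not containing `ϖ` contains
`ker φ` (so `b` is a unit at every other horizontal prime). -/
theorem exists_locP_prime [IsDomain R] [IsNoetherianRing R] [IsDomain O]
    [IsDiscreteValuationRing O]
    (hirr : Irreducible ϖ) (hϖ : algebraMap O R ϖ ∈ IsLocalRing.maximalIdeal R)
    (hu : u ∈ IsLocalRing.maximalIdeal R) (hv : v ∈ IsLocalRing.maximalIdeal R)
    (hH : RatGen ϖ u v) (huv : u * v ∈ Ideal.span {algebraMap O R ϖ}) (hNS : NodeSyz ϖ u v)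
    (φ : R →ₐ[O] O)
    (hreg : ∃ g ∈ RingHom.ker (φ : R →+* O), ∃ r, r ∉ RingHom.ker (φ : R →+* O) ∧
      ∀ z ∈ RingHom.ker (φ : R →+* O), r * z ∈ Ideal.span {g}) :
    ∃ b : R, φ b = 0 ∧
      (b - u ∈ Ideal.span {algebraMap O R ϖ} ∨ b - v ∈ Ideal.span {algebraMap O R ϖ}) ∧
      (∃ y : R, y ∉ RingHom.ker (φ : R →+* O) ∧
        ∀ z ∈ RingHom.ker (φ : R →+* O), y * z ∈ Ideal.span {b}) ∧
      (∀ (q : Ideal R), q.IsPrime → b ∈ q → algebraMap O R ϖ ∉ q →
        RingHom.ker (φ : R →+* O) ≤ q) := by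
  obtain ⟨b, hb, hbuv, m, hm⟩ := exists_locP hirr hϖ hu hv hH huv hNS φ hreg
  refine ⟨b, by rwa [RingHom.mem_ker, RingHom.coe_coe] at hb, hbuv,
    ⟨algebraMap O R ϖ ^ m, ?_, hm⟩, ?_⟩
  · rw [RingHom.mem_ker, RingHom.coe_coe, map_pow, AlgHom.commutes,
      Algebra.algebraMap_self_apply]
    exact pow_ne_zero m hirr.ne_zero
  · intro q hq hbq hwq z hz
    have h1 : algebraMap O R ϖ ^ m * z ∈ q := by
      obtain ⟨t, ht⟩ := Ideal.mem_span_singleton'.mp (hm z hz)
      rw [← ht]
      exact Ideal.mul_mem_left _ _ hbq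
    rcases hq.mem_or_mem h1 with h | h
    · exact absurd (hq.mem_of_pow_mem m h) hwq
    · exact h

omit [IsLocalRing R] in
/-- A point `φ'` with values in a domain `O' ⊇ O` at which the local equation `b` of
`exists_locP` vanishes kills `ker φ` (hence is `φ` followed by `O → O'`). -/
theorem ker_le_ker_of_map_eq_zero {O' : Type*} [CommRing O'] [IsDomain O'] [Algebra O O']
    [FaithfulSMul O O'] (hϖ0 : ϖ ≠ 0) (φ : R →ₐ[O] O) {b : R} {m : ℕ}
    (hm : ∀ z ∈ RingHom.ker (φ : R →+* O), algebraMap O R ϖ ^ m * z ∈ Ideal.span {b})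
    (φ' : R →ₐ[O] O') (h : φ' b = 0) :
    RingHom.ker (φ : R →+* O) ≤ RingHom.ker (φ' : R →+* O') := by
  intro z hz
  obtain ⟨t, ht⟩ := Ideal.mem_span_singleton'.mp (hm z hz)
  have h1 : φ' (algebraMap O R ϖ ^ m * z) = 0 := by
    rw [← ht, map_mul, h, mul_zero]
  rw [map_mul, map_pow, AlgHom.commutes] at h1
  have h2 : algebraMap O O' ϖ ≠ 0 := by
    intro h0
    exact hϖ0 (FaithfulSMul.algebraMap_injective O O' (by rw [h0, map_zero]))
  rw [RingHom.mem_ker, RingHom.coe_coe]
  rcases mul_eq_zero.mp h1 with h3 | h3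
  · exact absurd h3 (pow_ne_zero m h2)
  · exact h3

end Point

end Fermat.Agent.P3G.NodeLocP
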