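/-
P3-G, block (G-N4), glue (helper16): **from the two residue maps of a chart to the hypotheses of
`NodeLocP.exists_locP` in the local ring at a crossing point.**

`R` a chart (any commutative ring, `O`-algebra), `θ₁ θ₂ : R →+* Rb` the two residue maps to a domain
`Rb` with `ker θ₁ ⊓ ker θ₂ = (ϖ)` (reduced fibre with two components), `𝔫` a prime containing both
kernels (a crossing point), `u ∈ ker θ₂ ∖ ker θ₁`, `v ∈ ker θ₁ ∖ ker θ₂` generating `𝔫` locally
together with `ϖ`, residue field `O / ϖ`.  Then in any localisation `S` of `R` at `𝔫`: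

* `nodeSyz_localization` : `NodeLocP.NodeSyz ϖ ū v̄`;
* `ratGen_localization` : `NodeDeform.RatGen ϖ ū v̄`;
* `exists_locP_localization` : (Loc-P) for every `O`-point `φ : S →ₐ[O] O` at which `S` is regular.

These are exactly the clauses delivered by `Crossing.exists_crossing_coordinates`.
-/
import Mathlib
import Fermat.Agent.P3G.NodeLocP

set_option autoImplicit false

namespace Fermat.Agent.P3G.NodeLocPLoc

open Fermat.Agent.P3G.NodeDeform Fermat.Agent.P3G.NodeLocP

variable {O R Rb S : Type*} [CommRing O] [CommRing R] [CommRing Rb] [IsDomain Rb] [CommRing S]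
  [Algebra O R] [Algebra R S] [Algebra O S] [IsScalarTower O R S]
  (𝔫 : Ideal R) [h𝔫 : 𝔫.IsPrime] [IsLocalization.AtPrime S 𝔫]

section Syz

variable (θ₁ θ₂ : R →+* Rb) {w u v : R}

include h𝔫 in
/-- One half of the node syzygy property in the localisation. -/
theorem mem_span_of_theta
    (hw : RingHom.ker θ₁ ⊓ RingHom.ker θ₂ = Ideal.span {w})
    (hk1 : RingHom.ker θ₁ ≤ 𝔫)
    (hu2 : u ∈ RingHom.ker θ₂) (hv1 : v ∈ RingHom.ker θ₁) (hu1 : u ∉ RingHom.ker θ₁)
    (hgen : ∀ m ∈ 𝔫, ∃ s : R, s ∉ 𝔫 ∧ s * m ∈ Ideal.span {u, v, w})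
    {a b : S} (hab : a * algebraMap R S u + b * algebraMap R S v ∈
      Ideal.span {algebraMap R S w}) :
    a ∈ Ideal.span {algebraMap R S v, algebraMap R S w} := by
  have hw1 : w ∈ RingHom.ker θ₁ := by
    have : w ∈ RingHom.ker θ₁ ⊓ RingHom.ker θ₂ := by rw [hw]; exact Ideal.subset_span rfl
    exact this.1
  obtain ⟨c, hc⟩ := Ideal.mem_span_singleton'.mp hab
  obtain ⟨⟨a', s₁⟩, ha'⟩ := IsLocalization.surj 𝔫.primeCompl a
  obtain ⟨⟨b', s₂⟩, hb'⟩ := IsLocalization.surj 𝔫.primeCompl b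
  obtain ⟨⟨c', s₃⟩, hc'⟩ := IsLocalization.surj 𝔫.primeCompl c
  simp only at ha' hb' hc'
  -- the equation in `R`, up to an element outside `𝔫`
  have heq : algebraMap R S (a' * (s₂ * s₃) * u + b' * (s₁ * s₃) * v) =
      algebraMap R S (c' * (s₁ * s₂) * w) := by
    simp only [map_add, map_mul]
    rw [← ha', ← hb', ← hc']
    linear_combination (algebraMap R S s₁ * algebraMap R S s₂ * algebraMap R S s₃) * hc.symm
  obtain ⟨t, ht⟩ := (IsLocalization.eq_iff_exists 𝔫.primeCompl S).mp heq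
  have hne : ∀ s : 𝔫.primeCompl, θ₁ (s : R) ≠ 0 := fun s h0 => s.2 (hk1 ((RingHom.mem_ker).mpr h0))
  have hθ : θ₁ a' = 0 := by
    have h1 := congrArg θ₁ ht
    simp only [map_add, map_mul, (RingHom.mem_ker).mp hv1, (RingHom.mem_ker).mp hw1,
      mul_zero, add_zero] at h1
    have hu0 : θ₁ u ≠ 0 := fun h0 => hu1 ((RingHom.mem_ker).mpr h0)
    have h2 : θ₁ (t : R) * (θ₁ a' * (θ₁ (s₂ : R) * θ₁ (s₃ : R)) * θ₁ u) = 0 := h1
    rcases mul_eq_zero.mp h2 with h | h
    · exact absurd h (hne t)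
    · rcases mul_eq_zero.mp h with h | h
      · rcases mul_eq_zero.mp h with h | h
        · exact h
        · rcases mul_eq_zero.mp h with h | h
          · exact absurd h (hne s₂)
          · exact absurd h (hne s₃)
      · exact absurd h hu0
  -- `a' ∈ ker θ₁ ⊆ 𝔫`, so `s₀ a' ∈ (u, v, w)`, and the `u`-coefficient lies in `ker θ₁`
  obtain ⟨s₀, hs₀, hmem⟩ := hgen a' (hk1 ((RingHom.mem_ker).mpr hθ))
  obtain ⟨x, y', hy', hxy⟩ := Ideal.mem_span_insert.mp hmem
  obtain ⟨y, z, hyz⟩ := Ideal.mem_span_pair.mp hy'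
  have hx1 : x ∈ RingHom.ker θ₁ := by
    have h1 := congrArg θ₁ hxy
    rw [← hyz] at h1
    simp only [map_add, map_mul, (RingHom.mem_ker).mp hv1, (RingHom.mem_ker).mp hw1,
      mul_zero, add_zero, hθ] at h1
    have hu0 : θ₁ u ≠ 0 := fun h0 => hu1 ((RingHom.mem_ker).mpr h0)
    rcases mul_eq_zero.mp h1.symm with h | h
    · exact (RingHom.mem_ker).mpr h
    · exact absurd h hu0
  have hxu : x * u ∈ Ideal.span {w} := by
    rw [← hw]
    exact ⟨Ideal.mul_mem_right _ _ hx1, Ideal.mul_mem_left _ _ hu2⟩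
  obtain ⟨d, hd⟩ := Ideal.mem_span_singleton'.mp hxu
  have hfin : s₀ * a' = y * v + (z + d) * w := by
    rw [hxy, ← hyz, ← hd]; ring
  -- back to `S`
  have hunit : IsUnit (algebraMap R S (s₀ * s₁)) := by
    rw [map_mul]
    exact (IsLocalization.map_units S (⟨s₀, hs₀⟩ : 𝔫.primeCompl)).mul
      (IsLocalization.map_units S s₁)
  have h3 : algebraMap R S (s₀ * s₁) * a ∈
      Ideal.span {algebraMap R S v, algebraMap R S w} := by
    have e : algebraMap R S (s₀ * s₁) * a =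
        algebraMap R S y * algebraMap R S v + algebraMap R S (z + d) * algebraMap R S w := by
      have h4 : algebraMap R S (s₀ * a') =
          algebraMap R S y * algebraMap R S v + algebraMap R S (z + d) * algebraMap R S w := by
        rw [hfin, map_add, map_mul, map_mul]
      rw [← h4, map_mul, map_mul, ← ha']; ring
    rw [e, Ideal.mem_span_pair]
    exact ⟨_, _, rfl⟩
  exact (Ideal.unit_mul_mem_iff_mem _ hunit).mp h3

include h𝔫 in
/-- **The node syzygy property in the local ring at a crossing point.** -/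
theorem nodeSyz_localization {ϖ : O}
    (hw : RingHom.ker θ₁ ⊓ RingHom.ker θ₂ = Ideal.span {algebraMap O R ϖ})
    (hk1 : RingHom.ker θ₁ ≤ 𝔫) (hk2 : RingHom.ker θ₂ ≤ 𝔫)
    (hu2 : u ∈ RingHom.ker θ₂) (hv1 : v ∈ RingHom.ker θ₁)
    (hu1 : u ∉ RingHom.ker θ₁) (hv2 : v ∉ RingHom.ker θ₂)
    (hgen : ∀ m ∈ 𝔫, ∃ s : R, s ∉ 𝔫 ∧ s * m ∈ Ideal.span {u, v, algebraMap O R ϖ}) :
    NodeSyz ϖ (algebraMap R S u) (algebraMap R S v) := by
  intro a b hab
  rw [IsScalarTower.algebraMap_apply O R S] at hab ⊢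
  constructor
  · exact mem_span_of_theta 𝔫 θ₁ θ₂ hw hk1 hu2 hv1 hu1 hgen hab
  · have hw' : RingHom.ker θ₂ ⊓ RingHom.ker θ₁ = Ideal.span {algebraMap O R ϖ} := by
      rw [inf_comm]; exact hw
    have hgen' : ∀ m ∈ 𝔫, ∃ s : R, s ∉ 𝔫 ∧ s * m ∈ Ideal.span {v, u, algebraMap O R ϖ} := by
      intro m hm
      obtain ⟨s, hs, h⟩ := hgen m hm
      exact ⟨s, hs, by rwa [Set.insert_comm]⟩
    have hab' : b * algebraMap R S v + a * algebraMap R S u ∈
        Ideal.span {algebraMap R S (algebraMap O R ϖ)} := by rwa [add_comm]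
    exact mem_span_of_theta 𝔫 θ₂ θ₁ hw' hk2 hv1 hu2 hv2 hgen' hab'

end Syz

section Rat

variable {ϖ : O} {u v : R}

include h𝔫 in
/-- **`RatGen` in the local ring at a point with residue field `O / ϖ`** whose maximal ideal is
generated locally by `u, v, ϖ`. -/
theorem ratGen_localization [IsDomain O] [IsDiscreteValuationRing O] (hirr : Irreducible ϖ)
    (hwn : algebraMap O R ϖ ∈ 𝔫)
    (hgen : ∀ m ∈ 𝔫, ∃ s : R, s ∉ 𝔫 ∧ s * m ∈ Ideal.span {u, v, algebraMap O R ϖ})
    (hres : ∀ r : R, ∃ a : O, r - algebraMap O R a ∈ 𝔫) :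
    RatGen ϖ (algebraMap R S u) (algebraMap R S v) := by
  intro x
  obtain ⟨⟨r, s⟩, hrs⟩ := IsLocalization.surj 𝔫.primeCompl x
  simp only at hrs
  obtain ⟨a, ha⟩ := hres r
  obtain ⟨e, he⟩ := hres (s : R)
  -- `e` is a unit of `O`
  have heu : IsUnit e := by
    by_contra hnu
    have h1 : e ∈ IsLocalRing.maximalIdeal O := hnu
    rw [hirr.maximalIdeal_eq] at h1
    obtain ⟨e', he'⟩ := Ideal.mem_span_singleton'.mp h1
    have h2 : algebraMap O R e ∈ 𝔫 := by
      rw [← he', map_mul]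
      exact Ideal.mul_mem_left _ _ hwn
    have h3 : (s : R) ∈ 𝔫 := by
      have : (s : R) = ((s : R) - algebraMap O R e) + algebraMap O R e := by ring
      rw [this]
      exact Ideal.add_mem _ he h2
    exact s.2 h3
  obtain ⟨ε, rfl⟩ := heu
  -- the difference `x - a / e` comes from `𝔫`
  set m : R := r * algebraMap O R (ε : O) - algebraMap O R a * (s : R) with hm
  have hm𝔫 : m ∈ 𝔫 := by
    have : m = (r - algebraMap O R a) * algebraMap O R (ε : O) -
        algebraMap O R a * ((s : R) - algebraMap O R (ε : O)) := by rw [hm]; ring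
    rw [this]
    exact Ideal.sub_mem _ (Ideal.mul_mem_right _ _ ha) (Ideal.mul_mem_left _ _ he)
  obtain ⟨s', hs', hmem⟩ := hgen m hm𝔫
  obtain ⟨p, y', hy', hpy⟩ := Ideal.mem_span_insert.mp hmem
  obtain ⟨q, z, hqz⟩ := Ideal.mem_span_pair.mp hy'
  -- units of `S`
  have hεS : IsUnit (algebraMap O S (ε : O)) := ε.isUnit.map (algebraMap O S)
  have hsS : IsUnit (algebraMap R S (s : R)) := IsLocalization.map_units S s
  have hs'S : IsUnit (algebraMap R S s') :=
    IsLocalization.map_units S (⟨s', hs'⟩ : 𝔫.primeCompl)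
  obtain ⟨ε', hε'⟩ := hεS.exists_left_inv
  obtain ⟨σ, hσ⟩ := hsS.exists_left_inv
  obtain ⟨σ', hσ'⟩ := hs'S.exists_left_inv
  set k : S := ε' * σ * σ' with hk
  refine ⟨a * ((ε⁻¹ : Oˣ) : O), k * algebraMap R S p, k * algebraMap R S q,
    k * algebraMap R S z, ?_⟩
  have hεε : algebraMap O S ((ε⁻¹ : Oˣ) : O) = ε' := by
    have h1 : algebraMap O S ((ε⁻¹ : Oˣ) : O) * algebraMap O S (ε : O) = 1 := by
      rw [← map_mul, Units.inv_mul, map_one]
    calc algebraMap O S ((ε⁻¹ : Oˣ) : O)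
        = algebraMap O S ((ε⁻¹ : Oˣ) : O) * (algebraMap O S (ε : O) * ε') := by
          rw [mul_comm (algebraMap O S (ε : O)) ε', hε', mul_one]
      _ = (algebraMap O S ((ε⁻¹ : Oˣ) : O) * algebraMap O S (ε : O)) * ε' := by ring
      _ = ε' := by rw [h1, one_mul]
  have hmS : algebraMap R S s' * algebraMap R S m =
      algebraMap R S p * algebraMap R S u + algebraMap R S q * algebraMap R S v +
        algebraMap R S z * algebraMap O S ϖ := by
    rw [← map_mul, hpy, ← hqz, IsScalarTower.algebraMap_apply O R S]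
    simp only [map_add, map_mul]
    ring
  have hmS' : algebraMap R S m =
      x * algebraMap R S (s : R) * algebraMap O S (ε : O) -
        algebraMap O S a * algebraMap R S (s : R) := by
    rw [hm, map_sub, map_mul, map_mul, ← hrs, ← IsScalarTower.algebraMap_apply O R S,
      ← IsScalarTower.algebraMap_apply O R S]
  -- `x = a/ε + k * (s' m)`
  have hx : x = algebraMap O S a * ε' + k * (algebraMap R S s' * algebraMap R S m) := by
    have h1 : k * (algebraMap R S s' * algebraMap R S m) =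
        (σ' * algebraMap R S s') * (ε' * σ * algebraMap R S m) := by rw [hk]; ring
    rw [h1, hσ', one_mul, hmS']
    have h2 : ε' * σ * (x * algebraMap R S (s : R) * algebraMap O S (ε : O) -
        algebraMap O S a * algebraMap R S (s : R)) =
        x * (σ * algebraMap R S (s : R)) * (ε' * algebraMap O S (ε : O)) -
          algebraMap O S a * ε' * (σ * algebraMap R S (s : R)) := by ring
    rw [h2, hσ, hε']; ring
  rw [map_mul, hεε]
  rw [hmS] at hx
  rw [hx]; ring

end Rat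

section Package

variable (θ₁ θ₂ : R →+* Rb) {ϖ : O} {u v : R}

include h𝔫 in
/-- **(Loc-P) at a crossing point of a chart, in the local ring `S = R_𝔫`**: the clauses of
`Crossing.exists_crossing_coordinates` + residue field `O / ϖ` + regularity of `S` at the point
`φ` give a local equation `b ≡ ū` or `v̄ (mod ϖ)` of `φ`. -/
theorem exists_locP_localization [IsDomain O] [IsDiscreteValuationRing O]
    [IsLocalRing S] [IsDomain S] [IsNoetherianRing S] (hirr : Irreducible ϖ)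
    (hw : RingHom.ker θ₁ ⊓ RingHom.ker θ₂ = Ideal.span {algebraMap O R ϖ})
    (hk1 : RingHom.ker θ₁ ≤ 𝔫) (hk2 : RingHom.ker θ₂ ≤ 𝔫)
    (hu2 : u ∈ RingHom.ker θ₂) (hv1 : v ∈ RingHom.ker θ₁)
    (hu1 : u ∉ RingHom.ker θ₁) (hv2 : v ∉ RingHom.ker θ₂)
    (hgen : ∀ m ∈ 𝔫, ∃ s : R, s ∉ 𝔫 ∧ s * m ∈ Ideal.span {u, v, algebraMap O R ϖ})
    (hres : ∀ r : R, ∃ a : O, r - algebraMap O R a ∈ 𝔫)
    (φ : S →ₐ[O] O)
    (hreg : ∃ g ∈ RingHom.ker (φ : S →+* O), ∃ r, r ∉ RingHom.ker (φ : S →+* O) ∧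
      ∀ z ∈ RingHom.ker (φ : S →+* O), r * z ∈ Ideal.span {g}) :
    ∃ b : S, φ b = 0 ∧
      (b - algebraMap R S u ∈ Ideal.span {algebraMap O S ϖ} ∨
        b - algebraMap R S v ∈ Ideal.span {algebraMap O S ϖ}) ∧
      (∃ y : S, y ∉ RingHom.ker (φ : S →+* O) ∧
        ∀ z ∈ RingHom.ker (φ : S →+* O), y * z ∈ Ideal.span {b}) ∧
      (∀ (q : Ideal S), q.IsPrime → b ∈ q → algebraMap O S ϖ ∉ q →
        RingHom.ker (φ : S →+* O) ≤ q) := by
  have hwmem : algebraMap O R ϖ ∈ RingHom.ker θ₁ ⊓ RingHom.ker θ₂ := by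
    rw [hw]; exact Ideal.subset_span rfl
  have hwn : algebraMap O R ϖ ∈ 𝔫 := hk1 hwmem.1
  have hun : u ∈ 𝔫 := hk2 hu2
  have hvn : v ∈ 𝔫 := hk1 hv1
  have hmax : ∀ x : R, x ∈ 𝔫 → algebraMap R S x ∈ IsLocalRing.maximalIdeal S := fun x hx =>
    (IsLocalization.AtPrime.to_map_mem_maximal_iff S 𝔫 x).2 hx
  have hϖS : algebraMap O S ϖ ∈ IsLocalRing.maximalIdeal S := by
    rw [IsScalarTower.algebraMap_apply O R S]; exact hmax _ hwn
  have huv : algebraMap R S u * algebraMap R S v ∈ Ideal.span {algebraMap O S ϖ} := by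
    have h1 : u * v ∈ RingHom.ker θ₁ ⊓ RingHom.ker θ₂ :=
      ⟨Ideal.mul_mem_left _ _ hv1, Ideal.mul_mem_right _ _ hu2⟩
    rw [hw] at h1
    obtain ⟨d, hd⟩ := Ideal.mem_span_singleton'.mp h1
    rw [← map_mul, ← hd, map_mul, ← IsScalarTower.algebraMap_apply O R S]
    exact Ideal.mul_mem_left _ _ (Ideal.subset_span rfl)
  exact exists_locP_prime hirr hϖS (hmax u hun) (hmax v hvn)
    (ratGen_localization 𝔫 hirr hwn hgen hres) huv
    (nodeSyz_localization 𝔫 θ₁ θ₂ hw hk1 hk2 hu2 hv1 hu1 hv2 hgen) φ hreg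

end Package

/-! ### The regularity hypothesis `hreg` from a pointwise statement on the chart -/

section Reg

omit [IsDomain Rb] in
/-- A pointwise "`r z ∈ J` for some `r ∉ P`" on a finitely generated ideal is uniform. -/
theorem exists_uniform_of_pointwise {A : Type*} [CommRing A] (P : Ideal A) [hP : P.IsPrime]
    (I J : Ideal A) (hI : I.FG) (h : ∀ z ∈ I, ∃ r, r ∉ P ∧ r * z ∈ J) :
    ∃ r, r ∉ P ∧ ∀ z ∈ I, r * z ∈ J := by
  classical
  obtain ⟨T, hT⟩ := hI
  have key : ∀ T' : Finset A, (∀ t ∈ T', t ∈ I) → ∃ r, r ∉ P ∧ ∀ t ∈ T', r * t ∈ J := by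
    intro T'
    induction T' using Finset.induction_on with
    | empty => exact fun _ => ⟨1, fun h1 => hP.ne_top ((Ideal.eq_top_iff_one _).mpr h1), by simp⟩
    | insert a T'' ha ih =>
      intro hmem
      obtain ⟨r₁, hr₁, h₁⟩ := ih (fun t ht => hmem t (Finset.mem_insert_of_mem ht))
      obtain ⟨r₂, hr₂, h₂⟩ := h a (hmem a (Finset.mem_insert_self a T''))
      refine ⟨r₁ * r₂, fun h12 => (hP.mem_or_mem h12).elim hr₁ hr₂, ?_⟩
      intro t ht
      rcases Finset.mem_insert.mp ht with rfl | ht'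
      · rw [mul_assoc]; exact Ideal.mul_mem_left _ _ h₂
      · have : r₁ * r₂ * t = r₂ * (r₁ * t) := by ring
        rw [this]; exact Ideal.mul_mem_left _ _ (h₁ t ht')
  obtain ⟨r, hr, hrT⟩ := key T (fun t ht => hT ▸ Ideal.subset_span ht)
  refine ⟨r, hr, ?_⟩
  intro z hz
  rw [← hT] at hz
  induction hz using Submodule.span_induction with
  | mem t ht => exact hrT t ht
  | zero => rw [mul_zero]; exact Ideal.zero_mem _
  | add x y _ _ hx hy => rw [mul_add]; exact Ideal.add_mem _ hx hy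
  | smul c x _ hx =>
    rw [smul_eq_mul]
    have : r * (c * x) = c * (r * x) := by ring
    rw [this]; exact Ideal.mul_mem_left _ _ hx

omit [IsDomain Rb] [Algebra O R] [IsScalarTower O R S] in
include h𝔫 in
/-- **`hreg` of `NodeLocP.exists_locP` in `S = R_𝔫` from a generator of the kernel of the section
on the chart `R`**, in the pointwise form `s y = t g` with `s` not vanishing at the section. -/
theorem hreg_localization [IsDomain O] [IsNoetherianRing S] (φ : S →ₐ[O] O) (g : R)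
    (hg : φ (algebraMap R S g) = 0)
    (h : ∀ y : R, φ (algebraMap R S y) = 0 →
      ∃ s t : R, φ (algebraMap R S s) ≠ 0 ∧ s * y = t * g) :
    ∃ g' ∈ RingHom.ker (φ : S →+* O), ∃ r, r ∉ RingHom.ker (φ : S →+* O) ∧
      ∀ z ∈ RingHom.ker (φ : S →+* O), r * z ∈ Ideal.span {g'} := by
  have : (RingHom.ker (φ : S →+* O)).IsPrime := RingHom.ker_isPrime _
  refine ⟨algebraMap R S g, by rwa [RingHom.mem_ker, RingHom.coe_coe], ?_⟩
  apply exists_uniform_of_pointwise _ _ _ (IsNoetherian.noetherian _)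
  intro z hz
  rw [RingHom.mem_ker, RingHom.coe_coe] at hz
  obtain ⟨⟨y, s₁⟩, hys⟩ := IsLocalization.surj 𝔫.primeCompl z
  simp only at hys
  have hσ : IsUnit (algebraMap R S (s₁ : R)) := IsLocalization.map_units S s₁
  have hy : φ (algebraMap R S y) = 0 := by rw [← hys, map_mul, hz, zero_mul]
  obtain ⟨s, t, hs, hst⟩ := h y hy
  refine ⟨algebraMap R S s * algebraMap R S (s₁ : R), ?_, ?_⟩
  · rw [RingHom.mem_ker, RingHom.coe_coe, map_mul]
    exact mul_ne_zero hs (hσ.map φ).ne_zero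
  · rw [Ideal.mem_span_singleton']
    refine ⟨algebraMap R S t, ?_⟩
    rw [← map_mul, ← hst, map_mul, ← hys]; ring

end Reg

end Fermat.Agent.P3G.NodeLocPLoc
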