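/-
P3-G, node (REG): **the local ring of a chart at the kernel of a section is a discrete valuation
ring** — without heights, dimension theory or Dedekind generic fibres.

Abstract part (Mathlib only).  `O` a domain, `R` a noetherian integrally closed domain over `O`,
integral over `O[t]` for some `t : R` (in the form: integral over `O[X]` along `X ↦ t`), `φ : R →ₐ[O] O` an `O`-point with `ker φ ≠ ⊥`.

* `sub_mem_of_le_ker` : a nonzero prime `P ≤ ker φ` contains `t - φ t`;
* `eq_ker_of_le_ker` : a nonzero prime `P ≤ ker φ` is `ker φ` (incomparability over `O[t]`);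
* `isDiscreteValuationRing_atPrime_ker` : `R_{ker φ}` is a discrete valuation ring;
* `exists_generator` : (REG) `∃ g ∈ ker φ, ∀ y ∈ ker φ, ∃ s ∉ ker φ, ∃ r, s * y = r * g`.
-/
import Mathlib

set_option autoImplicit false
set_option linter.unusedSectionVars false
set_option linter.style.haveILetI false

namespace Fermat.Agent.P3G.SectionReg

open Polynomial IsLocalRing

section Abstract

variable {O R : Type*} [CommRing O] [IsDomain O] [CommRing R] [IsDomain R] [Algebra O R]

/-- `φ (p(t)) = p(φ t)`. -/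
theorem map_aeval (t : R) (φ : R →ₐ[O] O) (p : O[X]) : φ (aeval t p) = p.eval (φ t) := by
  rw [← Polynomial.aeval_algHom_apply, Polynomial.coe_aeval_eq_eval]

/-- A polynomial expression `p(t)` killed by `φ` is a multiple of `t - φ t`. -/
theorem aeval_mem_span_of_map_eq_zero (t : R) (φ : R →ₐ[O] O) (p : O[X])
    (h : φ (aeval t p) = 0) : aeval t p ∈ Ideal.span {t - algebraMap O R (φ t)} := by
  rw [map_aeval] at h
  obtain ⟨q, rfl⟩ := (Polynomial.dvd_iff_isRoot).2 h
  rw [map_mul, map_sub, aeval_X, aeval_C]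
  exact Ideal.mul_mem_right _ _ (Ideal.mem_span_singleton_self _)

/-- A prime `P ≤ ker φ` containing a nonzero polynomial expression in `t` contains `t - φ t`. -/
theorem sub_mem_of_aeval_mem (t : R) (φ : R →ₐ[O] O) (P : Ideal R) [hP : P.IsPrime]
    (hle : P ≤ RingHom.ker φ) {p : O[X]} (hp : p ≠ 0) (hpP : aeval t p ∈ P) :
    t - algebraMap O R (φ t) ∈ P := by
  obtain ⟨q, hq, hnd⟩ := Polynomial.exists_eq_pow_rootMultiplicity_mul_and_not_dvd p hp (φ t)
  have h1 : aeval t p = (t - algebraMap O R (φ t)) ^ (p.rootMultiplicity (φ t)) * aeval t q := by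
    conv_lhs => rw [hq]
    rw [map_mul, map_pow, map_sub, aeval_X, aeval_C]
  rw [h1] at hpP
  rcases hP.mem_or_mem hpP with h2 | h2
  · exact hP.mem_of_pow_mem _ h2
  · exfalso
    have h3 := hle h2
    rw [RingHom.mem_ker, map_aeval] at h3
    exact hnd ((Polynomial.dvd_iff_isRoot).2 h3)

theorem exists_aeval_eq_of_mem_adjoin (t : R) {z : R} (hz : z ∈ Algebra.adjoin O {t}) :
    ∃ p : O[X], aeval t p = z := by
  rw [Algebra.adjoin_singleton_eq_range_aeval] at hz
  exact hz

/-- A nonzero prime `P ≤ ker φ` contains `t - φ t`, if `R` is integral over `O[t]`. -/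
theorem sub_mem_of_le_ker (t : R) (hint : ∀ x : R, ((aeval t : O[X] →ₐ[O] R) : O[X] →+* R).IsIntegralElem x)
    (φ : R →ₐ[O] O) (P : Ideal R) [hP : P.IsPrime] (hle : P ≤ RingHom.ker φ) (hP0 : P ≠ ⊥) :
    t - algebraMap O R (φ t) ∈ P := by
  obtain ⟨x, hxP, hx0⟩ := Submodule.exists_mem_ne_zero_of_ne_bot hP0
  letI : Algebra O[X] R := ((aeval t : O[X] →ₐ[O] R) : O[X] →+* R).toAlgebra
  have hx : IsIntegral O[X] x := hint x
  have h1 := Ideal.comap_ne_bot_of_integral_mem (R := O[X]) hx0 hxP hx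
  obtain ⟨p, hpP, hp0⟩ := Submodule.exists_mem_ne_zero_of_ne_bot h1
  exact sub_mem_of_aeval_mem t φ P hle hp0 hpP

/-- **Height one without heights**: a nonzero prime contained in the kernel of an `O`-point is the
kernel. -/
theorem eq_ker_of_le_ker (t : R) (hint : ∀ x : R, ((aeval t : O[X] →ₐ[O] R) : O[X] →+* R).IsIntegralElem x)
    (φ : R →ₐ[O] O) (P : Ideal R) [hP : P.IsPrime] (hle : P ≤ RingHom.ker φ) (hP0 : P ≠ ⊥) :
    P = RingHom.ker φ := by
  by_contra hne
  have hlt : P < RingHom.ker φ := lt_of_le_of_ne hle hne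
  obtain ⟨x, hxq, hxP⟩ := Set.exists_of_ssubset hlt
  letI : Algebra O[X] R := ((aeval t : O[X] →ₐ[O] R) : O[X] →+* R).toAlgebra
  have hx : IsIntegral O[X] x := hint x
  have h1 := Ideal.comap_lt_comap_of_integral_mem_sdiff (R := O[X]) hle ⟨hxq, hxP⟩ hx
  obtain ⟨p, hpq, hpP⟩ := Set.exists_of_ssubset h1
  apply hpP
  have h2 : φ (aeval t p) = 0 := (RingHom.mem_ker).1 hpq
  have h3 := aeval_mem_span_of_map_eq_zero t φ p h2
  have h4 : Ideal.span {t - algebraMap O R (φ t)} ≤ P := by
    rw [Ideal.span_singleton_le_iff_mem]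
    exact sub_mem_of_le_ker t hint φ P hle hP0
  exact h4 h3

section DVR

variable [IsNoetherianRing R] [IsIntegrallyClosed R]

/-- **(REG)**: the localisation of `R` at the kernel of an `O`-point is a discrete valuation
ring. -/
theorem isDiscreteValuationRing_atPrime (t : R)
    (hint : ∀ x : R, ((aeval t : O[X] →ₐ[O] R) : O[X] →+* R).IsIntegralElem x) (φ : R →ₐ[O] O) (𝔮 : Ideal R)
    [h𝔮p : 𝔮.IsPrime] (h𝔮 : 𝔮 = RingHom.ker φ) (h0 : 𝔮 ≠ ⊥) :
    IsDiscreteValuationRing (Localization.AtPrime 𝔮) := by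
  have hle : 𝔮.primeCompl ≤ nonZeroDivisors R := by
    intro x hx
    rw [mem_nonZeroDivisors_iff_ne_zero]
    rintro rfl
    exact hx 𝔮.zero_mem
  haveI : IsDomain (Localization.AtPrime 𝔮) := IsLocalization.isDomain_localization hle
  haveI : IsIntegrallyClosed (Localization.AtPrime 𝔮) :=
    isIntegrallyClosed_of_isLocalization (Localization.AtPrime 𝔮) 𝔮.primeCompl hle
  haveI : IsNoetherianRing (Localization.AtPrime 𝔮) :=
    IsLocalization.isNoetherianRing 𝔮.primeCompl _ inferInstance
  have hinj : Function.Injective (algebraMap R (Localization.AtPrime 𝔮)) :=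
    IsLocalization.injective _ hle
  have hpid : IsPrincipalIdealRing (Localization.AtPrime 𝔮) := by
    have htfae := (_root_.tfae_of_isNoetherianRing_of_isLocalRing_of_isDomain
      (R := Localization.AtPrime 𝔮)).out 3 0
    refine htfae.mp ⟨inferInstance, ?_⟩
    intro P hP0 hP
    have hdisj := (IsLocalization.isPrime_iff_isPrime_disjoint 𝔮.primeCompl
      (Localization.AtPrime 𝔮) P).1 hP
    haveI hPc : (P.under R).IsPrime := hdisj.1
    have hmc : (P.under R).map (algebraMap R (Localization.AtPrime 𝔮)) = P :=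
      IsLocalization.map_under 𝔮.primeCompl (Localization.AtPrime 𝔮) P
    have hcle : P.under R ≤ RingHom.ker φ := by
      rw [← h𝔮]
      intro x hx
      by_contra hx𝔮
      exact (Set.disjoint_left.1 hdisj.2) hx𝔮 hx
    have hc0 : P.under R ≠ ⊥ := by
      intro h
      apply hP0
      rw [← hmc, h, Ideal.map_bot]
    have heq := eq_ker_of_le_ker t hint φ (P.under R) hcle hc0
    rw [← hmc, heq, ← h𝔮]
    exact Localization.AtPrime.map_eq_maximalIdeal
  refine { hpid with not_a_field' := ?_ }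
  rw [← Localization.AtPrime.map_eq_maximalIdeal, Ne, Ideal.map_eq_bot_iff_of_injective hinj]
  exact h0

/-- **(REG), generator form**: `ker φ` is generated, locally at itself, by one element. -/
theorem exists_generator (t : R) (hint : ∀ x : R, ((aeval t : O[X] →ₐ[O] R) : O[X] →+* R).IsIntegralElem x)
    (φ : R →ₐ[O] O) (h0 : RingHom.ker φ ≠ ⊥) :
    ∃ g ∈ RingHom.ker φ, g ≠ 0 ∧ ∀ y ∈ RingHom.ker φ, ∃ s, s ∉ RingHom.ker φ ∧
      ∃ r, s * y = r * g := by
  classical
  set 𝔮 : Ideal R := RingHom.ker φ with h𝔮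
  haveI h𝔮p : 𝔮.IsPrime := RingHom.ker_isPrime φ
  have hle : 𝔮.primeCompl ≤ nonZeroDivisors R := by
    intro x hx
    rw [mem_nonZeroDivisors_iff_ne_zero]
    rintro rfl
    exact hx 𝔮.zero_mem
  have hinj : Function.Injective (algebraMap R (Localization.AtPrime 𝔮)) :=
    IsLocalization.injective _ hle
  haveI : IsDomain (Localization.AtPrime 𝔮) := IsLocalization.isDomain_localization hle
  haveI := isDiscreteValuationRing_atPrime t hint φ 𝔮 h𝔮 h0
  obtain ⟨x', hx'⟩ := IsDiscreteValuationRing.exists_irreducible (Localization.AtPrime 𝔮)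
  obtain ⟨g, s₀, hgs⟩ := IsLocalization.exists_mk'_eq 𝔮.primeCompl x'
  have hmax : maximalIdeal (Localization.AtPrime 𝔮) = Ideal.span {x'} := hx'.maximalIdeal_eq
  have hs₀ : IsUnit (algebraMap R (Localization.AtPrime 𝔮) s₀) :=
    IsLocalization.map_units _ s₀
  have hg' : algebraMap R (Localization.AtPrime 𝔮) g =
      x' * algebraMap R (Localization.AtPrime 𝔮) s₀ := by
    rw [← hgs, IsLocalization.mk'_spec]
  have hgq : g ∈ 𝔮 := by
    rw [← IsLocalization.AtPrime.to_map_mem_maximal_iff (Localization.AtPrime 𝔮) 𝔮 g, hmax, hg']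
    exact Ideal.mul_mem_right _ _ (Ideal.mem_span_singleton_self _)
  have hg0 : g ≠ 0 := by
    rintro rfl
    rw [map_zero] at hg'
    rcases mul_eq_zero.1 hg'.symm with h | h
    · exact hx'.ne_zero h
    · exact hs₀.ne_zero h
  refine ⟨g, hgq, hg0, fun y hy => ?_⟩
  have hy' : algebraMap R (Localization.AtPrime 𝔮) y ∈ Ideal.span {x'} := by
    rw [← hmax, IsLocalization.AtPrime.to_map_mem_maximal_iff (Localization.AtPrime 𝔮) 𝔮 y]
    exact hy
  obtain ⟨z, hz⟩ := Ideal.mem_span_singleton'.1 hy'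
  obtain ⟨r, s, hrs⟩ := IsLocalization.exists_mk'_eq 𝔮.primeCompl z
  refine ⟨s * s₀, ?_, r, ?_⟩
  · exact fun h => (h𝔮p.mem_or_mem h).elim s.2 s₀.2
  · apply hinj
    have h1 : z * algebraMap R (Localization.AtPrime 𝔮) s =
        algebraMap R (Localization.AtPrime 𝔮) r := by
      rw [← hrs, IsLocalization.mk'_spec]
    simp only [map_mul]
    rw [← hz, hg', ← h1]
    ring

end DVR

end Abstract

end Fermat.Agent.P3G.SectionReg
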