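/-
P3-G, node (REG) = (X3) of blueprint v2, concrete form: for a chart `R = chartAlg O F {t}`
(`t = j` or `j⁻¹`; the integral closure of `O[t]` in the function field `F`) and a section
`h : Points.IsSection R v hv` of a rational place `v`, the kernel of the evaluation `Points.ev h` is
locally (at itself) generated by one element `g`, and `ord_v g = 1`.
-/
import Mathlib
import Fermat.Agent.P3G.SectionReg
import Fermat.Agent.G.Points
import Fermat.Agent.N4.IntClosure
import Fermat.Agent.N4.FibreCharts
import Fermat.Agent.N4.SmoothDescent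

set_option autoImplicit false
set_option linter.unusedSectionVars false
set_option linter.style.haveILetI false

namespace Fermat.Agent.P3G.SectionRegChart

open Polynomial IntermediateField AlgebraicCurve IsLocalRing
open Fermat.Agent.N4.Chart Fermat.Agent.N4.IntClosure Fermat.Agent.N4.FibreCharts
open Fermat.Agent.G.Points

variable {O K F : Type*} [CommRing O] [IsDomain O] [IsDiscreteValuationRing O]
  [Field K] [Algebra O K] [IsFractionRing O K]
  [Field F] [Algebra K F] [Algebra O F] [IsScalarTower O K F]

/-- The generator `t` of the chart, as an element of the chart. -/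
noncomputable abbrev tR (t : F) : chartAlg O F {t} := ⟨t, subset_chartAlg {t} (Set.mem_singleton t)⟩

omit [IsDomain O] [IsDiscreteValuationRing O] [Field K] [Algebra O K] [IsFractionRing O K]
  [Algebra K F] [IsScalarTower O K F] in
theorem val_comp_aeval (t : F) :
    ((chartAlg O F {t}).val : chartAlg O F {t} →+* F).comp
      ((aeval (tR (O := O) t) : O[X] →ₐ[O] chartAlg O F {t}) : O[X] →+* chartAlg O F {t}) =
      ((aeval t : O[X] →ₐ[O] F) : O[X] →+* F) := by
  ext <;> simp [tR]

omit [IsDomain O] [IsDiscreteValuationRing O] [Field K] [Algebra O K] [IsFractionRing O K]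
  [Algebra K F] [IsScalarTower O K F] in
/-- Every element of the chart is integral over `O[X]` along `X ↦ t`, inside the chart. -/
theorem isIntegralElem_chart (t : F) (x : chartAlg O F {t}) :
    ((aeval (tR (O := O) t) : O[X] →ₐ[O] chartAlg O F {t}) :
      O[X] →+* chartAlg O F {t}).IsIntegralElem x := by
  obtain ⟨p, hp, hpx⟩ := (mem_chartAlg_singleton_iff t).1 x.2
  refine ⟨p, hp, ?_⟩
  apply Subtype.val_injective
  have h1 := Polynomial.hom_eval₂ p
    ((aeval (tR (O := O) t) : O[X] →ₐ[O] chartAlg O F {t}) : O[X] →+* chartAlg O F {t})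
    ((chartAlg O F {t}).val : chartAlg O F {t} →+* F) x
  rw [val_comp_aeval] at h1
  change ((chartAlg O F {t}).val : chartAlg O F {t} →+* F) _ = _
  rw [h1]
  simpa using hpx

variable [CharZero K] (t : F) (ht : Transcendental K t) [FiniteDimensional K⟮t⟯ F]
  {v : Place K F} {hv : Function.Bijective (algebraMap K v.ResidueField)}

include ht in
/-- The kernel of a section of a chart is not zero. -/
theorem ker_ev_ne_bot (h : IsSection (chartAlg O F {t}) v hv) :
    RingHom.ker (ev h) ≠ ⊥ := by
  intro hbot
  have hmem : tR (O := O) t - algebraMap O _ (ev h (tR (O := O) t)) ∈ RingHom.ker (ev h) := by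
    rw [RingHom.mem_ker, map_sub, AlgHom.commutes]
    simp
  rw [hbot, Ideal.mem_bot, sub_eq_zero] at hmem
  have h1 : t = algebraMap K F (algebraMap O K (ev h (tR (O := O) t))) := by
    have := congrArg (fun z : chartAlg O F {t} => (z : F)) hmem
    simp only [tR] at this
    refine this.trans ?_
    rw [← IsScalarTower.algebraMap_apply]
    rfl
  apply ht
  rw [h1]
  exact isAlgebraic_algebraMap _

include ht in
/-- **(REG) for a chart**: the kernel of a section is generated, locally at itself, by one
element. -/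
theorem exists_generator (h : IsSection (chartAlg O F {t}) v hv) :
    ∃ g : chartAlg O F {t}, ev h g = 0 ∧ g ≠ 0 ∧ ∀ y : chartAlg O F {t}, ev h y = 0 →
      ∃ s : chartAlg O F {t}, ev h s ≠ 0 ∧ ∃ r : chartAlg O F {t}, s * y = r * g := by
  haveI : IsNoetherianRing (chartAlg O F {t}) := isNoetherianRing_chartAlg (O := O) (K := K) t ht
  obtain ⟨g, hg, hg0, hgen⟩ := SectionReg.exists_generator (tR (O := O) t)
    (isIntegralElem_chart t) (ev h) (ker_ev_ne_bot t ht h)
  refine ⟨g, (RingHom.mem_ker).1 hg, hg0, fun y hy => ?_⟩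
  obtain ⟨s, hs, r, hr⟩ := hgen y ((RingHom.mem_ker).2 hy)
  exact ⟨s, fun h0 => hs ((RingHom.mem_ker).2 h0), r, hr⟩

section ToLoc

variable {R : Subalgebra O F} {v : Place K F}
  {hv : Function.Bijective (algebraMap K v.ResidueField)}

/-- The chart inside its local ring at the centre of a section. -/
def toLoc (h : IsSection R v hv) (r : R) : ↥(locAt R (centre h)) :=
  ⟨(r : F), le_locAt R (centre h) r.2⟩

@[simp] theorem coe_toLoc (h : IsSection R v hv) (r : R) : ((toLoc h r : ↥(locAt R (centre h))) : F) = r :=
  rfl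

theorem toLoc_mul (h : IsSection R v hv) (a b : R) : toLoc h (a * b) = toLoc h a * toLoc h b :=
  Subtype.ext rfl

theorem toLoc_eq_zero_iff (h : IsSection R v hv) (a : R) : toLoc h a = 0 ↔ a = 0 := by
  constructor
  · intro h0
    have := congrArg (fun z : ↥(locAt R (centre h)) => (z : F)) h0
    exact Subtype.ext this
  · rintro rfl
    rfl

theorem evLoc_toLoc (h : IsSection R v hv) (r : R) : evLoc h (toLoc h r) = ev h r :=
  evLoc_coe h r

/-- A local generator (in `R`) of the kernel of a section is a uniformiser of the place, as soon as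
`R` has fraction field `F`. -/
theorem ord_eq_one_of_generator_aux [IsFractionRing R F] (h : IsSection R v hv)
    {g : R} (hg : ev h g = 0) (hg0 : g ≠ 0)
    (hgen : ∀ y : R, ev h y = 0 → ∃ s : R, ev h s ≠ 0 ∧ ∃ r : R, s * y = r * g) :
    v.ord (g : F) = 1 := by
  have key : v.ord ((toLoc h g : ↥(locAt R (centre h))) : F) = 1 := by
    refine ord_eq_one_of_generates h (toLoc h g) ?_ ?_ ?_ ?_
    · rw [Ne, toLoc_eq_zero_iff]
      exact hg0
    · rw [evLoc_toLoc, hg]
    · intro y hy
      obtain ⟨a, b, hb, hyab⟩ := (mem_locAt_iff R (centre h)).1 y.2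
      have hyab' : y * toLoc h b = toLoc h a := Subtype.ext hyab
      have ha : ev h a = 0 := by
        rw [← evLoc_toLoc, ← hyab', map_mul, hy, zero_mul]
      obtain ⟨s, hs, r, hr⟩ := hgen a ha
      refine ⟨toLoc h s * toLoc h b, toLoc h r, ?_, ?_⟩
      · rw [map_mul, evLoc_toLoc, evLoc_toLoc]
        exact mul_ne_zero hs ((not_mem_centre_iff h b).1 hb).ne_zero
      · rw [mul_assoc, mul_comm (toLoc h b) y, hyab', ← toLoc_mul, hr, toLoc_mul]
    · intro x
      obtain ⟨a, b, hb, rfl⟩ := IsFractionRing.div_surjective (A := R) x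
      have hb0 : b ≠ 0 := nonZeroDivisors.ne_zero hb
      have hbF : algebraMap R F b ≠ 0 := by
        rw [Ne, FaithfulSMul.algebraMap_eq_zero_iff]; exact hb0
      refine ⟨toLoc h a, toLoc h b, ?_, ?_⟩
      · rw [Ne, toLoc_eq_zero_iff]
        exact hb0
      · rw [coe_toLoc, coe_toLoc]
        exact div_mul_cancel₀ _ hbF
  exact key

end ToLoc

include ht in
/-- A local generator of the kernel of a section of a chart is a uniformiser of the place. -/
theorem ord_eq_one_of_generator (h : IsSection (chartAlg O F {t}) v hv)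
    {g : chartAlg O F {t}} (hg : ev h g = 0) (hg0 : g ≠ 0)
    (hgen : ∀ y : chartAlg O F {t}, ev h y = 0 →
      ∃ s : chartAlg O F {t}, ev h s ≠ 0 ∧ ∃ r : chartAlg O F {t}, s * y = r * g) :
    v.ord (g : F) = 1 := by
  haveI hfr : IsFractionRing (chartAlg O F {t}) F :=
    Fermat.Agent.N4.SmoothDescent.isFractionRing_chartAlg_singleton (O := O) (K := K) t ht
  exact ord_eq_one_of_generator_aux h hg hg0 hgen

include ht in
/-- **(REG) + uniformiser**: a section of a chart has a local generator `g` of its kernel with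
`ord_v g = 1`. -/
theorem exists_generator_ord (h : IsSection (chartAlg O F {t}) v hv) :
    ∃ g : chartAlg O F {t}, ev h g = 0 ∧ v.ord (g : F) = 1 ∧ ∀ y : chartAlg O F {t}, ev h y = 0 →
      ∃ s : chartAlg O F {t}, ev h s ≠ 0 ∧ ∃ r : chartAlg O F {t}, s * y = r * g := by
  obtain ⟨g, hg, hg0, hgen⟩ := exists_generator t ht h
  exact ⟨g, hg, ord_eq_one_of_generator t ht h hg hg0 hgen, hgen⟩

end Fermat.Agent.P3G.SectionRegChart
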