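/-
P3-G: **(Loc-P) at a general crossing point, in the language of places** — the third sibling of
`PointsLoc.locP_node` (exact node `u w = c`) and `PointsLoc.locP_smooth`.

* `locP_of_locEq` : a local equation `b` of a section `v` in the local ring `S = locAlg R (centre h)`
  (the 4-clause output of `NodeLocPLoc.exists_locP_localization`: `b(v) = 0`, `b` generates the
  kernel of the section up to an element not vanishing at `v`, and the kernel of the section is the
  only horizontal prime through `b`) has `ord_v b = 1` and `ord_{v'} b = 0` at every other place `v'`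
  centred at the same closed point.
* `locP_crossing` : the packaged form for a chart `R = chartAlg O F {t}` with two residue maps
  `θ₁ θ₂` and crossing coordinates `u, w` at the centre of the section (`Crossing` /
  `CrossingLocal` clauses), regularity being supplied by `SectionRegChart.exists_generator`.
-/
import Mathlib
import Fermat.Agent.G.PointsLoc
import Fermat.Agent.P3G.NodeLocPLoc
import Fermat.Agent.P3G.SectionRegChart

set_option autoImplicit false
set_option linter.unusedSectionVars false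
set_option linter.style.haveILetI false

open AlgebraicCurve IsLocalRing

namespace Fermat.Agent.P3G.LocPCrossing

open Fermat.Agent.G.Points Fermat.Agent.G.PointsLoc

variable {O K F : Type*} [CommRing O] [IsDomain O] [IsDiscreteValuationRing O]
  [Field K] [Algebra O K] [IsFractionRing O K]
  [Field F] [Algebra K F] [Algebra O F] [IsScalarTower O K F]

section LocEq

variable {R : Subalgebra O F} {v : Place K F}
  {hv : Function.Bijective (algebraMap K v.ResidueField)}

/-- The prime of the local ring cut out by a place centred at the point. -/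
def primeOfPlace (𝔫 : Ideal ↥R) [𝔫.IsPrime] (v' : Place K F) (hc : CentredAt R 𝔫 v') :
    Ideal ↥(locAlg R 𝔫) where
  carrier := {x | (x : F) ∈ v'.toValuationSubring.nonunits}
  add_mem' := by
    intro x y hx hy
    have hx' : (x : F) ∈ v'.toValuationSubring.nonunits := hx
    have hy' : (y : F) ∈ v'.toValuationSubring.nonunits := hy
    show ((x + y : ↥(locAlg R 𝔫)) : F) ∈ v'.toValuationSubring.nonunits
    rw [ValuationSubring.mem_nonunits_iff] at hx' hy' ⊢
    push_cast
    exact Valuation.map_add_lt _ hx' hy'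
  zero_mem' := zero_mem_nonunits' v'
  smul_mem' := by
    intro c x hx
    have hx' : (x : F) ∈ v'.toValuationSubring.nonunits := hx
    show ((c * x : ↥(locAlg R 𝔫)) : F) ∈ v'.toValuationSubring.nonunits
    rw [ValuationSubring.mem_nonunits_iff] at hx' ⊢
    push_cast
    rw [mul_comm, map_mul]
    exact mul_lt_one_of_lt_of_le hx'
      ((ValuationSubring.valuation_le_one_iff _ _).mpr (centredAt_mem_locAlg hc c))

theorem mem_primeOfPlace_iff (𝔫 : Ideal ↥R) [𝔫.IsPrime] (v' : Place K F)
    (hc : CentredAt R 𝔫 v') (x : ↥(locAlg R 𝔫)) :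
    x ∈ primeOfPlace 𝔫 v' hc ↔ (x : F) ∈ v'.toValuationSubring.nonunits := Iff.rfl

theorem primeOfPlace_isPrime (𝔫 : Ideal ↥R) [𝔫.IsPrime] (v' : Place K F)
    (hc : CentredAt R 𝔫 v') : (primeOfPlace 𝔫 v' hc).IsPrime := by
  refine ⟨?_, ?_⟩
  · intro htop
    have h1 : (1 : ↥(locAlg R 𝔫)) ∈ primeOfPlace 𝔫 v' hc := by rw [htop]; trivial
    rw [mem_primeOfPlace_iff, ValuationSubring.mem_nonunits_iff] at h1
    simp at h1
  · intro x y hxy
    rw [mem_primeOfPlace_iff, ValuationSubring.mem_nonunits_iff] at hxy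
    simp only [mem_primeOfPlace_iff, ValuationSubring.mem_nonunits_iff]
    by_contra hcon
    push Not at hcon
    have hx1 := le_antisymm
      ((ValuationSubring.valuation_le_one_iff _ _).mpr (centredAt_mem_locAlg hc x)) hcon.1
    have hy1 := le_antisymm
      ((ValuationSubring.valuation_le_one_iff _ _).mpr (centredAt_mem_locAlg hc y)) hcon.2
    have : v'.toValuationSubring.valuation (((x * y : ↥(locAlg R 𝔫)) : F)) = 1 := by
      push_cast
      rw [map_mul, hx1, hy1, one_mul]
    rw [this] at hxy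
    exact lt_irrefl _ hxy

/-- **(Loc-P) from a local equation**: see the header. -/
theorem locP_of_locEq (h : IsSection R v hv) {ϖ : O} (hϖ0 : ϖ ≠ 0)
    (b : ↥(locAlg R (centre h))) (hb : evLocAlg h b = 0)
    (hgen : ∃ y : ↥(locAlg R (centre h)), y ∉ RingHom.ker (evLocAlg h : _ →+* O) ∧
      ∀ z ∈ RingHom.ker (evLocAlg h : ↥(locAlg R (centre h)) →+* O), y * z ∈ Ideal.span {b})
    (hq : ∀ q : Ideal ↥(locAlg R (centre h)), q.IsPrime → b ∈ q →
      algebraMap O ↥(locAlg R (centre h)) ϖ ∉ q →
      RingHom.ker (evLocAlg h : ↥(locAlg R (centre h)) →+* O) ≤ q)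
    (hfrac : ∀ x : F, ∃ y z : R, z ≠ 0 ∧ x * (z : F) = (y : F)) :
    v.ord (b : F) = 1 ∧ ∀ v' : Place K F, CentredAt R (centre h) v' → v' ≠ v →
      v'.ord (b : F) = 0 := by
  have hS' := isSection_locAlg h
  have hfracS := hfrac_locAlg (centre h) hfrac
  have hbker : ev hS' b = 0 := hb
  obtain ⟨y₀, hy₀, hall⟩ := hgen
  have hy₀' : ev hS' y₀ ≠ 0 := fun h0 => hy₀ ((RingHom.mem_ker).2 h0)
  have hgen' : Generates hS' b := by
    intro y hy
    obtain ⟨t, ht⟩ := Ideal.mem_span_singleton'.mp (hall y ((RingHom.mem_ker).2 hy))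
    exact ⟨y₀, t, hy₀', ht.symm⟩
  have hb0 : b ≠ 0 := by
    intro hb0
    obtain ⟨y, hy0, hy⟩ := exists_ne_zero_ev_eq_zero hS' hfracS
    have h1 := hall y ((RingHom.mem_ker).2 hy)
    rw [hb0, Ideal.span_singleton_eq_bot.mpr rfl, Ideal.mem_bot] at h1
    rcases mul_eq_zero.mp h1 with h2 | h2
    · apply hy₀'
      rw [h2, map_zero]
    · exact hy0 h2
  have hbF : (b : F) ≠ 0 := fun h0 => hb0 (Subtype.ext h0)
  refine ⟨ord_eq_one_of_generates_sec hS' b hb0 hbker hgen' hfracS, ?_⟩
  intro v' hv' hne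
  have h1 : 0 ≤ v'.ord (b : F) :=
    (Fermat.Agent.S24.PlaceExtend.mem_iff_ord_nonneg v' hbF).1 (centredAt_mem_locAlg hv' b)
  by_contra hne0
  have hpos : 0 < v'.ord (b : F) := by omega
  have hb' := Fermat.Agent.S24.PlaceExtend.mem_nonunits_of_ord_pos v' hbF hpos
  apply hne
  -- the prime of `v'` contains `b` but not `ϖ`, hence contains the kernel of the section
  have hqle := hq (primeOfPlace (centre h) v' hv') (primeOfPlace_isPrime (centre h) v' hv')
    ((mem_primeOfPlace_iff (centre h) v' hv' b).2 hb') (by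
      rw [mem_primeOfPlace_iff]
      have hc : algebraMap O K ϖ ≠ 0 := fun h0 =>
        hϖ0 (IsFractionRing.injective O K (by rw [h0, map_zero]))
      have := algebraMap_not_mem_nonunits v' hc
      rwa [← IsScalarTower.algebraMap_apply O K F] at this)
  refine place_eq_of_ker_le hS'
    (fun x hx => exists_frac_of_generates hS' b hb0 hbker hgen' hfracS hx) v'
    (centredAt_mem_locAlg hv') ?_
  intro r hr
  exact (mem_primeOfPlace_iff (centre h) v' hv' r).1 (hqle ((RingHom.mem_ker).2 hr))

end LocEq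

section Chart

open Polynomial IntermediateField Fermat.Agent.N4.Chart Fermat.Agent.N4.IntClosure

variable [CharZero K] (t : F) (ht : Transcendental K t) [FiniteDimensional K⟮t⟯ F]
  {v : Place K F} {hv : Function.Bijective (algebraMap K v.ResidueField)}

include ht in
/-- The chart has fraction field `F`, element-wise form. -/
theorem hfrac_chart : ∀ x : F, ∃ y z : chartAlg O F {t}, z ≠ 0 ∧ x * (z : F) = (y : F) := by
  haveI hfr : IsFractionRing (chartAlg O F {t}) F :=
    Fermat.Agent.N4.SmoothDescent.isFractionRing_chartAlg_singleton (O := O) (K := K) t ht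
  intro x
  obtain ⟨a, b, hb, rfl⟩ := IsFractionRing.div_surjective (A := chartAlg O F {t}) x
  have hb0 : b ≠ 0 := nonZeroDivisors.ne_zero hb
  have hbF : algebraMap (chartAlg O F {t}) F b ≠ 0 := by
    rw [Ne, FaithfulSMul.algebraMap_eq_zero_iff]; exact hb0
  exact ⟨a, b, hb0, div_mul_cancel₀ _ hbF⟩

/-- Residue field `O / ϖ` at the centre of a section. -/
theorem hres_centre {R : Subalgebra O F} (h : IsSection R v hv) (r : R) :
    ∃ a : O, r - algebraMap O ↥R a ∈ centre h := by
  refine ⟨ev h r, ?_⟩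
  rw [mem_centre_iff, map_sub, AlgHom.commutes, Algebra.algebraMap_self, RingHom.id_apply,
    sub_self]
  exact Ideal.zero_mem _

include ht in
/-- **(Loc-P) at a crossing point of a chart** `R = chartAlg O F {t}` with two residue maps
`θ₁, θ₂` (reduced fibre with two components: `ker θ₁ ⊓ ker θ₂ = (ϖ)`) and crossing coordinates
`u ∈ ker θ₂ ∖ ker θ₁`, `w ∈ ker θ₁ ∖ ker θ₂` at the centre of the section `v`: there is a local
equation `b ≡ ū` or `w̄ (mod ϖ)` of `v` with a simple zero at `v` and no zero at any other place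
centred at the same closed point. -/
theorem locP_crossing {Rb : Type*} [CommRing Rb] [IsDomain Rb]
    (h : IsSection (chartAlg O F {t}) v hv) {ϖ : O} (hirr : Irreducible ϖ)
    (θ₁ θ₂ : ↥(chartAlg O F {t}) →+* Rb) {u w : ↥(chartAlg O F {t})}
    (hw : RingHom.ker θ₁ ⊓ RingHom.ker θ₂ =
      Ideal.span {algebraMap O ↥(chartAlg O F {t}) ϖ})
    (hk1 : RingHom.ker θ₁ ≤ centre h) (hk2 : RingHom.ker θ₂ ≤ centre h)
    (hu2 : u ∈ RingHom.ker θ₂) (hw1 : w ∈ RingHom.ker θ₁)
    (hu1 : u ∉ RingHom.ker θ₁) (hw2 : w ∉ RingHom.ker θ₂)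
    (hgen : ∀ m ∈ centre h, ∃ s : ↥(chartAlg O F {t}), s ∉ centre h ∧
      s * m ∈ Ideal.span {u, w, algebraMap O ↥(chartAlg O F {t}) ϖ}) :
    ∃ b : ↥(locAlg (chartAlg O F {t}) (centre h)), evLocAlg h b = 0 ∧
      (b - algebraMap ↥(chartAlg O F {t}) _ u ∈
          Ideal.span {algebraMap O ↥(locAlg (chartAlg O F {t}) (centre h)) ϖ} ∨
        b - algebraMap ↥(chartAlg O F {t}) _ w ∈
          Ideal.span {algebraMap O ↥(locAlg (chartAlg O F {t}) (centre h)) ϖ}) ∧
      v.ord (b : F) = 1 ∧
      ∀ v' : Place K F, CentredAt (chartAlg O F {t}) (centre h) v' → v' ≠ v →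
        v'.ord (b : F) = 0 := by
  haveI : IsNoetherianRing (chartAlg O F {t}) := isNoetherianRing_chartAlg (O := O) (K := K) t ht
  haveI : IsNoetherianRing ↥(locAlg (chartAlg O F {t}) (centre h)) :=
    isNoetherianRing_locAlg (chartAlg O F {t}) (centre h)
  -- regularity at the section
  obtain ⟨g, hg, -, hgg⟩ := SectionRegChart.exists_generator t ht h
  have hreg := NodeLocPLoc.hreg_localization (S := ↥(locAlg (chartAlg O F {t}) (centre h)))
    (centre h) (evLocAlg h) g (by rw [evLocAlg_algebraMap, hg]) (by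
      intro y hy
      rw [evLocAlg_algebraMap] at hy
      obtain ⟨s, hs, r, hr⟩ := hgg y hy
      exact ⟨s, r, by rwa [evLocAlg_algebraMap], hr⟩)
  obtain ⟨b, hb, hbuw, hgenb, hqb⟩ := NodeLocPLoc.exists_locP_localization
    (S := ↥(locAlg (chartAlg O F {t}) (centre h))) (centre h) θ₁ θ₂ hirr hw hk1 hk2 hu2 hw1
    hu1 hw2 hgen (hres_centre h) (evLocAlg h) hreg
  obtain ⟨h1, h2⟩ := locP_of_locEq h hirr.ne_zero b hb hgenb hqb (hfrac_chart t ht)
  exact ⟨b, hb, hbuw, h1, h2⟩

end Chart

end Fermat.Agent.P3G.LocPCrossing
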