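/-
P3-G block (G-L), file 1: **the second difference** — the coordinate-free core of the local calculus
(design decision (D-c) of the P3-G blueprint).  Mathlib only (plus the definition `iInfSubring` of
`P3G/Cover/OfValuations`, itself Mathlib only).

`sd σ b := σ²b · b / (σ b)²`.

* VERTICAL (`isPU_sd`): if the field automorphism `σ` preserves the valuation of a valuation ring `V`
  and acts trivially on its residue field, then `sd σ b ≡ 1` modulo the maximal ideal of `V`, for EVERY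
  `b ≠ 0` (whatever its valuation).  `IsPU V` (principal units) is closed under products, inverses,
  integer powers.  `valuation_map_eq_of_uniformizer`, `exists_zpow_of_irreducible`,
  `valuation_le_of_irreducible`: the hypotheses from a uniformiser of a discrete valuation ring.
  `exists_eq_mul_of_isPU`: `t − 1 ∈ π W` for `W = ⋂ V i`.
* HORIZONTAL (`ord_prod_sd`): abstract places `Pl` with a multiplicative `ord`, a permutation `τ` of the
  places compatible with `σ`; local equations `b P` at the places `P ∈ S` centred at a closed point;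
  then `t := ∏_{P ∈ S} sd σ (b P) ^ D P` has divisor `(τ − 1)² D` on the places centred at that point.
* GLUE (`exists_localRoot_weak`, `exists_localRoot_strong`): the local hypothesis of
  `P3G.Cover.Main.no_split_cover` (resp. `no_split_cover_of_strong`) from (Loc-P) and the unit
  criterion.
* `exists_pow_mul_congr`: `x ^ q ≡ d ^ q` modulo the maximal ideal ⇒ `x ≡ ζ ^ j d`.
-/
import Mathlib
import Fermat.Agent.P3G.Cover.OfValuations

set_option autoImplicit false

namespace Fermat.Agent.P3G.SecondDiff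

open Fermat.Agent.P3G.Cover.OfValuations

variable {F : Type*} [Field F]

/-- The second multiplicative difference `σ²b · b / (σ b)²`. -/
def sd (σ : F ≃+* F) (b : F) : F := σ (σ b) * b / (σ b) ^ 2

theorem sd_ne_zero (σ : F ≃+* F) {b : F} (hb : b ≠ 0) : sd σ b ≠ 0 := by
  unfold sd
  have h1 : σ b ≠ 0 := (map_ne_zero σ).2 hb
  have h2 : σ (σ b) ≠ 0 := (map_ne_zero σ).2 h1
  exact div_ne_zero (mul_ne_zero h2 hb) (pow_ne_zero 2 h1)

/-- `sd σ b = σ ρ / ρ` with `ρ = σ b / b`. -/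
theorem sd_eq_div (σ : F ≃+* F) {b : F} (hb : b ≠ 0) :
    sd σ b = σ (σ b / b) / (σ b / b) := by
  unfold sd
  have h1 : σ b ≠ 0 := (map_ne_zero σ).2 hb
  have h2 : σ (σ b) ≠ 0 := (map_ne_zero σ).2 h1
  rw [map_div₀]
  field_simp

section Vertical

variable (V : ValuationSubring F)

/-- `x` is a principal unit of the valuation ring `V`: `x ≡ 1` modulo the maximal ideal. -/
def IsPU (x : F) : Prop := V.valuation (x - 1) < 1

variable {V}

theorem IsPU.valuation_eq_one {x : F} (hx : IsPU V x) : V.valuation x = 1 := by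
  have h := Valuation.map_one_add_of_lt (v := V.valuation) hx
  rwa [add_sub_cancel] at h

theorem IsPU.ne_zero {x : F} (hx : IsPU V x) : x ≠ 0 := by
  intro h0
  have := hx.valuation_eq_one
  rw [h0, map_zero] at this
  exact zero_ne_one this

theorem IsPU.mem {x : F} (hx : IsPU V x) : x ∈ V :=
  (V.valuation_le_one_iff x).1 hx.valuation_eq_one.le

theorem IsPU.sub_one_mem_nonunits {x : F} (hx : IsPU V x) : x - 1 ∈ V.nonunits :=
  V.mem_nonunits_iff.2 hx

theorem isPU_iff_mem_nonunits {x : F} : IsPU V x ↔ x - 1 ∈ V.nonunits :=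
  V.mem_nonunits_iff.symm

theorem isPU_one : IsPU V (1 : F) := by
  unfold IsPU
  rw [sub_self, map_zero]
  exact zero_lt_one

theorem IsPU.mul {x y : F} (hx : IsPU V x) (hy : IsPU V y) : IsPU V (x * y) := by
  unfold IsPU at *
  have h : x * y - 1 = (x - 1) * y + (y - 1) := by ring
  rw [h]
  refine lt_of_le_of_lt (Valuation.map_add _ _ _) (max_lt ?_ hy)
  rw [map_mul, IsPU.valuation_eq_one hy, mul_one]
  exact hx

theorem IsPU.inv {x : F} (hx : IsPU V x) : IsPU V x⁻¹ := by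
  have hx0 := hx.ne_zero
  have h1 := hx.valuation_eq_one
  unfold IsPU at *
  have h : x⁻¹ - 1 = -((x - 1) * x⁻¹) := by field_simp; ring
  rw [h, Valuation.map_neg, map_mul, map_inv₀, h1, inv_one, mul_one]
  exact hx

theorem IsPU.div {x y : F} (hx : IsPU V x) (hy : IsPU V y) : IsPU V (x / y) := by
  rw [div_eq_mul_inv]
  exact hx.mul hy.inv

theorem IsPU.pow {x : F} (hx : IsPU V x) (n : ℕ) : IsPU V (x ^ n) := by
  induction n with
  | zero => rw [pow_zero]; exact isPU_one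
  | succ n ih => rw [pow_succ]; exact ih.mul hx

theorem IsPU.zpow {x : F} (hx : IsPU V x) (n : ℤ) : IsPU V (x ^ n) := by
  cases n with
  | ofNat n => rw [Int.ofNat_eq_natCast, zpow_natCast]; exact hx.pow n
  | negSucc n => rw [zpow_negSucc]; exact (hx.pow _).inv

theorem isPU_prod {α : Type*} (S : Finset α) (x : α → F) (h : ∀ a ∈ S, IsPU V (x a)) :
    IsPU V (∏ a ∈ S, x a) := by
  classical
  induction S using Finset.induction_on with
  | empty => rw [Finset.prod_empty]; exact isPU_one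
  | insert a S ha ih =>
    rw [Finset.prod_insert ha]
    exact (h a (Finset.mem_insert_self a S)).mul
      (ih fun c hc => h c (Finset.mem_insert_of_mem hc))

theorem isPU_prod_zpow {α : Type*} (S : Finset α) (x : α → F) (n : α → ℤ)
    (h : ∀ a ∈ S, IsPU V (x a)) : IsPU V (∏ a ∈ S, x a ^ n a) :=
  isPU_prod S _ fun a ha => (h a ha).zpow (n a)

/-- If `σ` preserves the valuation and acts trivially on the residue field, then `σ ρ / ρ` is a
principal unit for every unit `ρ`. -/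
theorem isPU_map_div_self (σ : F ≃+* F)
    (htriv : ∀ x ∈ V, σ x - x ∈ V.nonunits) {ρ : F} (hρ : V.valuation ρ = 1) :
    IsPU V (σ ρ / ρ) := by
  have hρ0 : ρ ≠ 0 := by
    intro h0
    rw [h0, map_zero] at hρ
    exact zero_ne_one hρ
  have hρV : ρ ∈ V := (V.valuation_le_one_iff ρ).1 hρ.le
  have h1 := V.mem_nonunits_iff.1 (htriv ρ hρV)
  unfold IsPU
  have h : σ ρ / ρ - 1 = (σ ρ - ρ) * ρ⁻¹ := by field_simp
  rw [h, map_mul, map_inv₀, hρ, inv_one, mul_one]
  exact h1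

/-- **Vertical part of the second difference.**  If `σ` preserves the valuation of `V` and acts
trivially on its residue field, then `σ²b · b / (σ b)² ≡ 1` modulo the maximal ideal of `V`, for every
`b ≠ 0` — whatever the valuation of `b` is. -/
theorem isPU_sd (σ : F ≃+* F) (hval : ∀ b, V.valuation (σ b) = V.valuation b)
    (htriv : ∀ x ∈ V, σ x - x ∈ V.nonunits) {b : F} (hb : b ≠ 0) : IsPU V (sd σ b) := by
  rw [sd_eq_div σ hb]
  apply isPU_map_div_self σ htriv
  rw [map_div₀, hval]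
  exact div_self ((map_ne_zero _).2 hb)

theorem sd_sub_one_mem_nonunits (σ : F ≃+* F) (hval : ∀ b, V.valuation (σ b) = V.valuation b)
    (htriv : ∀ x ∈ V, σ x - x ∈ V.nonunits) {b : F} (hb : b ≠ 0) :
    sd σ b - 1 ∈ V.nonunits :=
  (isPU_sd σ hval htriv hb).sub_one_mem_nonunits

end Vertical

section DVR

variable {V : ValuationSubring F}

theorem valuation_coe_unit (u : Vˣ) : V.valuation ((u : V) : F) = 1 :=
  V.valuation_unit u

/-- In a discrete valuation subring with uniformiser `ϖ`, the value group is generated by the value of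
`ϖ`. -/
theorem exists_zpow_of_irreducible [IsDiscreteValuationRing V] {ϖ : V} (hϖ : Irreducible ϖ)
    (b : F) (hb : b ≠ 0) : ∃ n : ℤ, V.valuation b = V.valuation (ϖ : F) ^ n := by
  have key : ∀ x : F, x ≠ 0 → x ∈ V → ∃ n : ℕ, V.valuation x = V.valuation (ϖ : F) ^ n := by
    intro x hx0 hxV
    have hx0' : (⟨x, hxV⟩ : V) ≠ 0 := fun h => hx0 (congrArg Subtype.val h)
    obtain ⟨n, u, hu⟩ := IsDiscreteValuationRing.eq_unit_mul_pow_irreducible hx0' hϖ
    refine ⟨n, ?_⟩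
    have h1 : x = ((u : V) : F) * (ϖ : F) ^ n := by
      have := congrArg Subtype.val hu
      simpa using this
    rw [h1, map_mul, map_pow, valuation_coe_unit, one_mul]
  rcases V.mem_or_inv_mem b with h | h
  · obtain ⟨n, hn⟩ := key b hb h
    exact ⟨n, by rw [hn, zpow_natCast]⟩
  · obtain ⟨n, hn⟩ := key b⁻¹ (inv_ne_zero hb) h
    refine ⟨-n, ?_⟩
    rw [map_inv₀] at hn
    rw [zpow_neg, zpow_natCast, ← hn, inv_inv]

/-- In a discrete valuation subring with uniformiser `ϖ`, the maximal ideal is generated by `ϖ`. -/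
theorem valuation_le_of_irreducible [IsDiscreteValuationRing V] {ϖ : V} (hϖ : Irreducible ϖ)
    (x : F) (hx : V.valuation x < 1) : V.valuation x ≤ V.valuation (ϖ : F) := by
  have hxV : x ∈ V := (V.valuation_le_one_iff x).1 hx.le
  have hmem : (⟨x, hxV⟩ : V) ∈ IsLocalRing.maximalIdeal V := by
    rw [IsLocalRing.mem_maximalIdeal, mem_nonunits_iff]
    intro hu
    have := V.valuation_unit hu.unit
    rw [IsUnit.unit_spec] at this
    exact absurd this hx.ne
  rw [(IsDiscreteValuationRing.irreducible_iff_uniformizer ϖ).1 hϖ, Ideal.mem_span_singleton] at hmem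
  obtain ⟨y, hy⟩ := hmem
  have h1 : x = (ϖ : F) * (y : F) := by
    have := congrArg Subtype.val hy
    simpa using this
  rw [h1, map_mul]
  exact mul_le_of_le_one_right' ((V.valuation_le_one_iff _).2 y.2)

end DVR

section Uniformizer

variable {V : ValuationSubring F}

/-- `σ` preserves the valuation of `V` as soon as it preserves `V`, the value group is generated by
the value of `ϖ`, and `σ ϖ / ϖ` is a unit. -/
theorem valuation_map_eq_of_uniformizer (σ : F ≃+* F) (hσV : ∀ x, x ∈ V → σ x ∈ V) {ϖ : F}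
    (hϖ0 : ϖ ≠ 0) (hϖσ : V.valuation (σ ϖ) = V.valuation ϖ)
    (hdisc : ∀ b : F, b ≠ 0 → ∃ n : ℤ, V.valuation b = V.valuation ϖ ^ n) (b : F) :
    V.valuation (σ b) = V.valuation b := by
  by_cases hb : b = 0
  · rw [hb, map_zero]
  obtain ⟨n, hn⟩ := hdisc b hb
  have hϖn : ϖ ^ n ≠ 0 := zpow_ne_zero n hϖ0
  set u : F := b / ϖ ^ n with hu
  have hu0 : u ≠ 0 := div_ne_zero hb hϖn
  have hvu : V.valuation u = 1 := by
    rw [hu, map_div₀, map_zpow₀, hn]
    exact div_self (by rw [← map_zpow₀]; exact (map_ne_zero _).2 hϖn)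
  have huV : u ∈ V := (V.valuation_le_one_iff u).1 hvu.le
  have huV' : u⁻¹ ∈ V := by
    rw [← V.valuation_le_one_iff, map_inv₀, hvu, inv_one]
  have h1 : V.valuation (σ u) ≤ 1 := (V.valuation_le_one_iff _).2 (hσV u huV)
  have h2 : V.valuation (σ u)⁻¹ ≤ 1 := by
    rw [← map_inv₀]
    exact (V.valuation_le_one_iff _).2 (hσV _ huV')
  have hσu0 : V.valuation (σ u) ≠ 0 := (map_ne_zero _).2 ((map_ne_zero σ).2 hu0)
  have hσu : V.valuation (σ u) = 1 := by
    rw [map_inv₀] at h2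
    exact le_antisymm h1 ((inv_le_one₀ (zero_lt_iff.2 hσu0)).1 h2)
  have hbu : b = ϖ ^ n * u := by rw [hu]; field_simp
  rw [hbu, map_mul, map_zpow₀, map_mul, map_zpow₀, hσu, hϖσ, map_mul, map_zpow₀, hvu]

end Uniformizer

section PiW

variable {ι : Type*} (V : ι → ValuationSubring F)

/-- If `t ≡ 1` modulo the maximal ideal of every `V i`, and these maximal ideals are generated by `π`,
then `t − 1 ∈ π W`, `W = ⋂ V i`. -/
theorem exists_eq_mul_of_isPU {π : F} (hπ0 : π ≠ 0)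
    (hπ : ∀ i x, (V i).valuation x < 1 → (V i).valuation x ≤ (V i).valuation π)
    {t : F} (ht : ∀ i, IsPU (V i) t) : ∃ w ∈ iInfSubring V, t - 1 = π * w := by
  refine ⟨(t - 1) * π⁻¹, (mem_iInfSubring V _).2 fun i => ?_, by field_simp⟩
  rw [← (V i).valuation_le_one_iff, map_mul, map_inv₀]
  have h0 : (V i).valuation π ≠ 0 := (map_ne_zero _).2 hπ0
  rw [← div_eq_mul_inv, div_le_one₀ (zero_lt_iff.2 h0)]
  exact hπ i _ (ht i)

theorem isPU_mem_iInfSubring {t : F} (ht : ∀ i, IsPU (V i) t) : t ∈ iInfSubring V :=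
  (mem_iInfSubring V _).2 fun i => (ht i).mem

end PiW

section Horizontal

variable {Pl : Type*} (ord : Pl → F → ℤ)

/-- `ord` is multiplicative on nonzero elements. -/
def OrdMul : Prop := ∀ (Q : Pl) {f g : F}, f ≠ 0 → g ≠ 0 → ord Q (f * g) = ord Q f + ord Q g

variable {ord}

theorem OrdMul.one (h : OrdMul ord) (Q : Pl) : ord Q 1 = 0 := by
  have := h Q (one_ne_zero (α := F)) (one_ne_zero (α := F))
  rw [mul_one] at this
  linarith

theorem OrdMul.inv (h : OrdMul ord) (Q : Pl) {f : F} (hf : f ≠ 0) : ord Q f⁻¹ = - ord Q f := by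
  have := h Q hf (inv_ne_zero hf)
  rw [mul_inv_cancel₀ hf, h.one] at this
  linarith

theorem OrdMul.div (h : OrdMul ord) (Q : Pl) {f g : F} (hf : f ≠ 0) (hg : g ≠ 0) :
    ord Q (f / g) = ord Q f - ord Q g := by
  rw [div_eq_mul_inv, h Q hf (inv_ne_zero hg), h.inv Q hg]
  ring

theorem OrdMul.pow (h : OrdMul ord) (Q : Pl) {f : F} (hf : f ≠ 0) (n : ℕ) :
    ord Q (f ^ n) = n * ord Q f := by
  induction n with
  | zero => rw [pow_zero, h.one]; simp
  | succ n ih =>
    rw [pow_succ, h Q (pow_ne_zero n hf) hf, ih]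
    push_cast
    ring

theorem OrdMul.zpow (h : OrdMul ord) (Q : Pl) {f : F} (hf : f ≠ 0) (n : ℤ) :
    ord Q (f ^ n) = n * ord Q f := by
  cases n with
  | ofNat n => rw [Int.ofNat_eq_natCast, zpow_natCast, h.pow Q hf]
  | negSucc n =>
    rw [zpow_negSucc, h.inv Q (pow_ne_zero _ hf), h.pow Q hf, Int.negSucc_eq]
    push_cast
    ring

theorem OrdMul.prod (h : OrdMul ord) (Q : Pl) {α : Type*} (S : Finset α) (x : α → F)
    (hx : ∀ a ∈ S, x a ≠ 0) : ord Q (∏ a ∈ S, x a) = ∑ a ∈ S, ord Q (x a) := by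
  classical
  induction S using Finset.induction_on with
  | empty => rw [Finset.prod_empty, Finset.sum_empty, h.one]
  | insert a S ha ih =>
    have hx' : ∀ c ∈ S, x c ≠ 0 := fun c hc => hx c (Finset.mem_insert_of_mem hc)
    rw [Finset.prod_insert ha, Finset.sum_insert ha,
      h Q (hx a (Finset.mem_insert_self a S)) (Finset.prod_ne_zero_iff.2 hx'), ih hx']

theorem OrdMul.prod_zpow (h : OrdMul ord) (Q : Pl) {α : Type*} (S : Finset α) (x : α → F)
    (n : α → ℤ) (hx : ∀ a ∈ S, x a ≠ 0) :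
    ord Q (∏ a ∈ S, x a ^ n a) = ∑ a ∈ S, n a * ord Q (x a) := by
  rw [h.prod Q S _ fun a ha => zpow_ne_zero _ (hx a ha)]
  exact Finset.sum_congr rfl fun a ha => h.zpow Q (hx a ha) (n a)

/-- `τ` (a permutation of the places) is compatible with the field automorphism `σ`. -/
def Compat (ord : Pl → F → ℤ) (σ : F ≃+* F) (τ : Equiv.Perm Pl) : Prop :=
  ∀ (Q : Pl) (f : F), ord (τ Q) (σ f) = ord Q f

theorem Compat.ord_map {σ : F ≃+* F} {τ : Equiv.Perm Pl} (hτ : Compat ord σ τ) (Q : Pl) (f : F) :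
    ord Q (σ f) = ord (τ.symm Q) f := by
  have := hτ (τ.symm Q) f
  rwa [Equiv.apply_symm_apply] at this

/-- The order of the second difference: `ord_Q (σ²b·b/(σb)²) = ord_{τ⁻²Q} b − 2 ord_{τ⁻¹Q} b + ord_Q b`. -/
theorem ord_sd (h : OrdMul ord) {σ : F ≃+* F} {τ : Equiv.Perm Pl} (hτ : Compat ord σ τ) (Q : Pl)
    {b : F} (hb : b ≠ 0) :
    ord Q (sd σ b) = ord (τ.symm (τ.symm Q)) b - 2 * ord (τ.symm Q) b + ord Q b := by
  have h1 : σ b ≠ 0 := (map_ne_zero σ).2 hb
  have h2 : σ (σ b) ≠ 0 := (map_ne_zero σ).2 h1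
  unfold sd
  rw [h.div Q (mul_ne_zero h2 hb) (pow_ne_zero 2 h1), h Q h2 hb, h.pow Q h1, hτ.ord_map,
    hτ.ord_map, hτ.ord_map]
  push_cast
  ring

/-- **Horizontal bookkeeping.**  `C` a `τ⁻¹`-stable set of places (those centred at a closed point
`𝔫` of the special fibre), `S ⊆ C` a finite set of places containing the part of the support of `D`
in `C`, `b P` (`P ∈ S`) local equations: `ord_Q (b P) = [Q = P]` for `Q ∈ C`.  Then
`t := ∏_{P ∈ S} (σ²b_P · b_P / (σ b_P)²)^{D P}` has divisor `(τ − 1)² D` on `C`. -/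
theorem ord_prod_sd (h : OrdMul ord) {σ : F ≃+* F} {τ : Equiv.Perm Pl} (hτ : Compat ord σ τ)
    (C : Set Pl) (hC : ∀ Q ∈ C, τ.symm Q ∈ C) (S : Finset Pl) (D : Pl → ℤ)
    (hD : ∀ P ∈ C, P ∉ S → D P = 0) (b : Pl → F) (hb0 : ∀ P ∈ S, b P ≠ 0)
    (hb1 : ∀ P ∈ S, ord P (b P) = 1) (hb2 : ∀ P ∈ S, ∀ Q ∈ C, Q ≠ P → ord Q (b P) = 0)
    {Q : Pl} (hQ : Q ∈ C) :
    ord Q (∏ P ∈ S, sd σ (b P) ^ D P) =
      D (τ.symm (τ.symm Q)) - 2 * D (τ.symm Q) + D Q := by
  classical
  have key : ∀ Q' ∈ C, ∑ P ∈ S, D P * ord Q' (b P) = D Q' := by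
    intro Q' hQ'
    have h1 : ∑ P ∈ S, D P * ord Q' (b P) = ∑ P ∈ S, if Q' = P then D P else 0 := by
      refine Finset.sum_congr rfl fun P hP => ?_
      split_ifs with hQP
      · rw [hQP, hb1 P hP, mul_one]
      · rw [hb2 P hP Q' hQ' hQP, mul_zero]
    rw [h1, Finset.sum_ite_eq]
    split_ifs with hmem
    · rfl
    · exact (hD Q' hQ' hmem).symm
  rw [h.prod_zpow Q S _ _ fun P hP => sd_ne_zero σ (hb0 P hP)]
  have h2 : ∑ P ∈ S, D P * ord Q (sd σ (b P)) =
      ∑ P ∈ S, D P * ord (τ.symm (τ.symm Q)) (b P) - 2 * ∑ P ∈ S, D P * ord (τ.symm Q) (b P) +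
        ∑ P ∈ S, D P * ord Q (b P) := by
    rw [Finset.mul_sum, ← Finset.sum_sub_distrib, ← Finset.sum_add_distrib]
    refine Finset.sum_congr rfl fun P hP => ?_
    rw [ord_sd h hτ Q (hb0 P hP)]
    ring
  rw [h2, key _ (hC _ (hC _ hQ)), key _ (hC _ hQ), key _ hQ]

end Horizontal

section Glue

theorem valuation_pow_sub_pow_lt {V : ValuationSubring F} {x y : F} (hx : V.valuation x ≤ 1)
    (hy : V.valuation y ≤ 1) (hxy : V.valuation (x - y) < 1) (k : ℕ) :
    V.valuation (x ^ k - y ^ k) < 1 := by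
  induction k with
  | zero => rw [pow_zero, pow_zero, sub_self, map_zero]; exact zero_lt_one
  | succ k ih =>
    have h : x ^ (k + 1) - y ^ (k + 1) = x ^ k * (x - y) + (x ^ k - y ^ k) * y := by ring
    rw [h]
    refine lt_of_le_of_lt (Valuation.map_add _ _ _) (max_lt ?_ ?_)
    · rw [map_mul, map_pow, mul_comm]
      exact mul_lt_one_of_lt_of_le hxy (pow_le_one₀ zero_le hx)
    · rw [map_mul]
      exact mul_lt_one_of_lt_of_le ih hy

variable {R : Type*} [CommRing R] [Algebra R F] {ι : Type*} (V : ι → ValuationSubring F)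
  {Pl : Type*} {ord : Pl → F → ℤ}

/-- **Local root from (Loc-P), weak form** (shape of the local hypothesis of
`Fermat.Agent.P3G.Cover.Main.no_split_cover`).

* `V i`: the vertical (Gauss) valuation rings, `π` generates all their maximal ideals;
* `σ` preserves the `V i` and is trivial on their residue fields;
* `ord`, `τ`: the places of `F`, permuted by `τ` compatibly with `σ`;
* `C`: the places centred at the closed point `𝔫`; `I`: the vertical components through `𝔫`;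
* `b P` (`P ∈ S`): local equations (Loc-P);
* `hcrit`: the unit criterion at `𝔫`;
* `f` has horizontal divisor `p · (τ − 1)² D` on `C` and is a unit of `V i`, `i ∈ I`;
* `d` (a constant): unit of the `V i`, order `0` on `C`; `g ≡ d` modulo the maximal ideal of `V i`
  for `i ∈ I`;
* `c ∉ 𝔫` vanishes on the components not through `𝔫`.

Then `η := d · ∏_{P ∈ S} (σ²b_P · b_P / (σ b_P)²)^{D P}` is a local root of `f` at `𝔫`. -/
theorem exists_localRoot_weak (𝔫 : Ideal R) {π : F} (hπ0 : π ≠ 0)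
    (hπ : ∀ i x, (V i).valuation x < 1 → (V i).valuation x ≤ (V i).valuation π)
    (σ : F ≃+* F) (hval : ∀ i b, (V i).valuation (σ b) = (V i).valuation b)
    (htriv : ∀ i, ∀ x ∈ V i, σ x - x ∈ (V i).nonunits)
    (hord : OrdMul ord) {τ : Equiv.Perm Pl} (hτ : Compat ord σ τ)
    (C : Set Pl) (hC : ∀ Q ∈ C, τ.symm Q ∈ C) (S : Finset Pl) (D : Pl → ℤ)
    (hD : ∀ P ∈ C, P ∉ S → D P = 0) (b : Pl → F) (hb0 : ∀ P ∈ S, b P ≠ 0)
    (hb1 : ∀ P ∈ S, ord P (b P) = 1) (hb2 : ∀ P ∈ S, ∀ Q ∈ C, Q ≠ P → ord Q (b P) = 0)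
    (I : Set ι)
    (hcrit : ∀ x : F, x ≠ 0 → (∀ Q ∈ C, ord Q x = 0) → (∀ i ∈ I, (V i).valuation x = 1) →
      ∃ a r : R, a ∉ 𝔫 ∧ r ∉ 𝔫 ∧ x * algebraMap R F a = algebraMap R F r)
    {p : ℕ} {f g d : F} (hf0 : f ≠ 0)
    (hfC : ∀ Q ∈ C, ord Q f = p * (D (τ.symm (τ.symm Q)) - 2 * D (τ.symm Q) + D Q))
    (hfV : ∀ i ∈ I, (V i).valuation f = 1)
    (hd0 : d ≠ 0) (hdC : ∀ Q ∈ C, ord Q d = 0) (hdV : ∀ i, (V i).valuation d = 1)
    (hgV : ∀ i, (V i).valuation g = 1) (hgd : ∀ i ∈ I, (V i).valuation (g - d) < 1)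
    (c : R) (hc𝔫 : c ∉ 𝔫) (hcV : ∀ i, algebraMap R F c ∈ V i)
    (hcI : ∀ i, i ∉ I → (V i).valuation (algebraMap R F c) < 1) :
    ∃ η : F, η ≠ 0 ∧
      (∃ a r : R, a ∉ 𝔫 ∧ r ∉ 𝔫 ∧ f * algebraMap R F a = η ^ p * algebraMap R F r) ∧
      ∃ c : R, c ∉ 𝔫 ∧ ∀ k : ℕ, ∃ w ∈ iInfSubring V,
        algebraMap R F c * ((η⁻¹) ^ k - (g⁻¹) ^ k) = π * w := by
  classical
  set t : F := ∏ P ∈ S, sd σ (b P) ^ D P with ht
  have htPU : ∀ i, IsPU (V i) t := fun i =>
    isPU_prod_zpow S _ _ fun P hP => isPU_sd σ (hval i) (htriv i) (hb0 P hP)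
  have ht0 : t ≠ 0 := Finset.prod_ne_zero_iff.2 fun P hP =>
    zpow_ne_zero _ (sd_ne_zero σ (hb0 P hP))
  have htC : ∀ Q ∈ C, ord Q t = D (τ.symm (τ.symm Q)) - 2 * D (τ.symm Q) + D Q := fun Q hQ =>
    ord_prod_sd hord hτ C hC S D hD b hb0 hb1 hb2 hQ
  have hη0 : d * t ≠ 0 := mul_ne_zero hd0 ht0
  have hηV : ∀ i, (V i).valuation (d * t) = 1 := fun i => by
    rw [map_mul, hdV i, (htPU i).valuation_eq_one, one_mul]
  refine ⟨d * t, hη0, ?_, c, hc𝔫, fun k => ?_⟩
  · -- the unit criterion for `x = f / η ^ p`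
    have hηp0 : (d * t) ^ p ≠ 0 := pow_ne_zero p hη0
    obtain ⟨a, r, ha, hr, har⟩ := hcrit (f / (d * t) ^ p) (div_ne_zero hf0 hηp0)
      (fun Q hQ => by
        rw [hord.div Q hf0 hηp0, hord.pow Q hη0, hord Q hd0 ht0, hdC Q hQ, htC Q hQ, hfC Q hQ]
        ring)
      (fun i hi => by
        rw [map_div₀, map_pow, hηV i, one_pow, div_one, hfV i hi])
    refine ⟨a, r, ha, hr, ?_⟩
    rw [← har]
    field_simp
  · -- the congruence
    refine ⟨algebraMap R F c * ((d * t)⁻¹ ^ k - g⁻¹ ^ k) * π⁻¹,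
      (mem_iInfSubring V _).2 fun i => ?_, by field_simp⟩
    have hg0 : g ≠ 0 := by
      intro h0
      have := hgV i
      rw [h0, map_zero] at this
      exact zero_ne_one this
    have hπi : (V i).valuation π ≠ 0 := (map_ne_zero _).2 hπ0
    rw [← (V i).valuation_le_one_iff, map_mul, map_inv₀, ← div_eq_mul_inv,
      div_le_one₀ (zero_lt_iff.2 hπi)]
    apply hπ i
    have hηi : (V i).valuation (d * t)⁻¹ = 1 := by rw [map_inv₀, hηV i, inv_one]
    have hgi : (V i).valuation g⁻¹ = 1 := by rw [map_inv₀, hgV i, inv_one]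
    rw [map_mul]
    by_cases hi : i ∈ I
    · rw [mul_comm]
      refine mul_lt_one_of_lt_of_le ?_ ((V i).valuation_le_one_iff _ |>.2 (hcV i))
      refine valuation_pow_sub_pow_lt hηi.le hgi.le ?_ k
      have h1 : (d * t)⁻¹ - g⁻¹ = ((g - d) - d * (t - 1)) * ((d * t)⁻¹ * g⁻¹) := by
        field_simp
        ring
      rw [h1, map_mul, map_mul, hηi, hgi, mul_one, mul_one]
      refine lt_of_le_of_lt (Valuation.map_sub _ _ _) (max_lt (hgd i hi) ?_)
      rw [map_mul, hdV i, one_mul]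
      exact htPU i
    · refine mul_lt_one_of_lt_of_le (hcI i hi) ?_
      refine le_trans (Valuation.map_sub _ _ _) (max_le ?_ ?_)
      · rw [map_pow, hηi, one_pow]
      · rw [map_pow, hgi, one_pow]

/-- **Local root from (Loc-P), strong form** (shape of the local hypothesis of
`Fermat.Agent.P3G.Cover.Main.no_split_cover_of_strong`): `g` itself is the constant. -/
theorem exists_localRoot_strong (𝔫 : Ideal R) {π : F} (hπ0 : π ≠ 0)
    (hπ : ∀ i x, (V i).valuation x < 1 → (V i).valuation x ≤ (V i).valuation π)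
    (σ : F ≃+* F) (hval : ∀ i b, (V i).valuation (σ b) = (V i).valuation b)
    (htriv : ∀ i, ∀ x ∈ V i, σ x - x ∈ (V i).nonunits)
    (hord : OrdMul ord) {τ : Equiv.Perm Pl} (hτ : Compat ord σ τ)
    (C : Set Pl) (hC : ∀ Q ∈ C, τ.symm Q ∈ C) (S : Finset Pl) (D : Pl → ℤ)
    (hD : ∀ P ∈ C, P ∉ S → D P = 0) (b : Pl → F) (hb0 : ∀ P ∈ S, b P ≠ 0)
    (hb1 : ∀ P ∈ S, ord P (b P) = 1) (hb2 : ∀ P ∈ S, ∀ Q ∈ C, Q ≠ P → ord Q (b P) = 0)
    (hcrit : ∀ x : F, x ≠ 0 → (∀ Q ∈ C, ord Q x = 0) → (∀ i, (V i).valuation x = 1) →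
      ∃ a r : R, a ∉ 𝔫 ∧ r ∉ 𝔫 ∧ x * algebraMap R F a = algebraMap R F r)
    {p : ℕ} {f g : F} (hf0 : f ≠ 0)
    (hfC : ∀ Q ∈ C, ord Q f = p * (D (τ.symm (τ.symm Q)) - 2 * D (τ.symm Q) + D Q))
    (hfV : ∀ i, (V i).valuation f = 1)
    (hg0 : g ≠ 0) (hgC : ∀ Q ∈ C, ord Q g = 0) (hgV : ∀ i, (V i).valuation g = 1) :
    ∃ η : F, η ≠ 0 ∧
      (∃ a r : R, a ∉ 𝔫 ∧ r ∉ 𝔫 ∧ f * algebraMap R F a = η ^ p * algebraMap R F r) ∧
      ∃ w ∈ iInfSubring V, η - g = π * w := by
  classical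
  set t : F := ∏ P ∈ S, sd σ (b P) ^ D P with ht
  have htPU : ∀ i, IsPU (V i) t := fun i =>
    isPU_prod_zpow S _ _ fun P hP => isPU_sd σ (hval i) (htriv i) (hb0 P hP)
  have ht0 : t ≠ 0 := Finset.prod_ne_zero_iff.2 fun P hP =>
    zpow_ne_zero _ (sd_ne_zero σ (hb0 P hP))
  have htC : ∀ Q ∈ C, ord Q t = D (τ.symm (τ.symm Q)) - 2 * D (τ.symm Q) + D Q := fun Q hQ =>
    ord_prod_sd hord hτ C hC S D hD b hb0 hb1 hb2 hQ
  have hη0 : g * t ≠ 0 := mul_ne_zero hg0 ht0
  have hηV : ∀ i, (V i).valuation (g * t) = 1 := fun i => by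
    rw [map_mul, hgV i, (htPU i).valuation_eq_one, one_mul]
  refine ⟨g * t, hη0, ?_, ?_⟩
  · have hηp0 : (g * t) ^ p ≠ 0 := pow_ne_zero p hη0
    obtain ⟨a, r, ha, hr, har⟩ := hcrit (f / (g * t) ^ p) (div_ne_zero hf0 hηp0)
      (fun Q hQ => by
        rw [hord.div Q hf0 hηp0, hord.pow Q hη0, hord Q hg0 ht0, hgC Q hQ, htC Q hQ, hfC Q hQ]
        ring)
      (fun i => by
        rw [map_div₀, map_pow, hηV i, one_pow, div_one, hfV i])
    refine ⟨a, r, ha, hr, ?_⟩
    rw [← har]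
    field_simp
  · obtain ⟨w, hw, hw1⟩ := exists_eq_mul_of_isPU V hπ0 hπ htPU
    refine ⟨g * w, ?_, ?_⟩
    · refine (iInfSubring V).mul_mem ((mem_iInfSubring V _).2 fun i => ?_) hw
      exact ((V i).valuation_le_one_iff g).1 (hgV i).le
    · calc g * t - g = g * (t - 1) := by ring
        _ = π * (g * w) := by rw [hw1]; ring

end Glue

section Roots

variable {V : ValuationSubring F}

/-- If `x ^ q ≡ d ^ q` modulo the maximal ideal of `V` and `ζ` is a primitive `q`-th root of unity,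
then `x ≡ ζ ^ j d` for some `j`: a function whose `q`-th power has constant residue has constant
residue. -/
theorem exists_pow_mul_congr {q : ℕ} (hq : 0 < q) {ζ : F} (hζ : IsPrimitiveRoot ζ q) {x d : F}
    (h : V.valuation (x ^ q - d ^ q) < 1) :
    ∃ j : ℕ, j < q ∧ V.valuation (x - ζ ^ j * d) < 1 := by
  classical
  have : NeZero q := ⟨hq.ne'⟩
  have hprod : x ^ q - d ^ q = ∏ μ ∈ Polynomial.nthRootsFinset q (1 : F), (x - μ * d) :=
    hζ.pow_sub_pow_eq_prod_sub_mul x d hq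
  rw [hprod, map_prod] at h
  by_contra hcon
  have hcon : ∀ j : ℕ, j < q → 1 ≤ V.valuation (x - ζ ^ j * d) := fun j hj =>
    not_lt.1 fun hlt => hcon ⟨j, hj, hlt⟩
  have hall : ∀ μ ∈ Polynomial.nthRootsFinset q (1 : F), 1 ≤ V.valuation (x - μ * d) := by
    intro μ hμ
    rw [Polynomial.mem_nthRootsFinset hq] at hμ
    obtain ⟨j, hj, hjμ⟩ := hζ.eq_pow_of_pow_eq_one hμ
    rw [← hjμ]
    exact hcon j hj
  have : 1 ≤ ∏ μ ∈ Polynomial.nthRootsFinset q (1 : F), V.valuation (x - μ * d) :=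
    Finset.one_le_prod' hall
  exact absurd h (not_lt.2 this)

end Roots

end Fermat.Agent.P3G.SecondDiff
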