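/-
P3-G blocks (G-L) + (G-C): **the abstract assembly** — from local data at every closed point of the
special fibre to the non-existence of the cyclic cover.

`no_split_secondDiff` (setting of `P3G.Cover.Main.no_split_cover`: `O` a DVR, `K₀ = Frac O`, `F₀` a
function field over `K₀`, charts `R± = chartAlg O F₀ {j^{±1}}`, `V i` the valuation rings of the vertical
components, `W = ⋂ V i`): let `f ∈ F₀ˣ` be such that

* `X ^ p - f` is irreducible over `F₀` and `K₀` is algebraically closed in `F₀(f^{1/p})`;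
* `f` is a unit with CONSTANT residue `δ i ∈ Oˣ` on every vertical component (`exists_residue_const`
  produces this normalisation from `f ^ q = c₀ · sd σ f₀`);
* the horizontal divisor of `f` is `p · (τ − 1)² D` (`τ` = the action of `σ` on the places);
* every maximal ideal `𝔫 ∋ π` of `R₊` and of `R₋` carries `LocData`: the set `C` of places centred at
  `𝔫`, local equations `b P` of the finitely many points `P ∈ S` of `D` centred at `𝔫` (Loc-P), the set
  `I` of vertical components through `𝔫`, and the unit criterion (`crit`).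

Then `False`.  No connectedness input and no existence of crossing points is needed: if two components
meet at `𝔫` their residue constants agree (`LocData.const_congr`), and at points on one component the
weak form of the local hypothesis is used.

Other exports: `VertData`, `LocData`, `tfun`, `exists_localRoot_of_locData`, `exists_unit_mul_zpow`,
`exists_approx_idem`, `idem_fin_two`.
-/
import Mathlib
import Fermat.Agent.P3G.Cover.Main
import Fermat.Agent.P3G.SecondDiff

set_option autoImplicit false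

namespace Fermat.Agent.P3G.LocalRoots

open Fermat.Agent.P3G.Cover.OfValuations Fermat.Agent.P3G.Cover.Lift Fermat.Agent.P3G.SecondDiff
  Fermat.Agent.N4.Chart

universe u

section Local

variable {F : Type*} [Field F] {ι : Type*} {Pl : Type*}

/-- Global vertical data: the valuation rings `V i` of the vertical components, a common uniformiser
`π`, an automorphism `σ` preserving the valuations and trivial on the residue fields, and approximate
idempotents of `W = ⋂ V i`. -/
structure VertData (V : ι → ValuationSubring F) (π : F) (σ : F ≃+* F) : Prop where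
  pi_ne : π ≠ 0
  pi_lt : ∀ i, (V i).valuation π < 1
  pi_gen : ∀ i x, (V i).valuation x < 1 → (V i).valuation x ≤ (V i).valuation π
  hval : ∀ i b, (V i).valuation (σ b) = (V i).valuation b
  htriv : ∀ i, ∀ x ∈ V i, σ x - x ∈ (V i).nonunits
  idem : ∀ i, ∃ e ∈ iInfSubring V, (V i).valuation (e - 1) < 1 ∧
    ∀ j, j ≠ i → (V j).valuation e < 1

/-- Local data at a closed point `𝔫` of the special fibre of a chart `R`:
`C` = the places centred at `𝔫`, `S` = the rational places in the support of `D` centred at `𝔫`,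
`b P` = local equations (Loc-P), `I` = the components through `𝔫`, and the unit criterion. -/
structure LocData (V : ι → ValuationSubring F) (ord : Pl → F → ℤ) (τ : Equiv.Perm Pl) (D : Pl → ℤ)
    {R : Type*} [CommRing R] [Algebra R F] (𝔫 : Ideal R)
    (C : Set Pl) (S : Finset Pl) (b : Pl → F) (I : Set ι) : Prop where
  stable : ∀ Q ∈ C, τ.symm Q ∈ C
  supp : ∀ P ∈ C, P ∉ S → D P = 0
  b_ne : ∀ P ∈ S, b P ≠ 0
  b_one : ∀ P ∈ S, ord P (b P) = 1
  b_zero : ∀ P ∈ S, ∀ Q ∈ C, Q ≠ P → ord Q (b P) = 0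
  comp : ∀ i, i ∈ I ↔ ∀ r : R, algebraMap R F r ∈ (V i).nonunits → r ∈ 𝔫
  crit : ∀ x : F, x ≠ 0 → (∀ Q ∈ C, ord Q x = 0) → (∀ i ∈ I, (V i).valuation x = 1) →
    ∃ a r : R, a ∉ 𝔫 ∧ r ∉ 𝔫 ∧ x * algebraMap R F a = algebraMap R F r

variable {V : ι → ValuationSubring F} {ord : Pl → F → ℤ} {τ : Equiv.Perm Pl} {D : Pl → ℤ}
  {R : Type*} [CommRing R] [Algebra R F] {𝔫 : Ideal R} {C : Set Pl} {S : Finset Pl} {b : Pl → F}
  {I : Set ι} {π : F} {σ : F ≃+* F}

/-- The local function `t_𝔫`. -/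
noncomputable def tfun (σ : F ≃+* F) (D : Pl → ℤ) (S : Finset Pl) (b : Pl → F) : F :=
  ∏ P ∈ S, sd σ (b P) ^ D P

theorem LocData.isPU_tfun (L : LocData V ord τ D 𝔫 C S b I) (hV : VertData V π σ) (i : ι) :
    IsPU (V i) (tfun σ D S b) :=
  isPU_prod_zpow S _ _ fun P hP => isPU_sd σ (hV.hval i) (hV.htriv i) (L.b_ne P hP)

theorem LocData.tfun_ne_zero (L : LocData V ord τ D 𝔫 C S b I) : tfun σ D S b ≠ 0 :=
  Finset.prod_ne_zero_iff.2 fun P hP => zpow_ne_zero _ (sd_ne_zero σ (L.b_ne P hP))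

theorem LocData.ord_tfun (L : LocData V ord τ D 𝔫 C S b I) (hord : OrdMul ord)
    (hτ : Compat ord σ τ) {Q : Pl} (hQ : Q ∈ C) :
    ord Q (tfun σ D S b) = D (τ.symm (τ.symm Q)) - 2 * D (τ.symm Q) + D Q :=
  ord_prod_sd hord hτ C L.stable S D L.supp b L.b_ne L.b_one L.b_zero hQ

/-- **The residue constants of `f` on two components through the same point agree.** -/
theorem LocData.const_congr (L : LocData V ord τ D 𝔫 C S b I) (h𝔫 : 𝔫.IsPrime)
    (hV : VertData V π σ) (hord : OrdMul ord) (hτ : Compat ord σ τ)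
    (hRV : ∀ i (r : R), algebraMap R F r ∈ V i)
    {p : ℕ} {f : F} (hf0 : f ≠ 0)
    (hfC : ∀ Q ∈ C, ord Q f = p * (D (τ.symm (τ.symm Q)) - 2 * D (τ.symm Q) + D Q))
    (hfV : ∀ i ∈ I, (V i).valuation f = 1)
    {δ : ι → R} (hfδ : ∀ i ∈ I, (V i).valuation (f - algebraMap R F (δ i)) < 1)
    {i i' : ι} (hi : i ∈ I) (hi' : i' ∈ I) : δ i - δ i' ∈ 𝔫 := by
  set t := tfun σ D S b with ht
  have ht0 : t ≠ 0 := L.tfun_ne_zero
  have htp0 : t ^ p ≠ 0 := pow_ne_zero p ht0
  have htPU : ∀ k, IsPU (V k) (t ^ p) := fun k => (L.isPU_tfun hV k).pow p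
  obtain ⟨a, r, ha, -, har⟩ := L.crit (f / t ^ p) (div_ne_zero hf0 htp0)
    (fun Q hQ => by
      rw [hord.div Q hf0 htp0, hord.pow Q ht0, L.ord_tfun hord hτ hQ, hfC Q hQ]
      ring)
    (fun k hk => by
      rw [map_div₀, (htPU k).valuation_eq_one, div_one, hfV k hk])
  -- `r - δ k * a ∈ 𝔫` for `k ∈ I`
  have key : ∀ k ∈ I, r - δ k * a ∈ 𝔫 := by
    intro k hk
    apply (L.comp k).1 hk
    rw [(V k).mem_nonunits_iff, map_sub, map_mul, ← har]
    have h1 : f / t ^ p * algebraMap R F a - algebraMap R F (δ k) * algebraMap R F a =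
        ((f - algebraMap R F (δ k)) - algebraMap R F (δ k) * (t ^ p - 1)) * (t ^ p)⁻¹ *
          algebraMap R F a := by
      field_simp
      ring
    rw [h1, map_mul, map_mul, map_inv₀, (htPU k).valuation_eq_one, inv_one, mul_one]
    refine mul_lt_one_of_lt_of_le ?_ ((V k).valuation_le_one_iff _ |>.2 (hRV k a))
    refine lt_of_le_of_lt (Valuation.map_sub _ _ _) (max_lt (hfδ k hk) ?_)
    rw [map_mul, mul_comm]
    exact mul_lt_one_of_lt_of_le (htPU k) ((V k).valuation_le_one_iff _ |>.2 (hRV k _))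
  have h2 : (δ i - δ i') * a ∈ 𝔫 := by
    have : (δ i - δ i') * a = (r - δ i' * a) - (r - δ i * a) := by ring
    rw [this]
    exact 𝔫.sub_mem (key i' hi') (key i hi)
  exact (h𝔫.mem_or_mem h2).resolve_right ha

end Local

section Idem

variable {F : Type*} [Field F]

/-- Approximate idempotent for two incomparable valuation rings: `e ≡ 1` on `V₁`, `e ≡ 0` on `V₂`. -/
theorem exists_approx_idem (V₁ V₂ : ValuationSubring F) {x y : F} (hx₁ : x ∈ V₁) (hx₂ : x ∉ V₂)
    (hy₂ : y ∈ V₂) (hy₁ : y ∉ V₁) :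
    ∃ e : F, e ∈ V₁ ∧ e ∈ V₂ ∧ V₁.valuation (e - 1) < 1 ∧ V₂.valuation e < 1 := by
  have hy0 : y ≠ 0 := fun h0 => hy₁ (h0 ▸ V₁.zero_mem)
  have h1x : V₁.valuation x ≤ 1 := (V₁.valuation_le_one_iff x).2 hx₁
  have h2x : 1 < V₂.valuation x := by
    rw [← not_le, V₂.valuation_le_one_iff]; exact hx₂
  have h2y : V₂.valuation y ≤ 1 := (V₂.valuation_le_one_iff y).2 hy₂
  have h1y : 1 < V₁.valuation y := by
    rw [← not_le, V₁.valuation_le_one_iff]; exact hy₁
  set w : F := x * y⁻¹ with hw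
  have hw1 : V₁.valuation w < 1 := by
    rw [hw, map_mul, map_inv₀, mul_comm]
    refine mul_lt_one_of_lt_of_le ?_ h1x
    exact inv_lt_one_of_one_lt₀ h1y
  have hw2 : 1 < V₂.valuation w := by
    rw [hw, map_mul, map_inv₀]
    have hvy0 : V₂.valuation y ≠ 0 := (map_ne_zero _).2 hy0
    have h3 : 1 ≤ (V₂.valuation y)⁻¹ := (one_le_inv₀ (zero_lt_iff.2 hvy0)).2 h2y
    calc (1 : V₂.ValueGroup) < V₂.valuation x := h2x
      _ = V₂.valuation x * 1 := (mul_one _).symm
      _ ≤ V₂.valuation x * (V₂.valuation y)⁻¹ := by gcongr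
  have hv1 : V₁.valuation (1 + w) = 1 := Valuation.map_one_add_of_lt _ hw1
  have hv2 : V₂.valuation (1 + w) = V₂.valuation w := by
    rw [add_comm]
    exact Valuation.map_add_eq_of_lt_left _ (by rw [map_one]; exact hw2)
  have h1w0 : (1 + w) ≠ 0 := by
    intro h0
    rw [h0, map_zero] at hv1
    exact zero_ne_one hv1
  refine ⟨(1 + w)⁻¹, ?_, ?_, ?_, ?_⟩
  · rw [← V₁.valuation_le_one_iff, map_inv₀, hv1, inv_one]
  · rw [← V₂.valuation_le_one_iff, map_inv₀, hv2]
    exact (inv_lt_one_of_one_lt₀ hw2).le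
  · have h4 : (1 + w)⁻¹ - 1 = -(w * (1 + w)⁻¹) := by field_simp; ring
    rw [h4, Valuation.map_neg, map_mul, map_inv₀, hv1, inv_one, mul_one]
    exact hw1
  · rw [map_inv₀, hv2]
    exact inv_lt_one_of_one_lt₀ hw2

/-- The approximate idempotents of `W = V 0 ∩ V 1` for two incomparable valuation rings. -/
theorem idem_fin_two (V : Fin 2 → ValuationSubring F) {x y : F} (hx₁ : x ∈ V 0) (hx₂ : x ∉ V 1)
    (hy₂ : y ∈ V 1) (hy₁ : y ∉ V 0) :
    ∀ i, ∃ e ∈ iInfSubring V, (V i).valuation (e - 1) < 1 ∧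
      ∀ j, j ≠ i → (V j).valuation e < 1 := by
  intro i
  fin_cases i
  · obtain ⟨e, h1, h2, h3, h4⟩ := exists_approx_idem (V 0) (V 1) hx₁ hx₂ hy₂ hy₁
    refine ⟨e, (mem_iInfSubring V e).2 (Fin.forall_fin_two.2 ⟨h1, h2⟩), h3, ?_⟩
    intro j hj
    fin_cases j
    · exact absurd rfl hj
    · exact h4
  · obtain ⟨e, h1, h2, h3, h4⟩ := exists_approx_idem (V 1) (V 0) hy₂ hy₁ hx₁ hx₂
    refine ⟨e, (mem_iInfSubring V e).2 (Fin.forall_fin_two.2 ⟨h2, h1⟩), h3, ?_⟩
    intro j hj
    fin_cases j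
    · exact h4
    · exact absurd rfl hj

end Idem

section Global

variable {O : Type*} [CommRing O] {F : Type*} [Field F] [Algebra O F]
  {ι : Type*} {V : ι → ValuationSubring F}

section

variable [IsLocalRing O]

/-- A `p`-th root function on the residue field, lifted to `O`; it depends only on the residue class. -/
noncomputable def rootLift {p : ℕ} (hroot : ∀ x : IsLocalRing.ResidueField O, ∃ y, y ^ p = x)
    (x : IsLocalRing.ResidueField O) : O :=
  Classical.choose (IsLocalRing.residue_surjective (Classical.choose (hroot x)))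

theorem residue_rootLift_pow {p : ℕ} (hroot : ∀ x : IsLocalRing.ResidueField O, ∃ y, y ^ p = x)
    (x : IsLocalRing.ResidueField O) : IsLocalRing.residue O (rootLift hroot x) ^ p = x := by
  unfold rootLift
  rw [Classical.choose_spec (IsLocalRing.residue_surjective (Classical.choose (hroot x)))]
  exact Classical.choose_spec (hroot x)

theorem isUnit_rootLift {p : ℕ} (hroot : ∀ x : IsLocalRing.ResidueField O, ∃ y, y ^ p = x)
    {x : IsLocalRing.ResidueField O} (hx : x ≠ 0) : IsUnit (rootLift hroot x) := by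
  rw [← IsLocalRing.residue_ne_zero_iff_isUnit]
  intro h0
  have := residue_rootLift_pow hroot x
  rw [h0] at this
  by_cases hp : p = 0
  · subst hp
    -- `y ^ 0 = 1 = x`: fine, `x = 1`, but `residue = 0` contradicts nothing; use `hroot 0`
    obtain ⟨y, hy⟩ := hroot (0 : IsLocalRing.ResidueField O)
    rw [pow_zero] at hy
    exact one_ne_zero hy
  · rw [zero_pow hp] at this
    exact hx this.symm

theorem pow_rootLift_sub_mem {p : ℕ} (hroot : ∀ x : IsLocalRing.ResidueField O, ∃ y, y ^ p = x)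
    (a : O) : rootLift hroot (IsLocalRing.residue O a) ^ p - a ∈ IsLocalRing.maximalIdeal O := by
  rw [← IsLocalRing.residue_eq_zero_iff, map_sub, map_pow, residue_rootLift_pow, sub_self]

end

/-- Units of `O` have valuation one. -/
theorem valuation_algebraMap_unit (hOV : ∀ i (a : O), algebraMap O F a ∈ V i) (i : ι) {a : O}
    (ha : IsUnit a) : (V i).valuation (algebraMap O F a) = 1 := by
  obtain ⟨u, rfl⟩ := ha
  have h1 : (V i).valuation (algebraMap O F (u : O)) ≤ 1 :=
    ((V i).valuation_le_one_iff _).2 (hOV i _)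
  have h2 : (V i).valuation (algebraMap O F ((u⁻¹ : Oˣ) : O)) ≤ 1 :=
    ((V i).valuation_le_one_iff _).2 (hOV i _)
  have h3 : (V i).valuation (algebraMap O F (u : O)) *
      (V i).valuation (algebraMap O F ((u⁻¹ : Oˣ) : O)) = 1 := by
    rw [← map_mul, ← map_mul, Units.mul_inv, map_one, map_one]
  refine le_antisymm h1 ?_
  calc (1 : (V i).ValueGroup) = (V i).valuation (algebraMap O F (u : O)) *
        (V i).valuation (algebraMap O F ((u⁻¹ : Oˣ) : O)) := h3.symm
    _ ≤ (V i).valuation (algebraMap O F (u : O)) * 1 := by gcongr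
    _ = _ := mul_one _

variable {π : F} {σ : F ≃+* F} [Fintype ι]

/-- The global approximate `p`-th root `g = ∑ γ_i e_i`. -/
noncomputable def gfun (hV : VertData V π σ) (γ : ι → O) : F :=
  ∑ i, algebraMap O F (γ i) * Classical.choose (hV.idem i)

theorem valuation_gfun_sub_lt (hV : VertData V π σ) (hOV : ∀ i (a : O), algebraMap O F a ∈ V i)
    (γ : ι → O) (i : ι) : (V i).valuation (gfun hV γ - algebraMap O F (γ i)) < 1 := by
  classical
  have hspec := fun k => Classical.choose_spec (hV.idem k)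
  have h1 : gfun hV γ - algebraMap O F (γ i) =
      algebraMap O F (γ i) * (Classical.choose (hV.idem i) - 1) +
        ∑ k ∈ Finset.univ.erase i, algebraMap O F (γ k) * Classical.choose (hV.idem k) := by
    unfold gfun
    rw [← Finset.add_sum_erase Finset.univ _ (Finset.mem_univ i)]
    ring
  rw [h1]
  refine lt_of_le_of_lt (Valuation.map_add _ _ _) (max_lt ?_ ?_)
  · rw [map_mul, mul_comm]
    exact mul_lt_one_of_lt_of_le (hspec i).2.1 (((V i).valuation_le_one_iff _).2 (hOV i _))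
  · refine Valuation.map_sum_lt _ one_ne_zero fun k hk => ?_
    rw [map_mul, mul_comm]
    exact mul_lt_one_of_lt_of_le ((hspec k).2.2 i (Finset.ne_of_mem_erase hk).symm)
      (((V i).valuation_le_one_iff _).2 (hOV i _))

theorem valuation_gfun (hV : VertData V π σ) (hOV : ∀ i (a : O), algebraMap O F a ∈ V i)
    {γ : ι → O} (hγ : ∀ i, IsUnit (γ i)) (i : ι) : (V i).valuation (gfun hV γ) = 1 := by
  have h1 := valuation_gfun_sub_lt hV hOV γ i
  have h2 := valuation_algebraMap_unit hOV i (hγ i)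
  have h3 : gfun hV γ = algebraMap O F (γ i) + (gfun hV γ - algebraMap O F (γ i)) := by ring
  rw [h3, Valuation.map_add_eq_of_lt_left _ (by rw [h2]; exact h1), h2]

end Global

section Wrapper

variable {O : Type*} [CommRing O] [IsLocalRing O] {F : Type*} [Field F] [Algebra O F]
  {ι : Type*} [Fintype ι] {V : ι → ValuationSubring F} {Pl : Type*} {ord : Pl → F → ℤ}
  {τ : Equiv.Perm Pl} {D : Pl → ℤ} {σ : F ≃+* F}
  {R : Type*} [CommRing R] [Algebra O R] [Algebra R F] [IsScalarTower O R F]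

/-- The `p`-th roots `γ i` of the residue constants `δ i`. -/
noncomputable def gam {p : ℕ} (hroot : ∀ x : IsLocalRing.ResidueField O, ∃ y, y ^ p = x)
    (δ : ι → O) (i : ι) : O := rootLift hroot (IsLocalRing.residue O (δ i))

theorem isUnit_gam {p : ℕ} (hroot : ∀ x : IsLocalRing.ResidueField O, ∃ y, y ^ p = x)
    {δ : ι → O} (hδ : ∀ i, IsUnit (δ i)) (i : ι) : IsUnit (gam hroot δ i) :=
  isUnit_rootLift hroot ((IsLocalRing.residue_ne_zero_iff_isUnit _).2 (hδ i))

/-- **The local root at a closed point from its local data**, in the weak form of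
`Cover.Main.no_split_cover`, for the global `g = gfun hV (gam hroot δ)`. -/
theorem exists_localRoot_of_locData {ϖ : O} (hV : VertData V (algebraMap O F ϖ) σ)
    (hOV : ∀ i (a : O), algebraMap O F a ∈ V i)
    (hRV : ∀ i (r : R), algebraMap R F r ∈ V i)
    (hord : OrdMul ord) (hτ : Compat ord σ τ)
    (hconst : ∀ a : O, a ≠ 0 → ∀ Q, ord Q (algebraMap O F a) = 0)
    {p : ℕ} (hroot : ∀ x : IsLocalRing.ResidueField O, ∃ y, y ^ p = x)
    {f : F} (hf0 : f ≠ 0) {δ : ι → O} (hδ : ∀ i, IsUnit (δ i))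
    (hfδ : ∀ i, (V i).valuation (f - algebraMap O F (δ i)) < 1)
    (hfD : ∀ Q, ord Q f = p * (D (τ.symm (τ.symm Q)) - 2 * D (τ.symm Q) + D Q))
    (𝔫 : Ideal R) (h𝔫 : 𝔫.IsPrime) {C : Set Pl} {S : Finset Pl} {b : Pl → F} {I : Set ι}
    (L : LocData V ord τ D 𝔫 C S b I) :
    ∃ η : F, η ≠ 0 ∧
      (∃ a r : R, a ∉ 𝔫 ∧ r ∉ 𝔫 ∧ f * algebraMap R F a = η ^ p * algebraMap R F r) ∧
      ∃ c : R, c ∉ 𝔫 ∧ ∀ k : ℕ, ∃ w ∈ iInfSubring V,
        algebraMap R F c * ((η⁻¹) ^ k - ((gfun hV (gam hroot δ))⁻¹) ^ k) =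
          algebraMap O F ϖ * w := by
  classical
  have hfV : ∀ i, (V i).valuation f = 1 := fun i => by
    have h2 := valuation_algebraMap_unit hOV i (hδ i)
    have h3 : f = algebraMap O F (δ i) + (f - algebraMap O F (δ i)) := by ring
    rw [h3, Valuation.map_add_eq_of_lt_left _ (by rw [h2]; exact hfδ i), h2]
  have hγu := isUnit_gam hroot hδ
  -- residue constants agree on `I`
  have hδI : ∀ i ∈ I, ∀ i' ∈ I, IsLocalRing.residue O (δ i) = IsLocalRing.residue O (δ i') := by
    intro i hi i' hi'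
    have h1 : algebraMap O R (δ i) - algebraMap O R (δ i') ∈ 𝔫 :=
      L.const_congr h𝔫 hV hord hτ hRV hf0 (fun Q _ => hfD Q) (fun k _ => hfV k)
        (δ := fun k => algebraMap O R (δ k))
        (fun k _ => by rw [← IsScalarTower.algebraMap_apply]; exact hfδ k) hi hi'
    rw [← sub_eq_zero, ← map_sub, IsLocalRing.residue_eq_zero_iff]
    by_contra hnot
    have hu : IsUnit (δ i - δ i') := by
      by_contra hnu
      exact hnot ((IsLocalRing.mem_maximalIdeal _).2 hnu)
    rw [← map_sub] at h1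
    exact h𝔫.ne_top (Ideal.eq_top_of_isUnit_mem _ h1 (hu.map (algebraMap O R)))
  have hγI : ∀ i ∈ I, ∀ i' ∈ I, gam hroot δ i = gam hroot δ i' := by
    intro i hi i' hi'
    unfold gam
    rw [hδI i hi i' hi']
  -- the constant `d`
  obtain ⟨d, hdu, hdI⟩ : ∃ d : O, IsUnit d ∧ ∀ i ∈ I, gam hroot δ i = d := by
    by_cases hne : I.Nonempty
    · obtain ⟨i₀, hi₀⟩ := hne
      exact ⟨gam hroot δ i₀, hγu i₀, fun i hi => hγI i hi i₀ hi₀⟩
    · rw [Set.not_nonempty_iff_eq_empty] at hne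
      exact ⟨1, isUnit_one, fun i hi => by rw [hne] at hi; exact absurd hi (Set.notMem_empty i)⟩
  -- the element `c`
  have hcc : ∀ i, ∃ r : R, r ∉ 𝔫 ∧ (i ∉ I → (V i).valuation (algebraMap R F r) < 1) := by
    intro i
    by_cases hi : i ∈ I
    · exact ⟨1, fun h1 => h𝔫.ne_top ((Ideal.eq_top_iff_one _).2 h1), fun h => absurd hi h⟩
    · have := (L.comp i).not.1 hi
      rw [not_forall] at this
      obtain ⟨r, hr⟩ := this
      rw [Classical.not_imp] at hr
      exact ⟨r, hr.2, fun _ => (V i).mem_nonunits_iff.1 hr.1⟩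
  choose cc hcc1 hcc2 using hcc
  have hc𝔫 : ∏ i, cc i ∉ 𝔫 := by
    intro hmem
    obtain ⟨i, -, hi⟩ := (h𝔫.prod_mem_iff).1 hmem
    exact hcc1 i hi
  have hd0 : algebraMap O F d ≠ 0 := (hdu.map (algebraMap O F)).ne_zero
  have hd00 : d ≠ 0 := hdu.ne_zero
  have hγ0 := hγu
  refine exists_localRoot_weak V 𝔫 hV.pi_ne hV.pi_gen σ hV.hval hV.htriv hord hτ C L.stable S D
    L.supp b L.b_ne L.b_one L.b_zero I L.crit hf0 (fun Q _ => hfD Q) (fun i _ => hfV i) hd0
    (fun Q _ => hconst d hd00 Q) (fun i => valuation_algebraMap_unit hOV i hdu)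
    (fun i => valuation_gfun hV hOV hγu i) (fun i hi => ?_) (∏ i, cc i) hc𝔫 (fun i => hRV i _)
    (fun i hi => ?_)
  · rw [← hdI i hi]
    exact valuation_gfun_sub_lt hV hOV _ i
  · rw [← Finset.mul_prod_erase Finset.univ cc (Finset.mem_univ i), map_mul, map_mul]
    exact mul_lt_one_of_lt_of_le (hcc2 i hi) (((V i).valuation_le_one_iff _).2 (hRV i _))

end Wrapper

section Normalise

variable {O K₀ : Type*} [CommRing O] [IsDomain O] [IsDiscreteValuationRing O]
  [Field K₀] [Algebra O K₀] [IsFractionRing O K₀]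
variable {F₀ : Type*} [Field F₀] [Algebra K₀ F₀] [Algebra O F₀] [IsScalarTower O K₀ F₀]
variable {ι : Type*}

/-- Every nonzero element of the fraction field of a discrete valuation ring is a unit times an
integer power of the uniformiser. -/
theorem exists_unit_mul_zpow {π : O} (hπ : Irreducible π) {c : K₀} (hc : c ≠ 0) :
    ∃ (u : Oˣ) (m : ℤ), c = algebraMap O K₀ u * algebraMap O K₀ π ^ m := by
  obtain ⟨a, b, hb, hab⟩ := IsFractionRing.div_surjective (A := O) c
  have hb0 : b ≠ 0 := nonZeroDivisors.ne_zero hb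
  have ha0 : a ≠ 0 := by
    rintro rfl
    rw [map_zero, zero_div] at hab
    exact hc hab.symm
  obtain ⟨n₁, u₁, h₁⟩ := IsDiscreteValuationRing.eq_unit_mul_pow_irreducible ha0 hπ
  obtain ⟨n₂, u₂, h₂⟩ := IsDiscreteValuationRing.eq_unit_mul_pow_irreducible hb0 hπ
  have hπK : algebraMap O K₀ π ≠ 0 := by
    rw [Ne, map_eq_zero_iff _ (IsFractionRing.injective O K₀)]
    exact hπ.ne_zero
  have hu₂ : algebraMap O K₀ (u₂ : O) ≠ 0 := by
    rw [Ne, map_eq_zero_iff _ (IsFractionRing.injective O K₀)]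
    exact u₂.ne_zero
  refine ⟨u₁ * u₂⁻¹, (n₁ : ℤ) - n₂, ?_⟩
  rw [← hab, h₁, h₂, zpow_sub₀ hπK, zpow_natCast, zpow_natCast, map_mul, map_mul, map_pow, map_pow,
    Units.val_mul, map_mul]
  have h3 : algebraMap O K₀ ((u₂⁻¹ : Oˣ) : O) = (algebraMap O K₀ (u₂ : O))⁻¹ := by
    apply eq_inv_of_mul_eq_one_left
    rw [← map_mul, Units.inv_mul, map_one]
  rw [h3]
  field_simp

/-- **Vertical normalisation.**  If `f ^ q = c₀ · h` with `c₀` a nonzero constant and `h` a principal
unit at every vertical component, then after division by a power of the uniformiser `f` has a CONSTANT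
unit residue on each vertical component. -/
theorem exists_residue_const {π : O} (hπ : Irreducible π) (V : ι → ValuationSubring F₀)
    (hOV : ∀ i (a : O), algebraMap O F₀ a ∈ V i)
    (hπlt : ∀ i, (V i).valuation (algebraMap O F₀ π) < 1)
    (hdisc : ∀ i (b : F₀), b ≠ 0 →
      ∃ n : ℤ, (V i).valuation b = (V i).valuation (algebraMap O F₀ π) ^ n)
    {q : ℕ} (hq : 0 < q) {ζ : O} (hζ : IsPrimitiveRoot ζ q)
    (hroot : ∀ x : IsLocalRing.ResidueField O, ∃ y, y ^ q = x)
    {f h : F₀} {c₀ : K₀} (hc₀ : c₀ ≠ 0) (hf0 : f ≠ 0)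
    (hfh : f ^ q = algebraMap K₀ F₀ c₀ * h) (hh : ∀ i, IsPU (V i) h) :
    ∃ (a : ℤ) (δ : ι → O), (∀ i, IsUnit (δ i)) ∧
      ∀ i, (V i).valuation (f / algebraMap O F₀ π ^ a - algebraMap O F₀ (δ i)) < 1 := by
  classical
  obtain ⟨u, m, hum⟩ := exists_unit_mul_zpow (K₀ := K₀) hπ hc₀
  have hinjO : Function.Injective (algebraMap O F₀) := by
    rw [IsScalarTower.algebraMap_eq O K₀ F₀]
    exact (algebraMap K₀ F₀).injective.comp (IsFractionRing.injective O K₀)
  set ϖ : F₀ := algebraMap O F₀ π with hϖ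
  have hϖ0 : ϖ ≠ 0 := by
    rw [hϖ, Ne, map_eq_zero_iff _ hinjO]
    exact hπ.ne_zero
  have hc₀F : algebraMap K₀ F₀ c₀ = algebraMap O F₀ u * ϖ ^ m := by
    rw [hum, map_mul, map_zpow₀, ← IsScalarTower.algebraMap_apply,
      ← IsScalarTower.algebraMap_apply]
  set a : ℤ := m / q with ha
  set d : O := rootLift hroot (IsLocalRing.residue O (u : O)) with hd
  have hdu : IsUnit d :=
    isUnit_rootLift hroot ((IsLocalRing.residue_ne_zero_iff_isUnit _).2 u.isUnit)
  have hdq : d ^ q - (u : O) ∈ IsLocalRing.maximalIdeal O := pow_rootLift_sub_mem hroot _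
  have hOm : ∀ i (x : O), x ∈ IsLocalRing.maximalIdeal O →
      (V i).valuation (algebraMap O F₀ x) < 1 := by
    intro i x hx
    rw [hπ.maximalIdeal_eq, Ideal.mem_span_singleton] at hx
    obtain ⟨c, rfl⟩ := hx
    rw [map_mul, map_mul]
    exact mul_lt_one_of_lt_of_le (hπlt i) (((V i).valuation_le_one_iff _).2 (hOV i c))
  have hζF : IsPrimitiveRoot (algebraMap O F₀ ζ) q := hζ.map_of_injective hinjO
  have key : ∀ i, ∃ δ : O, IsUnit δ ∧
      (V i).valuation (f / ϖ ^ a - algebraMap O F₀ δ) < 1 := by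
    intro i
    have hvϖ0 : (V i).valuation ϖ ≠ 0 := (map_ne_zero _).2 hϖ0
    obtain ⟨ai, hai⟩ := hdisc i f hf0
    -- `q * ai = m`
    have hqa : (q : ℤ) * ai = m := by
      have h1 : (V i).valuation (f ^ q) = (V i).valuation ϖ ^ m := by
        rw [hfh, hc₀F, map_mul, map_mul, map_zpow₀, (hh i).valuation_eq_one, mul_one,
          valuation_algebraMap_unit hOV i u.isUnit, one_mul]
      rw [map_pow, hai, ← zpow_natCast, ← zpow_mul, mul_comm] at h1
      exact zpow_right_injective₀ (zero_lt_iff.2 hvϖ0) (hπlt i).ne h1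
    have haai : a = ai := by
      rw [ha, ← hqa]
      exact Int.mul_ediv_cancel_left _ (by exact_mod_cast hq.ne')
    -- `f' ^ q = u h`
    have hf'q : (f / ϖ ^ a) ^ q = algebraMap O F₀ u * h := by
      rw [div_pow, hfh, hc₀F, ← zpow_natCast (ϖ ^ a), ← zpow_mul, haai, mul_comm ai, hqa]
      field_simp
    have h2 : (V i).valuation ((f / ϖ ^ a) ^ q - (algebraMap O F₀ d) ^ q) < 1 := by
      have h3 : (f / ϖ ^ a) ^ q - (algebraMap O F₀ d) ^ q =
          algebraMap O F₀ u * (h - 1) - algebraMap O F₀ (d ^ q - (u : O)) := by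
        rw [hf'q, map_sub, map_pow]
        ring
      rw [h3]
      refine lt_of_le_of_lt (Valuation.map_sub _ _ _) (max_lt ?_ (hOm i _ hdq))
      rw [map_mul, valuation_algebraMap_unit hOV i u.isUnit, one_mul]
      exact hh i
    obtain ⟨k, -, hk⟩ := exists_pow_mul_congr hq hζF h2
    refine ⟨ζ ^ k * d, ((hζ.isUnit hq.ne').pow k).mul hdu, ?_⟩
    rw [map_mul, map_pow]
    exact hk
  choose δ hδ1 hδ2 using key
  exact ⟨a, δ, hδ1, hδ2⟩

end Normalise

section Final

open Polynomial IntermediateField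

variable {O K₀ : Type*} [CommRing O] [IsDomain O] [IsDiscreteValuationRing O]
  [Field K₀] [CharZero K₀] [Algebra O K₀] [IsFractionRing O K₀]
variable {F₀ : Type u} [Field F₀] [Algebra K₀ F₀] [Algebra O F₀] [IsScalarTower O K₀ F₀]
variable {F' : Type*} [Field F'] [Algebra F₀ F'] [Algebra K₀ F'] [Algebra O F']
  [IsScalarTower K₀ F₀ F'] [IsScalarTower O K₀ F'] [IsScalarTower O F₀ F']
variable {ι : Type*} [Fintype ι] {Pl : Type*}

/-- **(G-L) + (G-C), abstract assembly.**  A function `f` whose horizontal divisor is `p` times a second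
difference `(τ − 1)² D`, which is a unit with CONSTANT residues `δ i` on the vertical components, and
such that every closed point of the special fibre of both charts carries local data (local equations
(Loc-P) of the points of `D` through it + the unit criterion), cannot define a geometrically
irreducible cyclic cover of degree `p`. -/
theorem no_split_secondDiff (j : F₀) (hj : Transcendental K₀ j) [FiniteDimensional K₀⟮j⟯ F₀]
    {π : O} (hπ : Irreducible π) (V : ι → ValuationSubring F₀)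
    [IsIntegrallyClosed (iInfSubring V)] [IsFractionRing (iInfSubring V) F₀]
    (hWp : IsSemiGaussRing (iInfSubring V) (algebraMap O (chartAlg O F₀ {j}) π))
    (hWm : IsSemiGaussRing (iInfSubring V) (algebraMap O (chartAlg O F₀ {j⁻¹}) π))
    {p : ℕ} (hp : p.Prime) (hpO : IsUnit ((p : ℕ) : O)) {ζ : O} (hζ : IsPrimitiveRoot ζ p)
    {f : F₀} (hf : f ≠ 0) {t : F'} (ht : t ^ p = algebraMap F₀ F' f) (htop : F₀⟮t⟯ = ⊤)
    (hirr : Irreducible (X ^ p - C f : F₀[X]))
    (halg : ∀ x : F', IsAlgebraic K₀ x → x ∈ (algebraMap K₀ F').range)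
    {σ : F₀ ≃+* F₀} (hV : VertData V (algebraMap O F₀ π) σ)
    (hroot : ∀ x : IsLocalRing.ResidueField O, ∃ y, y ^ p = x)
    {δ : ι → O} (hδ : ∀ i, IsUnit (δ i))
    (hfδ : ∀ i, (V i).valuation (f - algebraMap O F₀ (δ i)) < 1)
    {ord : Pl → F₀ → ℤ} {τ : Equiv.Perm Pl} {D : Pl → ℤ}
    (hord : OrdMul ord) (hτ : Compat ord σ τ)
    (hconst : ∀ a : O, a ≠ 0 → ∀ Q, ord Q (algebraMap O F₀ a) = 0)
    (hfD : ∀ Q, ord Q f = p * (D (τ.symm (τ.symm Q)) - 2 * D (τ.symm Q) + D Q))
    (hlocp : ∀ 𝔫 : Ideal (chartAlg O F₀ {j}), 𝔫.IsMaximal →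
      algebraMap O (chartAlg O F₀ {j}) π ∈ 𝔫 → ∃ C S b I, LocData V ord τ D 𝔫 C S b I)
    (hlocm : ∀ 𝔫 : Ideal (chartAlg O F₀ {j⁻¹}), 𝔫.IsMaximal →
      algebraMap O (chartAlg O F₀ {j⁻¹}) π ∈ 𝔫 → ∃ C S b I, LocData V ord τ D 𝔫 C S b I) :
    False := by
  have hOV : ∀ i (a : O), algebraMap O F₀ a ∈ V i := fun i a =>
    (mem_iInfSubring V _).1 (hWp.le (algebraMap O (chartAlg O F₀ {j}) a)) i
  have hRVp : ∀ i (r : chartAlg O F₀ {j}), algebraMap (chartAlg O F₀ {j}) F₀ r ∈ V i := fun i r =>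
    (mem_iInfSubring V _).1 (hWp.le r) i
  have hRVm : ∀ i (r : chartAlg O F₀ {j⁻¹}), algebraMap (chartAlg O F₀ {j⁻¹}) F₀ r ∈ V i :=
    fun i r => (mem_iInfSubring V _).1 (hWm.le r) i
  have hOm : ∀ i (a : O), a ∈ IsLocalRing.maximalIdeal O →
      (V i).valuation (algebraMap O F₀ a) < 1 := by
    intro i a ha
    rw [hπ.maximalIdeal_eq, Ideal.mem_span_singleton] at ha
    obtain ⟨c, rfl⟩ := ha
    rw [map_mul, map_mul]
    exact mul_lt_one_of_lt_of_le (hV.pi_lt i) (((V i).valuation_le_one_iff _).2 (hOV i c))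
  set γ := gam hroot δ with hγ
  have hγu : ∀ i, IsUnit (γ i) := isUnit_gam hroot hδ
  set g := gfun hV γ with hg
  have hgV : ∀ i, (V i).valuation g = 1 := valuation_gfun hV hOV hγu
  have hg0 : g ≠ 0 := by
    intro h0
    obtain ⟨i⟩ : Nonempty ι := by
      by_contra hne
      rw [not_nonempty_iff] at hne
      apply hWp.not_unit
      rw [mem_iInfSubring]
      exact fun i => (hne.false i).elim
    have := hgV i
    rw [h0, map_zero] at this
    exact zero_ne_one this
  have hgW : g ∈ iInfSubring V :=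
    (mem_iInfSubring V _).2 fun i => ((V i).valuation_le_one_iff _).1 (hgV i).le
  have hgiW : g⁻¹ ∈ iInfSubring V :=
    (mem_iInfSubring V _).2 fun i => by
      rw [← (V i).valuation_le_one_iff, map_inv₀, hgV i, inv_one]
  have hτ' : ∃ w₀ ∈ iInfSubring V, (g⁻¹) ^ p * f - 1 = algebraMap O F₀ π * w₀ := by
    apply exists_eq_mul_of_isPU V hV.pi_ne hV.pi_gen
    intro i
    unfold IsPU
    have h1 : (g⁻¹) ^ p * f - 1 =
        ((f - algebraMap O F₀ (δ i)) - (g ^ p - (algebraMap O F₀ (γ i)) ^ p) -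
          algebraMap O F₀ (γ i ^ p - δ i)) * (g⁻¹) ^ p := by
      have h2 : g ^ p * (g⁻¹) ^ p = 1 := by rw [← mul_pow, mul_inv_cancel₀ hg0, one_pow]
      rw [map_sub, map_pow]
      calc (g⁻¹) ^ p * f - 1 = (g⁻¹) ^ p * f - g ^ p * (g⁻¹) ^ p := by rw [h2]
        _ = _ := by ring
    rw [h1, map_mul, map_pow, map_inv₀, hgV i, inv_one, one_pow, mul_one]
    refine lt_of_le_of_lt (Valuation.map_sub _ _ _) (max_lt ?_ ?_)
    · refine lt_of_le_of_lt (Valuation.map_sub _ _ _) (max_lt (hfδ i) ?_)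
      exact valuation_pow_sub_pow_lt (hgV i).le (((V i).valuation_le_one_iff _).2 (hOV i _))
        (valuation_gfun_sub_lt hV hOV γ i) p
    · exact hOm i _ (pow_rootLift_sub_mem hroot (δ i))
  refine Fermat.Agent.P3G.Cover.Main.no_split_cover (K₀ := K₀) (F' := F') j hj hπ (iInfSubring V)
    hWp hWm hp hpO hζ hf ht htop hirr halg hg0 hgW hgiW hτ' ?_ ?_
  · intro 𝔫 h𝔫 hπ𝔫
    obtain ⟨C, S, b, I, L⟩ := hlocp 𝔫 h𝔫 hπ𝔫
    exact exists_localRoot_of_locData hV hOV hRVp hord hτ hconst hroot hf hδ hfδ hfD 𝔫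
      h𝔫.isPrime L
  · intro 𝔫 h𝔫 hπ𝔫
    obtain ⟨C, S, b, I, L⟩ := hlocm 𝔫 h𝔫 hπ𝔫
    exact exists_localRoot_of_locData hV hOV hRVm hord hτ hconst hroot hf hδ hfδ hfD 𝔫
      h𝔫.isPrime L

end Final

end Fermat.Agent.P3G.LocalRoots
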