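import Mathlib
import Fermat.Agent.N4.Cover.Globalize
import Fermat.Agent.S24.PlaceDict
import Fermat.Agent.N4F.C.LocalMult

/-!
# P3-G: Krull's intersection theorem for noetherian normal domains, DVR-primes and places

Generic commutative algebra for the local calculus of (G) (no completions, no dimension theory).
`S` is a noetherian domain with fraction field `F`; `locAt 𝔭 ⊆ F` is the localisation `S_𝔭`
(`Fermat.Agent.N4.Cover.Globalize.locAt`).  A prime `𝔭` is called a *DVR-prime* if `S_𝔭` is a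
discrete valuation ring.

* `col`, `exists_isPrime_col` : colon ideals `(b : a)`, existence of associated primes of `S / (b)`.
* `isDiscreteValuationRing_locAt_of_principal` (K6) : `𝔭 S_𝔭` principal and nonzero `⇒` DVR-prime.
* `isDiscreteValuationRing_locAt_col` (K0) : `S` normal, `(b : a')` prime `⇒` DVR-prime.
* `exists_algebraMap_eq_of_forall_mem_dvr` (K1) : `S` normal `⇒ S = ⋂ S_𝔭` over the DVR-primes;
  `exists_unit_of_forall_mem_dvr` (K1′) : unit form.
* `eq_of_le_of_dvr` (K4) : a DVR-prime is a minimal nonzero prime;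
  `isDiscreteValuationRing_locAt_of_minimal` (K5) : the converse for `S` normal.
* `vCentre`, `mem_valuationSubring_iff_mem_locAt` : a valuation ring `V ⊇ S` of `F` whose centre is a
  DVR-prime `𝔭` equals `S_𝔭`.
* `exists_place_of_dvr_prime` (K2) : a DVR-prime whose localisation contains the constants `K` is
  the centre of a place of `F / K` with valuation ring `S_𝔭`; `mem_valuationSubring_iff_of_centre`,
  `place_eq_of_centre_eq` : converse and uniqueness.
* (K3) over a discrete valuation ring `O` with uniformiser `ϖ`, `K = Frac O`, `S` normal: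
  `exists_algebraMap_eq_of_vertical_of_places`, `exists_algebraMap_eq_of_vertical_of_ord_nonneg`,
  `exists_unit_of_vertical_of_ord_eq_zero` : integrality / unit criterion from the vertical
  DVR-primes (those containing `ϖ`) and the places of `F / K` containing `S`;
  `exists_eq_vCentre_of_vertical`, `exists_algebraMap_eq_of_valuationSubrings`,
  `exists_unit_of_valuationSubrings` (K3-V) : the same with the vertical valuation rings given as a
  finite family `V i` such that `⋂ (𝔪_{V i} ∩ S) ⊆ ϖ S`.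
-/

set_option autoImplicit false
set_option linter.unusedSectionVars false
set_option linter.style.haveILetI false

namespace Fermat.Agent.P3G.Krull

open Fermat.Agent.N4.Cover.Globalize

section Colon

variable {S : Type*} [CommRing S]

/-- The colon ideal `(b : a') = {s | s * a' ∈ (b)}`. -/
def col (b a' : S) : Ideal S := Submodule.comap (LinearMap.mulRight S a') (Ideal.span {b})

theorem mem_col_iff {b a' s : S} : s ∈ col b a' ↔ ∃ r : S, s * a' = b * r := by
  show s * a' ∈ Ideal.span {b} ↔ _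
  rw [Ideal.mem_span_singleton']
  constructor
  · rintro ⟨r, hr⟩; exact ⟨r, by rw [← hr, mul_comm]⟩
  · rintro ⟨r, hr⟩; exact ⟨r, by rw [hr, mul_comm]⟩

theorem col_le_col_mul (b a s : S) : col b a ≤ col b (s * a) := by
  intro t ht
  obtain ⟨r, hr⟩ := mem_col_iff.1 ht
  exact mem_col_iff.2 ⟨s * r, by rw [← mul_assoc, mul_comm t s, mul_assoc, hr]; ring⟩

theorem self_mem_col (b a : S) : b ∈ col b a := mem_col_iff.2 ⟨a, rfl⟩

theorem one_mem_col_iff {b a : S} : (1 : S) ∈ col b a ↔ ∃ r, a = b * r := by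
  rw [mem_col_iff, one_mul]

/-- **Existence of an associated prime.** In a noetherian ring, if `a ∉ (b)` there is a multiple
`a' = s * a ∉ (b)` of `a` such that the colon ideal `(b : a')` is prime; it contains `(b : a)`. -/
theorem exists_isPrime_col [IsNoetherianRing S] {a b : S} (hab : ¬ ∃ r, a = b * r) :
    ∃ a' : S, (¬ ∃ r, a' = b * r) ∧ col b a ≤ col b a' ∧ (col b a').IsPrime := by
  classical
  set 𝒮 : Set (Ideal S) := {I | ∃ s : S, (¬ ∃ r, s * a = b * r) ∧ I = col b (s * a)} with h𝒮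
  have hne : 𝒮.Nonempty := ⟨col b (1 * a), 1, by simpa using hab, rfl⟩
  obtain ⟨M, ⟨s, hs, rfl⟩, hmax⟩ :=
    (set_has_maximal_iff_noetherian (R := S) (M := S)).2 inferInstance 𝒮 hne
  refine ⟨s * a, hs, col_le_col_mul b a s, ?_⟩
  rw [Ideal.isPrime_iff]
  refine ⟨?_, ?_⟩
  · intro htop
    have h1 : (1 : S) ∈ col b (s * a) := by rw [htop]; trivial
    exact hs (one_mem_col_iff.1 h1)
  · intro u v huv
    by_contra hcon
    rw [not_or] at hcon
    obtain ⟨hu, hv⟩ := hcon
    have hv' : ¬ ∃ r, (v * s) * a = b * r := by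
      rintro ⟨r, hr⟩
      exact hv (mem_col_iff.2 ⟨r, by rw [← hr]; ring⟩)
    have hmem : col b ((v * s) * a) ∈ 𝒮 := ⟨v * s, hv', rfl⟩
    have hle : col b (s * a) ≤ col b ((v * s) * a) := by
      rw [mul_assoc]; exact col_le_col_mul b (s * a) v
    have hu' : u ∈ col b ((v * s) * a) := by
      obtain ⟨r, hr⟩ := mem_col_iff.1 huv
      exact mem_col_iff.2 ⟨r, by rw [← hr]; ring⟩
    have hlt : col b (s * a) < col b ((v * s) * a) :=
      lt_of_le_of_ne hle (fun h => hu (h ▸ hu'))
    exact hmax _ hmem hlt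

end Colon

section LocAt

variable {S F : Type*} [CommRing S] [IsDomain S] [Field F] [Algebra S F] [IsFractionRing S F]

theorem algebraMap_ne_zero {s : S} (hs : s ≠ 0) : algebraMap S F s ≠ 0 := fun h =>
  hs (IsFractionRing.injective S F (by rw [h, map_zero]))

theorem algebraMap_ne_zero_of_notMem (𝔭 : Ideal S) {s : S} (hs : s ∉ 𝔭) :
    algebraMap S F s ≠ 0 :=
  algebraMap_ne_zero (fun h => hs (h ▸ 𝔭.zero_mem))

theorem algebraMap_mem_locAt (𝔭 : Ideal S) [𝔭.IsPrime] (s : S) :
    algebraMap S F s ∈ locAt (F := F) 𝔭 := (locAt (F := F) 𝔭).algebraMap_mem s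

theorem inv_mem_locAt (𝔭 : Ideal S) [𝔭.IsPrime] {s : S} (hs : s ∉ 𝔭) :
    (algebraMap S F s)⁻¹ ∈ locAt (F := F) 𝔭 := by
  rw [mem_locAt_iff]
  exact ⟨1, s, hs, by rw [inv_mul_cancel₀ (algebraMap_ne_zero_of_notMem 𝔭 hs), map_one]⟩

theorem div_mem_locAt (𝔭 : Ideal S) [𝔭.IsPrime] (a : S) {s : S} (hs : s ∉ 𝔭) :
    algebraMap S F a / algebraMap S F s ∈ locAt (F := F) 𝔭 := by
  rw [div_eq_mul_inv]
  exact mul_mem (algebraMap_mem_locAt 𝔭 a) (inv_mem_locAt 𝔭 hs)

theorem coe_algebraMap_locAt (𝔭 : Ideal S) [𝔭.IsPrime] (s : S) :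
    ((algebraMap S (locAt (F := F) 𝔭) s : locAt (F := F) 𝔭) : F) = algebraMap S F s := rfl

variable [IsNoetherianRing S]

/-- Membership in the maximal ideal of the localisation `S_𝔭 ⊆ F`. -/
theorem mem_maximalIdeal_locAt_iff (𝔭 : Ideal S) [𝔭.IsPrime]
    (hloc : IsLocalRing (locAt (F := F) 𝔭)) (z : locAt (F := F) 𝔭) :
    z ∈ IsLocalRing.maximalIdeal (locAt (F := F) 𝔭) ↔
      ∃ p s : S, p ∈ 𝔭 ∧ s ∉ 𝔭 ∧ (z : F) * algebraMap S F s = algebraMap S F p := by
  rw [← IsLocalization.AtPrime.map_eq_maximalIdeal 𝔭 (locAt (F := F) 𝔭),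
    IsLocalization.mem_map_algebraMap_iff 𝔭.primeCompl]
  constructor
  · rintro ⟨⟨p, s⟩, h⟩
    refine ⟨p.1, s.1, p.2, s.2, ?_⟩
    have := congrArg (Subtype.val) h
    simpa using this
  · rintro ⟨p, s, hp, hs, h⟩
    refine ⟨⟨⟨p, hp⟩, ⟨s, hs⟩⟩, ?_⟩
    apply Subtype.ext
    simpa using h

/-- **Principal criterion.** If `𝔭 S_𝔭` is generated by one nonzero element `t ∈ 𝔭`, then `S_𝔭` is a
discrete valuation ring. -/
theorem isDiscreteValuationRing_locAt_of_principal (𝔭 : Ideal S) [𝔭.IsPrime] {t : S} (ht : t ∈ 𝔭)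
    (ht0 : t ≠ 0) (h : ∀ p ∈ 𝔭, ∃ s r : S, s ∉ 𝔭 ∧ s * p = r * t) :
    IsDiscreteValuationRing (locAt (F := F) 𝔭) := by
  set L := locAt (F := F) 𝔭 with hL
  haveI hloc : IsLocalRing L := isLocalRing_locAt 𝔭
  haveI : IsNoetherianRing L := isNoetherianRing_locAt 𝔭
  have htm : algebraMap S L t ∈ IsLocalRing.maximalIdeal L :=
    (IsLocalization.AtPrime.to_map_mem_maximal_iff L 𝔭 t).2 ht
  have heq : IsLocalRing.maximalIdeal L = Ideal.span {algebraMap S L t} := by
    apply le_antisymm
    · intro z hz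
      obtain ⟨p, s₁, hp, hs₁, hz'⟩ := (mem_maximalIdeal_locAt_iff 𝔭 hloc z).1 hz
      obtain ⟨s, r, hs, hsr⟩ := h p hp
      rw [Ideal.mem_span_singleton']
      have hmem : algebraMap S F r / (algebraMap S F s₁ * algebraMap S F s) ∈ L := by
        rw [← map_mul]
        exact div_mem_locAt 𝔭 r (fun hc => (Ideal.IsPrime.mem_or_mem inferInstance hc).elim hs₁ hs)
      refine ⟨⟨_, hmem⟩, ?_⟩
      apply Subtype.ext
      have h1 := algebraMap_ne_zero_of_notMem (F := F) 𝔭 hs₁
      have h2 := algebraMap_ne_zero_of_notMem (F := F) 𝔭 hs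
      have h3 : algebraMap S F s * algebraMap S F p = algebraMap S F r * algebraMap S F t := by
        rw [← map_mul, ← map_mul, hsr]
      show algebraMap S F r / (algebraMap S F s₁ * algebraMap S F s) * algebraMap S F t = (z : F)
      rw [div_mul_eq_mul_div, ← h3, ← hz']
      field_simp
    · rw [Ideal.span_le]
      rintro _ rfl
      exact htm
  have hnf : ¬ IsField L := by
    rw [IsLocalRing.isField_iff_maximalIdeal_eq]
    intro hbot
    have h0 : algebraMap S L t = 0 := by
      have := htm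
      rw [hbot] at this
      simpa using this
    have : algebraMap S F t = 0 := by
      rw [← coe_algebraMap_locAt 𝔭 t, h0]; rfl
    exact algebraMap_ne_zero ht0 this
  exact ((IsDiscreteValuationRing.TFAE L hnf).out 0 4).2
    (⟨⟨_, heq⟩⟩ : Submodule.IsPrincipal (IsLocalRing.maximalIdeal L))


/-! ### Associated primes of principal ideals in a normal noetherian domain -/

/-- **(K0)** In a noetherian integrally closed domain, a prime ideal of the form `(b : a')`, `b ≠ 0`
(an associated prime of a principal ideal) has a discrete valuation ring as localisation. -/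
theorem isDiscreteValuationRing_locAt_col [IsIntegrallyClosed S] {b a' : S} (hb : b ≠ 0)
    [hprime : (col b a').IsPrime] : IsDiscreteValuationRing (locAt (F := F) (col b a')) := by
  classical
  set 𝔭 := col b a' with h𝔭
  by_cases hc : ∃ p ∈ 𝔭, ∃ r : S, r ∉ 𝔭 ∧ p * a' = b * r
  · obtain ⟨p, hp, r, hr, hpr⟩ := hc
    have hp0 : p ≠ 0 := by
      rintro rfl
      rw [zero_mul] at hpr
      rcases mul_eq_zero.1 hpr.symm with h | h
      · exact hb h
      · exact hr (h ▸ 𝔭.zero_mem)
    refine isDiscreteValuationRing_locAt_of_principal 𝔭 hp hp0 ?_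
    intro p' hp'
    obtain ⟨r', hr'⟩ := mem_col_iff.1 hp'
    refine ⟨r, r', hr, ?_⟩
    apply mul_left_cancel₀ hb
    calc b * (r * p') = (b * r) * p' := by ring
      _ = (p * a') * p' := by rw [hpr]
      _ = p * (p' * a') := by ring
      _ = p * (b * r') := by rw [hr']
      _ = b * (r' * p) := by ring
  · exfalso
    simp only [not_exists, not_and] at hc
    -- `y = a' / b` stabilises the finitely generated nonzero `S`-submodule `𝔭 ⊆ F`
    set y : F := algebraMap S F a' / algebraMap S F b with hy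
    have hbF : algebraMap S F b ≠ 0 := algebraMap_ne_zero hb
    set N : Submodule S F := Submodule.map (Algebra.linearMap S F) 𝔭 with hN
    have hNbot : N ≠ ⊥ := by
      intro hbot
      have : algebraMap S F b ∈ N := ⟨b, self_mem_col b a', rfl⟩
      rw [hbot, Submodule.mem_bot] at this
      exact hbF this
    have hNfg : N.FG := Submodule.FG.map _ (IsNoetherian.noetherian 𝔭)
    have hstab : ∀ n ∈ N, y • n ∈ N := by
      rintro _ ⟨p, hp, rfl⟩
      obtain ⟨r, hr⟩ := mem_col_iff.1 hp
      have hr𝔭 : r ∈ 𝔭 := by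
        by_contra hcon
        exact hc p hp r hcon hr
      refine ⟨r, hr𝔭, ?_⟩
      show algebraMap S F r = y * algebraMap S F p
      rw [hy, div_mul_eq_mul_div, eq_div_iff hbF, ← map_mul, ← map_mul, mul_comm r b, ← hr,
        mul_comm]
    have hint : IsIntegral S y := isIntegral_of_smul_mem_submodule N hNbot hNfg y hstab
    obtain ⟨s, hs⟩ := IsIntegrallyClosed.algebraMap_eq_of_integral hint
    have h1 : (1 : S) ∈ 𝔭 := by
      rw [h𝔭, one_mem_col_iff]
      refine ⟨s, IsFractionRing.injective S F ?_⟩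
      rw [map_mul, hs, hy, mul_div_cancel₀ _ hbF]
    exact hprime.ne_top ((Ideal.eq_top_iff_one _).2 h1)

/-- **(K1) Krull's intersection theorem** for a noetherian integrally closed domain, without height
theory: an element of the fraction field lying in every localisation `S_𝔭` which is a discrete
valuation ring lies in `S`. -/
theorem exists_algebraMap_eq_of_forall_mem_dvr [IsIntegrallyClosed S] (x : F)
    (h : ∀ (𝔭 : Ideal S) [𝔭.IsPrime], IsDiscreteValuationRing (locAt (F := F) 𝔭) →
      x ∈ locAt (F := F) 𝔭) : ∃ s : S, algebraMap S F s = x := by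
  classical
  by_contra hx
  obtain ⟨a, b, hbmem, rfl⟩ := IsFractionRing.div_surjective (A := S) x
  have hb : b ≠ 0 := nonZeroDivisors.ne_zero hbmem
  have hbF : algebraMap S F b ≠ 0 := algebraMap_ne_zero hb
  have hab : ¬ ∃ r, a = b * r := by
    rintro ⟨r, rfl⟩
    exact hx ⟨r, by rw [map_mul, mul_div_cancel_left₀ _ hbF]⟩
  obtain ⟨a', -, hle, hprime⟩ := exists_isPrime_col hab
  haveI := hprime
  have hdvr := isDiscreteValuationRing_locAt_col (F := F) hb (a' := a')
  obtain ⟨r, s, hs, hrs⟩ := (mem_locAt_iff _ _).1 (h _ hdvr)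
  apply hs
  apply hle
  rw [mem_col_iff]
  refine ⟨r, IsFractionRing.injective S F ?_⟩
  rw [map_mul, map_mul, ← hrs]
  field_simp

/-- **(K1′) unit form.** A nonzero element of the fraction field which is a unit of every
localisation `S_𝔭` which is a discrete valuation ring is (the image of) a unit of `S`. -/
theorem exists_unit_of_forall_mem_dvr [IsIntegrallyClosed S] {x : F} (hx0 : x ≠ 0)
    (h : ∀ (𝔭 : Ideal S) [𝔭.IsPrime], IsDiscreteValuationRing (locAt (F := F) 𝔭) →
      x ∈ locAt (F := F) 𝔭 ∧ x⁻¹ ∈ locAt (F := F) 𝔭) : ∃ u : Sˣ, algebraMap S F u = x := by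
  obtain ⟨s, hs⟩ := exists_algebraMap_eq_of_forall_mem_dvr x (fun 𝔭 _ hd => (h 𝔭 hd).1)
  obtain ⟨t, ht⟩ := exists_algebraMap_eq_of_forall_mem_dvr x⁻¹ (fun 𝔭 _ hd => (h 𝔭 hd).2)
  have hst : s * t = 1 := by
    apply IsFractionRing.injective S F
    rw [map_mul, hs, ht, mul_inv_cancel₀ hx0, map_one]
  exact ⟨⟨s, t, hst, by rw [mul_comm]; exact hst⟩, hs⟩

end LocAt


/-! ### (K4), (K5): DVR-primes are exactly the minimal nonzero primes (normal case) -/

section Minimal

variable {S F : Type*} [CommRing S] [IsDomain S] [IsNoetherianRing S] [Field F] [Algebra S F]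
  [IsFractionRing S F]

theorem disjoint_primeCompl_of_le {𝔮 𝔭 : Ideal S} [𝔭.IsPrime] (hle : 𝔮 ≤ 𝔭) :
    Disjoint (𝔭.primeCompl : Set S) (𝔮 : Set S) :=
  Set.disjoint_left.2 fun _ hx hq => hx (hle hq)

/-- **(K4)** A DVR-prime is a minimal nonzero prime. -/
theorem eq_of_le_of_dvr {𝔮 𝔭 : Ideal S} [h𝔮 : 𝔮.IsPrime] [𝔭.IsPrime]
    (hdvr : IsDiscreteValuationRing (locAt (F := F) 𝔭)) (h0 : 𝔮 ≠ ⊥) (hle : 𝔮 ≤ 𝔭) : 𝔮 = 𝔭 := by
  set V := locAt (F := F) 𝔭 with hV
  haveI := hdvr
  have hdisj := disjoint_primeCompl_of_le hle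
  have hprime : (Ideal.map (algebraMap S V) 𝔮).IsPrime :=
    IsLocalization.isPrime_of_isPrime_disjoint 𝔭.primeCompl V 𝔮 h𝔮 hdisj
  have hne : Ideal.map (algebraMap S V) 𝔮 ≠ ⊥ := by
    intro hbot
    obtain ⟨q, hq, hq0⟩ := Submodule.exists_mem_ne_zero_of_ne_bot h0
    have h1 : algebraMap S V q ∈ Ideal.map (algebraMap S V) 𝔮 := Ideal.mem_map_of_mem _ hq
    rw [hbot, Ideal.mem_bot] at h1
    have : algebraMap S F q = 0 := by rw [← coe_algebraMap_locAt 𝔭 q, h1]; rfl
    exact algebraMap_ne_zero hq0 this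
  have hmax := IsLocalRing.eq_maximalIdeal (hprime.isMaximal hne)
  have h1 := IsLocalization.under_map_of_isPrime_disjoint 𝔭.primeCompl V h𝔮 hdisj
  rw [hmax, IsLocalization.AtPrime.under_maximalIdeal V 𝔭] at h1
  exact h1.symm

/-- **(K5)** In a noetherian integrally closed domain the localisation at a minimal nonzero prime
is a discrete valuation ring. -/
theorem isDiscreteValuationRing_locAt_of_minimal [IsIntegrallyClosed S] (𝔭 : Ideal S) [𝔭.IsPrime]
    (h0 : 𝔭 ≠ ⊥) (hmin : ∀ 𝔮 : Ideal S, 𝔮.IsPrime → 𝔮 ≠ ⊥ → 𝔮 ≤ 𝔭 → 𝔮 = 𝔭) :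
    IsDiscreteValuationRing (locAt (F := F) 𝔭) := by
  set V := locAt (F := F) 𝔭 with hV
  haveI hloc : IsLocalRing V := isLocalRing_locAt 𝔭
  haveI : IsNoetherianRing V := isNoetherianRing_locAt 𝔭
  haveI : IsIntegrallyClosed V :=
    isIntegrallyClosed_of_isLocalization V 𝔭.primeCompl 𝔭.primeCompl_le_nonZeroDivisors
  have hmne : IsLocalRing.maximalIdeal V ≠ ⊥ := by
    intro hbot
    obtain ⟨p, hp, hp0⟩ := Submodule.exists_mem_ne_zero_of_ne_bot h0
    have h1 : algebraMap S V p ∈ IsLocalRing.maximalIdeal V :=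
      (IsLocalization.AtPrime.to_map_mem_maximal_iff V 𝔭 p).2 hp
    rw [hbot, Ideal.mem_bot] at h1
    have : algebraMap S F p = 0 := by rw [← coe_algebraMap_locAt 𝔭 p, h1]; rfl
    exact algebraMap_ne_zero hp0 this
  have hnf : ¬ IsField V := by
    rw [IsLocalRing.isField_iff_maximalIdeal_eq]; exact hmne
  have key : IsIntegrallyClosed V ∧ ∃! P : Ideal V, P ≠ ⊥ ∧ P.IsPrime := by
    refine ⟨inferInstance, IsLocalRing.maximalIdeal V, ⟨hmne, inferInstance⟩, ?_⟩
    rintro P ⟨hP0, hPprime⟩
    haveI := hPprime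
    have hund : (Ideal.under S P).IsPrime := Ideal.IsPrime.under S P
    have hmap : Ideal.map (algebraMap S V) (Ideal.under S P) = P :=
      IsLocalization.map_under 𝔭.primeCompl V P
    have hund0 : Ideal.under S P ≠ ⊥ := by
      intro hbot
      rw [hbot, Ideal.map_bot] at hmap
      exact hP0 hmap.symm
    have hle : Ideal.under S P ≤ 𝔭 := by
      rw [← IsLocalization.AtPrime.under_maximalIdeal V 𝔭]
      exact Ideal.comap_mono (IsLocalRing.le_maximalIdeal hPprime.ne_top)
    rw [← hmap, hmin _ hund hund0 hle, IsLocalization.AtPrime.map_eq_maximalIdeal 𝔭 V]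
  exact ((IsDiscreteValuationRing.TFAE V hnf).out 0 3).2 key

end Minimal

/-! ### Valuation rings of `F` containing `S` and their centres -/

section VCentre

variable {S F : Type*} [CommRing S] [Field F] [Algebra S F]

/-- The centre on `S` of a valuation ring `V ⊇ S` of `F`: the prime `𝔪_V ∩ S`. -/
def vCentre (V : ValuationSubring F) (hV : ∀ s : S, algebraMap S F s ∈ V) : Ideal S :=
  Ideal.comap ((algebraMap S F).codRestrict V.toSubring hV) (IsLocalRing.maximalIdeal V)

theorem mem_vCentre_iff (V : ValuationSubring F) (hV : ∀ s : S, algebraMap S F s ∈ V) {s : S} :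
    s ∈ vCentre V hV ↔ algebraMap S F s ∈ V.nonunits := by
  rw [ValuationSubring.mem_nonunits_iff_exists_mem_maximalIdeal]
  exact ⟨fun h => ⟨hV s, h⟩, fun ⟨_, h⟩ => h⟩

instance vCentre_isPrime (V : ValuationSubring F) (hV : ∀ s : S, algebraMap S F s ∈ V) :
    (vCentre V hV).IsPrime := Ideal.comap_isPrime _ _

theorem valuation_eq_one_of_notMem_vCentre (V : ValuationSubring F)
    (hV : ∀ s : S, algebraMap S F s ∈ V) {s : S} (hs : s ∉ vCentre V hV) :
    V.valuation (algebraMap S F s) = 1 := by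
  rw [mem_vCentre_iff, ValuationSubring.mem_nonunits_iff, not_lt] at hs
  exact le_antisymm ((V.valuation_le_one_iff _).2 (hV s)) hs

variable [IsDomain S] [IsNoetherianRing S] [IsFractionRing S F]

/-- **(K2, converse, general form)** A valuation ring `V ⊇ S` of `F` whose centre `𝔭` on `S` is a
DVR-prime is equal to `S_𝔭`. -/
theorem mem_valuationSubring_iff_mem_locAt (V : ValuationSubring F)
    (hV : ∀ s : S, algebraMap S F s ∈ V) (𝔭 : Ideal S) [𝔭.IsPrime] (h𝔭 : vCentre V hV = 𝔭)
    (hdvr : IsDiscreteValuationRing (locAt (F := F) 𝔭)) (y : F) :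
    y ∈ V ↔ y ∈ locAt (F := F) 𝔭 := by
  set L := locAt (F := F) 𝔭 with hL
  haveI := hdvr
  have hloc : IsLocalRing L := inferInstance
  have hone : ∀ s : S, s ∉ 𝔭 → V.valuation (algebraMap S F s) = 1 := fun s hs =>
    valuation_eq_one_of_notMem_vCentre V hV (by rw [h𝔭]; exact hs)
  constructor
  · intro hy
    by_contra hyL
    have hy0 : y ≠ 0 := by rintro rfl; exact hyL (zero_mem _)
    have hinv : y⁻¹ ∈ L := by
      rcases ValuationRing.isInteger_or_isInteger L y with ⟨z, hz⟩ | ⟨z, hz⟩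
      · exact absurd (by rw [← hz]; exact z.2) hyL
      · rw [← hz]; exact z.2
    have hnonunit : (⟨y⁻¹, hinv⟩ : L) ∈ IsLocalRing.maximalIdeal L := by
      by_contra hcon
      rw [IsLocalRing.notMem_maximalIdeal] at hcon
      obtain ⟨u, hu⟩ := hcon
      have h1 : ((u⁻¹ : Lˣ) : L) * (⟨y⁻¹, hinv⟩ : L) = 1 := by rw [← hu]; simp
      have h2 : (((u⁻¹ : Lˣ) : L) : F) * y⁻¹ = 1 := by
        have := congrArg (Subtype.val) h1
        simpa using this
      have h3 : (((u⁻¹ : Lˣ) : L) : F) = y := by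
        field_simp at h2
        exact h2
      exact hyL (h3 ▸ ((u⁻¹ : Lˣ) : L).2)
    obtain ⟨p, s, hp, hs, hps⟩ := (mem_maximalIdeal_locAt_iff 𝔭 hloc _).1 hnonunit
    have hps' : y⁻¹ * algebraMap S F s = algebraMap S F p := hps
    have hvp : V.valuation (algebraMap S F p) < 1 := by
      rw [← ValuationSubring.mem_nonunits_iff, ← mem_vCentre_iff V hV, h𝔭]; exact hp
    have h1 : V.valuation y⁻¹ < 1 := by
      have := congrArg V.valuation hps'
      rw [map_mul, hone s hs, mul_one] at this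
      rw [this]; exact hvp
    have h2 : V.valuation y ≤ 1 := (V.valuation_le_one_iff y).2 hy
    have h3 : V.valuation (y * y⁻¹) < 1 := by
      rw [map_mul]
      calc V.valuation y * V.valuation y⁻¹ ≤ 1 * V.valuation y⁻¹ := by gcongr
        _ = V.valuation y⁻¹ := one_mul _
        _ < 1 := h1
    rw [mul_inv_cancel₀ hy0, map_one] at h3
    exact lt_irrefl _ h3
  · intro hy
    obtain ⟨a, s, hs, hys⟩ := (mem_locAt_iff 𝔭 y).1 hy
    rw [← V.valuation_le_one_iff]
    have := congrArg V.valuation hys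
    rw [map_mul, hone s hs, mul_one] at this
    rw [this]
    exact (V.valuation_le_one_iff _).2 (hV a)

end VCentre

/-! ### (K2) The place of a DVR-prime -/

section PlaceOfDVRPrime

open AlgebraicCurve IsDedekindDomain
open Fermat.Agent.N4F.C.LocalMult

variable {K F S : Type*} [Field K] [Field F] [Algebra K F]
  [CommRing S] [IsDomain S] [IsNoetherianRing S] [Algebra S F] [IsFractionRing S F]

/-- A discrete valuation ring has exactly one height-one prime. -/
theorem heightOneSpectrum_eq_of_dvr {V : Type*} [CommRing V] [IsDomain V]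
    [IsDiscreteValuationRing V] (w w' : HeightOneSpectrum V) : w = w' := by
  apply HeightOneSpectrum.ext
  rw [IsLocalRing.eq_maximalIdeal (w.isPrime.isMaximal w.ne_bot),
    IsLocalRing.eq_maximalIdeal (w'.isPrime.isMaximal w'.ne_bot)]

/-- **(K2) The place of a DVR-prime.** If `𝔭` is a prime ideal of the noetherian domain `S` (with
fraction field `F`) whose localisation `S_𝔭` is a discrete valuation ring containing the constants
`K`, then `S_𝔭` is the valuation ring of a place of `F / K`; this place contains `S` and its centre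
on `S` is `𝔭`. -/
theorem exists_place_of_dvr_prime (𝔭 : Ideal S) [𝔭.IsPrime]
    (hdvr : IsDiscreteValuationRing (locAt (F := F) 𝔭))
    (hK : ∀ c : K, algebraMap K F c ∈ locAt (F := F) 𝔭) :
    ∃ v : Place K F, (∀ y : F, y ∈ v.toValuationSubring ↔ y ∈ locAt (F := F) 𝔭) ∧
      ∃ hv : Contains S v, centreIdeal hv = 𝔭 := by
  set V := locAt (F := F) 𝔭 with hV
  haveI := hdvr
  letI algKV : Algebra K V := ((algebraMap K F).codRestrict V hK).toAlgebra
  haveI : IsScalarTower K V F := IsScalarTower.of_algebraMap_eq fun _ => rfl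
  let w : HeightOneSpectrum V := IsDiscreteValuationRing.maximalIdeal V
  have hcont : Contains S (Place.ofHeightOneSpectrum (K := K) (F := F) w) := by
    intro s
    rw [IsScalarTower.algebraMap_apply S V F]
    exact Fermat.Agent.S24.algebraMap_mem_ofHeightOneSpectrum w _
  refine ⟨Place.ofHeightOneSpectrum (K := K) (F := F) w, ?_, hcont, ?_⟩
  · intro y
    rw [Fermat.Agent.S24.mem_ofHeightOneSpectrum_iff]
    constructor
    · intro hy
      have := HeightOneSpectrum.mem_integers_of_valuation_le_one (R := V) F y (fun w' => by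
        rw [heightOneSpectrum_eq_of_dvr w' w]; exact hy)
      obtain ⟨z, hz⟩ := this
      rw [← hz]
      exact z.2
    · intro hy
      exact w.valuation_le_one (⟨y, hy⟩ : V)
  · ext s
    rw [mem_centreIdeal_iff, ValuationSubring.mem_nonunits_iff]
    show (w.valuation F).valuationSubring.valuation (algebraMap S F s) < 1 ↔ _
    rw [← (Valuation.isEquiv_valuation_valuationSubring (w.valuation F)).lt_one_iff_lt_one,
      IsScalarTower.algebraMap_apply S V F, HeightOneSpectrum.valuation_of_algebraMap,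
      HeightOneSpectrum.intValuation_lt_one_iff_mem]
    show algebraMap S V s ∈ IsLocalRing.maximalIdeal V ↔ _
    rw [IsLocalization.AtPrime.to_map_mem_maximal_iff V 𝔭]

/-- **(K2, converse)** A place containing `S` whose centre `𝔭` is a DVR-prime has valuation ring
`S_𝔭`. -/
theorem mem_valuationSubring_iff_of_centre {v : Place K F} (hv : Contains S v) (𝔭 : Ideal S)
    [𝔭.IsPrime] (h𝔭 : centreIdeal hv = 𝔭) (hdvr : IsDiscreteValuationRing (locAt (F := F) 𝔭))
    (y : F) : y ∈ v.toValuationSubring ↔ y ∈ locAt (F := F) 𝔭 := by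
  refine mem_valuationSubring_iff_mem_locAt v.toValuationSubring hv 𝔭 ?_ hdvr y
  rw [← h𝔭]
  ext s
  rw [mem_vCentre_iff, mem_centreIdeal_iff]

/-- A place containing `S` is determined by its centre, if the centre is a DVR-prime. -/
theorem place_eq_of_centre_eq {v v' : Place K F} (hv : Contains S v) (hv' : Contains S v')
    (h : centreIdeal hv = centreIdeal hv')
    (hdvr : haveI := centreIdeal_isPrime hv
      IsDiscreteValuationRing (locAt (F := F) (centreIdeal hv))) : v = v' := by
  haveI := centreIdeal_isPrime hv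
  apply Place.ext
  ext y
  rw [mem_valuationSubring_iff_of_centre hv _ rfl hdvr,
    mem_valuationSubring_iff_of_centre hv' _ h.symm hdvr]

end PlaceOfDVRPrime


/-! ### (K3) The unit criterion on a normal model over a discrete valuation ring -/

section OverDVR

open AlgebraicCurve IsDedekindDomain
open Fermat.Agent.N4F.C.LocalMult
open Fermat.Agent.S24.PlaceExtend (mem_iff_ord_nonneg)

variable {O K F S : Type*}
  [CommRing O] [IsDomain O] [IsDiscreteValuationRing O]
  [Field K] [Algebra O K] [IsFractionRing O K]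
  [Field F] [Algebra K F] [Algebra O F] [IsScalarTower O K F]
  [CommRing S] [IsDomain S] [IsNoetherianRing S]
  [Algebra S F] [IsFractionRing S F] [Algebra O S] [IsScalarTower O S F]

variable {ϖ : O} (hϖ : Irreducible ϖ)

include hϖ

/-- A prime of `S` not containing the uniformiser contains no nonzero constant of `O`
("horizontal prime"). -/
theorem algebraMap_O_notMem (𝔭 : Ideal S) [h𝔭 : 𝔭.IsPrime] (h : algebraMap O S ϖ ∉ 𝔭) {c : O}
    (hc : c ≠ 0) : algebraMap O S c ∉ 𝔭 := by
  obtain ⟨n, u, hu⟩ := IsDiscreteValuationRing.associated_pow_irreducible hc hϖ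
  intro hmem
  have h1 : algebraMap O S ϖ ^ n ∈ 𝔭 := by
    rw [← map_pow, ← hu, map_mul]
    exact 𝔭.mul_mem_right _ hmem
  exact h (h𝔭.mem_of_pow_mem n h1)

/-- The constants `K` are contained in the localisation of `S` at a horizontal prime. -/
theorem algebraMap_K_mem_locAt (𝔭 : Ideal S) [𝔭.IsPrime] (h : algebraMap O S ϖ ∉ 𝔭) (c : K) :
    algebraMap K F c ∈ locAt (F := F) 𝔭 := by
  obtain ⟨a, b, hb, rfl⟩ := IsFractionRing.div_surjective (A := O) c
  have hb0 : b ≠ 0 := nonZeroDivisors.ne_zero hb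
  have e : ∀ o : O, algebraMap K F (algebraMap O K o) = algebraMap S F (algebraMap O S o) := by
    intro o
    rw [← IsScalarTower.algebraMap_apply O K F, ← IsScalarTower.algebraMap_apply O S F]
  rw [map_div₀, e, e]
  exact div_mem_locAt 𝔭 _ (algebraMap_O_notMem hϖ 𝔭 h hb0)

/-- **(K3), integral form.** `S` a noetherian integrally closed domain, an algebra over the discrete
valuation ring `O` (uniformiser `ϖ`), with fraction field `F ⊇ K = Frac O`.  An element `x ∈ F` lies
in `S` as soon as it is integral at every *vertical* DVR-prime (those containing `ϖ`) and at every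
place of `F / K` containing `S`. -/
theorem exists_algebraMap_eq_of_vertical_of_places [IsIntegrallyClosed S] (x : F)
    (hvert : ∀ (𝔭 : Ideal S) [𝔭.IsPrime], IsDiscreteValuationRing (locAt (F := F) 𝔭) →
      algebraMap O S ϖ ∈ 𝔭 → x ∈ locAt (F := F) 𝔭)
    (hhor : ∀ v : Place K F, Contains S v → x ∈ v.toValuationSubring) :
    ∃ s : S, algebraMap S F s = x := by
  apply exists_algebraMap_eq_of_forall_mem_dvr x
  intro 𝔭 _ hdvr
  by_cases hπ : algebraMap O S ϖ ∈ 𝔭
  · exact hvert 𝔭 hdvr hπ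
  · obtain ⟨v, hv, hcont, -⟩ := exists_place_of_dvr_prime (K := K) 𝔭 hdvr
      (algebraMap_K_mem_locAt hϖ 𝔭 hπ)
    exact (hv x).1 (hhor v hcont)

/-- **(K3), integral form with orders.** -/
theorem exists_algebraMap_eq_of_vertical_of_ord_nonneg [IsIntegrallyClosed S] (x : F)
    (hvert : ∀ (𝔭 : Ideal S) [𝔭.IsPrime], IsDiscreteValuationRing (locAt (F := F) 𝔭) →
      algebraMap O S ϖ ∈ 𝔭 → x ∈ locAt (F := F) 𝔭)
    (hhor : ∀ v : Place K F, Contains S v → 0 ≤ v.ord x) :
    ∃ s : S, algebraMap S F s = x := by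
  rcases eq_or_ne x 0 with rfl | hx0
  · exact ⟨0, map_zero _⟩
  exact exists_algebraMap_eq_of_vertical_of_places hϖ x hvert
    (fun v hv => (mem_iff_ord_nonneg v hx0).2 (hhor v hv))

/-- **(K3) The unit criterion.** A nonzero `x ∈ F` which is a unit at every vertical DVR-prime of
`S` and has order `0` at every place of `F / K` containing `S` is (the image of) a unit of `S`. -/
theorem exists_unit_of_vertical_of_ord_eq_zero [IsIntegrallyClosed S] {x : F} (hx0 : x ≠ 0)
    (hvert : ∀ (𝔭 : Ideal S) [𝔭.IsPrime], IsDiscreteValuationRing (locAt (F := F) 𝔭) →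
      algebraMap O S ϖ ∈ 𝔭 → x ∈ locAt (F := F) 𝔭 ∧ x⁻¹ ∈ locAt (F := F) 𝔭)
    (hhor : ∀ v : Place K F, Contains S v → v.ord x = 0) :
    ∃ u : Sˣ, algebraMap S F u = x := by
  obtain ⟨s, hs⟩ := exists_algebraMap_eq_of_vertical_of_ord_nonneg (K := K) hϖ x
    (fun 𝔭 _ hd hπ => (hvert 𝔭 hd hπ).1) (fun v hv => (hhor v hv).ge)
  obtain ⟨t, ht⟩ := exists_algebraMap_eq_of_vertical_of_ord_nonneg (K := K) hϖ x⁻¹
    (fun 𝔭 _ hd hπ => (hvert 𝔭 hd hπ).2) (fun v hv => by rw [v.ord_inv, hhor v hv, neg_zero])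
  have hst : s * t = 1 := by
    apply IsFractionRing.injective S F
    rw [map_mul, hs, ht, mul_inv_cancel₀ hx0, map_one]
  exact ⟨⟨s, t, hst, by rw [mul_comm]; exact hst⟩, hs⟩

omit [IsNoetherianRing S] [IsDomain S] in
variable (K F) in
include K F in
/-- The uniformiser of `O` is nonzero in `S`. -/
theorem algebraMap_uniformiser_ne_zero : algebraMap O S ϖ ≠ 0 := by
  intro h0
  have h1 : algebraMap O F ϖ = 0 := by
    rw [IsScalarTower.algebraMap_apply O S F, h0, map_zero]
  rw [IsScalarTower.algebraMap_apply O K F] at h1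
  have h2 : algebraMap O K ϖ = 0 := (algebraMap K F).injective (by rw [h1, map_zero])
  exact hϖ.ne_zero (IsFractionRing.injective O K (by rw [h2, map_zero]))

variable (K) in
include K in
/-- Every vertical DVR-prime is the centre of one of finitely many given valuation rings
`V i ⊇ S`, provided `⋂ centre (V i) ⊆ ϖ S` ("the fibre is reduced and the `V i` see all its
components through the point") and `ϖ ∈ 𝔪_{V i}`; then `S_𝔭 = V i`. -/
theorem exists_eq_vCentre_of_vertical {ι : Type*} [Finite ι] (V : ι → ValuationSubring F)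
    (hV : ∀ i (s : S), algebraMap S F s ∈ V i)
    (hϖV : ∀ i, algebraMap S F (algebraMap O S ϖ) ∈ (V i).nonunits)
    (hsat : ∀ s : S, (∀ i, algebraMap S F s ∈ (V i).nonunits) → algebraMap O S ϖ ∣ s)
    (𝔭 : Ideal S) [𝔭.IsPrime] (hdvr : IsDiscreteValuationRing (locAt (F := F) 𝔭))
    (hπ : algebraMap O S ϖ ∈ 𝔭) :
    ∃ i, vCentre (V i) (hV i) = 𝔭 ∧ ∀ y : F, y ∈ V i ↔ y ∈ locAt (F := F) 𝔭 := by
  classical
  haveI := Fintype.ofFinite ι
  have hle : (Finset.univ : Finset ι).inf (fun i => vCentre (V i) (hV i)) ≤ 𝔭 := by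
    intro s hs
    rw [Finset.inf_eq_iInf, Submodule.mem_iInf] at hs
    have hs' : ∀ i, algebraMap S F s ∈ (V i).nonunits := by
      intro i
      have := hs i
      rw [Submodule.mem_iInf] at this
      exact (mem_vCentre_iff (V i) (hV i)).1 (this (Finset.mem_univ i))
    obtain ⟨r, rfl⟩ := hsat s hs'
    exact 𝔭.mul_mem_right _ hπ
  obtain ⟨i, -, hi⟩ := (Ideal.IsPrime.inf_le' (inferInstance : 𝔭.IsPrime)).1 hle
  have hne : vCentre (V i) (hV i) ≠ ⊥ := by
    intro hbot
    have : algebraMap O S ϖ ∈ vCentre (V i) (hV i) := (mem_vCentre_iff _ _).2 (hϖV i)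
    rw [hbot, Ideal.mem_bot] at this
    exact algebraMap_uniformiser_ne_zero K F hϖ this
  have heq : vCentre (V i) (hV i) = 𝔭 := eq_of_le_of_dvr (F := F) hdvr hne hi
  exact ⟨i, heq, mem_valuationSubring_iff_mem_locAt (V i) (hV i) 𝔭 heq hdvr⟩

/-- **(K3-V), integral form with the vertical valuation rings given.** -/
theorem exists_algebraMap_eq_of_valuationSubrings [IsIntegrallyClosed S] {ι : Type*} [Finite ι]
    (V : ι → ValuationSubring F) (hV : ∀ i (s : S), algebraMap S F s ∈ V i)
    (hϖV : ∀ i, algebraMap S F (algebraMap O S ϖ) ∈ (V i).nonunits)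
    (hsat : ∀ s : S, (∀ i, algebraMap S F s ∈ (V i).nonunits) → algebraMap O S ϖ ∣ s)
    (x : F) (hvert : ∀ i, x ∈ V i)
    (hhor : ∀ v : Place K F, Contains S v → x ∈ v.toValuationSubring) :
    ∃ s : S, algebraMap S F s = x := by
  refine exists_algebraMap_eq_of_vertical_of_places hϖ x ?_ hhor
  intro 𝔭 _ hdvr hπ
  obtain ⟨i, -, hi⟩ := exists_eq_vCentre_of_vertical K hϖ V hV hϖV hsat 𝔭 hdvr hπ
  exact (hi x).1 (hvert i)

/-- **(K3-V) The unit criterion with the vertical valuation rings given.** `S` noetherian normal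
domain over the discrete valuation ring `O`, `Frac S = F ⊇ K = Frac O`; `V i` finitely many valuation
rings of `F` containing `S` with `ϖ ∈ 𝔪_{V i}` and `⋂ (𝔪_{V i} ∩ S) ⊆ ϖ S`.  A nonzero `x ∈ F` which
is a unit of every `V i` and has order `0` at every place of `F / K` containing `S` is (the image of)
a unit of `S`. -/
theorem exists_unit_of_valuationSubrings [IsIntegrallyClosed S] {ι : Type*} [Finite ι]
    (V : ι → ValuationSubring F) (hV : ∀ i (s : S), algebraMap S F s ∈ V i)
    (hϖV : ∀ i, algebraMap S F (algebraMap O S ϖ) ∈ (V i).nonunits)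
    (hsat : ∀ s : S, (∀ i, algebraMap S F s ∈ (V i).nonunits) → algebraMap O S ϖ ∣ s)
    {x : F} (hx0 : x ≠ 0) (hvert : ∀ i, x ∈ V i ∧ x⁻¹ ∈ V i)
    (hhor : ∀ v : Place K F, Contains S v → v.ord x = 0) :
    ∃ u : Sˣ, algebraMap S F u = x := by
  obtain ⟨s, hs⟩ := exists_algebraMap_eq_of_valuationSubrings (K := K) hϖ V hV hϖV hsat x
    (fun i => (hvert i).1)
    (fun v hv => (mem_iff_ord_nonneg v hx0).2 (hhor v hv).ge)
  obtain ⟨t, ht⟩ := exists_algebraMap_eq_of_valuationSubrings (K := K) hϖ V hV hϖV hsat x⁻¹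
    (fun i => (hvert i).2)
    (fun v hv => (mem_iff_ord_nonneg v (inv_ne_zero hx0)).2 (by
      rw [v.ord_inv, hhor v hv, neg_zero]))
  have hst : s * t = 1 := by
    apply IsFractionRing.injective S F
    rw [map_mul, hs, ht, mul_inv_cancel₀ hx0, map_one]
  exact ⟨⟨s, t, hst, by rw [mul_comm]; exact hst⟩, hs⟩

end OverDVR

end Fermat.Agent.P3G.Krull
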