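import Mathlib
import Fermat.Agent.P3G.Krull

/-!
# P3-G: the unit criterion at a point of a chart

`R` is a chart: a noetherian integrally closed domain, algebra over the discrete valuation ring `O`
(uniformiser `ϖ`), with fraction field `F ⊇ K = Frac O`; `V i` are finitely many valuation rings of
`F` containing `R` (the vertical / Gauss valuation rings) with `ϖ ∈ 𝔪_{V i}` and
`⋂ (𝔪_{V i} ∩ R) ⊆ ϖ R`.  For a prime `𝔫` of `R`:

* `exists_notMem_of_valuationSubrings_at` : a nonzero `x ∈ F` which is a unit of every `V i` whose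
  centre is contained in `𝔫` and has order `0` at every place of `F / K` centred at `𝔫` is a quotient
  `a / r` with `a, r ∈ R ∖ 𝔫`  (the first clause of `hlocp` / `hlocm` of `P3G.Cover.Main`);
* `exists_mul_eq_of_valuationSubrings_at` : the integral form (`x ∈ R_𝔫`).
-/

set_option autoImplicit false
set_option linter.unusedSectionVars false
set_option linter.style.haveILetI false

namespace Fermat.Agent.P3G.KrullChart

open Fermat.Agent.N4.Cover.Globalize Fermat.Agent.P3G.Krull
open AlgebraicCurve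
open Fermat.Agent.N4F.C.LocalMult

variable {O K F R : Type*}
  [CommRing O] [IsDomain O] [IsDiscreteValuationRing O]
  [Field K] [Algebra O K] [IsFractionRing O K]
  [Field F] [Algebra K F] [Algebra O F] [IsScalarTower O K F]
  [CommRing R] [IsDomain R] [IsNoetherianRing R]
  [Algebra R F] [IsFractionRing R F] [Algebra O R] [IsScalarTower O R F]

section Instances

variable (𝔫 : Ideal R) [𝔫.IsPrime]

instance : IsScalarTower O (locAt (F := F) 𝔫) F := IsScalarTower.of_algebraMap_eq fun _ => rfl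

theorem algebraMap_O_locAt (c : O) :
    ((algebraMap O (locAt (F := F) 𝔫) c : locAt (F := F) 𝔫) : F) =
      algebraMap R F (algebraMap O R c) := by
  rw [← IsScalarTower.algebraMap_apply O R F]; rfl

theorem isIntegrallyClosed_locAt [IsIntegrallyClosed R] :
    IsIntegrallyClosed (locAt (F := F) 𝔫) :=
  isIntegrallyClosed_of_isLocalization _ 𝔫.primeCompl 𝔫.primeCompl_le_nonZeroDivisors

end Instances

section Main

variable {ϖ : O} (hϖ : Irreducible ϖ)
variable {ι : Type*} [Finite ι] (V : ι → ValuationSubring F)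
  (hV : ∀ i (r : R), algebraMap R F r ∈ V i)
  (hϖV : ∀ i, algebraMap R F (algebraMap O R ϖ) ∈ (V i).nonunits)
  (hsat : ∀ r : R, (∀ i, algebraMap R F r ∈ (V i).nonunits) → algebraMap O R ϖ ∣ r)
  (𝔫 : Ideal R) [h𝔫 : 𝔫.IsPrime]

/-- The valuation rings `V i` whose centre on `R` is contained in `𝔫` contain `R_𝔫`. -/
theorem mem_of_vCentre_le {i : ι} (hi : vCentre (V i) (hV i) ≤ 𝔫) {y : F}
    (hy : y ∈ locAt (F := F) 𝔫) : y ∈ V i := by
  obtain ⟨a, t, ht, hyt⟩ := (mem_locAt_iff 𝔫 y).1 hy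
  have h1 : (V i).valuation (algebraMap R F t) = 1 :=
    valuation_eq_one_of_notMem_vCentre (V i) (hV i) (fun h => ht (hi h))
  rw [← (V i).valuation_le_one_iff]
  have := congrArg (V i).valuation hyt
  rw [map_mul, h1, mul_one] at this
  rw [this]
  exact ((V i).valuation_le_one_iff _).2 (hV i a)

include hsat in
/-- Saturation descends to the local ring `R_𝔫`, with the subfamily of the `V i` through `𝔫`. -/
theorem sat_locAt (s : locAt (F := F) 𝔫)
    (hs : ∀ i, vCentre (V i) (hV i) ≤ 𝔫 → (s : F) ∈ (V i).nonunits) :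
    algebraMap O (locAt (F := F) 𝔫) ϖ ∣ s := by
  classical
  haveI := Fintype.ofFinite ι
  obtain ⟨a, t, ht, hst⟩ := (mem_locAt_iff 𝔫 (s : F)).1 s.2
  -- an element outside `𝔫` lying in the centre of every `V i` not through `𝔫`
  have hex : ∀ i, ∃ c : R, c ∉ 𝔫 ∧ (¬ vCentre (V i) (hV i) ≤ 𝔫 → c ∈ vCentre (V i) (hV i)) := by
    intro i
    by_cases hi : vCentre (V i) (hV i) ≤ 𝔫
    · exact ⟨1, fun h => h𝔫.ne_top ((Ideal.eq_top_iff_one _).2 h), fun h => absurd hi h⟩
    · obtain ⟨c, hc, hcn⟩ := Set.not_subset.1 hi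
      exact ⟨c, hcn, fun _ => hc⟩
  choose c hc hc' using hex
  set C : R := ∏ i, c i with hC
  have hCn : C ∉ 𝔫 := by
    intro h
    obtain ⟨i, -, hi⟩ := (Ideal.IsPrime.prod_mem_iff (hp := h𝔫)).1 h
    exact hc i hi
  have hmem : ∀ i, algebraMap R F (C * a) ∈ (V i).nonunits := by
    intro i
    rw [← mem_vCentre_iff (V i) (hV i)]
    by_cases hi : vCentre (V i) (hV i) ≤ 𝔫
    · apply Ideal.mul_mem_left
      rw [mem_vCentre_iff, ← hst, ValuationSubring.mem_nonunits_iff, map_mul]
      have h1 : (V i).valuation (s : F) < 1 := ((V i).mem_nonunits_iff).1 (hs i hi)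
      have h2 : (V i).valuation (algebraMap R F t) ≤ 1 := ((V i).valuation_le_one_iff _).2 (hV i t)
      calc (V i).valuation (s : F) * (V i).valuation (algebraMap R F t)
          ≤ (V i).valuation (s : F) * 1 := by gcongr
        _ = (V i).valuation (s : F) := mul_one _
        _ < 1 := h1
    · apply Ideal.mul_mem_right
      rw [hC, ← Finset.mul_prod_erase Finset.univ c (Finset.mem_univ i)]
      exact Ideal.mul_mem_right _ _ (hc' i hi)
  obtain ⟨b, hb⟩ := hsat _ hmem
  have hCt : C * t ∉ 𝔫 := fun h => (h𝔫.mem_or_mem h).elim hCn ht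
  have hCt0 := algebraMap_ne_zero_of_notMem (F := F) 𝔫 hCt
  refine ⟨⟨algebraMap R F b / algebraMap R F (C * t), div_mem_locAt 𝔫 b hCt⟩, ?_⟩
  apply Subtype.ext
  rw [MulMemClass.coe_mul, algebraMap_O_locAt 𝔫 ϖ]
  show (s : F) = algebraMap R F (algebraMap O R ϖ) * (algebraMap R F b / algebraMap R F (C * t))
  rw [mul_div_assoc', ← map_mul, ← hb, eq_div_iff hCt0, map_mul, map_mul, ← hst]
  ring

include hϖ hsat hϖV in
/-- **(K3-R), integral form at a point of a chart.** -/
theorem exists_mul_eq_of_valuationSubrings_at [IsIntegrallyClosed R] (x : F)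
    (hvert : ∀ i, vCentre (V i) (hV i) ≤ 𝔫 → x ∈ V i)
    (hhor : ∀ v : Place K F, (∀ r : R, algebraMap R F r ∈ v.toValuationSubring) →
      (∀ r : R, algebraMap R F r ∈ v.toValuationSubring.nonunits → r ∈ 𝔫) →
      x ∈ v.toValuationSubring) :
    ∃ a r : R, r ∉ 𝔫 ∧ x * algebraMap R F r = algebraMap R F a := by
  set S := locAt (F := F) 𝔫 with hS
  haveI : IsNoetherianRing S := isNoetherianRing_locAt 𝔫
  haveI : IsIntegrallyClosed S := isIntegrallyClosed_locAt 𝔫
  let ι' := {i : ι // vCentre (V i) (hV i) ≤ 𝔫}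
  have hV' : ∀ (i : ι') (s : S), algebraMap S F s ∈ V i.1 := fun i s =>
    mem_of_vCentre_le V hV 𝔫 i.2 s.2
  have hϖV' : ∀ i : ι', algebraMap S F (algebraMap O S ϖ) ∈ (V i.1).nonunits := by
    intro i
    have : algebraMap S F (algebraMap O S ϖ) = algebraMap R F (algebraMap O R ϖ) :=
      algebraMap_O_locAt 𝔫 ϖ
    rw [this]; exact hϖV i.1
  have hsat' : ∀ s : S, (∀ i : ι', algebraMap S F s ∈ (V i.1).nonunits) →
      algebraMap O S ϖ ∣ s := fun s hs =>
    sat_locAt V hV hsat 𝔫 s (fun i hi => hs ⟨i, hi⟩)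
  have hhor' : ∀ v : Place K F, Contains S v → x ∈ v.toValuationSubring := by
    intro v hv
    have h1 : ∀ r : R, algebraMap R F r ∈ v.toValuationSubring := fun r =>
      hv ⟨algebraMap R F r, algebraMap_mem_locAt 𝔫 r⟩
    refine hhor v h1 ?_
    intro r hr
    by_contra hrn
    have hinv : (algebraMap R F r)⁻¹ ∈ v.toValuationSubring :=
      hv ⟨(algebraMap R F r)⁻¹, inv_mem_locAt 𝔫 hrn⟩
    have hr0 := algebraMap_ne_zero_of_notMem (F := F) 𝔫 hrn
    have := mul_mem_nonunits v hinv hr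
    rw [inv_mul_cancel₀ hr0] at this
    exact one_not_mem_nonunits v this
  obtain ⟨s, hs⟩ := exists_algebraMap_eq_of_valuationSubrings (K := K) hϖ
    (fun i : ι' => V i.1) hV' hϖV' hsat' x (fun i => hvert i.1 i.2) hhor'
  obtain ⟨a, r, hr, h⟩ := (mem_locAt_iff 𝔫 (s : F)).1 s.2
  exact ⟨a, r, hr, by rw [← hs]; exact h⟩

include hϖ hsat hϖV in
/-- **(K3-R) The unit criterion at a point `𝔫` of a chart `R`** (in the shape of the first clause
of `hlocp` / `hlocm` of `P3G.Cover.Main.no_split_cover`): a nonzero `x ∈ F` which is a unit of every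
vertical valuation ring `V i` through `𝔫` and has order `0` at every place of `F / K` centred at `𝔫`
is a quotient of two elements of `R` outside `𝔫`. -/
theorem exists_notMem_of_valuationSubrings_at [IsIntegrallyClosed R] {x : F} (hx0 : x ≠ 0)
    (hvert : ∀ i, vCentre (V i) (hV i) ≤ 𝔫 → x ∈ V i ∧ x⁻¹ ∈ V i)
    (hhor : ∀ v : Place K F, (∀ r : R, algebraMap R F r ∈ v.toValuationSubring) →
      (∀ r : R, algebraMap R F r ∈ v.toValuationSubring.nonunits → r ∈ 𝔫) → v.ord x = 0) :
    ∃ a r : R, a ∉ 𝔫 ∧ r ∉ 𝔫 ∧ x * algebraMap R F r = algebraMap R F a := by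
  obtain ⟨a, r, hr, h⟩ := exists_mul_eq_of_valuationSubrings_at (K := K) hϖ V hV hϖV hsat 𝔫 x
    (fun i hi => (hvert i hi).1)
    (fun v h1 h2 => (Fermat.Agent.S24.PlaceExtend.mem_iff_ord_nonneg v hx0).2 (hhor v h1 h2).ge)
  obtain ⟨a', r', hr', h'⟩ := exists_mul_eq_of_valuationSubrings_at (K := K) hϖ V hV hϖV hsat 𝔫 x⁻¹
    (fun i hi => (hvert i hi).2)
    (fun v h1 h2 => (Fermat.Agent.S24.PlaceExtend.mem_iff_ord_nonneg v (inv_ne_zero hx0)).2 (by
      rw [v.ord_inv, hhor v h1 h2, neg_zero]))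
  refine ⟨a, r, ?_, hr, h⟩
  intro ha
  have hprod : a * a' = r * r' := by
    apply IsFractionRing.injective R F
    rw [map_mul, map_mul, ← h, ← h']
    field_simp
  have : r * r' ∈ 𝔫 := hprod ▸ 𝔫.mul_mem_right _ ha
  exact (h𝔫.mem_or_mem this).elim hr hr'

end Main

end Fermat.Agent.P3G.KrullChart
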