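import Mathlib
import Fermat.Agent.P3G.KrullChart
import Fermat.Agent.P3G.SecondDiff

/-!
# P3-G, node (U-crit): the unit criterion in the `hcrit` shape of `P3G.SecondDiff`

`R` a chart (noetherian integrally closed domain over the discrete valuation ring `O`, fraction field
`F ⊇ K = Frac O`), `V i` the finitely many vertical valuation rings with `⋂ (𝔪_{V i} ∩ R) ⊆ ϖ R`,
`𝔫` a prime of `R`.

* `centredSet 𝔫` : the places of `F / K` centred at `𝔫` (the set `C` of `SecondDiff`);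
* `throughSet V hV 𝔫` : the indices of the vertical components through `𝔫` (the set `I`);
* `hcrit_weak`, `hcrit_strong` : the hypothesis `hcrit` of `SecondDiff.exists_localRoot_weak` /
  `exists_localRoot_strong` for `Pl := Place K F`, `ord := fun Q x => Q.ord x`;
* `exists_c` : the element `c ∉ 𝔫` vanishing on the components not through `𝔫`;
* `exists_localRoot_weak_at`, `exists_localRoot_strong_at` : `SecondDiff.exists_localRoot_weak/_strong`
  with `hcrit`, `I`, `C`, `c` discharged (interface check by compilation).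
-/

set_option autoImplicit false
set_option linter.unusedSectionVars false
set_option linter.style.haveILetI false

namespace Fermat.Agent.P3G.UCrit

open Fermat.Agent.N4.Cover.Globalize Fermat.Agent.P3G.Krull Fermat.Agent.P3G.KrullChart
open AlgebraicCurve
open Fermat.Agent.P3G.SecondDiff Fermat.Agent.P3G.Cover.OfValuations

variable {O K F R : Type*}
  [CommRing O] [IsDomain O] [IsDiscreteValuationRing O]
  [Field K] [Algebra O K] [IsFractionRing O K]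
  [Field F] [Algebra K F] [Algebra O F] [IsScalarTower O K F]
  [CommRing R] [IsDomain R] [IsNoetherianRing R]
  [Algebra R F] [IsFractionRing R F] [Algebra O R] [IsScalarTower O R F]

variable (K) in
/-- The places of `F / K` centred at the prime `𝔫` of the chart `R`: `R ⊆ O_Q` and `𝔪_Q ∩ R ⊆ 𝔫`. -/
def centredSet (𝔫 : Ideal R) : Set (Place K F) :=
  {Q | (∀ r : R, algebraMap R F r ∈ Q.toValuationSubring) ∧
    ∀ r : R, algebraMap R F r ∈ Q.toValuationSubring.nonunits → r ∈ 𝔫}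

theorem mem_centredSet_iff {𝔫 : Ideal R} {Q : Place K F} :
    Q ∈ centredSet K 𝔫 ↔ (∀ r : R, algebraMap R F r ∈ Q.toValuationSubring) ∧
      ∀ r : R, algebraMap R F r ∈ Q.toValuationSubring.nonunits → r ∈ 𝔫 := Iff.rfl

variable {ι : Type*} (V : ι → ValuationSubring F) (hV : ∀ i (r : R), algebraMap R F r ∈ V i)

/-- The vertical components through `𝔫`: those `V i` whose centre on `R` is contained in `𝔫`. -/
def throughSet (𝔫 : Ideal R) : Set ι := {i | vCentre (V i) (hV i) ≤ 𝔫}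

theorem mem_throughSet_iff {𝔫 : Ideal R} {i : ι} :
    i ∈ throughSet V hV 𝔫 ↔ ∀ r : R, algebraMap R F r ∈ (V i).nonunits → r ∈ 𝔫 := by
  constructor
  · intro h r hr
    exact h ((mem_vCentre_iff (V i) (hV i)).2 hr)
  · intro h r hr
    exact h r ((mem_vCentre_iff (V i) (hV i)).1 hr)

theorem valuation_eq_one_iff (W : ValuationSubring F) {x : F} (hx0 : x ≠ 0) :
    W.valuation x = 1 ↔ x ∈ W ∧ x⁻¹ ∈ W := by
  rw [← W.valuation_le_one_iff, ← W.valuation_le_one_iff, map_inv₀]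
  have h0 : W.valuation x ≠ 0 := (Valuation.ne_zero_iff _).2 hx0
  constructor
  · intro h; rw [h]; simp
  · rintro ⟨h1, h2⟩
    rw [inv_le_one₀ (zero_lt_iff.2 h0)] at h2
    exact le_antisymm h1 h2

variable [Finite ι] {ϖ : O} (hϖ : Irreducible ϖ)
  (hϖV : ∀ i, algebraMap R F (algebraMap O R ϖ) ∈ (V i).nonunits)
  (hsat : ∀ r : R, (∀ i, algebraMap R F r ∈ (V i).nonunits) → algebraMap O R ϖ ∣ r)
  (𝔫 : Ideal R) [h𝔫 : 𝔫.IsPrime]

include hϖ hϖV hsat in
/-- **(U-crit), weak form** = `hcrit` of `SecondDiff.exists_localRoot_weak`. -/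
theorem hcrit_weak [IsIntegrallyClosed R] :
    ∀ x : F, x ≠ 0 → (∀ Q ∈ centredSet K 𝔫, Q.ord x = 0) →
      (∀ i ∈ throughSet V hV 𝔫, (V i).valuation x = 1) →
      ∃ a r : R, a ∉ 𝔫 ∧ r ∉ 𝔫 ∧ x * algebraMap R F a = algebraMap R F r := by
  intro x hx0 hC hI
  obtain ⟨a, r, ha, hr, h⟩ := exists_notMem_of_valuationSubrings_at (K := K) hϖ V hV hϖV hsat 𝔫 hx0
    (fun i hi => (valuation_eq_one_iff (V i) hx0).1 (hI i hi))
    (fun Q h1 h2 => hC Q ⟨h1, h2⟩)
  exact ⟨r, a, hr, ha, h⟩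

include hV hϖ hϖV hsat in
/-- **(U-crit), strong form** = `hcrit` of `SecondDiff.exists_localRoot_strong`. -/
theorem hcrit_strong [IsIntegrallyClosed R] :
    ∀ x : F, x ≠ 0 → (∀ Q ∈ centredSet K 𝔫, Q.ord x = 0) →
      (∀ i, (V i).valuation x = 1) →
      ∃ a r : R, a ∉ 𝔫 ∧ r ∉ 𝔫 ∧ x * algebraMap R F a = algebraMap R F r :=
  fun x hx0 hC hI => hcrit_weak (K := K) V hV hϖ hϖV hsat 𝔫 x hx0 hC (fun i _ => hI i)

/-- The element `c ∉ 𝔫` of `SecondDiff.exists_localRoot_weak`, vanishing on the vertical components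
not through `𝔫`. -/
theorem exists_c : ∃ c : R, c ∉ 𝔫 ∧ (∀ i, algebraMap R F c ∈ V i) ∧
    ∀ i, i ∉ throughSet V hV 𝔫 → (V i).valuation (algebraMap R F c) < 1 := by
  classical
  haveI := Fintype.ofFinite ι
  have hex : ∀ i, ∃ c : R, c ∉ 𝔫 ∧ (i ∉ throughSet V hV 𝔫 → c ∈ vCentre (V i) (hV i)) := by
    intro i
    by_cases hi : i ∈ throughSet V hV 𝔫
    · exact ⟨1, fun h => h𝔫.ne_top ((Ideal.eq_top_iff_one _).2 h), fun h => absurd hi h⟩
    · obtain ⟨c, hc, hcn⟩ := Set.not_subset.1 hi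
      exact ⟨c, hcn, fun _ => hc⟩
  choose c hc hc' using hex
  refine ⟨∏ i, c i, ?_, fun i => hV i _, ?_⟩
  · intro h
    obtain ⟨i, -, hi⟩ := (Ideal.IsPrime.prod_mem_iff (hp := h𝔫)).1 h
    exact hc i hi
  · intro i hi
    rw [← ValuationSubring.mem_nonunits_iff, ← mem_vCentre_iff (V i) (hV i),
      ← Finset.mul_prod_erase Finset.univ c (Finset.mem_univ i)]
    exact Ideal.mul_mem_right _ _ (hc' i hi)



include hϖ hϖV hsat in
/-- `SecondDiff.exists_localRoot_weak` at a point `𝔫` of the chart `R`, with the unit criterion, the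
set `C` of places centred at `𝔫`, the set `I` of components through `𝔫` and the element `c`
discharged. -/
theorem exists_localRoot_weak_at [IsIntegrallyClosed R] {π : F} (hπ0 : π ≠ 0)
    (hπ : ∀ i x, (V i).valuation x < 1 → (V i).valuation x ≤ (V i).valuation π)
    (σ : F ≃+* F) (hval : ∀ i b, (V i).valuation (σ b) = (V i).valuation b)
    (htriv : ∀ i, ∀ x ∈ V i, σ x - x ∈ (V i).nonunits)
    (hord : OrdMul (fun (Q : Place K F) (x : F) => Q.ord x)) {τ : Equiv.Perm (Place K F)}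
    (hτ : Compat (fun (Q : Place K F) (x : F) => Q.ord x) σ τ)
    (hC : ∀ Q ∈ centredSet K 𝔫, τ.symm Q ∈ centredSet K 𝔫) (S : Finset (Place K F))
    (D : Place K F → ℤ)
    (hD : ∀ P ∈ centredSet K 𝔫, P ∉ S → D P = 0) (b : Place K F → F) (hb0 : ∀ P ∈ S, b P ≠ 0)
    (hb1 : ∀ P ∈ S, P.ord (b P) = 1)
    (hb2 : ∀ P ∈ S, ∀ Q ∈ centredSet K 𝔫, Q ≠ P → Q.ord (b P) = 0)
    {p : ℕ} {f g d : F} (hf0 : f ≠ 0)
    (hfC : ∀ Q ∈ centredSet K 𝔫,
      Q.ord f = p * (D (τ.symm (τ.symm Q)) - 2 * D (τ.symm Q) + D Q))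
    (hfV : ∀ i ∈ throughSet V hV 𝔫, (V i).valuation f = 1)
    (hd0 : d ≠ 0) (hdC : ∀ Q ∈ centredSet K 𝔫, Q.ord d = 0) (hdV : ∀ i, (V i).valuation d = 1)
    (hgV : ∀ i, (V i).valuation g = 1)
    (hgd : ∀ i ∈ throughSet V hV 𝔫, (V i).valuation (g - d) < 1) :
    ∃ η : F, η ≠ 0 ∧
      (∃ a r : R, a ∉ 𝔫 ∧ r ∉ 𝔫 ∧ f * algebraMap R F a = η ^ p * algebraMap R F r) ∧
      ∃ c : R, c ∉ 𝔫 ∧ ∀ k : ℕ, ∃ w ∈ iInfSubring V,
        algebraMap R F c * ((η⁻¹) ^ k - (g⁻¹) ^ k) = π * w := by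
  obtain ⟨c, hc𝔫, hcV, hcI⟩ := exists_c V hV 𝔫
  exact exists_localRoot_weak (ord := fun (Q : Place K F) (x : F) => Q.ord x) V 𝔫 hπ0 hπ σ hval htriv
    hord hτ (centredSet K 𝔫) hC S D hD b hb0 hb1 hb2 (throughSet V hV 𝔫)
    (hcrit_weak (K := K) V hV hϖ hϖV hsat 𝔫) hf0 hfC hfV hd0 hdC hdV hgV hgd c hc𝔫 hcV hcI

include hV hϖ hϖV hsat in
/-- `SecondDiff.exists_localRoot_strong` at a point `𝔫` of the chart `R`, with the unit criterion
discharged. -/
theorem exists_localRoot_strong_at [IsIntegrallyClosed R] {π : F} (hπ0 : π ≠ 0)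
    (hπ : ∀ i x, (V i).valuation x < 1 → (V i).valuation x ≤ (V i).valuation π)
    (σ : F ≃+* F) (hval : ∀ i b, (V i).valuation (σ b) = (V i).valuation b)
    (htriv : ∀ i, ∀ x ∈ V i, σ x - x ∈ (V i).nonunits)
    (hord : OrdMul (fun (Q : Place K F) (x : F) => Q.ord x)) {τ : Equiv.Perm (Place K F)}
    (hτ : Compat (fun (Q : Place K F) (x : F) => Q.ord x) σ τ)
    (hC : ∀ Q ∈ centredSet K 𝔫, τ.symm Q ∈ centredSet K 𝔫) (S : Finset (Place K F))
    (D : Place K F → ℤ)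
    (hD : ∀ P ∈ centredSet K 𝔫, P ∉ S → D P = 0) (b : Place K F → F) (hb0 : ∀ P ∈ S, b P ≠ 0)
    (hb1 : ∀ P ∈ S, P.ord (b P) = 1)
    (hb2 : ∀ P ∈ S, ∀ Q ∈ centredSet K 𝔫, Q ≠ P → Q.ord (b P) = 0)
    {p : ℕ} {f g : F} (hf0 : f ≠ 0)
    (hfC : ∀ Q ∈ centredSet K 𝔫,
      Q.ord f = p * (D (τ.symm (τ.symm Q)) - 2 * D (τ.symm Q) + D Q))
    (hfV : ∀ i, (V i).valuation f = 1)
    (hg0 : g ≠ 0) (hgC : ∀ Q ∈ centredSet K 𝔫, Q.ord g = 0) (hgV : ∀ i, (V i).valuation g = 1) :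
    ∃ η : F, η ≠ 0 ∧
      (∃ a r : R, a ∉ 𝔫 ∧ r ∉ 𝔫 ∧ f * algebraMap R F a = η ^ p * algebraMap R F r) ∧
      ∃ w ∈ iInfSubring V, η - g = π * w :=
  exists_localRoot_strong (ord := fun (Q : Place K F) (x : F) => Q.ord x) V 𝔫 hπ0 hπ σ hval htriv
    hord hτ (centredSet K 𝔫) hC S D hD b hb0 hb1 hb2
    (hcrit_strong (K := K) V hV hϖ hϖV hsat 𝔫) hf0 hfC hfV hg0 hgC hgV

end Fermat.Agent.P3G.UCrit
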