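/-
P3-G, block (G-Γ), parts (Γ4) + (Γ5) (helper21).

(Γ5) THE DICTIONARY between torsion classes and functions, for any semilinear automorphism `g` of a
function field `F / K` (prelude language: `Place`, `Divisor`, `Pic0`, `SemilinearAut`):

* `IsDivOf f D` : `f ≠ 0` and `div f = D`; closed under products, inverses, powers, `g • ·`;
* `exists_isDivOf_of_nsmul_eq_zero` : a class `x` with `m • x = 0` is `[D]` with `m D = div f`;
* `diffDiv g D = g D − D`, `diffFn g f = g f / f`; `IsDivOf.diff`; `smul_mk_sub_mk`;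
* the second difference: `secondDiff_mk`, `IsDivOf.diff_diff`, `diffFn_diffFn`;
* `mk_eq_zero_of_isDivOf_nsmul_of_pow` : if `p E = div κ` and `κ = c w ^ p` then `[E] = 0`;
* the modular specialisation to `JZero N` and `σ ∈ Gal(Q̄/ℚ)`:
  `secondDiff_eq_zero_of_isDivOf`, in the shape of `G.Devissage.InertiaUnipotentPrime`.

(Γ4) RESIDUES: inertia acts trivially on the Gauss reduction `thetaBar A N` at EVERY level `N`
(`thetaBar_gal_smul_of_mem_inertia`, `thetaFt_gal_smul_of_mem_inertia`), and two abstract lemmas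
for the second vertical valuation: `sub_mem_nonunits_of_generated`, `stable_of_two_extensions`.
-/
import Mathlib
import Fermat.Prelude.Def_AlgebraicCurve_BaseChangeGalois
import Fermat.Agent.N4F.C.Galois

set_option autoImplicit false
set_option linter.unusedSectionVars false

open AlgebraicCurve ModularCurve

noncomputable section

namespace Fermat.Agent.P3G.GammaDict

/-! ### (Γ5) generic dictionary -/

section Generic

variable {K F : Type*} [Field K] [Field F] [Algebra K F]

/-- `f ≠ 0` and `div f = D`. -/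
def IsDivOf (f : F) (D : Divisor K F) : Prop :=
  f ≠ 0 ∧ ∀ v : Place K F, D v = v.ord f

theorem IsDivOf.ne_zero {f : F} {D : Divisor K F} (h : IsDivOf f D) : f ≠ 0 := h.1

theorem IsDivOf.apply {f : F} {D : Divisor K F} (h : IsDivOf f D) (v : Place K F) :
    D v = v.ord f := h.2 v

theorem isDivOf_one : IsDivOf (1 : F) (0 : Divisor K F) :=
  ⟨one_ne_zero, fun v => by rw [Finsupp.zero_apply, Place.ord_one]⟩

theorem IsDivOf.mul {f g : F} {D E : Divisor K F} (hf : IsDivOf f D) (hg : IsDivOf g E) :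
    IsDivOf (f * g) (D + E) :=
  ⟨mul_ne_zero hf.1 hg.1, fun v => by
    rw [Finsupp.add_apply, hf.2 v, hg.2 v, v.ord_mul hf.1 hg.1]⟩

theorem IsDivOf.inv {f : F} {D : Divisor K F} (hf : IsDivOf f D) : IsDivOf f⁻¹ (-D) :=
  ⟨inv_ne_zero hf.1, fun v => by rw [Finsupp.neg_apply, hf.2 v, v.ord_inv]⟩

theorem IsDivOf.div {f g : F} {D E : Divisor K F} (hf : IsDivOf f D) (hg : IsDivOf g E) :
    IsDivOf (f / g) (D - E) := by
  rw [div_eq_mul_inv, sub_eq_add_neg]
  exact hf.mul hg.inv

theorem IsDivOf.pow {f : F} {D : Divisor K F} (hf : IsDivOf f D) (n : ℕ) :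
    IsDivOf (f ^ n) (n • D) := by
  induction n with
  | zero =>
    rw [pow_zero, zero_smul]
    exact isDivOf_one
  | succ n ih =>
    rw [pow_succ, succ_nsmul]
    exact ih.mul hf

theorem IsDivOf.smul (g : SemilinearAut K F) {f : F} {D : Divisor K F} (hf : IsDivOf f D) :
    IsDivOf (g • f) (g • D) := by
  refine ⟨fun h => hf.1 ?_, fun w => ?_⟩
  · have h1 : g • f = g • (0 : F) := by rw [h, smul_zero]
    exact MulAction.injective g h1
  · rw [SemilinearAut.divisor_smul_apply, hf.2 (g⁻¹ • w)]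
    have h := SemilinearAut.ord_smul g (g⁻¹ • w) f
    rw [smul_inv_smul] at h
    exact h.symm

theorem IsDivOf.const_mul {f : F} {D : Divisor K F} (hf : IsDivOf f D) {c : K} (hc : c ≠ 0) :
    IsDivOf (algebraMap K F c * f) D := by
  have hcF : algebraMap K F c ≠ 0 := (map_ne_zero _).mpr hc
  refine ⟨mul_ne_zero hcF hf.1, fun v => ?_⟩
  rw [v.ord_mul hcF hf.1, hf.2 v]
  have hu : IsUnit (⟨algebraMap K F c, v.algebraMap_mem' c⟩ : v.toValuationSubring) := by
    refine isUnit_iff_exists_inv.mpr ⟨⟨algebraMap K F c⁻¹, v.algebraMap_mem' c⁻¹⟩, ?_⟩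
    apply Subtype.ext
    show algebraMap K F c * algebraMap K F c⁻¹ = 1
    rw [← map_mul, mul_inv_cancel₀ hc, map_one]
  have h0 : v.ord (algebraMap K F c) = 0 := v.ord_coe_unit hu.unit
  rw [h0, zero_add]

theorem mem_principal_iff {D : Divisor K F} :
    D ∈ Divisor.principal (K := K) (F := F) ↔ ∃ f : F, IsDivOf f D := Iff.rfl

/-- `[D] = 0` iff `D` is the divisor of a function. -/
theorem mk_eq_zero_iff (D : Divisor.degZero (K := K) (F := F)) :
    Pic0.mk D = 0 ↔ ∃ f : F, IsDivOf f (D : Divisor K F) := by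
  rw [Pic0.mk, QuotientAddGroup.eq_zero_iff, AddSubgroup.mem_addSubgroupOf]
  rfl

theorem mk_nsmul (m : ℕ) (D : Divisor.degZero (K := K) (F := F)) :
    Pic0.mk (m • D) = m • Pic0.mk D :=
  QuotientAddGroup.mk_nsmul _ D m

/-- `m • [D] = 0` iff `m D` is the divisor of a function. -/
theorem nsmul_mk_eq_zero_iff (m : ℕ) (D : Divisor.degZero (K := K) (F := F)) :
    m • Pic0.mk D = 0 ↔ ∃ f : F, IsDivOf f (m • (D : Divisor K F)) := by
  rw [← mk_nsmul, mk_eq_zero_iff, AddSubgroup.coe_nsmul]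

/-- **Dictionary**: a class killed by `m` is `[D]` with `m D = div f`. -/
theorem exists_isDivOf_of_nsmul_eq_zero (x : Pic0 K F) (m : ℕ) (hx : m • x = 0) :
    ∃ (D : Divisor.degZero (K := K) (F := F)) (f : F),
      Pic0.mk D = x ∧ IsDivOf f (m • (D : Divisor K F)) := by
  obtain ⟨D, rfl⟩ := Pic0.mk_surjective x
  obtain ⟨f, hf⟩ := (nsmul_mk_eq_zero_iff m D).mp hx
  exact ⟨D, f, rfl, hf⟩

/-- The group of divisors is torsion free. -/
theorem divisor_eq_of_nsmul_eq {p : ℕ} (hp : p ≠ 0) {D E : Divisor K F} (h : p • D = p • E) :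
    D = E := by
  ext v
  have h1 := DFunLike.congr_fun h v
  rw [Finsupp.smul_apply, Finsupp.smul_apply, nsmul_eq_mul, nsmul_eq_mul] at h1
  exact mul_left_cancel₀ (Nat.cast_ne_zero.mpr hp) h1

/-- If `p E = div κ` and `κ = c · w ^ p` with `c` a nonzero constant, then `E = div w`. -/
theorem isDivOf_of_isDivOf_nsmul_of_pow {p : ℕ} (hp : p ≠ 0) {E : Divisor K F} {κ w : F} {c : K}
    (hκ : IsDivOf κ (p • E)) (hc : c ≠ 0) (hw : κ = algebraMap K F c * w ^ p) : IsDivOf w E := by
  have hw0 : w ≠ 0 := by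
    rintro rfl
    rw [zero_pow hp, mul_zero] at hw
    exact hκ.1 hw
  refine ⟨hw0, fun v => ?_⟩
  have hcF : algebraMap K F c ≠ 0 := (map_ne_zero _).mpr hc
  have h1 := hκ.2 v
  have hu : IsUnit (⟨algebraMap K F c, v.algebraMap_mem' c⟩ : v.toValuationSubring) := by
    refine isUnit_iff_exists_inv.mpr ⟨⟨algebraMap K F c⁻¹, v.algebraMap_mem' c⁻¹⟩, ?_⟩
    apply Subtype.ext
    show algebraMap K F c * algebraMap K F c⁻¹ = 1
    rw [← map_mul, mul_inv_cancel₀ hc, map_one]
  have h0 : v.ord (algebraMap K F c) = 0 := v.ord_coe_unit hu.unit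
  have h2 : v.ord (w ^ p) = (p : ℤ) * v.ord w := by
    have := v.ord_zpow w (p : ℤ)
    rwa [zpow_natCast] at this
  rw [hw, v.ord_mul hcF (pow_ne_zero p hw0), h0, zero_add, h2, Finsupp.smul_apply,
    nsmul_eq_mul] at h1
  exact mul_left_cancel₀ (Nat.cast_ne_zero.mpr hp) h1

/-- If `p E = div κ` and `κ = c · w ^ p` with `c` a nonzero constant, then `[E] = 0`. -/
theorem mk_eq_zero_of_isDivOf_nsmul_of_pow {p : ℕ} (hp : p ≠ 0)
    (E : Divisor.degZero (K := K) (F := F)) {κ w : F} {c : K}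
    (hκ : IsDivOf κ (p • (E : Divisor K F))) (hc : c ≠ 0)
    (hw : κ = algebraMap K F c * w ^ p) : Pic0.mk E = 0 :=
  (mk_eq_zero_iff E).mpr ⟨w, isDivOf_of_isDivOf_nsmul_of_pow hp hκ hc hw⟩

/-! #### First and second differences -/

variable (g : SemilinearAut K F)

/-- `g D − D`. -/
def diffDiv (D : Divisor.degZero (K := K) (F := F)) : Divisor.degZero (K := K) (F := F) :=
  SemilinearAut.degZeroSMulHom g D - D

@[simp] theorem coe_diffDiv (D : Divisor.degZero (K := K) (F := F)) :
    (diffDiv g D : Divisor K F) = g • (D : Divisor K F) - D := rfl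

/-- `g f / f`. -/
def diffFn (f : F) : F := (g • f) / f

theorem diffFn_def (f : F) : diffFn g f = (g • f) / f := rfl

theorem diffFn_ne_zero {f : F} (hf : f ≠ 0) : diffFn g f ≠ 0 := by
  refine div_ne_zero (fun h => hf ?_) hf
  have h1 : g • f = g • (0 : F) := by rw [h, smul_zero]
  exact MulAction.injective g h1

/-- The second difference of a function: `g(g f) · f / (g f)²`. -/
theorem diffFn_diffFn {f : F} (hf : f ≠ 0) :
    diffFn g (diffFn g f) = (g • (g • f)) * f / (g • f) ^ 2 := by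
  have hgf : g • f ≠ 0 := by
    intro h
    have h1 : g • f = g • (0 : F) := by rw [h, smul_zero]
    exact hf (MulAction.injective g h1)
  rw [diffFn_def, diffFn_def, smul_div₀']
  field_simp

theorem smul_mk_sub_mk (D : Divisor.degZero (K := K) (F := F)) :
    g • Pic0.mk D - Pic0.mk D = Pic0.mk (diffDiv g D) := by
  rw [SemilinearAut.pic0_smul_mk]
  rfl

theorem smul_nsmul_divisor (m : ℕ) (D : Divisor K F) : g • (m • D) = m • (g • D) :=
  smul_comm g m D

theorem IsDivOf.diff {m : ℕ} {f : F} {D : Divisor.degZero (K := K) (F := F)}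
    (hf : IsDivOf f (m • (D : Divisor K F))) :
    IsDivOf (diffFn g f) (m • (diffDiv g D : Divisor K F)) := by
  have h1 := (hf.smul g).div hf
  rw [coe_diffDiv, smul_sub, ← smul_nsmul_divisor]
  exact h1

theorem IsDivOf.diff_diff {m : ℕ} {f : F} {D : Divisor.degZero (K := K) (F := F)}
    (hf : IsDivOf f (m • (D : Divisor K F))) :
    IsDivOf (diffFn g (diffFn g f)) (m • (diffDiv g (diffDiv g D) : Divisor K F)) :=
  (hf.diff g).diff g

/-- The class of the second difference. -/
theorem secondDiff_mk (D : Divisor.degZero (K := K) (F := F)) :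
    g • (g • Pic0.mk D) - g • Pic0.mk D - (g • Pic0.mk D - Pic0.mk D) =
      Pic0.mk (diffDiv g (diffDiv g D)) := by
  have h1 := smul_mk_sub_mk g D
  have h2 := smul_mk_sub_mk g (diffDiv g D)
  rw [← h1, smul_sub] at h2
  exact h2

/-- The second difference of a divisor, unfolded. -/
theorem coe_diffDiv_diffDiv (D : Divisor.degZero (K := K) (F := F)) :
    (diffDiv g (diffDiv g D) : Divisor K F) =
      g • (g • (D : Divisor K F)) - g • (D : Divisor K F) - (g • (D : Divisor K F) - D) := by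
  rw [coe_diffDiv, coe_diffDiv, smul_sub]

/-- The first difference of a divisor at a place. -/
theorem diffDiv_apply (D : Divisor.degZero (K := K) (F := F)) (v : Place K F) :
    (diffDiv g D : Divisor K F) v = (D : Divisor K F) (g⁻¹ • v) - (D : Divisor K F) v := by
  rw [coe_diffDiv, Finsupp.sub_apply, SemilinearAut.divisor_smul_apply]

/-- The second difference of a divisor at a place. -/
theorem diffDiv_diffDiv_apply (D : Divisor.degZero (K := K) (F := F)) (v : Place K F) :
    (diffDiv g (diffDiv g D) : Divisor K F) v =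
      (D : Divisor K F) (g⁻¹ • (g⁻¹ • v)) - 2 * (D : Divisor K F) (g⁻¹ • v) +
        (D : Divisor K F) v := by
  rw [diffDiv_apply, diffDiv_apply, diffDiv_apply]
  ring

/-- **The prime form of the second-difference criterion**: if `x = [D]`, `p · (second difference
of D) = div κ` and `κ` is a constant times a `p`-th power, then the second difference of `x`
vanishes. -/
theorem secondDiff_eq_zero_of_pow {p : ℕ} (hp : p ≠ 0) (D : Divisor.degZero (K := K) (F := F))
    {κ w : F} {c : K} (hκ : IsDivOf κ (p • (diffDiv g (diffDiv g D) : Divisor K F)))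
    (hc : c ≠ 0) (hw : κ = algebraMap K F c * w ^ p) :
    g • (g • Pic0.mk D) - g • Pic0.mk D - (g • Pic0.mk D - Pic0.mk D) = 0 := by
  rw [secondDiff_mk]
  exact mk_eq_zero_of_isDivOf_nsmul_of_pow hp _ hκ hc hw

/-- If `p • (second difference of [D]) = 0` then `p · (second difference of D)` is the divisor of a
function. -/
theorem exists_isDivOf_of_nsmul_secondDiff_eq_zero {p : ℕ}
    (D : Divisor.degZero (K := K) (F := F))
    (h : p • (g • (g • Pic0.mk D) - g • Pic0.mk D - (g • Pic0.mk D - Pic0.mk D)) = 0) :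
    ∃ κ : F, IsDivOf κ (p • (diffDiv g (diffDiv g D) : Divisor K F)) := by
  rw [secondDiff_mk] at h
  exact (nsmul_mk_eq_zero_iff p _).mp h

end Generic

/-! ### (Γ5) the modular specialisation -/

section Modular

open Fermat.Agent.N4F.C Fermat.Agent.N4F.C.Galois

local notation "Γ" => (AlgebraicClosure ℚ ≃ₐ[ℚ] AlgebraicClosure ℚ)

variable (N : ℕ)

theorem galois_smul_eq (σ : Γ) (x : JZero N) : σ • x = gal N σ • x := rfl

/-- **Dictionary for `J_0(N)(ℚ̄)`**: a class killed by `m` is `[D]` with `m D = div f`. -/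
theorem exists_isDivOf_of_torsion (x : JZero N) (m : ℕ) (hx : m • x = 0) :
    ∃ (D : Divisor.degZero (K := Qb) (F := Fb N)) (f : Fb N),
      Pic0.mk D = x ∧ IsDivOf f (m • (D : Divisor Qb (Fb N))) :=
  exists_isDivOf_of_nsmul_eq_zero x m hx

/-- The second difference of a class, in the shape of `G.Devissage.InertiaUnipotentPrime`. -/
theorem secondDiff_class (σ : Γ) (D : Divisor.degZero (K := Qb) (F := Fb N)) :
    σ • (σ • (Pic0.mk D : JZero N)) - σ • (Pic0.mk D : JZero N) -
        (σ • (Pic0.mk D : JZero N) - Pic0.mk D) =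
      Pic0.mk (diffDiv (gal N σ) (diffDiv (gal N σ) D)) :=
  secondDiff_mk (gal N σ) D

/-- **The criterion consumed by the assembly (G-A)**: with `x = [D]`, if `p · (σ − 1)² D = div κ`
and `κ = c · w ^ p`, then `(σ − 1)² x = 0`. -/
theorem secondDiff_eq_zero_of_isDivOf (σ : Γ) {p : ℕ} (hp : p ≠ 0)
    (D : Divisor.degZero (K := Qb) (F := Fb N)) {κ w : Fb N} {c : Qb}
    (hκ : IsDivOf κ (p • (diffDiv (gal N σ) (diffDiv (gal N σ) D) : Divisor Qb (Fb N))))
    (hc : c ≠ 0) (hw : κ = algebraMap Qb (Fb N) c * w ^ p) :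
    σ • (σ • (Pic0.mk D : JZero N)) - σ • (Pic0.mk D : JZero N) -
        (σ • (Pic0.mk D : JZero N) - Pic0.mk D) = 0 :=
  secondDiff_eq_zero_of_pow (gal N σ) hp D hκ hc hw

/-- The coefficientwise description of the second difference of a function. -/
theorem coe_diffFn (σ : Γ) (f : Fb N) :
    ((diffFn (gal N σ) f : Fb N) : LaurentSeries Qb) =
      coeffMap ((σ : Qb ≃+* Qb) : Qb →+* Qb) (f : LaurentSeries Qb) / (f : LaurentSeries Qb) :=
  rfl

end Modular

/-! ### (Γ4) residues -/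

section Residues

open Fermat.Agent.N4F.C Fermat.Agent.N4F.C.Galois Fermat.Agent.N4F.C.CoeffAut

local notation "Γ" => (AlgebraicClosure ℚ ≃ₐ[ℚ] AlgebraicClosure ℚ)

variable {A : ValuationSubring Qb} {N : ℕ}

/-- Inertia preserves the Gauss ring. -/
theorem gal_smul_mem_gaussSub_iff_of_mem_inertia {σ : Γ} (hσ : σ ∈ A.inertiaSubgroupIn ℚ)
    {g : Fb N} : gal N σ • g ∈ gaussSub A N ↔ g ∈ gaussSub A N :=
  gal_smul_mem_gaussSub_iff (A := A) (N := N) ⟨σ, mem_decompositionSubgroup_of_mem_inertia hσ⟩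

/-- **Inertia acts trivially on the Gauss reduction** (the first vertical valuation `w₁`), at every
level `N`. -/
theorem thetaBar_gal_smul_of_mem_inertia {σ : Γ} (hσ : σ ∈ A.inertiaSubgroupIn ℚ) (g : Fb N) :
    thetaBar A N (gal N σ • g) = thetaBar A N g := by
  have h := thetaBar_gal_smul (A := A) (N := N)
    ⟨σ, mem_decompositionSubgroup_of_mem_inertia hσ⟩ g
  rw [resAut_eq_one_of_mem_inertia hσ (mem_decompositionSubgroup_of_mem_inertia hσ)] at h
  rw [h]
  have h1 : (((1 : Kap A ≃+* Kap A) : Kap A ≃+* Kap A) : Kap A →+* Kap A) = RingHom.id (Kap A) :=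
    rfl
  rw [h1, coeffMap_id]

theorem thetaBar_gal_smul_mem_iff_of_mem_inertia {σ : Γ} (hσ : σ ∈ A.inertiaSubgroupIn ℚ)
    (g : Fb N) :
    thetaBar A N (gal N σ • g) ∈ modularFunctionFieldFullC (Kap A) N ↔
      thetaBar A N g ∈ modularFunctionFieldFullC (Kap A) N := by
  rw [thetaBar_gal_smul_of_mem_inertia hσ]

/-- Inertia acts trivially on `thetaFt`. -/
theorem thetaFt_gal_smul_of_mem_inertia {σ : Γ} (hσ : σ ∈ A.inertiaSubgroupIn ℚ) (g : Fb N) :
    thetaFt A N (gal N σ • g) = thetaFt A N g := by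
  by_cases h : thetaBar A N g ∈ modularFunctionFieldFullC (Kap A) N
  · have h' := (thetaBar_gal_smul_mem_iff_of_mem_inertia hσ g).2 h
    apply Subtype.ext
    rw [coe_thetaFt_of_mem h', coe_thetaFt_of_mem h, thetaBar_gal_smul_of_mem_inertia hσ]
  · have h' : thetaBar A N (gal N σ • g) ∉ modularFunctionFieldFullC (Kap A) N :=
      fun h1 => h ((thetaBar_gal_smul_mem_iff_of_mem_inertia hσ g).1 h1)
    rw [thetaFt_of_not_mem h, thetaFt_of_not_mem h']

/-- The first difference `σ g / g` of a Gauss unit reduces to `1`. -/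
theorem thetaBar_diffFn_of_mem_inertia {σ : Γ} (hσ : σ ∈ A.inertiaSubgroupIn ℚ) {g : Fb N}
    (hg0 : g ≠ 0) (hg : g ∈ gaussSub A N) (hg' : g⁻¹ ∈ gaussSub A N) :
    thetaBar A N (diffFn (gal N σ) g) = 1 := by
  have hσg : gal N σ • g ∈ gaussSub A N := (gal_smul_mem_gaussSub_iff_of_mem_inertia hσ).2 hg
  have hone : thetaBar A N g * thetaBar A N g⁻¹ = 1 := by
    rw [← thetaBar_mul hg hg', mul_inv_cancel₀ hg0, thetaBar_one]
  rw [diffFn_def, div_eq_mul_inv, thetaBar_mul hσg hg', thetaBar_gal_smul_of_mem_inertia hσ, hone]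

end Residues

/-! ### (Γ4) abstract lemmas for the second vertical valuation -/

section Abstract

variable {F : Type*} [Field F]

/-- If `τ` preserves the valuation subring `W`, it preserves its nonunits. -/
theorem map_mem_nonunits_of_stable (τ : F ≃+* F) (W : ValuationSubring F)
    (hτW : ∀ x, x ∈ W ↔ τ x ∈ W) {n : F} (hn : n ∈ W.nonunits) : τ n ∈ W.nonunits := by
  rw [ValuationSubring.mem_nonunits_iff_exists_mem_maximalIdeal] at hn ⊢
  obtain ⟨hnW, hnm⟩ := hn
  refine ⟨(hτW n).mp hnW, ?_⟩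
  rw [IsLocalRing.mem_maximalIdeal, mem_nonunits_iff] at hnm ⊢
  intro hu
  apply hnm
  obtain ⟨⟨y, hyW⟩, hy⟩ := isUnit_iff_exists_inv.mp hu
  have hy' : τ n * y = 1 := congrArg Subtype.val hy
  refine isUnit_iff_exists_inv.mpr ⟨⟨τ.symm y, (hτW _).mpr (by rwa [τ.apply_symm_apply])⟩, ?_⟩
  apply Subtype.ext
  show n * τ.symm y = 1
  apply τ.injective
  rw [map_mul, τ.apply_symm_apply, hy', map_one]

/-- **Triviality on the residue field from generators**: if the valuation subring `W` is stable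
under `τ`, every element of `W` is congruent to an element of a subring `G ⊆ W` modulo the maximal
ideal, and `τ g ≡ g` for `g ∈ G`, then `τ w ≡ w` for every `w ∈ W`. -/
theorem sub_mem_nonunits_of_generated (τ : F ≃+* F) (W : ValuationSubring F) (G : Subring F)
    (hτW : ∀ x, x ∈ W ↔ τ x ∈ W)
    (hgen : ∀ w ∈ W, ∃ g ∈ G, w - g ∈ W.nonunits)
    (hτG : ∀ g ∈ G, τ g - g ∈ W.nonunits) : ∀ w ∈ W, τ w - w ∈ W.nonunits := by
  intro w hw
  obtain ⟨g, hg, hn⟩ := hgen w hw
  have h1 := map_mem_nonunits_of_stable τ W hτW hn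
  rw [map_sub] at h1
  have e : τ w - w = (τ w - τ g) + (τ g - g) - (w - g) := by ring
  rw [e]
  have hadd : ∀ {x y : F}, x ∈ W.nonunits → y ∈ W.nonunits → x + y ∈ W.nonunits := by
    intro x y hx hy
    rw [ValuationSubring.mem_nonunits_iff] at hx hy ⊢
    exact lt_of_le_of_lt (Valuation.map_add _ x y) (max_lt hx hy)
  have hneg : ∀ {x : F}, x ∈ W.nonunits → -x ∈ W.nonunits := by
    intro x hx
    rw [ValuationSubring.mem_nonunits_iff] at hx ⊢
    rwa [Valuation.map_neg]
  rw [sub_eq_add_neg]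
  exact hadd (hadd h1 (hτG g hg)) (hneg hn)

/-- **Two extensions**: let `φ : F₀ → F` be an embedding of fields, equivariant for `τ₀`, `τ`; let
`V` be a `τ₀`-stable valuation subring of `F₀` with exactly two extensions `W₁ ≠ W₂` to `F`.  If
`W₁` is `τ`-stable, so is `W₂`. -/
theorem stable_of_two_extensions {F₀ : Type*} [Field F₀] (φ : F₀ →+* F) (τ₀ : F₀ ≃+* F₀)
    (τ : F ≃+* F) (hφ : ∀ x, τ (φ x) = φ (τ₀ x)) (V : ValuationSubring F₀)
    (hV : ∀ x, x ∈ V ↔ τ₀ x ∈ V) (W₁ W₂ : ValuationSubring F) (hne : W₁ ≠ W₂)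
    (h₂ : W₂.comap φ = V)
    (hall : ∀ W : ValuationSubring F, W.comap φ = V → W = W₁ ∨ W = W₂)
    (hW₁ : ∀ x, x ∈ W₁ ↔ τ x ∈ W₁) : ∀ x, x ∈ W₂ ↔ τ x ∈ W₂ := by
  set W' : ValuationSubring F := W₂.comap (τ : F →+* F) with hW'
  have hover : W'.comap φ = V := by
    ext x
    rw [ValuationSubring.mem_comap, hW', ValuationSubring.mem_comap]
    show τ (φ x) ∈ W₂ ↔ _
    rw [hφ, ← ValuationSubring.mem_comap, h₂]
    exact (hV x).symm
  rcases hall W' hover with h | h
  · exfalso
    apply hne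
    ext y
    obtain ⟨x, rfl⟩ := τ.surjective y
    rw [← hW₁ x, ← h, hW', ValuationSubring.mem_comap]
    rfl
  · intro x
    conv_lhs => rw [← h, hW', ValuationSubring.mem_comap]
    rfl

end Abstract

end Fermat.Agent.P3G.GammaDict
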