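/-
P3-G, block (G-A2) (helper19): THE AUXILIARY PRIME AND THE BOUNDED FACTOR.

* generic: for a finite separable extension `F'/F` of function fields,
  `pushforward ∘ pullback = [F' : F]` on divisors and on `Pic⁰`, and pull-back / push-forward on
  `Pic⁰` are equivariant for a pair of intertwined semilinear automorphisms;
* modular: for `α : F_N ⊂ F_{N r}` (the prelude's `heckeAlphaBar`), pull-back
  `alphaPull : J_0(N) →+ J_0(N r)` and push-forward `alphaPush : J_0(N r) →+ J_0(N)` commute with
  the Galois action and `alphaPush ∘ alphaPull = c`, `c = [F_{N r} : F_N] ≠ 0`;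
* `secondDiff_factor` : if `(σ − 1)²` kills `J_0(N r)[m]` then `c (σ − 1)²` kills `J_0(N)[m]`;
* `gal_sub_one_sq_of_factor` : on the Tate module the factor `c` disappears.
-/
import Mathlib
import Fermat.Agent.N4F.A.GaloisHecke
import Fermat.Agent.N4F.A.LevelMaps
import Fermat.Agent.N4F.A.PlaceFiber
import Fermat.Agent.N4F.A.HeckeInputsFinal

set_option autoImplicit false
set_option linter.unusedSectionVars false
set_option linter.style.haveILetI false

open AlgebraicCurve ModularCurve

noncomputable section

namespace Fermat.Agent.P3G.AuxPrime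

/-! ### Generic part: instance form -/

section Inst

variable {K F F' : Type*} [Field K] [Field F] [Field F'] [Algebra K F] [Algebra K F']
  [Algebra F F'] [IsScalarTower K F F'] [Algebra.IsIntegral F F'] [HasPrincipalDivisors K F']

/-- `pushforward ∘ pullback = [F' : F]` on divisors. -/
theorem pushforward_pullback [SumRamificationInertia K F F'] (D : Divisor K F) :
    Divisor.pushforward F (Divisor.pullback F' D) = (Module.finrank F F' : ℤ) • D := by
  induction D using Finsupp.induction with
  | zero => rw [map_zero, map_zero, smul_zero]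
  | single_add v n D _ _ ih =>
    rw [map_add, map_add, ih, smul_add]
    congr 1
    rw [Divisor.pullback_single, map_sum]
    have h1 : ∀ w ∈ v.fiber F', Divisor.pushforward F (Finsupp.single w (n * w.ramificationIndex F))
        = Finsupp.single v (n * ((w.ramificationIndex F : ℤ) * (w.inertiaDeg F : ℤ))) := by
      intro w hw
      rw [Divisor.pushforward_single, Place.mem_fiber.mp hw, mul_assoc]
    rw [Finset.sum_congr rfl h1]
    have h2 : ∀ (s : Finset (Place K F')) (c : Place K F' → ℤ),
        ∑ w ∈ s, (Finsupp.single v (c w) : Divisor K F) = Finsupp.single v (∑ w ∈ s, c w) := by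
      intro s c
      exact (map_sum (Finsupp.singleAddHom v) c s).symm
    rw [h2, ← Finset.mul_sum,
      SumRamificationInertia.sum_ramificationIndex_mul_inertiaDeg (K := K) (F := F) (F' := F') v,
      Finsupp.smul_single, smul_eq_mul, mul_comm]

/-- `pushforward ∘ pullback = [F' : F]` on `Pic⁰`. -/
theorem pushforwardHom_pullbackHom [SumRamificationInertia K F F'] [Module.Finite F F']
    (H : Divisor.PushforwardNormFormula K F F') (x : Pic0 K F) :
    Pic0.pushforwardHom K F F' H (Pic0.pullbackHom F' x) = (Module.finrank F F' : ℤ) • x := by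
  obtain ⟨D, rfl⟩ := Pic0.mk_surjective x
  rw [Pic0.pullbackHom_mk, Pic0.pushforwardHom_mk]
  have : (Module.finrank F F' : ℤ) • Pic0.mk D = Pic0.mk ((Module.finrank F F' : ℤ) • D) :=
    (QuotientAddGroup.mk_zsmul _ D _).symm
  rw [this]
  refine congrArg Pic0.mk (Subtype.ext ?_)
  rw [Pic0.coe_pushforwardDegZeroHom, Pic0.coe_pullbackDegZeroHom, pushforward_pullback,
    AddSubgroup.coe_zsmul]

variable {g : SemilinearAut K F} {g' : SemilinearAut K F'}
  (h : ∀ x : F, g' • algebraMap F F' x = algebraMap F F' (g • x))

include h in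
/-- Pull-back on `Pic⁰` is equivariant. -/
theorem smul_pullbackHom [FundamentalIdentity K F F'] (x : Pic0 K F) :
    g' • Pic0.pullbackHom F' x = Pic0.pullbackHom F' (g • x) := by
  obtain ⟨D, rfl⟩ := Pic0.mk_surjective x
  rw [Pic0.pullbackHom_mk, SemilinearAut.pic0_smul_mk, SemilinearAut.pic0_smul_mk,
    Pic0.pullbackHom_mk]
  refine congrArg Pic0.mk (Subtype.ext ?_)
  rw [SemilinearAut.coe_degZeroSMulHom, Pic0.coe_pullbackDegZeroHom, Pic0.coe_pullbackDegZeroHom,
    SemilinearAut.coe_degZeroSMulHom]
  exact Fermat.Agent.N4F.A.GaloisHecke.smul_pullback h (D : Divisor K F)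

include h in
/-- Push-forward on `Pic⁰` is equivariant. -/
theorem smul_pushforwardHom [Module.Finite F F'] (H : Divisor.PushforwardNormFormula K F F')
    (y : Pic0 K F') :
    g • Pic0.pushforwardHom K F F' H y = Pic0.pushforwardHom K F F' H (g' • y) := by
  obtain ⟨D, rfl⟩ := Pic0.mk_surjective y
  rw [Pic0.pushforwardHom_mk, SemilinearAut.pic0_smul_mk, SemilinearAut.pic0_smul_mk,
    Pic0.pushforwardHom_mk]
  refine congrArg Pic0.mk (Subtype.ext ?_)
  rw [SemilinearAut.coe_degZeroSMulHom, Pic0.coe_pushforwardDegZeroHom,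
    Pic0.coe_pushforwardDegZeroHom, SemilinearAut.coe_degZeroSMulHom]
  exact Fermat.Agent.N4F.A.GaloisHecke.smul_pushforward h (D : Divisor K F')

end Inst

/-! ### The modular instance: `α : F_N ⊂ F_{N r}` -/

section Modular

open Fermat.Agent.N4F.A.LevelMaps Fermat.Agent.N4F.A.PlaceFiber Fermat.Agent.N4F.A.GaloisHecke
  Fermat.Agent.N4F.A.HeckeInputsFinal

local notation "Qbar" => AlgebraicClosure ℚ
local notation "Γ" => (AlgebraicClosure ℚ ≃ₐ[ℚ] AlgebraicClosure ℚ)

variable (N r : ℕ) [NeZero N] [NeZero r]

/-- Pull-back of divisor classes along `α : F_N ⊂ F_{N r}`. -/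
def alphaPull : JZero N →+ JZero (N * r) :=
  letI := algebraAlong (heckeAlphaBar Qbar N r)
  haveI := isScalarTower_along (heckeAlphaBar Qbar N r)
  haveI := isIntegral_along (heckeAlphaBar Qbar N r) (heckeAlphaBarIntegral N r)
  haveI := hasPrincipalDivisors_bar (N * r)
  haveI : FundamentalIdentity Qbar (modularFunctionFieldBar N) (modularFunctionFieldBar (N * r)) :=
    Fermat.Agent.N4F.A.PlaceFiber.fundamentalIdentityAlong (heckeAlphaBar Qbar N r) (finiteAlong_heckeAlphaBar N r)
      (heckeAlphaBarIntegral N r)
  Pic0.pullbackHom (modularFunctionFieldBar (N * r))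

/-- Push-forward of divisor classes along `α : F_N ⊂ F_{N r}`. -/
def alphaPush : JZero (N * r) →+ JZero N :=
  letI := algebraAlong (heckeAlphaBar Qbar N r)
  haveI := isScalarTower_along (heckeAlphaBar Qbar N r)
  haveI := isIntegral_along (heckeAlphaBar Qbar N r) (heckeAlphaBarIntegral N r)
  haveI : Module.Finite (modularFunctionFieldBar N) (modularFunctionFieldBar (N * r)) :=
    finiteAlong_heckeAlphaBar N r
  Pic0.pushforwardHom Qbar (modularFunctionFieldBar N) (modularFunctionFieldBar (N * r))
    (normFormulaAlong_heckeAlphaBar N r)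

/-- The degree of `α`. -/
def alphaDeg : ℕ := finrankAlong Qbar (heckeAlphaBar Qbar N r)

theorem alphaDeg_pos : 0 < alphaDeg N r := by
  letI := algebraAlong (heckeAlphaBar Qbar N r)
  haveI : Module.Finite (modularFunctionFieldBar N) (modularFunctionFieldBar (N * r)) :=
    finiteAlong_heckeAlphaBar N r
  exact Module.finrank_pos

/-- `α_* α^* = deg α`. -/
theorem alphaPush_alphaPull (x : JZero N) :
    alphaPush N r (alphaPull N r x) = (alphaDeg N r : ℤ) • x := by
  letI := algebraAlong (heckeAlphaBar Qbar N r)
  haveI := isScalarTower_along (heckeAlphaBar Qbar N r)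
  haveI := isIntegral_along (heckeAlphaBar Qbar N r) (heckeAlphaBarIntegral N r)
  haveI := hasPrincipalDivisors_bar (N * r)
  haveI : Module.Finite (modularFunctionFieldBar N) (modularFunctionFieldBar (N * r)) :=
    finiteAlong_heckeAlphaBar N r
  haveI : CharZero (modularFunctionFieldBar N) := charZero_of_algebra Qbar _
  haveI : Algebra.IsSeparable (modularFunctionFieldBar N) (modularFunctionFieldBar (N * r)) :=
    inferInstance
  exact pushforwardHom_pullbackHom (normFormulaAlong_heckeAlphaBar N r) x

/-- `α^*` commutes with the Galois action. -/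
theorem alphaPull_smul (σ : Γ) (x : JZero N) : alphaPull N r (σ • x) = σ • alphaPull N r x := by
  letI := algebraAlong (heckeAlphaBar Qbar N r)
  haveI := isScalarTower_along (heckeAlphaBar Qbar N r)
  haveI := isIntegral_along (heckeAlphaBar Qbar N r) (heckeAlphaBarIntegral N r)
  haveI := hasPrincipalDivisors_bar (N * r)
  haveI : FundamentalIdentity Qbar (modularFunctionFieldBar N) (modularFunctionFieldBar (N * r)) :=
    Fermat.Agent.N4F.A.PlaceFiber.fundamentalIdentityAlong (heckeAlphaBar Qbar N r) (finiteAlong_heckeAlphaBar N r)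
      (heckeAlphaBarIntegral N r)
  rw [galois_smul_pic0_def, galois_smul_pic0_def]
  exact (smul_pullbackHom (fun y => intertwines_heckeAlphaBar N r σ y) x).symm

/-- `α_*` commutes with the Galois action. -/
theorem alphaPush_smul (σ : Γ) (y : JZero (N * r)) :
    alphaPush N r (σ • y) = σ • alphaPush N r y := by
  letI := algebraAlong (heckeAlphaBar Qbar N r)
  haveI := isScalarTower_along (heckeAlphaBar Qbar N r)
  haveI := isIntegral_along (heckeAlphaBar Qbar N r) (heckeAlphaBarIntegral N r)
  haveI := hasPrincipalDivisors_bar (N * r)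
  haveI : Module.Finite (modularFunctionFieldBar N) (modularFunctionFieldBar (N * r)) :=
    finiteAlong_heckeAlphaBar N r
  rw [galois_smul_pic0_def, galois_smul_pic0_def]
  exact (smul_pushforwardHom (fun y => intertwines_heckeAlphaBar N r σ y)
    (normFormulaAlong_heckeAlphaBar N r) y).symm

/-- **The bounded factor**: if the second difference `(σ − 1)²` kills the `m`-torsion of
`J_0(N r)`, then `deg α · (σ − 1)²` kills the `m`-torsion of `J_0(N)`. -/
theorem secondDiff_factor (σ : Γ) (m : ℕ)
    (H : ∀ y : JZero (N * r), m • y = 0 → σ • (σ • y) - σ • y - (σ • y - y) = 0)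
    (x : JZero N) (hx : m • x = 0) :
    (alphaDeg N r : ℤ) • (σ • (σ • x) - σ • x - (σ • x - x)) = 0 := by
  have hy : m • alphaPull N r x = 0 := by rw [← map_nsmul, hx, map_zero]
  have h1 := H (alphaPull N r x) hy
  rw [← alphaPull_smul, ← alphaPull_smul, ← map_sub, ← map_sub, ← map_sub] at h1
  rw [← alphaPush_alphaPull, h1, map_zero]

end Modular

end Fermat.Agent.P3G.AuxPrime
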