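/-
P3-G, block (G-A2) (helper19): FROM THE GEOMETRIC STATEMENT `GGeom` TO THE FROZEN S34.

`GGeom` is the prime form of (G) at the levels `N'` WITHOUT ELLIPTIC POINTS (some prime
`r ≡ 11 mod 12`, `r ≠ q`, divides `N'`): for `q ∥ N'`, `σ` in an inertia group at `q`, `p ≠ q`
prime and `x ∈ J_0(N')[p^k]`: if `p (σ − 1)² x = 0` then `(σ − 1)² x = 0`.

From it:
* dévissage (`G/Devissage`) : `(σ − 1)²` kills `J_0(N')[p^k]`;
* auxiliary prime (Dirichlet) + bounded factor (`AuxPrime.secondDiff_factor`) : for EVERY level `N`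
  with `q ∥ N` there is `c ≠ 0` with `c (σ − 1)² = 0` on `J_0(N)[p^k]` for all `k`;
* Tate module: the factor disappears (`ℤ_p`-torsion-freeness): `S34Assembly.UnipotentInertia`;
* `s34_of_es_of_geom` : the frozen S34 from `ESOnTorsionAll` and `GGeom`.
-/
import Mathlib
import Fermat.Agent.P3G.AuxPrime
import Fermat.Agent.N4F.Adic.S34Cond
import Fermat.Agent.G.Devissage

set_option autoImplicit false
set_option linter.unusedSectionVars false
set_option linter.style.haveILetI false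

open ModularCurve AlgebraicCurve PadicInt

noncomputable section

namespace Fermat.Agent.P3G.S34Final

open Fermat.Agent.N4F.Res Fermat.Agent.N4F.Adic Fermat.Agent.N4F.Adic.TateJ
  Fermat.Agent.N4F.Adic.TateModule Fermat.Agent.G.Devissage Fermat.Agent.P3G.AuxPrime

local notation "Qbar" => AlgebraicClosure ℚ
local notation "Γ" => (AlgebraicClosure ℚ ≃ₐ[ℚ] AlgebraicClosure ℚ)

/-- **(G), prime form, at one level `N` and one prime `q`.** -/
def InertiaUnipotentPrimeAt (N : ℕ) [NeZero N] (q : ℕ) : Prop :=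
  ∀ A : ValuationSubring Qbar, A.LiesOverPrime q → ∀ σ ∈ A.inertiaSubgroupIn ℚ,
    ∀ p : ℕ, p.Prime → p ≠ q → ∀ (k : ℕ) (x : JZero N), p ^ k • x = 0 →
      p • (σ • (σ • x) - (σ • x) - (σ • x - x)) = 0 →
        σ • (σ • x) - (σ • x) - (σ • x - x) = 0

/-- **The geometric statement**: the prime form of (G) at the levels without elliptic points. -/
def GGeom : Prop :=
  ∀ (N' : ℕ) [NeZero N'] (q : ℕ), q.Prime → q ∣ N' → ¬ q ^ 2 ∣ N' →
    (∃ r : ℕ, r.Prime ∧ r ∣ N' ∧ r ≠ q ∧ r % 12 = 11) → InertiaUnipotentPrimeAt N' q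

/-- Dirichlet: an auxiliary prime `r ≡ 11 mod 12` not dividing `N`. -/
theorem exists_aux_prime (N : ℕ) [NeZero N] : ∃ r : ℕ, r.Prime ∧ ¬ r ∣ N ∧ r % 12 = 11 := by
  obtain ⟨r, hrN, hr, hmod⟩ := Nat.forall_exists_prime_gt_and_modEq N (q := 12) (a := 11)
    (by norm_num) (by norm_num)
  refine ⟨r, hr, Nat.not_dvd_of_pos_of_lt (Nat.pos_of_ne_zero (NeZero.ne N)) hrN, ?_⟩
  have : r % 12 = 11 % 12 := hmod
  simpa using this

/-- Dévissage at one level: the prime form gives `(σ − 1)² = 0` on all `p`-power torsion. -/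
theorem secondDiff_eq_zero_of_primeAt {N : ℕ} [NeZero N] {q : ℕ}
    (h : InertiaUnipotentPrimeAt N q) (A : ValuationSubring Qbar) (hA : A.LiesOverPrime q)
    (σ : Γ) (hσ : σ ∈ A.inertiaSubgroupIn ℚ) (p : ℕ) (hp : p.Prime) (hpq : p ≠ q) (k : ℕ)
    (x : JZero N) (hx : p ^ k • x = 0) :
    σ • (σ • x) - (σ • x) - (σ • x - x) = 0 := by
  have key := eq_zero_of_devissage (secondDiff N σ) p (fun k x hx hpx => by
    rw [secondDiff_apply] at hpx ⊢
    exact h A hA σ hσ p hp hpq k x hx hpx) k x hx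
  rwa [secondDiff_apply] at key

/-- **(G) up to a bounded factor at every level**, from the geometric statement. -/
theorem exists_factor (hG : GGeom) (N : ℕ) [NeZero N] (q : ℕ) (hq : q.Prime) (hqN : q ∣ N)
    (hq2 : ¬ q ^ 2 ∣ N) :
    ∃ c : ℕ, c ≠ 0 ∧ ∀ A : ValuationSubring Qbar, A.LiesOverPrime q →
      ∀ σ ∈ A.inertiaSubgroupIn ℚ, ∀ p : ℕ, p.Prime → p ≠ q → ∀ (k : ℕ) (x : JZero N),
        p ^ k • x = 0 → (c : ℤ) • (σ • (σ • x) - (σ • x) - (σ • x - x)) = 0 := by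
  obtain ⟨r, hr, hrN, hr12⟩ := exists_aux_prime N
  haveI : NeZero r := ⟨hr.ne_zero⟩
  have hrq : r ≠ q := fun h => hrN (h ▸ hqN)
  have hq2' : ¬ q ^ 2 ∣ N * r := by
    intro hdvd
    have hcop : Nat.Coprime (q ^ 2) r :=
      Nat.Coprime.pow_left 2 ((Nat.coprime_primes hq hr).2 (Ne.symm hrq))
    exact hq2 (hcop.dvd_of_dvd_mul_right hdvd)
  have hgeom : InertiaUnipotentPrimeAt (N * r) q :=
    hG (N * r) q hq (Dvd.dvd.mul_right hqN r) hq2' ⟨r, hr, Dvd.intro_left N rfl, hrq, hr12⟩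
  refine ⟨alphaDeg N r, (alphaDeg_pos N r).ne', ?_⟩
  intro A hA σ hσ p hp hpq k x hx
  exact secondDiff_factor N r σ (p ^ k)
    (fun y hy => secondDiff_eq_zero_of_primeAt hgeom A hA σ hσ p hp hpq k y hy) x hx

variable (p : ℕ) [hp : Fact p.Prime] (N : ℕ) [NeZero N]

/-- On the Tate module a bounded factor disappears. -/
theorem gal_sub_one_sq_of_factor (σ : Γ) (c : ℕ) (hc : c ≠ 0)
    (h : ∀ (k : ℕ) (x : JZero N), p ^ k • x = 0 →
      (c : ℤ) • (σ • (σ • x) - (σ • x) - (σ • x - x)) = 0) :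
    (gal p N σ - 1) * (gal p N σ - 1) = 0 := by
  refine LinearMap.ext fun x => ?_
  rw [LinearMap.zero_apply]
  have hc' : ((c : ℕ) : ℤ_[p]) ≠ 0 := Nat.cast_ne_zero.mpr hc
  refine (smul_eq_zero.mp ?_).resolve_left hc'
  refine Tate.ext fun k => ?_
  have hk := h k ((x : ℕ → JZero N) k) (Tate.pow_smul_apply x k)
  rw [Tate.natCast_smul_apply]
  rw [Module.End.mul_apply, LinearMap.sub_apply, LinearMap.sub_apply, Module.End.one_apply,
    Module.End.one_apply, map_sub]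
  change c • (((gal p N σ (gal p N σ x) : TJ p N) : ℕ → JZero N) k
    - ((gal p N σ x : TJ p N) : ℕ → JZero N) k
    - (((gal p N σ x : TJ p N) : ℕ → JZero N) k - (x : ℕ → JZero N) k)) = (0 : ℕ → JZero N) k
  rw [gal_apply_coe, gal_apply_coe, ← natCast_zsmul]
  exact hk

/-- The Tate data with (G), from the geometric statement. -/
theorem exists_tateData_unipotent (hES : ESOnTorsionAll N) (hG : GGeom) :
    ∃ D : TateData p N, S34Assembly.UnipotentInertia D := by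
  have hK := KummerPlugPow.kummerPackageAll N
  refine ⟨TateDataInst.tateData p N (S30Cond.torsionFinite_of_all N hK) hES
    (S30Cond.lambdaSystem N p hK) (S30Cond.heckeFaithful N), ?_⟩
  intro q hq hqp hqN hq2 A hA σ hσ
  obtain ⟨c, hc, hfac⟩ := exists_factor hG N q hq hqN hq2
  exact gal_sub_one_sq_of_factor p N σ c hc
    (fun k x hx => hfac A hA σ hσ p hp.out (Ne.symm hqp) k x hx)

/-- **Frozen S34 from the Eichler–Shimura relation on torsion and the geometric statement.** -/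
theorem s34_of_es_of_geom (hES : ∀ (N : ℕ) [NeZero N], ESOnTorsionAll N) (hG : GGeom)
    {𝒪 : Type} [CommRing 𝒪] [IsDomain 𝒪] [IsDiscreteValuationRing 𝒪]
    [IsAdicComplete (IsLocalRing.maximalIdeal 𝒪) 𝒪] [Finite (IsLocalRing.ResidueField 𝒪)]
    [CharZero 𝒪]
    {p : ℕ} (hp : p.Prime) (hp𝒪 : (p : 𝒪) ∈ IsLocalRing.maximalIdeal 𝒪)
    {N : ℕ} [NeZero N] {S : Finset ℕ} (hpS : p ∈ S) (hNS : ∀ q : ℕ, q.Prime → q ∣ N → q ∈ S)
    {θ : CuspForm.heckeAlgebra N 2 (↑S : Set ℕ) →+* IsLocalRing.ResidueField 𝒪}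
    {T : Type} [CommRing T] [IsLocalRing T] [IsNoetherianRing T]
    [IsAdicComplete (IsLocalRing.maximalIdeal T) T] [Algebra 𝒪 T] [IsLocalHom (algebraMap 𝒪 T)]
    [Module.Finite 𝒪 T] [Module.Free 𝒪 T]
    (H : CuspForm.HeckeGaloisRepDatum N (↑S : Set ℕ) 𝒪 θ T)
    (q : ℕ) (hq : q.Prime) (hqp : q ≠ p) (hqN : q ∣ N) (hq2 : ¬ q ^ 2 ∣ N) :
    H.ρ.IsUnipotentOnInertiaAt q :=
  S34Assembly.s34_of_tateData
    (fun p N _ _ => exists_tateData_unipotent p N (hES N) hG)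
    hp hp𝒪 hpS hNS H q hq hqp hqN hq2

end Fermat.Agent.P3G.S34Final
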