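/-
P3-G, block (G-A) (helper19): THE FUNCTION-FIELD FORM OF (G).

`GeomCore` is the statement about functions and divisors on `Q̄ · F_N` that the geometric blocks
(G-C)/(G-L)/(G-N)/(G-Γ) prove; no Jacobian, no torsion class, no Tate module in it:

  for `q ∥ N`, `σ` in an inertia group at `q`, `p ≠ q` prime, a divisor `D` of degree `0` with
  `p^k D = div f`, and `κ` with `div κ = p (σ − 1)² D`:  `κ` is a constant times a `p`-th power.

`gGeom_of_core : GeomCore → S34Final.GGeom` (helper21's dictionary `P3G/GammaDict`), hence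
`s34_of_es_of_core` : the frozen S34 from `ESOnTorsionAll` and `GeomCore`.
-/
import Mathlib
import Fermat.Agent.P3G.S34Final
import Fermat.Agent.P3G.GammaDict

set_option autoImplicit false
set_option linter.unusedSectionVars false
set_option linter.dupNamespace false

open ModularCurve AlgebraicCurve

noncomputable section

namespace Fermat.Agent.P3G.GeomCore

open Fermat.Agent.P3G.GammaDict Fermat.Agent.P3G.S34Final Fermat.Agent.N4F.C
  Fermat.Agent.N4F.C.Galois Fermat.Agent.N4F.Res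

local notation "Qbar" => AlgebraicClosure ℚ
local notation "Γ" => (AlgebraicClosure ℚ ≃ₐ[ℚ] AlgebraicClosure ℚ)

/-- **(G), function-field form, at one level `N` and one prime `q`.** -/
def GeomCoreAt (N : ℕ) [NeZero N] (q : ℕ) : Prop :=
  ∀ A : ValuationSubring Qbar, A.LiesOverPrime q → ∀ σ ∈ A.inertiaSubgroupIn ℚ,
    ∀ p : ℕ, p.Prime → p ≠ q → ∀ (k : ℕ) (D : Divisor.degZero (K := Qb) (F := Fb N))
      (f κ : Fb N), IsDivOf f (p ^ k • (D : Divisor Qb (Fb N))) →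
      IsDivOf κ (p • (diffDiv (gal N σ) (diffDiv (gal N σ) D) : Divisor Qb (Fb N))) →
        ∃ (c : Qb) (w : Fb N), c ≠ 0 ∧ κ = algebraMap Qb (Fb N) c * w ^ p

/-- **(G), function-field form**, at the levels without elliptic points. -/
def GeomCore : Prop :=
  ∀ (N' : ℕ) [NeZero N'] (q : ℕ), q.Prime → q ∣ N' → ¬ q ^ 2 ∣ N' →
    (∃ r : ℕ, r.Prime ∧ r ∣ N' ∧ r ≠ q ∧ r % 12 = 11) → GeomCoreAt N' q

/-- The same at ALL levels (if the geometric proof does not need the auxiliary prime). -/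
def GeomCoreAll : Prop :=
  ∀ (N' : ℕ) [NeZero N'] (q : ℕ), q.Prime → q ∣ N' → ¬ q ^ 2 ∣ N' → GeomCoreAt N' q

theorem geomCore_of_all (h : GeomCoreAll) : GeomCore :=
  fun N' _ q hq hqN hq2 _ => h N' q hq hqN hq2

/-- The function-field form gives the prime form of (G) on `J_0(N)`. -/
theorem inertiaUnipotentPrimeAt_of_core {N : ℕ} [NeZero N] {q : ℕ} (h : GeomCoreAt N q) :
    InertiaUnipotentPrimeAt N q := by
  intro A hA σ hσ p hp hpq k x hx hpx
  obtain ⟨D, f, rfl, hf⟩ := exists_isDivOf_of_torsion N x (p ^ k) hx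
  obtain ⟨κ, hκ⟩ := exists_isDivOf_of_nsmul_secondDiff_eq_zero (gal N σ) D hpx
  obtain ⟨c, w, hc, hw⟩ := h A hA σ hσ p hp hpq k D f κ hf hκ
  exact secondDiff_eq_zero_of_isDivOf N σ hp.ne_zero D hκ hc hw

theorem gGeom_of_core (h : GeomCore) : GGeom :=
  fun N' _ q hq hqN hq2 hr => inertiaUnipotentPrimeAt_of_core (h N' q hq hqN hq2 hr)

/-- **Frozen S34 from the Eichler–Shimura relation on torsion and the function-field form of
(G).** -/
theorem s34_of_es_of_core (hES : ∀ (N : ℕ) [NeZero N], ESOnTorsionAll N) (hG : GeomCore)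
    {𝒪 : Type} [CommRing 𝒪] [IsDomain 𝒪] [IsDiscreteValuationRing 𝒪]
    [IsAdicComplete (IsLocalRing.maximalIdeal 𝒪) 𝒪] [Finite (IsLocalRing.ResidueField 𝒪)]
    [CharZero 𝒪]
    {p : ℕ} (hp : p.Prime) (hp𝒪 : (p : 𝒪) ∈ IsLocalRing.maximalIdeal 𝒪)
    {N : ℕ} [NeZero N] {S : Finset ℕ} (hpS : p ∈ S) (hNS : ∀ q : ℕ, q.Prime → q ∣ N → q ∈ S)
    {θ : CuspForm.heckeAlgebra N 2 (↑S : Set ℕ) →+* IsLocalRing.ResidueField 𝒪}
    {T : Type} [CommRing T] [IsLocalRing T] [IsNoetherianRing T]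
    [IsAdicComplete (IsLocalRing.maximalIdeal T) T] [Algebra 𝒪 T] [IsLocalHom (algebraMap 𝒪 T)]
    [Module.Finite 𝒪 T] [Module.Free 𝒪 T]
    (H : CuspForm.HeckeGaloisRepDatum N (↑S : Set ℕ) 𝒪 θ T)
    (q : ℕ) (hq : q.Prime) (hqp : q ≠ p) (hqN : q ∣ N) (hq2 : ¬ q ^ 2 ∣ N) :
    H.ρ.IsUnipotentOnInertiaAt q :=
  s34_of_es_of_geom hES (gGeom_of_core hG) hp hp𝒪 hpS hNS H q hq hqp hqN hq2

end Fermat.Agent.P3G.GeomCore
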