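/-
P3-G, block (G-A) (helper19): THE PRIME-DEGREE KUMMER FORM OF (G).

`GeomStepAt N q` is the statement in exactly the shape in which `no_split_cover` (prime degree) is
applied; only functions on `Q̄ · F_N` occur in it, no divisor classes:

  `σ` in an inertia group at `q ∥ N`, `p ≠ q` prime, `f ≠ 0` with `p^k ∣ ord_P f` for all places `P`,
  `j < k`, and `κ` with `κ ^ (p^j) = c · (σ − 1)² f` (`c` a nonzero constant, `(σ − 1)² f :=
  σ²f · f / (σf)²`):  then `κ` is a constant times a `p`-th power.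

* `geomRootAt_of_step` : by induction on `j`, `(σ − 1)² f` is a constant times a `p^k`-th power;
* `geomCoreAt_of_root`, `geomCoreAt_of_step` : hence `GeomCore.GeomCoreAt N q`
  (two functions with the same divisor differ by a constant);
* `s34_of_es_of_step` : the frozen S34 from `ESOnTorsionAll` and `GeomStep`.
-/
import Mathlib
import Fermat.Agent.P3G.GeomCore
import Fermat.Agent.N4F.A.LevelMaps
import Fermat.Agent.S24.PrincipalDegree

set_option autoImplicit false
set_option linter.unusedSectionVars false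
set_option linter.dupNamespace false
set_option linter.style.haveILetI false

open ModularCurve AlgebraicCurve IntermediateField

noncomputable section

namespace Fermat.Agent.P3G.GeomStep

open Fermat.Agent.P3G.GammaDict Fermat.Agent.P3G.S34Final Fermat.Agent.P3G.GeomCore
  Fermat.Agent.N4F.C Fermat.Agent.N4F.C.Galois Fermat.Agent.N4F.Res

local notation "Qbar" => AlgebraicClosure ℚ
local notation "Γ" => (AlgebraicClosure ℚ ≃ₐ[ℚ] AlgebraicClosure ℚ)

/-! ### Constants of `Q̄ · F_N` -/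

section Const

variable (N : ℕ) [NeZero N]

/-- A function on `X_0(N)_{Q̄}` without zeros and poles is constant. -/
theorem exists_const_of_forall_ord_eq_zero {t : Fb N} (ht : t ≠ 0)
    (h : ∀ P : Place Qb (Fb N), P.ord t = 0) :
    ∃ c : Qb, c ≠ 0 ∧ t = algebraMap Qb (Fb N) c := by
  have halg : IsAlgebraic Qb t := by
    by_contra htr
    haveI := Fermat.Agent.N4F.A.LevelMaps.finiteDimensional_adjoin_simple N (f := t) htr
    haveI : Algebra.IsAlgebraic ↥(IntermediateField.adjoin Qb {t}) (Fb N) :=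
      Algebra.IsAlgebraic.of_finite _ _
    haveI : Algebra.IsSeparable ↥(IntermediateField.adjoin Qb {t}) (Fb N) :=
      Algebra.IsAlgebraic.isSeparable_of_perfectField
    obtain ⟨Z, hZ1, hZ2⟩ := Fermat.Agent.S24.exists_zeroDivisor (K := Qb) (F := Fb N) (h := t) htr
    have hZ0 : Z = 0 := by
      ext v
      rw [hZ1 v, h v]
      rfl
    rw [hZ0, map_zero] at hZ2
    have hpos : 0 < Module.finrank ↥(IntermediateField.adjoin Qb {t}) (Fb N) := Module.finrank_pos
    omega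
  haveI : Algebra.IsAlgebraic Qb ↥(IntermediateField.adjoin Qb {t}) :=
    IntermediateField.isAlgebraic_adjoin_simple halg.isIntegral
  have hbot := IntermediateField.eq_bot_of_isAlgClosed_of_isAlgebraic
    (IntermediateField.adjoin Qb {t})
  have hmem : t ∈ (⊥ : IntermediateField Qb (Fb N)) := by
    rw [← hbot]
    exact IntermediateField.mem_adjoin_simple_self Qb t
  obtain ⟨c, hc⟩ := IntermediateField.mem_bot.mp hmem
  refine ⟨c, ?_, hc.symm⟩
  rintro rfl
  rw [map_zero] at hc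
  exact ht hc.symm

/-- Two functions with the same divisor differ by a nonzero constant. -/
theorem IsDivOf.eq_const_mul {f g : Fb N} {D : Divisor Qb (Fb N)} (hf : IsDivOf f D)
    (hg : IsDivOf g D) : ∃ c : Qb, c ≠ 0 ∧ f = algebraMap Qb (Fb N) c * g := by
  have h := hf.div hg
  rw [sub_self] at h
  obtain ⟨c, hc, hfg⟩ := exists_const_of_forall_ord_eq_zero N h.1 (fun P => (h.2 P).symm)
  refine ⟨c, hc, ?_⟩
  rw [← hfg, div_mul_cancel₀ _ hg.1]

end Const

/-! ### The three forms -/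

/-- **(G), prime-degree Kummer form, at one level `N` and one prime `q`.** -/
def GeomStepAt (N : ℕ) [NeZero N] (q : ℕ) : Prop :=
  ∀ A : ValuationSubring Qbar, A.LiesOverPrime q → ∀ σ ∈ A.inertiaSubgroupIn ℚ,
    ∀ p : ℕ, p.Prime → p ≠ q → ∀ k j : ℕ, j < k → ∀ (f κ : Fb N) (c : Qb), f ≠ 0 → c ≠ 0 →
      (∀ P : Place Qb (Fb N), ((p ^ k : ℕ) : ℤ) ∣ P.ord f) →
      κ ^ (p ^ j) = algebraMap Qb (Fb N) c * diffFn (gal N σ) (diffFn (gal N σ) f) →
        ∃ (c' : Qb) (w : Fb N), c' ≠ 0 ∧ κ = algebraMap Qb (Fb N) c' * w ^ p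

/-- **(G), root form**: the second difference of a function whose divisor is divisible by `p^k` is
a constant times a `p^k`-th power. -/
def GeomRootAt (N : ℕ) [NeZero N] (q : ℕ) : Prop :=
  ∀ A : ValuationSubring Qbar, A.LiesOverPrime q → ∀ σ ∈ A.inertiaSubgroupIn ℚ,
    ∀ p : ℕ, p.Prime → p ≠ q → ∀ (k : ℕ) (f : Fb N), f ≠ 0 →
      (∀ P : Place Qb (Fb N), ((p ^ k : ℕ) : ℤ) ∣ P.ord f) →
        ∃ (c : Qb) (w : Fb N), c ≠ 0 ∧
          diffFn (gal N σ) (diffFn (gal N σ) f) = algebraMap Qb (Fb N) c * w ^ (p ^ k)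

/-- Induction on the exponent: the Kummer form gives the root form. -/
theorem geomRootAt_of_step {N : ℕ} [NeZero N] {q : ℕ} (h : GeomStepAt N q) : GeomRootAt N q := by
  intro A hA σ hσ p hp hpq k f hf hdiv
  have key : ∀ j : ℕ, j ≤ k → ∃ (c : Qb) (w : Fb N), c ≠ 0 ∧
      diffFn (gal N σ) (diffFn (gal N σ) f) = algebraMap Qb (Fb N) c * w ^ (p ^ j) := by
    intro j
    induction j with
    | zero =>
      intro _
      exact ⟨1, diffFn (gal N σ) (diffFn (gal N σ) f), one_ne_zero, by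
        rw [map_one, one_mul, pow_zero, pow_one]⟩
    | succ j ih =>
      intro hj
      obtain ⟨c, w, hc, hw⟩ := ih (Nat.le_of_succ_le hj)
      have hcF : algebraMap Qb (Fb N) c ≠ 0 := (map_ne_zero _).mpr hc
      have h1 : w ^ (p ^ j) = algebraMap Qb (Fb N) c⁻¹ *
          diffFn (gal N σ) (diffFn (gal N σ) f) := by
        rw [hw, ← mul_assoc, ← map_mul, inv_mul_cancel₀ hc, map_one, one_mul]
      obtain ⟨c', w', hc', hw'⟩ := h A hA σ hσ p hp hpq k j (Nat.lt_of_succ_le hj) f w c⁻¹ hf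
        (inv_ne_zero hc) hdiv h1
      refine ⟨c * c' ^ (p ^ j), w', mul_ne_zero hc (pow_ne_zero _ hc'), ?_⟩
      rw [hw, hw', mul_pow, ← pow_mul, ← pow_succ', map_mul, map_pow, mul_assoc]
  exact key k le_rfl

/-- The root form gives the function-field form `GeomCoreAt`. -/
theorem geomCoreAt_of_root {N : ℕ} [NeZero N] {q : ℕ} (h : GeomRootAt N q) : GeomCoreAt N q := by
  intro A hA σ hσ p hp hpq k D f κ hf hκ
  have hpk : p ^ k ≠ 0 := pow_ne_zero k hp.ne_zero
  have hdiv : ∀ P : Place Qb (Fb N), ((p ^ k : ℕ) : ℤ) ∣ P.ord f := by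
    intro P
    rw [← hf.2 P, Finsupp.smul_apply, nsmul_eq_mul]
    exact Dvd.intro _ rfl
  obtain ⟨c, w, hc, hw⟩ := h A hA σ hσ p hp hpq k f hf.1 hdiv
  -- `div w = (σ − 1)² D`
  have hh := hf.diff_diff (gal N σ)
  have hwE : IsDivOf w (diffDiv (gal N σ) (diffDiv (gal N σ) D) : Divisor Qb (Fb N)) :=
    isDivOf_of_isDivOf_nsmul_of_pow hpk hh hc hw
  -- `κ` and `w ^ p` have the same divisor
  obtain ⟨c', hc', hκw⟩ := IsDivOf.eq_const_mul N hκ (hwE.pow p)
  exact ⟨c', w, hc', hκw⟩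

theorem geomCoreAt_of_step {N : ℕ} [NeZero N] {q : ℕ} (h : GeomStepAt N q) : GeomCoreAt N q :=
  geomCoreAt_of_root (geomRootAt_of_step h)

/-- **(G), prime-degree Kummer form**, at the levels without elliptic points. -/
def GeomStep : Prop :=
  ∀ (N' : ℕ) [NeZero N'] (q : ℕ), q.Prime → q ∣ N' → ¬ q ^ 2 ∣ N' →
    (∃ r : ℕ, r.Prime ∧ r ∣ N' ∧ r ≠ q ∧ r % 12 = 11) → GeomStepAt N' q

/-- The same at ALL levels (if the geometric proof does not need the auxiliary prime). -/
def GeomStepAll : Prop :=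
  ∀ (N' : ℕ) [NeZero N'] (q : ℕ), q.Prime → q ∣ N' → ¬ q ^ 2 ∣ N' → GeomStepAt N' q

theorem geomStep_of_all (h : GeomStepAll) : GeomStep :=
  fun N' _ q hq hqN hq2 _ => h N' q hq hqN hq2

theorem geomCore_of_step (h : GeomStep) : GeomCore.GeomCore :=
  fun N' _ q hq hqN hq2 hr => geomCoreAt_of_step (h N' q hq hqN hq2 hr)

/-- **Frozen S34 from the Eichler–Shimura relation on torsion and the prime-degree Kummer form of
(G).** -/
theorem s34_of_es_of_step (hES : ∀ (N : ℕ) [NeZero N], ESOnTorsionAll N) (hG : GeomStep)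
    {𝒪 : Type} [CommRing 𝒪] [IsDomain 𝒪] [IsDiscreteValuationRing 𝒪]
    [IsAdicComplete (IsLocalRing.maximalIdeal 𝒪) 𝒪] [Finite (IsLocalRing.ResidueField 𝒪)]
    [CharZero 𝒪]
    {p : ℕ} (hp : p.Prime) (hp𝒪 : (p : 𝒪) ∈ IsLocalRing.maximalIdeal 𝒪)
    {N : ℕ} [NeZero N] {S : Finset ℕ} (hpS : p ∈ S) (hNS : ∀ q : ℕ, q.Prime → q ∣ N → q ∈ S)
    {θ : CuspForm.heckeAlgebra N 2 (↑S : Set ℕ) →+* IsLocalRing.ResidueField 𝒪}
    {T : Type} [CommRing T] [IsLocalRing T] [IsNoetherianRing T]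
    [IsAdicComplete (IsLocalRing.maximalIdeal T) T] [Algebra 𝒪 T] [IsLocalHom (algebraMap 𝒪 T)]
    [Module.Finite 𝒪 T] [Module.Free 𝒪 T]
    (H : CuspForm.HeckeGaloisRepDatum N (↑S : Set ℕ) 𝒪 θ T)
    (q : ℕ) (hq : q.Prime) (hqp : q ≠ p) (hqN : q ∣ N) (hq2 : ¬ q ^ 2 ∣ N) :
    H.ρ.IsUnipotentOnInertiaAt q :=
  s34_of_es_of_core hES (geomCore_of_step hG) hp hp𝒪 hpS hNS H q hq hqp hqN hq2

end Fermat.Agent.P3G.GeomStep
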