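import Mathlib
import Fermat.Agent.N4.BigDVR
import Fermat.Agent.N4.FrobDensity.CycloFrob

/-!
# P3-G, block (G-Γ), part 1 (helper28): Galois-stable levels and the unramified base level

`A ⊂ Q̄` a valuation subring over the prime `ℓ`, `Γ = Gal(Q̄/ℚ)`, `I_A = A.inertiaSubgroupIn ℚ`.

* `bigLevel A K₁ = K₁(μ_m : m ∈ Aˣ)` as an intermediate field of `Q̄/ℚ`, `bigLevel_spec`
  (block Onr with an EXPLICIT field), `apply_mem_bigLevel` (Galois-stable if `K₁` is);
* `exists_stable_numberField`, `exists_stable_level` : every finite set of constants lies in a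
  `Γ`-stable level `K` with `A ∩ K` a DVR whose residue field is that of `A`;
* `K0 A = ℚ(μ_m : m ∈ Aˣ)` : the unramified base level; `apply_eq_of_mem_K0` : the inertia group
  `I_A` fixes `K0 A` pointwise; `K0_le_bigLevel`.
-/

set_option autoImplicit false
set_option linter.style.haveILetI false
set_option linter.unusedSectionVars false

open Fermat.Agent.N4.BigDVR Fermat.Agent.N4.FrobDensity

namespace Fermat.Agent.P3G.Gamma

local notation "Qb" => AlgebraicClosure ℚ
local notation "Γ" => (AlgebraicClosure ℚ ≃ₐ[ℚ] AlgebraicClosure ℚ)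

local instance isAlgebraicQb_G : Algebra.IsAlgebraic ℚ (AlgebraicClosure ℚ) :=
  AlgebraicClosure.isAlgebraic ℚ
local instance isAlgClosureQb_G : IsAlgClosure ℚ (AlgebraicClosure ℚ) :=
  ⟨inferInstance, inferInstance⟩
local instance normalQb_G : Normal ℚ (AlgebraicClosure ℚ) :=
  IsAlgClosure.normal ℚ (AlgebraicClosure ℚ)

/-! ### Galois-stable number fields -/

/-- The normal closure of a number field inside `Q̄` is stable under `Gal(Q̄/ℚ)`. -/
theorem apply_mem_normalClosure (L : IntermediateField ℚ Qb) (τ : Γ) {x : Qb}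
    (hx : x ∈ IntermediateField.normalClosure ℚ L Qb) :
    τ x ∈ IntermediateField.normalClosure ℚ L Qb := by
  have h := (IntermediateField.normal_iff_forall_map_le' (F := ℚ) (L := Qb)
    (K := IntermediateField.normalClosure ℚ L Qb)).mp (normal_normalClosure_rat L) τ
  exact h ⟨x, hx, rfl⟩

/-- Finitely many elements of `Q̄` lie in a `Gal(Q̄/ℚ)`-stable number field. -/
theorem exists_stable_numberField (T : Finset Qb) :
    ∃ K₁ : IntermediateField ℚ Qb, FiniteDimensional ℚ K₁ ∧ (∀ t ∈ T, t ∈ K₁) ∧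
      ∀ (τ : Γ) (x : Qb), x ∈ K₁ → τ x ∈ K₁ := by
  let L : IntermediateField ℚ Qb := IntermediateField.adjoin ℚ (T : Set Qb)
  haveI : FiniteDimensional ℚ L :=
    IntermediateField.finiteDimensional_adjoin fun x _ =>
      (Algebra.IsAlgebraic.isAlgebraic (R := ℚ) x).isIntegral
  refine ⟨IntermediateField.normalClosure ℚ L Qb, inferInstance, fun t ht => ?_,
    fun τ x hx => apply_mem_normalClosure L τ hx⟩
  exact IntermediateField.le_normalClosure L
    (IntermediateField.subset_adjoin ℚ _ (Finset.mem_coe.mpr ht))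

/-! ### The level above a number field -/

section Level

variable (A : ValuationSubring Qb)

/-- The level above a number field `K₁ ⊆ Q̄`: `K₁(μ_m : m ∈ Aˣ)`, as an intermediate field of
`Q̄ / ℚ`. -/
noncomputable def bigLevel (K₁ : IntermediateField ℚ Qb) : IntermediateField ℚ Qb :=
  (bigField A K₁).restrictScalars ℚ

theorem mem_bigLevel_iff (K₁ : IntermediateField ℚ Qb) (x : Qb) :
    x ∈ bigLevel A K₁ ↔ x ∈ bigField A K₁ := Iff.rfl

theorem le_bigLevel (K₁ : IntermediateField ℚ Qb) : K₁ ≤ bigLevel A K₁ := fun x hx =>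
  (bigField A K₁).algebraMap_mem ⟨x, hx⟩

theorem goodRoots_subset_bigLevel (K₁ : IntermediateField ℚ Qb) :
    ∀ ξ ∈ goodRoots A, ξ ∈ bigLevel A K₁ := fun _ hξ =>
  IntermediateField.subset_adjoin K₁ _ hξ

/-- `bigLevel` is the field generated over `ℚ` by `K₁` and the good roots of unity. -/
theorem bigLevel_eq_adjoin (K₁ : IntermediateField ℚ Qb) :
    bigLevel A K₁ = IntermediateField.adjoin ℚ ((K₁ : Set Qb) ∪ goodRoots A) := by
  apply le_antisymm
  · intro x hx
    let M : IntermediateField ℚ Qb := IntermediateField.adjoin ℚ ((K₁ : Set Qb) ∪ goodRoots A)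
    have hK₁M : K₁ ≤ M := fun y hy => IntermediateField.subset_adjoin ℚ _ (Or.inl hy)
    let M' : IntermediateField K₁ Qb :=
      { M.toSubalgebra.toSubsemiring with
        algebraMap_mem' := fun y => hK₁M y.2
        inv_mem' := fun y hy => M.inv_mem hy }
    have h1 : bigField A K₁ ≤ M' := by
      rw [bigField, IntermediateField.adjoin_le_iff]
      exact fun y hy => IntermediateField.subset_adjoin ℚ _ (Or.inr hy)
    exact h1 hx
  · rw [IntermediateField.adjoin_le_iff]
    rintro y (hy | hy)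
    · exact le_bigLevel A K₁ hy
    · exact goodRoots_subset_bigLevel A K₁ y hy

theorem bigLevel_mono {K₁ K₂ : IntermediateField ℚ Qb} (h : K₁ ≤ K₂) :
    bigLevel A K₁ ≤ bigLevel A K₂ := by
  rw [bigLevel_eq_adjoin, bigLevel_eq_adjoin]
  exact IntermediateField.adjoin.mono ℚ _ _ (Set.union_subset_union_left _ h)

variable {A}

/-- **Block Onr with an explicit field**: the level above a number field `K₁`. -/
theorem bigLevel_spec {ℓ : ℕ} (hℓ : ℓ.Prime) (hA : A.LiesOverPrime ℓ)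
    (K₁ : IntermediateField ℚ Qb) [FiniteDimensional ℚ K₁] :
    IsDiscreteValuationRing (tr A (bigLevel A K₁)) ∧
      ¬ IsUnit ((ℓ : ℕ) : tr A (bigLevel A K₁)) ∧
      IsAlgClosed (IsLocalRing.ResidueField (tr A (bigLevel A K₁))) ∧
      Function.Bijective (IsLocalRing.ResidueField.map (trIncl A (bigLevel A K₁))) := by
  classical
  have hℓA : ((ℓ : ℕ) : Qb) ∈ A.nonunits := hA
  haveI : NumberField K₁ := ⟨⟩
  haveI hDVR₁ : IsDiscreteValuationRing (tr A K₁) :=
    isDiscreteValuationRing_tr_of_numberField A K₁ hℓ.ne_zero hℓA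
  obtain ⟨ϖ, hϖ⟩ := IsDiscreteValuationRing.exists_irreducible (tr A K₁)
  obtain ⟨hDVR, -, -⟩ := bigField_dvr A K₁ ϖ.2 hϖ
  have hgood : ∀ ξ ∈ goodRoots A, ξ ∈ (algebraMap (bigLevel A K₁) Qb).range :=
    fun ξ hξ => ⟨⟨ξ, goodRoots_subset_bigLevel A K₁ ξ hξ⟩, rfl⟩
  refine ⟨hDVR, ?_, ?_, ?_⟩
  · have hmem : ((ℓ : ℕ) : tr A (bigLevel A K₁)) ∈
        IsLocalRing.maximalIdeal (tr A (bigLevel A K₁)) := by
      rw [← ValuationSubring.coe_mem_nonunits_iff, mem_tr_nonunits_iff]
      simpa using hℓA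
    exact (IsLocalRing.mem_maximalIdeal _).mp hmem
  · exact isAlgClosed_residueField_tr A (bigLevel A K₁) hℓ hℓA hgood
  · exact bijective_residueField_map A (bigLevel A K₁) hℓ hℓA hgood

/-- A Galois-stable number field gives a Galois-stable level. -/
theorem apply_mem_bigLevel (K₁ : IntermediateField ℚ Qb)
    (hK₁ : ∀ (τ : Γ) (x : Qb), x ∈ K₁ → τ x ∈ K₁) (τ : Γ) {x : Qb} (hx : x ∈ bigLevel A K₁) :
    τ x ∈ bigLevel A K₁ := by
  rw [bigLevel_eq_adjoin] at hx ⊢
  have h1 : (IntermediateField.adjoin ℚ ((K₁ : Set Qb) ∪ goodRoots A)).map τ.toAlgHom ≤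
      IntermediateField.adjoin ℚ ((K₁ : Set Qb) ∪ goodRoots A) := by
    rw [IntermediateField.adjoin_map, IntermediateField.adjoin_le_iff]
    rintro _ ⟨y, hy | hy, rfl⟩
    · exact IntermediateField.subset_adjoin ℚ _ (Or.inl (hK₁ τ y hy))
    · refine IntermediateField.subset_adjoin ℚ _ (Or.inr ?_)
      obtain ⟨m, hm, hym⟩ := hy
      exact ⟨m, hm, by
        show (τ y) ^ m = 1
        rw [← map_pow, hym, map_one]⟩
  exact h1 ⟨x, hx, rfl⟩

variable (A)

/-- **The unramified base level** `K₀ = ℚ(μ_m : m ∈ Aˣ)`. -/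
noncomputable def K0 : IntermediateField ℚ Qb := bigLevel A ⊥

theorem K0_eq_adjoin : K0 A = IntermediateField.adjoin ℚ (goodRoots A) := by
  rw [K0, bigLevel_eq_adjoin]
  apply le_antisymm
  · rw [IntermediateField.adjoin_le_iff]
    rintro y (hy | hy)
    · exact (bot_le : (⊥ : IntermediateField ℚ Qb) ≤ _) hy
    · exact IntermediateField.subset_adjoin ℚ _ hy
  · exact IntermediateField.adjoin.mono ℚ _ _ Set.subset_union_right

theorem K0_le_bigLevel (K₁ : IntermediateField ℚ Qb) : K0 A ≤ bigLevel A K₁ :=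
  bigLevel_mono A bot_le

variable {A}

/-- A natural number divisible by the residue characteristic is a nonunit. -/
theorem natCast_mem_nonunits_of_dvd {ℓ : ℕ} (hA : A.LiesOverPrime ℓ) {m : ℕ} (h : ℓ ∣ m) :
    (m : Qb) ∈ A.nonunits := by
  obtain ⟨k, rfl⟩ := h
  have hℓA : ((ℓ : ℕ) : Qb) ∈ A.nonunits := hA
  rw [ValuationSubring.mem_nonunits_iff] at hℓA ⊢
  have hk : A.valuation (k : Qb) ≤ 1 :=
    (A.valuation_le_one_iff _).mpr (natCast_mem A k)
  rw [Nat.cast_mul, map_mul]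
  exact mul_lt_one_of_lt_of_le hℓA hk

/-- A good root of unity is fixed by the inertia group. -/
theorem apply_goodRoot_of_mem_inertia {ℓ : ℕ} (hℓ : ℓ.Prime) (hA : A.LiesOverPrime ℓ) {σ : Γ}
    (hσ : σ ∈ A.inertiaSubgroupIn ℚ) {ξ : Qb} (hξ : ξ ∈ goodRoots A) : σ ξ = ξ := by
  obtain ⟨m, hm, hξm⟩ := hξ
  have hℓA : ((ℓ : ℕ) : Qb) ∈ A.nonunits := hA
  have hdvd : ¬ ℓ ∣ m := fun h => hm (natCast_mem_nonunits_of_dvd hA h)
  have hm0 : m ≠ 0 := by
    rintro rfl
    exact hdvd (dvd_zero ℓ)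
  have hcop : Nat.Coprime ℓ m := (Nat.Prime.coprime_iff_not_dvd hℓ).mpr hdvd
  exact apply_rootOfUnity_of_mem_inertia hσ hℓA hcop hm0 hξm

/-- **The inertia group fixes the unramified base level pointwise.** -/
theorem apply_eq_of_mem_K0 {ℓ : ℕ} (hℓ : ℓ.Prime) (hA : A.LiesOverPrime ℓ) {σ : Γ}
    (hσ : σ ∈ A.inertiaSubgroupIn ℚ) {x : Qb} (hx : x ∈ K0 A) : σ x = x := by
  rw [K0_eq_adjoin] at hx
  -- the fixed field of `σ` contains the generators
  let Fx : IntermediateField ℚ Qb :=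
    { carrier := {y | σ y = y}
      mul_mem' := fun {a b} ha hb => by
        show σ (a * b) = a * b
        rw [map_mul, ha, hb]
      one_mem' := map_one σ
      add_mem' := fun {a b} ha hb => by
        show σ (a + b) = a + b
        rw [map_add, ha, hb]
      zero_mem' := map_zero σ
      algebraMap_mem' := fun r => σ.commutes r
      inv_mem' := fun a ha => by
        show σ a⁻¹ = a⁻¹
        rw [map_inv₀, ha] }
  have h1 : IntermediateField.adjoin ℚ (goodRoots A) ≤ Fx := by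
    rw [IntermediateField.adjoin_le_iff]
    exact fun ξ hξ => apply_goodRoot_of_mem_inertia hℓ hA hσ hξ
  exact h1 hx

/-- **Galois-stable levels.**  Every finite set of constants lies in a `Γ`-stable level `K ⊇ K₀`
such that `A ∩ K` is a discrete valuation ring with the residue field of `A`. -/
theorem exists_stable_level {ℓ : ℕ} (hℓ : ℓ.Prime) (hA : A.LiesOverPrime ℓ) (T : Finset Qb) :
    ∃ K : IntermediateField ℚ Qb, (∀ t ∈ T, t ∈ K) ∧ K0 A ≤ K ∧
      (∀ (τ : Γ) (x : Qb), x ∈ K → τ x ∈ K) ∧ (∀ ξ ∈ goodRoots A, ξ ∈ K) ∧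
      IsDiscreteValuationRing (tr A K) ∧ ¬ IsUnit ((ℓ : ℕ) : tr A K) ∧
      IsAlgClosed (IsLocalRing.ResidueField (tr A K)) ∧
      Function.Bijective (IsLocalRing.ResidueField.map (trIncl A K)) := by
  obtain ⟨K₁, hfin, hT, hstab⟩ := exists_stable_numberField T
  haveI := hfin
  obtain ⟨h1, h2, h3, h4⟩ := bigLevel_spec hℓ hA K₁
  exact ⟨bigLevel A K₁, fun t ht => le_bigLevel A K₁ (hT t ht), K0_le_bigLevel A K₁,
    fun τ x hx => apply_mem_bigLevel K₁ hstab τ hx, goodRoots_subset_bigLevel A K₁,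
    h1, h2, h3, h4⟩

/-- The same above a given number field. -/
theorem exists_stable_level_ge {ℓ : ℕ} (hℓ : ℓ.Prime) (hA : A.LiesOverPrime ℓ)
    (K₂ : IntermediateField ℚ Qb) [FiniteDimensional ℚ K₂] :
    ∃ K : IntermediateField ℚ Qb, K₂ ≤ K ∧ K0 A ≤ K ∧
      (∀ (τ : Γ) (x : Qb), x ∈ K → τ x ∈ K) ∧ (∀ ξ ∈ goodRoots A, ξ ∈ K) ∧
      IsDiscreteValuationRing (tr A K) ∧ ¬ IsUnit ((ℓ : ℕ) : tr A K) ∧
      IsAlgClosed (IsLocalRing.ResidueField (tr A K)) ∧
      Function.Bijective (IsLocalRing.ResidueField.map (trIncl A K)) := by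
  obtain ⟨T, hT⟩ : K₂.FG := IntermediateField.essFiniteType_iff.mp inferInstance
  obtain ⟨K, hTK, h⟩ := exists_stable_level hℓ hA T
  refine ⟨K, ?_, h⟩
  rw [← hT, IntermediateField.adjoin_le_iff]
  exact fun t ht => hTK t (Finset.mem_coe.mp ht)

end Level

end Fermat.Agent.P3G.Gamma
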