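import Mathlib

/-!
# P3-G, block (G-Γ), part (Γ3) (helper28): the tame cocycle and the second-difference lemma

Pure valuation theory (Mathlib only).  `W` a valuation subring of a field `F`, `τ` a ring
automorphism of `F` inducing the identity on the residue field of `W`
(`TrivialOnResidue W τ : ∀ w ∈ W, τ w - w ∈ W.nonunits`).

* `TrivialOnResidue.div_sub_one_mem` : for a `W`-unit `u`, `τ u / u ≡ 1`;
* `TrivialOnResidue.second_diff` : for `b ≠ 0` with `v (τ b) = v b` the SECOND difference
  `τ (τ b) * b / (τ b) ^ 2` is `≡ 1` (the first difference `τ b / b` is only a unit: this is the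
  tame cocycle, the Picard–Lefschetz term);
* `valuation_apply_eq_of_dvr` : if `W` is a discrete valuation ring and `τ W = W` then
  `v (τ b) = v b` for every `b`;
* `TrivialOnResidue.prod_second_diff` : the product form over a finite family with integer
  exponents;
* `exists_eq_mul_of_forall_mem_nonunits` : the shape `∃ w ∈ ⨅ V i, η - 1 = π * w` consumed by
  `P3G.Cover.Main.no_split_cover_of_strong`.
-/

set_option autoImplicit false

namespace Fermat.Agent.P3G.GammaTame

variable {F : Type*} [Field F]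

/-! ### Principal units -/

section PrincipalUnits

variable (W : ValuationSubring F)

theorem ne_zero_of_sub_one_mem_nonunits {x : F} (hx : x - 1 ∈ W.nonunits) : x ≠ 0 := by
  rintro rfl
  rw [ValuationSubring.mem_nonunits_iff, zero_sub, Valuation.map_neg, map_one] at hx
  exact lt_irrefl _ hx

theorem valuation_eq_one_of_sub_one_mem_nonunits {x : F} (hx : x - 1 ∈ W.nonunits) :
    W.valuation x = 1 := by
  rw [ValuationSubring.mem_nonunits_iff] at hx
  have h1 : W.valuation (1 + (x - 1)) = W.valuation (1 : F) :=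
    Valuation.map_add_eq_of_lt_left _ (by rwa [map_one])
  rwa [add_sub_cancel, map_one] at h1

theorem one_sub_one_mem_nonunits : (1 : F) - 1 ∈ W.nonunits := by
  rw [sub_self, ValuationSubring.mem_nonunits_iff, map_zero]
  exact zero_lt_one

theorem mul_sub_one_mem_nonunits {x y : F} (hx : x - 1 ∈ W.nonunits) (hy : y - 1 ∈ W.nonunits) :
    x * y - 1 ∈ W.nonunits := by
  have hy1 := valuation_eq_one_of_sub_one_mem_nonunits W hy
  rw [ValuationSubring.mem_nonunits_iff] at hx hy ⊢
  have h : x * y - 1 = (x - 1) * y + (y - 1) := by ring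
  rw [h]
  refine lt_of_le_of_lt (Valuation.map_add _ _ _) (max_lt ?_ hy)
  rwa [map_mul, hy1, mul_one]

theorem inv_sub_one_mem_nonunits {x : F} (hx : x - 1 ∈ W.nonunits) : x⁻¹ - 1 ∈ W.nonunits := by
  have hx0 := ne_zero_of_sub_one_mem_nonunits W hx
  have hx1 := valuation_eq_one_of_sub_one_mem_nonunits W hx
  rw [ValuationSubring.mem_nonunits_iff] at hx ⊢
  have h : x⁻¹ - 1 = -(x - 1) * x⁻¹ := by field_simp; ring
  rw [h, map_mul, Valuation.map_neg, map_inv₀, hx1, inv_one, mul_one]
  exact hx

theorem pow_sub_one_mem_nonunits {x : F} (hx : x - 1 ∈ W.nonunits) (n : ℕ) :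
    x ^ n - 1 ∈ W.nonunits := by
  induction n with
  | zero => rw [pow_zero]; exact one_sub_one_mem_nonunits W
  | succ n ih => rw [pow_succ]; exact mul_sub_one_mem_nonunits W ih hx

theorem zpow_sub_one_mem_nonunits {x : F} (hx : x - 1 ∈ W.nonunits) (n : ℤ) :
    x ^ n - 1 ∈ W.nonunits := by
  cases n with
  | ofNat n => rw [Int.ofNat_eq_natCast, zpow_natCast]; exact pow_sub_one_mem_nonunits W hx n
  | negSucc n =>
      rw [zpow_negSucc]
      exact inv_sub_one_mem_nonunits W (pow_sub_one_mem_nonunits W hx (n + 1))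

theorem div_sub_one_mem_nonunits {x y : F} (hx : x - 1 ∈ W.nonunits) (hy : y - 1 ∈ W.nonunits) :
    x / y - 1 ∈ W.nonunits := by
  rw [div_eq_mul_inv]
  exact mul_sub_one_mem_nonunits W hx (inv_sub_one_mem_nonunits W hy)

theorem prod_sub_one_mem_nonunits {ι : Type*} (s : Finset ι) (t : ι → F)
    (ht : ∀ i ∈ s, t i - 1 ∈ W.nonunits) : (∏ i ∈ s, t i) - 1 ∈ W.nonunits := by
  classical
  induction s using Finset.induction_on with
  | empty => rw [Finset.prod_empty]; exact one_sub_one_mem_nonunits W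
  | insert a s ha ih =>
      rw [Finset.prod_insert ha]
      exact mul_sub_one_mem_nonunits W (ht a (Finset.mem_insert_self a s))
        (ih fun i hi => ht i (Finset.mem_insert_of_mem hi))

theorem prod_zpow_sub_one_mem_nonunits {ι : Type*} (s : Finset ι) (t : ι → F) (n : ι → ℤ)
    (ht : ∀ i ∈ s, t i - 1 ∈ W.nonunits) : (∏ i ∈ s, t i ^ n i) - 1 ∈ W.nonunits :=
  prod_sub_one_mem_nonunits W s _ fun i hi => zpow_sub_one_mem_nonunits W (ht i hi) (n i)

end PrincipalUnits

/-! ### Automorphisms acting trivially on the residue field -/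

/-- `τ` preserves `W` and induces the identity on its residue field. -/
def TrivialOnResidue (W : ValuationSubring F) (τ : F ≃+* F) : Prop :=
  ∀ w ∈ W, τ w - w ∈ W.nonunits

namespace TrivialOnResidue

variable {W : ValuationSubring F} {τ : F ≃+* F}

theorem apply_mem (hτ : TrivialOnResidue W τ) {w : F} (hw : w ∈ W) : τ w ∈ W := by
  have h : τ w = (τ w - w) + w := by ring
  rw [h]
  exact W.add_mem _ _ (W.nonunits_subset (hτ w hw)) hw

theorem apply_mem_nonunits (hτ : TrivialOnResidue W τ) {w : F} (hw : w ∈ W.nonunits) :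
    τ w ∈ W.nonunits := by
  have h1 := hτ w (W.nonunits_subset hw)
  rw [ValuationSubring.mem_nonunits_iff] at h1 hw ⊢
  have h : τ w = (τ w - w) + w := by ring
  rw [h]
  exact lt_of_le_of_lt (Valuation.map_add _ _ _) (max_lt h1 hw)

theorem valuation_apply_of_unit (hτ : TrivialOnResidue W τ) {u : F} (hu : W.valuation u = 1) :
    W.valuation (τ u) = 1 := by
  have h1 := hτ u ((W.valuation_le_one_iff u).mp hu.le)
  rw [ValuationSubring.mem_nonunits_iff] at h1
  have h : τ u = u + (τ u - u) := by ring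
  rw [h, Valuation.map_add_eq_of_lt_left _ (by rwa [hu]), hu]

/-- **The tame cocycle is trivial on units.** -/
theorem div_sub_one_mem (hτ : TrivialOnResidue W τ) {u : F} (hu : W.valuation u = 1) :
    τ u / u - 1 ∈ W.nonunits := by
  have hu0 : u ≠ 0 := by
    rintro rfl
    rw [map_zero] at hu
    exact zero_ne_one hu
  have h1 := hτ u ((W.valuation_le_one_iff u).mp hu.le)
  rw [ValuationSubring.mem_nonunits_iff] at h1 ⊢
  have h : τ u / u - 1 = (τ u - u) / u := by field_simp
  rw [h, map_div₀, hu, div_one]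
  exact h1

/-- **Second-difference lemma.**  If `τ` acts trivially on the residue field of `W` and
`v (τ b) = v b`, the second difference `τ²b · b / (τ b)²` is a principal unit. -/
theorem second_diff (hτ : TrivialOnResidue W τ) {b : F} (hb : b ≠ 0)
    (hv : W.valuation (τ b) = W.valuation b) :
    τ (τ b) * b / (τ b) ^ 2 - 1 ∈ W.nonunits := by
  have hτb : τ b ≠ 0 := (map_ne_zero τ).mpr hb
  have hvb : W.valuation b ≠ 0 := (Valuation.ne_zero_iff _).mpr hb
  have hc : W.valuation (τ b / b) = 1 := by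
    rw [map_div₀, hv, div_self hvb]
  have h := hτ.div_sub_one_mem hc
  have h2 : τ (τ b / b) / (τ b / b) = τ (τ b) * b / (τ b) ^ 2 := by
    rw [map_div₀]
    field_simp
  rwa [h2] at h

/-- The same with the first difference named. -/
theorem second_diff' (hτ : TrivialOnResidue W τ) {b : F} (hb : b ≠ 0)
    (hv : W.valuation (τ b) = W.valuation b) :
    τ (τ b / b) / (τ b / b) - 1 ∈ W.nonunits := by
  have hvb : W.valuation b ≠ 0 := (Valuation.ne_zero_iff _).mpr hb
  have hc : W.valuation (τ b / b) = 1 := by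
    rw [map_div₀, hv, div_self hvb]
  exact hτ.div_sub_one_mem hc

/-- **Product form of the second-difference lemma** (the local root `t_𝔫` of P3-G (D-c)). -/
theorem prod_second_diff (hτ : TrivialOnResidue W τ) {ι : Type*} (s : Finset ι) (b : ι → F)
    (n : ι → ℤ) (hb : ∀ i ∈ s, b i ≠ 0)
    (hv : ∀ i ∈ s, W.valuation (τ (b i)) = W.valuation (b i)) :
    (∏ i ∈ s, (τ (τ (b i)) * b i / (τ (b i)) ^ 2) ^ n i) - 1 ∈ W.nonunits :=
  prod_zpow_sub_one_mem_nonunits W s _ n fun i hi => hτ.second_diff (hb i hi) (hv i hi)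

end TrivialOnResidue

/-! ### Automorphisms of a discrete valuation ring preserve the valuation -/

section DVR

variable (W : ValuationSubring F) (τ : F ≃+* F)

/-- The restriction of `τ` to a stable valuation subring. -/
def restrictEquiv (hτW : ∀ x, τ x ∈ W ↔ x ∈ W) : W ≃+* W where
  toFun x := ⟨τ x, (hτW x).mpr x.2⟩
  invFun x := ⟨τ.symm x, (hτW _).mp (by rw [RingEquiv.apply_symm_apply]; exact x.2)⟩
  left_inv x := Subtype.ext (τ.symm_apply_apply x)
  right_inv x := Subtype.ext (τ.apply_symm_apply x)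
  map_mul' x y := Subtype.ext (map_mul τ (x : F) (y : F))
  map_add' x y := Subtype.ext (map_add τ (x : F) (y : F))

@[simp] theorem coe_restrictEquiv (hτW : ∀ x, τ x ∈ W ↔ x ∈ W) (x : W) :
    (restrictEquiv W τ hτW x : F) = τ x := rfl

variable {W τ}

theorem valuation_apply_eq_of_mem_of_dvr [IsDiscreteValuationRing W]
    (hτW : ∀ x, τ x ∈ W ↔ x ∈ W) (x : W) : W.valuation (τ x) = W.valuation (x : F) := by
  classical
  by_cases hx0 : x = 0
  · subst hx0
    simp
  obtain ⟨ϖ, hϖ⟩ := IsDiscreteValuationRing.exists_irreducible W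
  obtain ⟨n, u, hxu⟩ := IsDiscreteValuationRing.eq_unit_mul_pow_irreducible hx0 hϖ
  let e := restrictEquiv W τ hτW
  have hunit : ∀ w : Wˣ, W.valuation ((w : W) : F) = 1 := fun w => W.valuation_unit w
  have heu : W.valuation (τ ((u : W) : F)) = 1 := by
    have h1 : IsUnit (e (u : W)) := u.isUnit.map e
    have := hunit h1.unit
    rwa [IsUnit.unit_spec, coe_restrictEquiv] at this
  have heϖ : W.valuation (τ (ϖ : F)) = W.valuation (ϖ : F) := by
    have h1 : Irreducible (e ϖ) := (MulEquiv.irreducible_iff e).mpr hϖ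
    obtain ⟨w, hw⟩ := IsDiscreteValuationRing.associated_of_irreducible W hϖ h1
    have h2 : τ (ϖ : F) = (ϖ : F) * ((w : W) : F) := by
      have := congrArg (fun z : W => (z : F)) hw
      exact this.symm
    rw [h2, map_mul, hunit w, mul_one]
  have hx : (x : F) = ((u : W) : F) * (ϖ : F) ^ n := by
    have := congrArg (fun z : W => (z : F)) hxu
    simpa using this
  rw [hx, map_mul τ, map_pow τ, map_mul, map_pow, map_mul, map_pow, heu, heϖ, hunit u]

/-- **An automorphism preserving a discrete valuation ring preserves its valuation.** -/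
theorem valuation_apply_eq_of_dvr [IsDiscreteValuationRing W]
    (hτW : ∀ x, τ x ∈ W ↔ x ∈ W) (b : F) : W.valuation (τ b) = W.valuation b := by
  obtain ⟨x, y, hy, rfl⟩ : ∃ x y : W, y ≠ 0 ∧ b = (x : F) / (y : F) := by
    rcases W.mem_or_inv_mem b with h | h
    · exact ⟨⟨b, h⟩, 1, one_ne_zero, by simp⟩
    · by_cases hb : b = 0
      · exact ⟨0, 1, one_ne_zero, by simp [hb]⟩
      · refine ⟨1, ⟨b⁻¹, h⟩, ?_, by simp⟩
        intro h0
        exact inv_ne_zero hb (congrArg (fun z : W => (z : F)) h0)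
  rw [map_div₀, map_div₀, map_div₀, valuation_apply_eq_of_mem_of_dvr hτW x,
    valuation_apply_eq_of_mem_of_dvr hτW y]

/-- In a discrete valuation ring an automorphism which is trivial on the residue field has all
second differences principal units. -/
theorem TrivialOnResidue.second_diff_of_dvr [IsDiscreteValuationRing W]
    (hτ : TrivialOnResidue W τ) (hτW : ∀ x, τ x ∈ W ↔ x ∈ W) {b : F} (hb : b ≠ 0) :
    τ (τ b) * b / (τ b) ^ 2 - 1 ∈ W.nonunits :=
  hτ.second_diff hb (valuation_apply_eq_of_dvr hτW b)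

theorem TrivialOnResidue.prod_second_diff_of_dvr [IsDiscreteValuationRing W]
    (hτ : TrivialOnResidue W τ) (hτW : ∀ x, τ x ∈ W ↔ x ∈ W) {ι : Type*} (s : Finset ι)
    (b : ι → F) (n : ι → ℤ) (hb : ∀ i ∈ s, b i ≠ 0) :
    (∏ i ∈ s, (τ (τ (b i)) * b i / (τ (b i)) ^ 2) ^ n i) - 1 ∈ W.nonunits :=
  hτ.prod_second_diff s b n hb fun i _ => valuation_apply_eq_of_dvr hτW (b i)

end DVR

/-! ### The shape consumed by `no_split_cover_of_strong` -/

/-- If `π` generates the maximal ideal of every `V i` and `η ≡ 1` at every `V i`, then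
`η - 1 = π * w` with `w` in all the `V i`. -/
theorem exists_eq_mul_of_forall_mem_nonunits {ι : Type*} (V : ι → ValuationSubring F) {π : F}
    (hπ0 : π ≠ 0) (hπ : ∀ i, ∀ x ∈ (V i).nonunits, x * π⁻¹ ∈ V i) {η : F}
    (hη : ∀ i, η - 1 ∈ (V i).nonunits) :
    ∃ w : F, (∀ i, w ∈ V i) ∧ η - 1 = π * w :=
  ⟨(η - 1) * π⁻¹, fun i => hπ i _ (hη i), by field_simp⟩

/-- A uniformiser divides every nonunit. -/
theorem mul_inv_mem_of_irreducible (W : ValuationSubring F) {ϖ : W} (hϖ : Irreducible ϖ)
    [IsDiscreteValuationRing W] {x : F} (hx : x ∈ W.nonunits) : x * (ϖ : F)⁻¹ ∈ W := by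
  have hxW : x ∈ W := W.nonunits_subset hx
  have hmem : (⟨x, hxW⟩ : W) ∈ IsLocalRing.maximalIdeal W := by
    rw [← ValuationSubring.coe_mem_nonunits_iff]
    exact hx
  rw [hϖ.maximalIdeal_eq, Ideal.mem_span_singleton'] at hmem
  obtain ⟨a, ha⟩ := hmem
  have h1 : x = (a : F) * (ϖ : F) := by
    have := congrArg (fun z : W => (z : F)) ha
    simpa using this.symm
  have hϖ0 : (ϖ : F) ≠ 0 := fun h => hϖ.ne_zero (Subtype.ext h)
  rw [h1, mul_assoc, mul_inv_cancel₀ hϖ0, mul_one]
  exact a.2

end Fermat.Agent.P3G.GammaTame
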