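import Mathlib
import Fermat.Agent.P3G.Gamma
import Fermat.Agent.P3G.GammaTame
import Fermat.Agent.N4F.C.LevelCharts
import Fermat.Agent.N4F.C.Galois

/-!
# P3-G, block (G-Γ), part (Γ2) (helper28): the Galois action on a stable level

`K ⊆ Q̄` a `Γ`-stable intermediate field (`hK : ∀ τ x, x ∈ K → τ x ∈ K`), `A ⊂ Q̄` a valuation
subring, `O_K = baseRing A K = A ∩ K`.

* `levelAut K hK : Γ →* (Lvl K ≃+* Lvl K)`, `algebraMap_levelAut`;
* `levelAut_mem_tr_iff`, `levelAut_mem_baseRing` : the decomposition group preserves `O_K`;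
* `trivialOnResidue_levelAut` : the inertia group acts trivially on the residue field of `O_K`;
  `levelAut_eq_of_mem_K0` : and is the identity on `K₀`;
* `levelFF K hK N τ = coeffAut (Lvl K) N (levelAut K hK τ)` : the coefficientwise action on
  `F_K = FF (Lvl K) N`; `levK_levelFF_smul` : it is the restriction of the prelude's Galois action
  `gal N τ` on `Q̄ F_N`; `levelFF_smul_jF`; `levelFF_smul_mem_Rfin_iff`, `levelFF_smul_mem_Rinf_iff` :
  the decomposition group preserves both charts of level `K`.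
-/

set_option autoImplicit false
set_option linter.unusedSectionVars false

open AlgebraicCurve ModularCurve
open Fermat.Agent.N4.BigDVR Fermat.Agent.N4.FrobDensity Fermat.Agent.N4.Setting
open Fermat.Agent.N4.Chart
open Fermat.Agent.N4F.C Fermat.Agent.N4F.C.Levels Fermat.Agent.N4F.C.LevelCharts
open Fermat.Agent.N4F.C.CoeffAut Fermat.Agent.N4F.C.Galois

namespace Fermat.Agent.P3G.GammaAut

open Fermat.Agent.P3G.Gamma Fermat.Agent.P3G.GammaTame

local notation "Γ" => (AlgebraicClosure ℚ ≃ₐ[ℚ] AlgebraicClosure ℚ)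

/-! ### The decomposition group preserves `A` -/

section Decomp

variable {A : ValuationSubring Qb}

theorem apply_mem_of_mem_decomp {τ : Γ} (hτ : τ ∈ A.decompositionSubgroup ℚ) {x : Qb}
    (hx : x ∈ A) : τ x ∈ A := by
  have h := (galA ℚ A ⟨τ, hτ⟩ ⟨x, hx⟩).2
  rwa [coe_galA] at h

theorem apply_mem_iff_of_mem_decomp {τ : Γ} (hτ : τ ∈ A.decompositionSubgroup ℚ) {x : Qb} :
    τ x ∈ A ↔ x ∈ A := by
  refine ⟨fun h => ?_, apply_mem_of_mem_decomp hτ⟩
  have h1 := apply_mem_of_mem_decomp (inv_mem hτ) h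
  rwa [AlgEquiv.aut_inv, AlgEquiv.symm_apply_apply] at h1

theorem apply_mem_nonunits_iff_of_mem_decomp {τ : Γ} (hτ : τ ∈ A.decompositionSubgroup ℚ)
    {x : Qb} : τ x ∈ A.nonunits ↔ x ∈ A.nonunits := by
  rw [ValuationSubring.mem_nonunits_iff_or, ValuationSubring.mem_nonunits_iff_or,
    ← map_inv₀, apply_mem_iff_of_mem_decomp hτ, map_eq_zero_iff τ τ.injective]

end Decomp

/-! ### The action on a stable level -/

section LevelAut

variable (K : IntermediateField ℚ Qb) (hK : ∀ (τ : Γ) (x : Qb), x ∈ K → τ x ∈ K)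

/-- The restriction of `τ ∈ Gal(Q̄/ℚ)` to a stable level, as a ring automorphism of `Lvl K`. -/
noncomputable def levelAutEquiv (τ : Γ) : Lvl K ≃+* Lvl K where
  toFun x := (Lvl.toSub K).symm
    ⟨τ (algebraMap (Lvl K) Qb x), hK τ _ (Lvl.algebraMap_mem K x)⟩
  invFun x := (Lvl.toSub K).symm
    ⟨τ.symm (algebraMap (Lvl K) Qb x), hK τ.symm _ (Lvl.algebraMap_mem K x)⟩
  left_inv x := (algebraMap (Lvl K) Qb).injective (τ.symm_apply_apply _)
  right_inv x := (algebraMap (Lvl K) Qb).injective (τ.apply_symm_apply _)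
  map_mul' x y := (algebraMap (Lvl K) Qb).injective <| by
    show τ (algebraMap (Lvl K) Qb (x * y)) = τ (algebraMap (Lvl K) Qb x) * τ (algebraMap (Lvl K) Qb y)
    rw [map_mul, map_mul]
  map_add' x y := (algebraMap (Lvl K) Qb).injective <| by
    show τ (algebraMap (Lvl K) Qb (x + y)) = τ (algebraMap (Lvl K) Qb x) + τ (algebraMap (Lvl K) Qb y)
    rw [map_add, map_add]

/-- **The Galois action on a stable level.** -/
noncomputable def levelAut : Γ →* (Lvl K ≃+* Lvl K) where
  toFun τ := levelAutEquiv K hK τ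
  map_one' := RingEquiv.ext fun _ => (algebraMap (Lvl K) Qb).injective rfl
  map_mul' _ _ := RingEquiv.ext fun _ => (algebraMap (Lvl K) Qb).injective rfl

@[simp] theorem algebraMap_levelAut (τ : Γ) (x : Lvl K) :
    algebraMap (Lvl K) Qb (levelAut K hK τ x) = τ (algebraMap (Lvl K) Qb x) := rfl

theorem algebraMap_levelAut_symm (τ : Γ) (x : Lvl K) :
    algebraMap (Lvl K) Qb ((levelAut K hK τ).symm x) = τ.symm (algebraMap (Lvl K) Qb x) := rfl

theorem algebraMap_comp_levelAut (τ : Γ) :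
    (algebraMap (Lvl K) Qb).comp ((levelAut K hK τ : Lvl K ≃+* Lvl K) : Lvl K →+* Lvl K) =
      (((τ : Qb ≃+* Qb) : Qb →+* Qb)).comp (algebraMap (Lvl K) Qb) := rfl

variable {A : ValuationSubring Qb}

/-- The decomposition group preserves `O_K = A ∩ K`. -/
theorem levelAut_mem_tr_iff {τ : Γ} (hτ : τ ∈ A.decompositionSubgroup ℚ) (x : Lvl K) :
    levelAut K hK τ x ∈ tr A (Lvl K) ↔ x ∈ tr A (Lvl K) := by
  rw [mem_tr_iff, mem_tr_iff, algebraMap_levelAut, apply_mem_iff_of_mem_decomp hτ]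

theorem levelAut_mem_baseRing {τ : Γ} (hτ : τ ∈ A.decompositionSubgroup ℚ) {x : Lvl K}
    (hx : x ∈ baseRing A K) : levelAut K hK τ x ∈ baseRing A K :=
  (levelAut_mem_tr_iff K hK hτ x).mpr hx

theorem levelAut_mem_baseRing_iff {τ : Γ} (hτ : τ ∈ A.decompositionSubgroup ℚ) {x : Lvl K} :
    levelAut K hK τ x ∈ baseRing A K ↔ x ∈ baseRing A K :=
  levelAut_mem_tr_iff K hK hτ x

/-- The ring automorphism of `O_K` induced by an element of the decomposition group. -/
noncomputable def baseAut {τ : Γ} (hτ : τ ∈ A.decompositionSubgroup ℚ) :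
    ↥(baseRing A K) ≃+* ↥(baseRing A K) where
  toFun x := ⟨levelAut K hK τ x, levelAut_mem_baseRing K hK hτ x.2⟩
  invFun x := ⟨(levelAut K hK τ).symm x, by
    have h := (levelAut_mem_baseRing_iff K hK hτ (x := (levelAut K hK τ).symm x)).mp
    rw [RingEquiv.apply_symm_apply] at h
    exact h x.2⟩
  left_inv x := Subtype.ext ((levelAut K hK τ).symm_apply_apply _)
  right_inv x := Subtype.ext ((levelAut K hK τ).apply_symm_apply _)
  map_mul' x y := Subtype.ext (map_mul (levelAut K hK τ) (x : Lvl K) (y : Lvl K))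
  map_add' x y := Subtype.ext (map_add (levelAut K hK τ) (x : Lvl K) (y : Lvl K))

@[simp] theorem coe_baseAut {τ : Γ} (hτ : τ ∈ A.decompositionSubgroup ℚ) (x : ↥(baseRing A K)) :
    ((baseAut K hK hτ x : ↥(baseRing A K)) : Lvl K) = levelAut K hK τ x := rfl

/-- **The inertia group acts trivially on the residue field of `O_K`.** -/
theorem trivialOnResidue_levelAut {σ : Γ} (hσ : σ ∈ A.inertiaSubgroupIn ℚ) :
    TrivialOnResidue (tr A (Lvl K)) (levelAut K hK σ) := by
  intro w hw
  rw [mem_tr_nonunits_iff, map_sub, algebraMap_levelAut]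
  exact sub_mem_nonunits_of_mem_inertia hσ ((mem_tr_iff A (Lvl K)).mp hw)

theorem baseAut_sub_mem_nonunits {σ : Γ} (hσ : σ ∈ A.inertiaSubgroupIn ℚ)
    (a : ↥(baseRing A K)) :
    ((baseAut K hK (mem_decompositionSubgroup_of_mem_inertia hσ) a : ↥(baseRing A K)) : Lvl K) -
      (a : Lvl K) ∈ (tr A (Lvl K)).nonunits :=
  trivialOnResidue_levelAut K hK hσ (a : Lvl K) a.2

/-- **The inertia group is the identity on the unramified base level `K₀`.** -/
theorem levelAut_eq_of_mem_K0 {ℓ : ℕ} (hℓ : ℓ.Prime) (hA : A.LiesOverPrime ℓ) {σ : Γ}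
    (hσ : σ ∈ A.inertiaSubgroupIn ℚ) {x : Lvl K} (hx : algebraMap (Lvl K) Qb x ∈ K0 A) :
    levelAut K hK σ x = x :=
  (algebraMap (Lvl K) Qb).injective (apply_eq_of_mem_K0 hℓ hA hσ hx)

/-- On a level which is a discrete valuation ring the decomposition group preserves the
valuation. -/
theorem valuation_levelAut [IsDiscreteValuationRing (tr A (Lvl K))] {τ : Γ}
    (hτ : τ ∈ A.decompositionSubgroup ℚ) (b : Lvl K) :
    (tr A (Lvl K)).valuation (levelAut K hK τ b) = (tr A (Lvl K)).valuation b :=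
  valuation_apply_eq_of_dvr (levelAut_mem_tr_iff K hK hτ) b

/-- **Second differences of constants are principal units** (`σ ∈ I_A`, `b ∈ K^×`). -/
theorem levelAut_second_diff [IsDiscreteValuationRing (tr A (Lvl K))] {σ : Γ}
    (hσ : σ ∈ A.inertiaSubgroupIn ℚ) {b : Lvl K} (hb : b ≠ 0) :
    levelAut K hK σ (levelAut K hK σ b) * b / (levelAut K hK σ b) ^ 2 - 1 ∈
      (tr A (Lvl K)).nonunits :=
  (trivialOnResidue_levelAut K hK hσ).second_diff hb
    (valuation_levelAut K hK (mem_decompositionSubgroup_of_mem_inertia hσ) b)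

end LevelAut

/-! ### The action on the function field of a stable level -/

section FunctionField

variable (K : IntermediateField ℚ Qb) (hK : ∀ (τ : Γ) (x : Qb), x ∈ K → τ x ∈ K)
  (N : ℕ) [NeZero N]

/-- **The coefficientwise Galois action on `F_K = FF (Lvl K) N`.** -/
noncomputable def levelFF : Γ →* SemilinearAut (Lvl K) (FF (Lvl K) N) :=
  (coeffAut (Lvl K) N).comp (levelAut K hK)

theorem levelFF_apply (τ : Γ) : levelFF K hK N τ = coeffAut (Lvl K) N (levelAut K hK τ) := rfl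

theorem coe_levelFF_smul (τ : Γ) (f : FF (Lvl K) N) :
    ((levelFF K hK N τ • f : FF (Lvl K) N) : LaurentSeries (Lvl K)) =
      coeffMap ((levelAut K hK τ : Lvl K ≃+* Lvl K) : Lvl K →+* Lvl K)
        (f : LaurentSeries (Lvl K)) := rfl

@[simp] theorem baseAut_levelFF (τ : Γ) :
    SemilinearAut.baseAut (levelFF K hK N τ) = levelAut K hK τ := rfl

theorem levelFF_smul_algebraMap (τ : Γ) (c : Lvl K) :
    levelFF K hK N τ • algebraMap (Lvl K) (FF (Lvl K) N) c =
      algebraMap (Lvl K) (FF (Lvl K) N) (levelAut K hK τ c) :=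
  SemilinearAut.smul_algebraMap (levelFF K hK N τ) c

/-- **Compatibility with the prelude's Galois action on `Q̄ F_N`.** -/
theorem levK_levelFF_smul (τ : Γ) (f : FF (Lvl K) N) :
    levK N K (levelFF K hK N τ • f) = gal N τ • levK N K f := by
  apply Subtype.ext
  rw [coe_gal_smul]
  show coeffMap (algebraMap (Lvl K) Qb) (coeffMap _ (f : LaurentSeries (Lvl K))) =
    coeffMap _ (coeffMap (algebraMap (Lvl K) Qb) (f : LaurentSeries (Lvl K)))
  rw [coeffMap_coeffMap, coeffMap_coeffMap]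
  exact coeffMap_congr (algebraMap_comp_levelAut K hK τ) _

theorem levelFF_smul_jF (τ : Γ) : levelFF K hK N τ • jF (Lvl K) N = jF (Lvl K) N :=
  Subtype.ext (coeffMap_jqModC _)

theorem levelFF_smul_jF_inv (τ : Γ) :
    levelFF K hK N τ • (jF (Lvl K) N)⁻¹ = (jF (Lvl K) N)⁻¹ := by
  rw [smul_inv'', levelFF_smul_jF]

theorem levelFF_inv_smul_smul (τ : Γ) (f : FF (Lvl K) N) :
    levelFF K hK N τ⁻¹ • levelFF K hK N τ • f = f := by
  rw [map_inv, inv_smul_smul]

variable {A : ValuationSubring Qb}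

theorem levelFF_smul_algebraMap_base {τ : Γ} (hτ : τ ∈ A.decompositionSubgroup ℚ)
    (a : ↥(baseRing A K)) :
    (SemilinearAut.toRingAut (levelFF K hK N τ) : FF (Lvl K) N →+* FF (Lvl K) N)
        (algebraMap ↥(baseRing A K) (FF (Lvl K) N) a) =
      algebraMap ↥(baseRing A K) (FF (Lvl K) N) (baseAut K hK hτ a) := by
  rw [IsScalarTower.algebraMap_apply ↥(baseRing A K) (Lvl K) (FF (Lvl K) N),
    IsScalarTower.algebraMap_apply ↥(baseRing A K) (Lvl K) (FF (Lvl K) N)]
  exact levelFF_smul_algebraMap K hK N τ _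

/-- The decomposition group preserves the charts of level `K` over Galois-invariant generators. -/
theorem levelFF_smul_mem_chartAlg {τ : Γ} (hτ : τ ∈ A.decompositionSubgroup ℚ)
    {S : Set (FF (Lvl K) N)} (hS : ∀ u ∈ S, levelFF K hK N τ • u = u) {x : FF (Lvl K) N}
    (hx : x ∈ chartAlg ↥(baseRing A K) (FF (Lvl K) N) S) :
    levelFF K hK N τ • x ∈ chartAlg ↥(baseRing A K) (FF (Lvl K) N) S :=
  map_mem_chartAlg ((baseAut K hK hτ : _ ≃+* _) : ↥(baseRing A K) →+* ↥(baseRing A K))
    (SemilinearAut.toRingAut (levelFF K hK N τ) : FF (Lvl K) N →+* FF (Lvl K) N)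
    (levelFF_smul_algebraMap_base K hK N hτ)
    (fun y hy => by
      have h := hS y hy
      rw [show ((SemilinearAut.toRingAut (levelFF K hK N τ) : FF (Lvl K) N →+* FF (Lvl K) N) y) =
        levelFF K hK N τ • y from rfl, h]
      exact hy) hx

theorem levelFF_smul_mem_chartAlg_iff {τ : Γ} (hτ : τ ∈ A.decompositionSubgroup ℚ)
    {S : Set (FF (Lvl K) N)} (hS : ∀ u ∈ S, levelFF K hK N τ • u = u) {x : FF (Lvl K) N} :
    levelFF K hK N τ • x ∈ chartAlg ↥(baseRing A K) (FF (Lvl K) N) S ↔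
      x ∈ chartAlg ↥(baseRing A K) (FF (Lvl K) N) S := by
  refine ⟨fun h => ?_, levelFF_smul_mem_chartAlg K hK N hτ hS⟩
  have h1 := levelFF_smul_mem_chartAlg K hK N (inv_mem hτ) (S := S) (fun u hu => by
    conv_lhs => rw [← hS u hu]
    exact levelFF_inv_smul_smul K hK N τ u) h
  rwa [levelFF_inv_smul_smul] at h1

/-- **The decomposition group preserves the finite chart of level `K`.** -/
theorem levelFF_smul_mem_Rfin_iff {τ : Γ} (hτ : τ ∈ A.decompositionSubgroup ℚ)
    {x : FF (Lvl K) N} :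
    levelFF K hK N τ • x ∈ Rfin (Lvl K) N (baseRing A K) ↔ x ∈ Rfin (Lvl K) N (baseRing A K) :=
  levelFF_smul_mem_chartAlg_iff K hK N hτ (fun u hu => by
    rw [Set.mem_singleton_iff] at hu
    rw [hu, levelFF_smul_jF])

/-- **The decomposition group preserves the chart at infinity of level `K`.** -/
theorem levelFF_smul_mem_Rinf_iff {τ : Γ} (hτ : τ ∈ A.decompositionSubgroup ℚ)
    {x : FF (Lvl K) N} :
    levelFF K hK N τ • x ∈ Rinf (Lvl K) N (baseRing A K) ↔ x ∈ Rinf (Lvl K) N (baseRing A K) :=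
  levelFF_smul_mem_chartAlg_iff K hK N hτ (fun u hu => by
    rw [Set.mem_singleton_iff] at hu
    rw [hu, levelFF_smul_jF_inv])

end FunctionField

end Fermat.Agent.P3G.GammaAut
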