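import Mathlib
import Fermat.Agent.P3G.Gamma
import Fermat.Agent.N4F.C.LevelCharts

/-!
# P3-G, block (G-Γ), part (Γ0)/(Γ1) (helper28): the unramified base level and all-in-one
Galois-stable levels

* `intCast_not_mem_nonunits`, `exists_eq_natCast_mul_of_mem_bot` : `A ∩ ℚ = ℤ_(ℓ)`;
* `irreducible_natCast_bot`, `irreducible_natCast_K0` : `ℓ` is a uniformiser of `A ∩ ℚ` and of
  `O₀ = A ∩ K₀`, `K₀ = ℚ(μ_m : ℓ ∤ m)` (the base level is UNRAMIFIED);
* `K0_spec` : `O₀` is a discrete valuation ring with algebraically closed residue field `= κ(A)`;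
  `goodBase_of_level`, `goodBase_K0`;
* `exists_stable_level_of_finite` : `LevelCharts.exists_level_of_finite` with the extra clauses
  `K₀ ≤ K` and `K` stable under `Gal(Q̄/ℚ)`.
-/

set_option autoImplicit false
set_option linter.style.haveILetI false
set_option linter.unusedSectionVars false

open AlgebraicCurve ModularCurve
open Fermat.Agent.N4.BigDVR Fermat.Agent.N4.Setting
open Fermat.Agent.N4F.C Fermat.Agent.N4F.C.Levels Fermat.Agent.N4F.C.LevelCharts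
open Fermat.Agent.S24.PlaceDeriv (ResidueTrivial)

namespace Fermat.Agent.P3G.GammaBase

open Fermat.Agent.P3G.Gamma

local notation "Γ" => (AlgebraicClosure ℚ ≃ₐ[ℚ] AlgebraicClosure ℚ)

variable {A : ValuationSubring Qb}

/-! ### `A ∩ ℚ = ℤ_(ℓ)` -/

/-- An integer prime to the residue characteristic is a unit of `A`. -/
theorem intCast_not_mem_nonunits {ℓ : ℕ} (hℓ : ℓ.Prime) (hA : A.LiesOverPrime ℓ) {m : ℤ}
    (hm : ¬ (ℓ : ℤ) ∣ m) : (m : Qb) ∉ A.nonunits := by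
  intro hmA
  have hℓA : ((ℓ : ℕ) : Qb) ∈ A.nonunits := hA
  have hirr : Irreducible (ℓ : ℤ) := (Nat.prime_iff_prime_int.mp hℓ).irreducible
  obtain ⟨x, y, hxy⟩ := (hirr.coprime_iff_not_dvd).mpr hm
  have h1 : ((x : ℤ) : Qb) * ((ℓ : ℕ) : Qb) + ((y : ℤ) : Qb) * ((m : ℤ) : Qb) = 1 := by
    have := congrArg (fun z : ℤ => (z : Qb)) hxy
    push_cast at this
    exact this
  rw [ValuationSubring.mem_nonunits_iff] at hmA hℓA
  have hx : A.valuation ((x : ℤ) : Qb) ≤ 1 := (A.valuation_le_one_iff _).mpr (intCast_mem A x)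
  have hy : A.valuation ((y : ℤ) : Qb) ≤ 1 := (A.valuation_le_one_iff _).mpr (intCast_mem A y)
  have h2 : A.valuation (((x : ℤ) : Qb) * ((ℓ : ℕ) : Qb) + ((y : ℤ) : Qb) * ((m : ℤ) : Qb)) < 1 := by
    refine lt_of_le_of_lt (Valuation.map_add _ _ _) (max_lt ?_ ?_)
    · rw [map_mul, mul_comm]; exact mul_lt_one_of_lt_of_le hℓA hx
    · rw [map_mul, mul_comm]; exact mul_lt_one_of_lt_of_le hmA hy
  rw [h1, map_one] at h2
  exact lt_irrefl _ h2

/-- A rational nonunit of `A` is `ℓ` times a rational element of `A`. -/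
theorem exists_eq_natCast_mul_of_rat {ℓ : ℕ} (hℓ : ℓ.Prime) (hA : A.LiesOverPrime ℓ) {r : ℚ}
    (hr : algebraMap ℚ Qb r ∈ A.nonunits) :
    ∃ w : ℚ, algebraMap ℚ Qb w ∈ A ∧ r = (ℓ : ℚ) * w := by
  have hℓA : ((ℓ : ℕ) : Qb) ∈ A.nonunits := hA
  have hr' : (r : Qb) = ((r.num : ℤ) : Qb) / ((r.den : ℕ) : Qb) := by
    conv_lhs => rw [← Rat.num_div_den r]
    push_cast
    rfl
  have hden0 : ((r.den : ℕ) : Qb) ≠ 0 := Nat.cast_ne_zero.mpr r.den_ne_zero
  rw [eq_ratCast] at hr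
  by_cases hden : ℓ ∣ r.den
  · -- impossible: the numerator is then a unit
    exfalso
    have hnum : ¬ (ℓ : ℤ) ∣ r.num := by
      intro h
      have h1 : ℓ ∣ r.num.natAbs := Int.natCast_dvd.mp h
      have h2 := Nat.dvd_gcd h1 hden
      rw [r.reduced] at h2
      exact hℓ.one_lt.ne' (Nat.dvd_one.mp h2)
    have h1 := intCast_not_mem_nonunits hℓ hA hnum
    have h2 : ((r.den : ℕ) : Qb) ∈ A.nonunits := natCast_mem_nonunits_of_dvd hA hden
    rw [ValuationSubring.mem_nonunits_iff] at hr h1 h2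
    have h3 : A.valuation ((r.num : ℤ) : Qb) = A.valuation (r : Qb) * A.valuation ((r.den : ℕ) : Qb) := by
      rw [← map_mul, hr', div_mul_cancel₀ _ hden0]
    have h4 : A.valuation ((r.num : ℤ) : Qb) < 1 := by
      rw [h3]
      exact mul_lt_one_of_lt_of_le hr h2.le
    exact h1 h4
  · have hdenA : ((r.den : ℕ) : Qb) ∉ A.nonunits := by
      have := intCast_not_mem_nonunits hℓ hA (m := (r.den : ℤ))
        (fun h => hden (Int.natCast_dvd_natCast.mp h))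
      simpa using this
    have hvden : A.valuation ((r.den : ℕ) : Qb) = 1 := valuation_natCast_eq_one hdenA
    have hnum : (ℓ : ℤ) ∣ r.num := by
      by_contra hnum
      have h1 := intCast_not_mem_nonunits hℓ hA hnum
      rw [ValuationSubring.mem_nonunits_iff] at hr h1
      apply h1
      have h3 : A.valuation ((r.num : ℤ) : Qb) =
          A.valuation (r : Qb) * A.valuation ((r.den : ℕ) : Qb) := by
        rw [← map_mul, hr', div_mul_cancel₀ _ hden0]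
      rw [h3, hvden, mul_one]
      exact hr
    obtain ⟨a', ha'⟩ := hnum
    refine ⟨(a' : ℚ) / (r.den : ℚ), ?_, ?_⟩
    · rw [eq_ratCast]
      push_cast
      rw [← A.valuation_le_one_iff, map_div₀, hvden, div_one, A.valuation_le_one_iff]
      exact intCast_mem A a'
    · have hden0' : ((r.den : ℕ) : ℚ) ≠ 0 := Nat.cast_ne_zero.mpr r.den_ne_zero
      conv_lhs => rw [← Rat.num_div_den r, ha']
      push_cast
      field_simp

/-! ### `ℓ` is a uniformiser of `A ∩ ℚ` and of `O₀ = A ∩ K₀` -/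

local instance isAlgebraicQb_GB : Algebra.IsAlgebraic ℚ (AlgebraicClosure ℚ) :=
  AlgebraicClosure.isAlgebraic ℚ

/-- `A ∩ ℚ` is a discrete valuation ring. -/
theorem isDiscreteValuationRing_tr_bot {ℓ : ℕ} (hℓ : ℓ.Prime) (hA : A.LiesOverPrime ℓ) :
    IsDiscreteValuationRing (tr A ↥(⊥ : IntermediateField ℚ Qb)) := by
  have hℓA : ((ℓ : ℕ) : Qb) ∈ A.nonunits := hA
  haveI : NumberField ↥(⊥ : IntermediateField ℚ Qb) := ⟨⟩
  exact isDiscreteValuationRing_tr_of_numberField A ↥(⊥ : IntermediateField ℚ Qb) hℓ.ne_zero hℓA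

theorem natCast_mem_tr_bot (ℓ : ℕ) :
    ((ℓ : ℕ) : ↥(⊥ : IntermediateField ℚ Qb)) ∈ tr A ↥(⊥ : IntermediateField ℚ Qb) := by
  rw [mem_tr_iff, map_natCast]
  exact natCast_mem A ℓ

/-- **`ℓ` is a uniformiser of `A ∩ ℚ`.** -/
theorem irreducible_natCast_bot {ℓ : ℕ} (hℓ : ℓ.Prime) (hA : A.LiesOverPrime ℓ) :
    Irreducible (⟨((ℓ : ℕ) : ↥(⊥ : IntermediateField ℚ Qb)), natCast_mem_tr_bot ℓ⟩ :
      tr A ↥(⊥ : IntermediateField ℚ Qb)) := by
  have hℓA : ((ℓ : ℕ) : Qb) ∈ A.nonunits := hA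
  haveI := isDiscreteValuationRing_tr_bot hℓ hA
  rw [IsDiscreteValuationRing.irreducible_iff_uniformizer]
  apply le_antisymm
  · intro x hx
    rw [← ValuationSubring.coe_mem_nonunits_iff, mem_tr_nonunits_iff] at hx
    obtain ⟨r, hr⟩ := IntermediateField.mem_bot.mp (x : ↥(⊥ : IntermediateField ℚ Qb)).2
    have hr' : algebraMap ℚ Qb r ∈ A.nonunits := by
      rw [hr]
      exact hx
    obtain ⟨w, hwA, hrw⟩ := exists_eq_natCast_mul_of_rat hℓ hA hr'
    rw [Ideal.mem_span_singleton']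
    refine ⟨⟨algebraMap ℚ ↥(⊥ : IntermediateField ℚ Qb) w, ?_⟩, ?_⟩
    · rw [mem_tr_iff, ← IsScalarTower.algebraMap_apply]
      exact hwA
    · apply Subtype.ext
      apply Subtype.ext
      show algebraMap ℚ Qb w * ((ℓ : ℕ) : Qb) = ((x : ↥(⊥ : IntermediateField ℚ Qb)) : Qb)
      rw [← hr, hrw, map_mul, map_natCast, mul_comm]
  · rw [Ideal.span_singleton_le_iff_mem, ← ValuationSubring.coe_mem_nonunits_iff,
      mem_tr_nonunits_iff]
    show algebraMap ↥(⊥ : IntermediateField ℚ Qb) Qb ((ℓ : ℕ) : ↥(⊥ : IntermediateField ℚ Qb)) ∈ _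
    rw [map_natCast]
    exact hℓA

theorem natCast_mem_tr (K : IntermediateField ℚ Qb) (ℓ : ℕ) :
    ((ℓ : ℕ) : Lvl K) ∈ tr A (Lvl K) := by
  rw [mem_tr_iff, map_natCast]
  exact natCast_mem A ℓ

/-- **The unramified base level**: `O₀ = A ∩ K₀` is a discrete valuation ring with algebraically
closed residue field equal to that of `A`. -/
theorem K0_spec {ℓ : ℕ} (hℓ : ℓ.Prime) (hA : A.LiesOverPrime ℓ) :
    IsDiscreteValuationRing (tr A (K0 A)) ∧ ¬ IsUnit ((ℓ : ℕ) : tr A (K0 A)) ∧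
      IsAlgClosed (IsLocalRing.ResidueField (tr A (K0 A))) ∧
      Function.Bijective (IsLocalRing.ResidueField.map (trIncl A (K0 A))) :=
  bigLevel_spec hℓ hA ⊥

/-- **`ℓ` is a uniformiser of `O₀ = A ∩ K₀`**: the base level is unramified. -/
theorem irreducible_natCast_K0 {ℓ : ℕ} (hℓ : ℓ.Prime) (hA : A.LiesOverPrime ℓ) :
    Irreducible ((ℓ : ℕ) : tr A (K0 A)) := by
  haveI := isDiscreteValuationRing_tr_bot hℓ hA
  obtain ⟨-, h, hirr⟩ := bigField_dvr A ↥(⊥ : IntermediateField ℚ Qb)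
    (natCast_mem_tr_bot ℓ) (irreducible_natCast_bot hℓ hA)
  have h2 : (⟨algebraMap ↥(⊥ : IntermediateField ℚ Qb)
      ↥(bigField A ↥(⊥ : IntermediateField ℚ Qb)) ((ℓ : ℕ) : ↥(⊥ : IntermediateField ℚ Qb)), h⟩ :
      tr A ↥(bigField A ↥(⊥ : IntermediateField ℚ Qb))) =
      ((ℓ : ℕ) : tr A ↥(bigField A ↥(⊥ : IntermediateField ℚ Qb))) :=
    Subtype.ext (map_natCast _ ℓ)
  rw [h2] at hirr
  exact hirr

/-- The same in `baseRing` language. -/
theorem irreducible_natCast_baseRing_K0 {ℓ : ℕ} (hℓ : ℓ.Prime) (hA : A.LiesOverPrime ℓ) :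
    Irreducible ((ℓ : ℕ) : ↥(baseRing A (K0 A))) :=
  irreducible_natCast_K0 hℓ hA

/-- A level which is a discrete valuation ring of residue characteristic `ℓ ∤ N` is a `GoodBase`. -/
theorem goodBase_of_level {ℓ : ℕ} (hℓ : ℓ.Prime) (K : IntermediateField ℚ Qb) {N : ℕ}
    (hℓN : ¬ ℓ ∣ N) (hnu : ¬ IsUnit ((ℓ : ℕ) : tr A K)) :
    GoodBase (Lvl K) N (baseRing A K) ℓ :=
  ⟨hℓ, hℓN, isFractionRing_trSubring A K, hnu⟩

theorem goodBase_K0 {ℓ : ℕ} (hℓ : ℓ.Prime) (hA : A.LiesOverPrime ℓ) {N : ℕ} (hℓN : ¬ ℓ ∣ N) :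
    GoodBase (Lvl (K0 A)) N (baseRing A (K0 A)) ℓ :=
  goodBase_of_level hℓ (K0 A) hℓN (K0_spec hℓ hA).2.1

/-! ### All-in-one Galois-stable levels -/

/-- Galois-stable good levels above a number field, in `Lvl` language. -/
theorem exists_stable_goodLevel_ge {ℓ : ℕ} (hℓ : ℓ.Prime) (hA : A.LiesOverPrime ℓ) {N : ℕ}
    (hℓN : ¬ ℓ ∣ N) (K₁ : IntermediateField ℚ Qb) [FiniteDimensional ℚ K₁] :
    ∃ K : IntermediateField ℚ Qb, K₁ ≤ K ∧ K0 A ≤ K ∧
      (∀ (τ : Γ) (x : Qb), x ∈ K → τ x ∈ K) ∧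
      ∃ (_ : IsDiscreteValuationRing ↥(baseRing A K))
        (_ : IsAlgClosed (IsLocalRing.ResidueField ↥(baseRing A K))),
        GoodBase (Lvl K) N (baseRing A K) ℓ ∧
        Function.Bijective (IsLocalRing.ResidueField.map (trIncl A K)) ∧
        (∀ ξ ∈ goodRoots A, ξ ∈ K) := by
  obtain ⟨K, h1, h2, h3, h4, h5, h6, h7, h8⟩ := exists_stable_level_ge hℓ hA K₁
  exact ⟨K, h1, h2, h3, h5, h7, goodBase_of_level hℓ K hℓN h6, h8, h4⟩

/-- **All-in-one Galois-stable level**: `LevelCharts.exists_level_of_finite` with the extra clauses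
`K₀ ≤ K` and `K` stable under `Gal(Q̄/ℚ)`. -/
theorem exists_stable_level_of_finite {ℓ : ℕ} (hℓ : ℓ.Prime) (hA : A.LiesOverPrime ℓ)
    (N : ℕ) [NeZero N] (hℓN : ¬ ℓ ∣ N)
    (C : Finset Qb) (T : Finset (Fb N)) (S : Finset (Place Qb (Fb N))) :
    ∃ K : IntermediateField ℚ Qb, (∀ c ∈ C, c ∈ K) ∧ K0 A ≤ K ∧
      (∀ (τ : Γ) (x : Qb), x ∈ K → τ x ∈ K) ∧
      (∃ (_ : IsDiscreteValuationRing ↥(baseRing A K))
        (_ : IsAlgClosed (IsLocalRing.ResidueField ↥(baseRing A K))),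
        GoodBase (Lvl K) N (baseRing A K) ℓ ∧
        Function.Bijective (IsLocalRing.ResidueField.map (trIncl A K)) ∧
        (∀ ξ ∈ goodRoots A, ξ ∈ K)) ∧
      (∀ t ∈ T, t ∈ Set.range (levK N K)) ∧
      (∀ P ∈ S, ResidueTrivial (restrictK N K P)) ∧
      (∀ t ∈ T, t ∈ RtFin A N → ∃ x ∈ Rfin (Lvl K) N (baseRing A K), levK N K x = t) ∧
      (∀ t ∈ T, t ∈ RtInf A N → ∃ x ∈ Rinf (Lvl K) N (baseRing A K), levK N K x = t) := by
  classical
  obtain ⟨K₁, hK₁fin, hK₁⟩ := exists_finiteDimensional_level N T S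
  have hfin : ∀ t : Fb N, ∃ K₀ : IntermediateField ℚ Qb, FiniteDimensional ℚ K₀ ∧
      ∀ K : IntermediateField ℚ Qb, K₀ ≤ K → t ∈ RtFin A N →
        ∃ x ∈ Rfin (Lvl K) N (baseRing A K), levK N K x = t := by
    intro t
    by_cases ht : t ∈ RtFin A N
    · obtain ⟨K₀, h1, h2⟩ := exists_finiteDimensional_RtFin A N ht
      exact ⟨K₀, h1, fun K hK _ => h2 K hK⟩
    · exact ⟨⊥, inferInstance, fun _ _ h => absurd h ht⟩
  have hinf : ∀ t : Fb N, ∃ K₀ : IntermediateField ℚ Qb, FiniteDimensional ℚ K₀ ∧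
      ∀ K : IntermediateField ℚ Qb, K₀ ≤ K → t ∈ RtInf A N →
        ∃ x ∈ Rinf (Lvl K) N (baseRing A K), levK N K x = t := by
    intro t
    by_cases ht : t ∈ RtInf A N
    · obtain ⟨K₀, h1, h2⟩ := exists_finiteDimensional_RtInf A N ht
      exact ⟨K₀, h1, fun K hK _ => h2 K hK⟩
    · exact ⟨⊥, inferInstance, fun _ _ h => absurd h ht⟩
  choose E hEfin hE using hfin
  choose E' hE'fin hE' using hinf
  haveI := hK₁fin
  haveI : FiniteDimensional ℚ (IntermediateField.adjoin ℚ (C : Set Qb)) :=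
    IntermediateField.finiteDimensional_adjoin fun x _ =>
      (Algebra.IsAlgebraic.isAlgebraic x).isIntegral
  haveI : FiniteDimensional ℚ (⨆ t ∈ T, E t : IntermediateField ℚ Qb) :=
    IntermediateField.finiteDimensional_iSup_of_finset
  haveI : FiniteDimensional ℚ (⨆ t ∈ T, E' t : IntermediateField ℚ Qb) :=
    IntermediateField.finiteDimensional_iSup_of_finset
  obtain ⟨K, hK, hK0, hstab, h⟩ := exists_stable_goodLevel_ge hℓ hA hℓN
    (IntermediateField.adjoin ℚ (C : Set Qb) ⊔ K₁ ⊔ (⨆ t ∈ T, E t) ⊔ (⨆ t ∈ T, E' t))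
  have h1 : IntermediateField.adjoin ℚ (C : Set Qb) ≤ K :=
    le_trans (le_trans (le_trans le_sup_left le_sup_left) le_sup_left) hK
  have h2 : K₁ ≤ K := le_trans (le_trans (le_trans le_sup_right le_sup_left) le_sup_left) hK
  have h3 : (⨆ t ∈ T, E t) ≤ K := le_trans (le_trans le_sup_right le_sup_left) hK
  have h4 : (⨆ t ∈ T, E' t) ≤ K := le_trans le_sup_right hK
  refine ⟨K, fun c hc => h1 (IntermediateField.subset_adjoin ℚ _ (Finset.mem_coe.mpr hc)), hK0,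
    hstab, h, (hK₁ K h2).1, (hK₁ K h2).2, fun t ht => hE t K (le_trans ?_ h3), fun t ht =>
      hE' t K (le_trans ?_ h4)⟩
  · exact le_iSup₂ (f := fun t _ => E t) t ht
  · exact le_iSup₂ (f := fun t _ => E' t) t ht

end Fermat.Agent.P3G.GammaBase
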