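import Mathlib
import Fermat.Agent.P3G.UCrit
import Fermat.Agent.P3G.Assembly.PowCover

/-!
# P3-G: `PowCover.LocalRoots` from (Loc-P), the second difference and the unit criterion

Setting of `P3G/Assembly/PowCover.lean`: `O` a discrete valuation ring with uniformiser `π`,
`K₀ = Frac O`, `F₀ ⊇ K₀`, a chart `R = chartAlg O F₀ {s}`, two valuation subrings `V₁ V₂` of `F₀` with
`TwoVal π W V₁ V₂`, `W` a semi-Gauss ring for the chart.  Given a field automorphism `σ` of `F₀`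
preserving the two valuations and trivial on their residue fields, a compatible permutation `τ` of the
places of `F₀ / K₀`, and at every closed point `𝔫` of the special fibre local equations (Loc-P) for the
finitely many points of a divisor `D` through `𝔫` such that `h` has horizontal divisor `e · (τ − 1)² D`
near `𝔫`, the function `h` has local `e`-th roots `≡ 1` modulo `π W`: `LocalRoots π W s h e`.

This is `SecondDiff.exists_localRoot_strong` + the unit criterion `UCrit.hcrit_strong` + `TwoVal`.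
-/

set_option autoImplicit false
set_option linter.unusedSectionVars false
set_option linter.style.haveILetI false

namespace Fermat.Agent.P3G.LocalRootsAt

open Fermat.Agent.N4.Chart Fermat.Agent.P3G.Cover.Lift Fermat.Agent.P3G.Cover.OfValuations
open Fermat.Agent.P3G.Assembly.PowCover Fermat.Agent.P3G.SecondDiff Fermat.Agent.P3G.UCrit
open AlgebraicCurve

universe u

variable {O K₀ : Type*} [CommRing O] [IsDomain O] [IsDiscreteValuationRing O]
  [Field K₀] [Algebra O K₀] [IsFractionRing O K₀]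
variable {F₀ : Type u} [Field F₀] [Algebra K₀ F₀] [Algebra O F₀] [IsScalarTower O K₀ F₀]

/-- The family `![V₁, V₂]` indexed by `Bool` (`true ↦ V₁`, `false ↦ V₂`). -/
def fam (V₁ V₂ : ValuationSubring F₀) : Bool → ValuationSubring F₀ := fun b => cond b V₁ V₂

@[simp] theorem fam_true (V₁ V₂ : ValuationSubring F₀) : fam V₁ V₂ true = V₁ := rfl
@[simp] theorem fam_false (V₁ V₂ : ValuationSubring F₀) : fam V₁ V₂ false = V₂ := rfl

variable {π : O} {W : Subring F₀} {V₁ V₂ : ValuationSubring F₀}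

theorem mem_iInfSubring_fam (hT : TwoVal π W V₁ V₂) (x : F₀) :
    x ∈ iInfSubring (fam V₁ V₂) ↔ x ∈ W := by
  rw [mem_iInfSubring, hT.mem_iff]
  constructor
  · intro h; exact ⟨h true, h false⟩
  · rintro ⟨h1, h2⟩ b; cases b
    · exact h2
    · exact h1

theorem valuation_le_pi (hT : TwoVal π W V₁ V₂) (b : Bool) (x : F₀)
    (hx : (fam V₁ V₂ b).valuation x < 1) :
    (fam V₁ V₂ b).valuation x ≤ (fam V₁ V₂ b).valuation (algebraMap O F₀ π) := by
  have key : ∀ V : ValuationSubring F₀, (∀ y ∈ V.nonunits, y * (algebraMap O F₀ π)⁻¹ ∈ V) →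
      V.valuation x < 1 → V.valuation x ≤ V.valuation (algebraMap O F₀ π) := by
    intro V hV hx
    have h1 := hV x ((V.mem_nonunits_iff).2 hx)
    rw [← V.valuation_le_one_iff, map_mul, map_inv₀] at h1
    have h0 : V.valuation (algebraMap O F₀ π) ≠ 0 := (Valuation.ne_zero_iff _).2 hT.pi_ne
    rwa [← div_eq_mul_inv, div_le_one₀ (zero_lt_iff.2 h0)] at h1
  cases b
  · exact key V₂ hT.unif₂ hx
  · exact key V₁ hT.unif₁ hx

section Chart

variable (s : F₀)
  [IsNoetherianRing (chartAlg O F₀ {s})] [IsFractionRing (chartAlg O F₀ {s}) F₀]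
  [IsIntegrallyClosed (chartAlg O F₀ {s})]

theorem algebraMap_chart_mem (hT : TwoVal π W V₁ V₂)
    (hW : IsSemiGaussRing W (algebraMap O (chartAlg O F₀ {s}) π)) (b : Bool)
    (r : chartAlg O F₀ {s}) : algebraMap (chartAlg O F₀ {s}) F₀ r ∈ fam V₁ V₂ b := by
  have h := (hT.mem_iff _).1 (hW.le r)
  cases b
  · exact h.2
  · exact h.1

theorem algebraMap_pi_eq :
    algebraMap (chartAlg O F₀ {s}) F₀ (algebraMap O (chartAlg O F₀ {s}) π) = algebraMap O F₀ π :=
  rfl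

theorem pi_mem_nonunits (hT : TwoVal π W V₁ V₂) (b : Bool) :
    algebraMap (chartAlg O F₀ {s}) F₀ (algebraMap O (chartAlg O F₀ {s}) π) ∈
      (fam V₁ V₂ b).nonunits := by
  rw [algebraMap_pi_eq]
  cases b
  · exact hT.pi_mem₂
  · exact hT.pi_mem₁

theorem sat_chart (hT : TwoVal π W V₁ V₂)
    (hW : IsSemiGaussRing W (algebraMap O (chartAlg O F₀ {s}) π)) (r : chartAlg O F₀ {s})
    (hr : ∀ b, algebraMap (chartAlg O F₀ {s}) F₀ r ∈ (fam V₁ V₂ b).nonunits) :
    algebraMap O (chartAlg O F₀ {s}) π ∣ r := by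
  obtain ⟨w, hw, hrw⟩ := hT.exists_eq_mul (hr true) (hr false)
  exact hW.sat r ⟨w, hw, by rw [hrw]; rfl⟩

/-- **`LocalRoots` from (Loc-P).** -/
theorem localRoots_of_locP (hπ : Irreducible π) (hT : TwoVal π W V₁ V₂)
    (hW : IsSemiGaussRing W (algebraMap O (chartAlg O F₀ {s}) π))
    (σ : F₀ ≃+* F₀)
    (hval₁ : ∀ x, V₁.valuation (σ x) = V₁.valuation x)
    (hval₂ : ∀ x, V₂.valuation (σ x) = V₂.valuation x)
    (htriv₁ : ∀ x ∈ V₁, σ x - x ∈ V₁.nonunits) (htriv₂ : ∀ x ∈ V₂, σ x - x ∈ V₂.nonunits)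
    {τ : Equiv.Perm (Place K₀ F₀)}
    (hτ : Compat (fun (Q : Place K₀ F₀) (x : F₀) => Q.ord x) σ τ)
    (e : ℕ) {h : F₀} (hh0 : h ≠ 0) (hhV₁ : V₁.valuation h = 1) (hhV₂ : V₂.valuation h = 1)
    (hpt : ∀ 𝔫 : Ideal (chartAlg O F₀ {s}), 𝔫.IsMaximal →
      algebraMap O (chartAlg O F₀ {s}) π ∈ 𝔫 →
      (∀ Q ∈ centredSet K₀ 𝔫, τ.symm Q ∈ centredSet K₀ 𝔫) ∧
      ∃ (S : Finset (Place K₀ F₀)) (D : Place K₀ F₀ → ℤ) (b : Place K₀ F₀ → F₀),
        (∀ P ∈ centredSet K₀ 𝔫, P ∉ S → D P = 0) ∧ (∀ P ∈ S, b P ≠ 0) ∧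
        (∀ P ∈ S, P.ord (b P) = 1) ∧
        (∀ P ∈ S, ∀ Q ∈ centredSet K₀ 𝔫, Q ≠ P → Q.ord (b P) = 0) ∧
        ∀ Q ∈ centredSet K₀ 𝔫,
          Q.ord h = e * (D (τ.symm (τ.symm Q)) - 2 * D (τ.symm Q) + D Q)) :
    LocalRoots π W s h e := by
  intro 𝔫 h𝔫max hπ𝔫
  haveI : 𝔫.IsPrime := h𝔫max.isPrime
  obtain ⟨hC, S, D, b, hD, hb0, hb1, hb2, hfC⟩ := hpt 𝔫 h𝔫max hπ𝔫
  have hord : OrdMul (fun (Q : Place K₀ F₀) (x : F₀) => Q.ord x) := fun Q f g hf hg =>
    Q.ord_mul hf hg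
  obtain ⟨η, hη0, hroot, w, hw, hηw⟩ := exists_localRoot_strong_at (K := K₀)
    (fam V₁ V₂) (algebraMap_chart_mem s hT hW) hπ (pi_mem_nonunits s hT) (sat_chart s hT hW) 𝔫
    hT.pi_ne (valuation_le_pi hT) σ
    (fun b x => by cases b; exacts [hval₂ x, hval₁ x])
    (fun b x hx => by cases b; exacts [htriv₂ x hx, htriv₁ x hx])
    hord hτ hC S D hD b hb0 hb1 hb2 (p := e) (f := h) (g := 1) hh0 hfC
    (fun b => by cases b; exacts [hhV₂, hhV₁])
    one_ne_zero (fun Q _ => Q.ord_one) (fun b => map_one _)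
  exact ⟨η, hη0, hroot, w, (mem_iInfSubring_fam hT w).1 hw, hηw⟩

end Chart

end Fermat.Agent.P3G.LocalRootsAt
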