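/-
P3-G / (G-N1), helper12: **the special fibre of the level-`Nℓ` charts has two reduced components**
(concrete (V) of the blueprint, on the `α`-side — the only side that works for BOTH charts).

Level `(K, O)`: `O ⊆ K` a discrete valuation ring with residue characteristic `ℓ ∤ N`, `ϖ` a
uniformiser, `G_N` the Gauss valuation ring of `FF K N`, `θ` its reduction.
`C_α := integralClosure G_N (FF K (N ℓ))` (along `α`) with its two places
`pi1 = ev|C_α` (`pi1 ∘ α = (θ ·)(q^ℓ)`, `pi1 ∘ β = θ`) and `pi2 = θ_{Nℓ}|C_α` (`pi2 ∘ α = θ`) of `E/AlphaSide`.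

* abstract: `isIntegralElem_of_smul` (descent of integrality through `x = ϖ y`),
  `map_maximalIdeal_eq_inf` (`𝔪 C = ker π₁ ⊓ ker π₂`), `exists_eq_mul_of_map_eq_zero`,
  `InLoc`, `InLocMax`, `locVS` (the valuation subring of a place), `inLoc_or_inLoc_inv₁/₂`,
  `mem_integralClosure_of_inLoc` (`C = C_{P₁} ∩ C_{P₂}`), `inLoc_mul_inv_of_inLocMax₁/₂` (`e = 1`);
* concrete: `sat_level`, `mem_chartAlg_of_mul_mem` (descent `C_α → R±(Nℓ)`),
  `exists_eq_mul_of_pi_eq_zero`, `V₁`, `V₂`, `mem_Cα_iff`, `e = 1`, `f = 1`, `hsat_*`,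
  `isSemiGaussRing_*`.
-/
import Mathlib
import Fermat.Agent.N4F.E.AlphaSideFinal
import Fermat.Agent.P3G.Krull
import Fermat.Agent.P3G.Cover.OfValuations

set_option autoImplicit false
set_option linter.unusedSectionVars false
set_option linter.style.haveILetI false

open Polynomial IsLocalRing

open ModularCurve Fermat.Agent.S28.Gauss Fermat.Agent.N4.Setting Fermat.Agent.N4.FibreEmbedding
open Fermat.Agent.N4F.E.DegreeLevelRaise Fermat.Agent.N4F.E.GaussDVR AlgebraicCurve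
open Fermat.Agent.N4.Chart Fermat.Agent.N4F.E Fermat.Agent.N4F.E.AlphaSide
open Fermat.Agent.N4.Cover.Globalize

noncomputable section

namespace Fermat.Agent.P3G.FibreSat

/-! ### Descent of integrality -/

section Descent

variable {F L : Type*} [Field F] [Field L]

/-- **Descent of integrality.** `A`, `R₀` subrings of a field `F`, both integrally closed in `F`,
`ϖ ∈ R₀` nonzero with `R₀ ∩ ϖ A ⊆ ϖ R₀`.  If `x = ϖ y` in an extension `L` of `F` with `x` integral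
over `R₀` and `y` integral over `A`, then `y` is integral over `R₀`. -/
theorem isIntegralElem_of_smul (f : F →+* L) (A R₀ : Subring F)
    (hA : ∀ z : F, A.subtype.IsIntegralElem z → z ∈ A)
    (hR : ∀ z : F, R₀.subtype.IsIntegralElem z → z ∈ R₀)
    (ϖ : F) (hϖ0 : ϖ ≠ 0) (hϖA : ϖ ∈ A)
    (hsat : ∀ r ∈ R₀, r * ϖ⁻¹ ∈ A → r * ϖ⁻¹ ∈ R₀)
    {x y : L} (hx : (f.comp R₀.subtype).IsIntegralElem x)
    (hy : (f.comp A.subtype).IsIntegralElem y) (hxy : x = f ϖ * y) :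
    (f.comp R₀.subtype).IsIntegralElem y := by
  letI : Algebra F L := f.toAlgebra
  obtain ⟨px, hpxm, hpx⟩ := hx
  obtain ⟨py, hpym, hpy⟩ := hy
  have hyF : IsIntegral F y := by
    refine ⟨py.map A.subtype, hpym.map _, ?_⟩
    rw [Polynomial.eval₂_map]
    exact hpy
  set q := minpoly F y with hq
  have hqm : q.Monic := minpoly.monic hyF
  -- the minimal polynomial of `x`
  have hx' : x = ϖ • y := by rw [hxy, Algebra.smul_def]; rfl
  have hmx : minpoly F x = q.scaleRoots ϖ := by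
    rw [hx']
    exact IsIntegrallyClosed.minpoly_smul hϖ0 hyF
  -- coefficients of `q` lie in `A`
  have hqA : ∀ i, q.coeff i ∈ A := by
    intro i
    apply hA
    letI : Algebra ↥A F := A.subtype.toAlgebra
    have hdvd : q ∣ (py.map (algebraMap ↥A F)) := by
      apply minpoly.dvd
      rw [Polynomial.aeval_def, Polynomial.eval₂_map]
      exact hpy
    exact Polynomial.isIntegral_coeff_of_dvd py q hpym hqm hdvd i
  -- coefficients of `minpoly F x` lie in `R₀`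
  have hqR : ∀ i, q.coeff i * ϖ ^ (q.natDegree - i) ∈ R₀ := by
    intro i
    rw [← Polynomial.coeff_scaleRoots, ← hmx]
    apply hR
    letI : Algebra ↥R₀ F := R₀.subtype.toAlgebra
    have hdvd : minpoly F x ∣ (px.map (algebraMap ↥R₀ F)) := by
      apply minpoly.dvd
      rw [Polynomial.aeval_def, Polynomial.eval₂_map]
      exact hpx
    have hxF : IsIntegral F x := by
      refine ⟨px.map R₀.subtype, hpxm.map _, ?_⟩
      rw [Polynomial.eval₂_map]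
      exact hpx
    exact Polynomial.isIntegral_coeff_of_dvd px (minpoly F x) hpxm (minpoly.monic hxF) hdvd i
  -- descending induction
  have hkey : ∀ (c : F), c ∈ A → ∀ k : ℕ, c * ϖ ^ k ∈ R₀ → c ∈ R₀ := by
    intro c hc k
    induction k with
    | zero => intro h; simpa using h
    | succ k ih =>
      intro h
      apply ih
      have h1 : c * ϖ ^ (k + 1) * ϖ⁻¹ = c * ϖ ^ k := by
        rw [pow_succ, mul_assoc, mul_assoc, mul_inv_cancel₀ hϖ0, mul_one]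
      have h2 : c * ϖ ^ (k + 1) * ϖ⁻¹ ∈ A := by
        rw [h1]
        exact A.mul_mem hc (A.pow_mem hϖA k)
      have := hsat _ h h2
      rwa [h1] at this
  have hqR' : ∀ i, q.coeff i ∈ R₀ := fun i => hkey _ (hqA i) _ (hqR i)
  have hl : q ∈ Polynomial.lifts R₀.subtype := by
    rw [Polynomial.lifts_iff_coeff_lifts]
    intro i
    exact ⟨⟨_, hqR' i⟩, rfl⟩
  obtain ⟨q₀, hq₀, -, hq₀m⟩ := Polynomial.lifts_and_degree_eq_and_monic hl hqm
  refine ⟨q₀, hq₀m, ?_⟩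
  rw [← Polynomial.eval₂_map, hq₀]
  exact minpoly.aeval F y

end Descent


section Generic

/-- An element integral over `A[γ S]` is integral over `γ(R₀)` for every subalgebra `R₀ ⊇ S`. -/
theorem isIntegralElem_of_isIntegral_adjoin_image {A F F' : Type*} [CommRing A] [CommRing F]
    [CommRing F'] [Nontrivial F'] [Algebra A F] [Algebra A F'] (γ : F →ₐ[A] F')
    (R₀ : Subalgebra A F) (S : Set F) (hS : S ⊆ R₀) {x : F'}
    (hx : IsIntegral (Algebra.adjoin A (γ '' S)) x) :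
    ((γ : F →+* F').comp (algebraMap R₀ F)).IsIntegralElem x := by
  obtain ⟨p, hp, hpx⟩ := hx
  have hl : p.map (algebraMap (Algebra.adjoin A (γ '' S)) F') ∈
      Polynomial.lifts ((γ : F →+* F').comp (algebraMap R₀ F)) := by
    rw [Polynomial.lifts_iff_coeff_lifts]
    intro n
    rw [Polynomial.coeff_map]
    have hc : ((p.coeff n : Algebra.adjoin A (γ '' S)) : F') ∈ (Algebra.adjoin A S).map γ := by
      rw [AlgHom.map_adjoin]
      exact (p.coeff n).2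
    obtain ⟨z, hz, hzc⟩ := hc
    exact ⟨⟨z, Algebra.adjoin_le hS hz⟩, hzc⟩
  obtain ⟨q, hq, -, hqm⟩ := Polynomial.lifts_and_degree_eq_and_monic hl (hp.map _)
  refine ⟨q, hqm, ?_⟩
  have h1 : Polynomial.eval₂ ((γ : F →+* F').comp (algebraMap R₀ F)) x q =
      Polynomial.eval x (q.map ((γ : F →+* F').comp (algebraMap R₀ F))) :=
    (Polynomial.eval_map _ _).symm
  rw [h1, hq, Polynomial.eval_map]
  exact hpx

end Generic


/-! ### Localisation of a subring of a field at the kernel of a place -/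

section InLoc

variable {L Ω C : Type*} [Field L] [Field Ω] [CommRing C] [Algebra C L]

/-- `x ∈ L` lies in the localisation of `C` at the kernel of the place `π`. -/
def InLoc (π : C →+* Ω) (x : L) : Prop :=
  ∃ a b : C, π b ≠ 0 ∧ x * algebraMap C L b = algebraMap C L a

/-- `x` lies in the maximal ideal of that localisation. -/
def InLocMax (π : C →+* Ω) (x : L) : Prop :=
  ∃ a b : C, π a = 0 ∧ π b ≠ 0 ∧ x * algebraMap C L b = algebraMap C L a

variable (π : C →+* Ω)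

theorem InLocMax.inLoc {x : L} (h : InLocMax π x) : InLoc π x := by
  obtain ⟨a, b, -, hb, h⟩ := h
  exact ⟨a, b, hb, h⟩

theorem inLoc_algebraMap (c : C) : InLoc π (algebraMap C L c) :=
  ⟨c, 1, by rw [map_one]; exact one_ne_zero, by rw [map_one, mul_one]⟩

variable (hinj : Function.Injective (algebraMap C L))

include hinj in
theorem algebraMap_ne_zero_of_map_ne_zero {b : C} (hb : π b ≠ 0) : algebraMap C L b ≠ 0 := by
  intro h0
  apply hb
  have : b = 0 := hinj (h0.trans (map_zero _).symm)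
  rw [this, map_zero]

theorem InLoc.add {x y : L} (hx : InLoc π x) (hy : InLoc π y) : InLoc π (x + y) := by
  obtain ⟨a, b, hb, h⟩ := hx
  obtain ⟨a', b', hb', h'⟩ := hy
  refine ⟨a * b' + a' * b, b * b', by rw [map_mul]; exact mul_ne_zero hb hb', ?_⟩
  rw [map_add, map_mul, map_mul, map_mul, ← h, ← h']
  ring

theorem InLoc.mul {x y : L} (hx : InLoc π x) (hy : InLoc π y) : InLoc π (x * y) := by
  obtain ⟨a, b, hb, h⟩ := hx
  obtain ⟨a', b', hb', h'⟩ := hy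
  refine ⟨a * a', b * b', by rw [map_mul]; exact mul_ne_zero hb hb', ?_⟩
  rw [map_mul, map_mul, ← h, ← h']
  ring

theorem InLoc.neg {x : L} (hx : InLoc π x) : InLoc π (-x) := by
  obtain ⟨a, b, hb, h⟩ := hx
  refine ⟨-a, b, hb, ?_⟩
  rw [map_neg, ← h]
  ring

/-- The valuation subring of `L` attached to a place `π` of `C` whose localisation is a valuation
ring. -/
def locVS (h : ∀ x : L, InLoc π x ∨ InLoc π x⁻¹) : ValuationSubring L where
  carrier := {x | InLoc π x}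
  mul_mem' hx hy := hx.mul π hy
  one_mem' := by
    have := inLoc_algebraMap (L := L) π 1
    rwa [map_one] at this
  add_mem' hx hy := hx.add π hy
  zero_mem' := by
    have := inLoc_algebraMap (L := L) π 0
    rwa [map_zero] at this
  neg_mem' hx := hx.neg π
  mem_or_inv_mem' := h

theorem mem_locVS_iff (h : ∀ x : L, InLoc π x ∨ InLoc π x⁻¹) {x : L} :
    x ∈ locVS π h ↔ InLoc π x := Iff.rfl

include hinj in
theorem mem_nonunits_locVS_iff (h : ∀ x : L, InLoc π x ∨ InLoc π x⁻¹) {x : L} :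
    x ∈ (locVS π h).nonunits ↔ InLocMax π x := by
  rw [ValuationSubring.mem_nonunits_iff_exists_mem_maximalIdeal]
  constructor
  · rintro ⟨hx, hm⟩
    obtain ⟨a, b, hb, hab⟩ := hx
    refine ⟨a, b, ?_, hb, hab⟩
    by_contra ha
    apply (IsLocalRing.mem_maximalIdeal _).1 hm
    have hb0 := algebraMap_ne_zero_of_map_ne_zero π hinj hb
    have ha0 := algebraMap_ne_zero_of_map_ne_zero π hinj ha
    have hx0 : x ≠ 0 := by
      rintro rfl
      rw [zero_mul] at hab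
      exact ha0 hab.symm
    have hinv : x⁻¹ ∈ locVS π h := ⟨b, a, ha, by rw [← hab]; field_simp⟩
    exact isUnit_iff_exists_inv.mpr ⟨⟨x⁻¹, hinv⟩, Subtype.ext (mul_inv_cancel₀ hx0)⟩
  · rintro ⟨a, b, ha, hb, hab⟩
    have hx : x ∈ locVS π h := ⟨a, b, hb, hab⟩
    refine ⟨hx, ?_⟩
    rw [IsLocalRing.mem_maximalIdeal, mem_nonunits_iff]
    intro hu
    obtain ⟨⟨y, hy⟩, hxy⟩ := isUnit_iff_exists_inv.mp hu
    have hxy' : x * y = 1 := congrArg Subtype.val hxy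
    obtain ⟨a', b', hb', hab'⟩ := hy
    have : algebraMap C L (b * b') = algebraMap C L (a * a') := by
      rw [map_mul, map_mul, ← hab, ← hab']
      calc algebraMap C L b * algebraMap C L b'
          = (x * y) * (algebraMap C L b * algebraMap C L b') := by rw [hxy', one_mul]
        _ = x * algebraMap C L b * (y * algebraMap C L b') := by ring
    have h2 : b * b' = a * a' := hinj this
    have h3 := congrArg π h2
    rw [map_mul, map_mul, ha, zero_mul] at h3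
    exact mul_ne_zero hb hb' h3

end InLoc


/-! ### The two places of the integral closure of a discrete valuation ring -/

section TwoPlaces

variable {A F L : Type*} [CommRing A] [IsDomain A] [IsDiscreteValuationRing A] [Field F]
  [Algebra A F] [IsFractionRing A F] [Field L] [Algebra F L] [Algebra A L]
  [FiniteDimensional F L] [Algebra.IsSeparable F L]
  {Ω : Type*} [Field Ω] {l : ℕ} [hl : Fact l.Prime] [CharP Ω l]
  (htower : IsScalarTower A F L)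
  (hdeg : Module.finrank F L = l + 1)
  (θ : A →+* Ω) (hθ : ∀ a ∈ maximalIdeal A, θ a = 0) (φ : Ω →+* Ω)
  (π₁ : integralClosure A L →+* Ω)
  (hπ₁ : ∀ a : A, π₁ (algebraMap A (integralClosure A L) a) = φ (θ a))
  (x₀ : integralClosure A L) (t₀ : A) (hx₀ : π₁ x₀ ^ l = φ (θ t₀))
  (ht₀ : ∀ a : A, θ a ^ l ≠ θ t₀)
  (π₂ : integralClosure A L →+* Ω)
  (hπ₂ : ∀ a : A, π₂ (algebraMap A (integralClosure A L) a) = θ a)
  (hne : RingHom.ker π₂ ≠ RingHom.ker π₁)

include htower hdeg hθ hπ₁ hx₀ ht₀ hπ₂ hne in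
/-- **The special fibre of `C` is reduced with two components**: `𝔪_A C = ker π₁ ⊓ ker π₂`. -/
theorem map_maximalIdeal_eq_inf :
    (maximalIdeal A).map (algebraMap A (integralClosure A L)) =
      RingHom.ker π₁ ⊓ RingHom.ker π₂ := by
  haveI := htower
  have h1 := TwoPrimes.isMaximal_liesOver_ker F L π₁
    (fun a ha => by rw [hπ₁, hθ a ha, map_zero])
  haveI := h1.1
  haveI := h1.2
  have hx : x₀ ^ l - algebraMap A (integralClosure A L) t₀ ∈ RingHom.ker π₁ := by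
    rw [RingHom.mem_ker, map_sub, map_pow, hπ₁, hx₀, sub_self]
  have ht : ∀ a : A, a ^ l - t₀ ∉ maximalIdeal A := by
    intro a ha
    have := hθ _ ha
    rw [map_sub, map_pow, sub_eq_zero] at this
    exact ht₀ a this
  obtain ⟨P₂, -, -, -, hpair, hinf, -, -⟩ :=
    TwoPrimes.exists_second_prime_integralClosure (K := F) (L := L) hl.out hdeg
      (RingHom.ker π₁) x₀ t₀ hx ht
  have h2 := TwoPrimes.isMaximal_liesOver_ker F L π₂ (fun a ha => by rw [hπ₂, hθ a ha])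
  have hmem : RingHom.ker π₂ ∈ (maximalIdeal A).primesOver (integralClosure A L) :=
    ⟨h2.1.isPrime, h2.2⟩
  rw [hpair] at hmem
  rcases hmem with h | h
  · exact absurd h hne
  · have h' : RingHom.ker π₂ = P₂ := h
    rw [hinf, h']

include htower hdeg hθ hπ₁ hx₀ ht₀ hπ₂ hne in
/-- An element of `C` killed by both places is divisible by the uniformiser. -/
theorem exists_eq_mul_of_map_eq_zero {ϖ : A} (hϖ : Irreducible ϖ) (x : integralClosure A L)
    (h1 : π₁ x = 0) (h2 : π₂ x = 0) :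
    ∃ y : integralClosure A L, x = algebraMap A (integralClosure A L) ϖ * y := by
  have hx : x ∈ (maximalIdeal A).map (algebraMap A (integralClosure A L)) := by
    rw [map_maximalIdeal_eq_inf htower hdeg θ hθ φ π₁ hπ₁ x₀ t₀ hx₀ ht₀ π₂ hπ₂ hne]
    exact ⟨h1, h2⟩
  rw [hϖ.maximalIdeal_eq, Ideal.map_span, Set.image_singleton, Ideal.mem_span_singleton] at hx
  obtain ⟨y, hy⟩ := hx
  exact ⟨y, hy⟩


include htower in
theorem isFractionRing_integralClosure : IsFractionRing (integralClosure A L) L := by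
  haveI := htower
  exact integralClosure.isFractionRing_of_finite_extension F L

include htower in
theorem isNoetherianRing_integralClosure : IsNoetherianRing (integralClosure A L) := by
  haveI := htower
  obtain ⟨h1, -, -, -⟩ := TwoPrimes.integralClosure_structure A F L (integralClosure A L)
  haveI := h1
  infer_instance

include htower hdeg hθ hπ₁ hx₀ ht₀ hπ₂ hne in
/-- an element of `ker π₂` outside `ker π₁`, and conversely. -/
theorem exists_mem_ker_notMem_ker :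
    (∃ τ : integralClosure A L, π₂ τ = 0 ∧ π₁ τ ≠ 0) ∧
      (∃ τ : integralClosure A L, π₁ τ = 0 ∧ π₂ τ ≠ 0) := by
  haveI := htower
  have h1 := (KummerPlace.isMaximal_iff hdeg θ hθ φ π₁ hπ₁ x₀ t₀ hx₀ ht₀ π₂ hπ₂ hne
    (RingHom.ker π₁)).mpr (Or.inl rfl)
  have h2 := (KummerPlace.isMaximal_iff hdeg θ hθ φ π₁ hπ₁ x₀ t₀ hx₀ ht₀ π₂ hπ₂ hne
    (RingHom.ker π₂)).mpr (Or.inr rfl)
  constructor
  · by_contra hcon
    push Not at hcon
    have hle : RingHom.ker π₂ ≤ RingHom.ker π₁ := fun τ hτ => hcon τ hτ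
    exact hne (h2.eq_of_le h1.ne_top hle)
  · by_contra hcon
    push Not at hcon
    have hle : RingHom.ker π₁ ≤ RingHom.ker π₂ := fun τ hτ => hcon τ hτ
    exact hne (h1.eq_of_le h2.ne_top hle).symm


include htower in
/-- the generic form: a place `π` of `C` such that `ker π` is generated by `ϖ` up to an element
outside `ker π` gives a valuation ring. -/
theorem inLoc_or_inLoc_inv_of_principal (π : integralClosure A L →+* Ω) {ϖ : A}
    (hϖ : Irreducible ϖ) (hπϖ : π (algebraMap A (integralClosure A L) ϖ) = 0)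
    (h : ∀ p : integralClosure A L, π p = 0 → ∃ s r : integralClosure A L, π s ≠ 0 ∧
      s * p = r * algebraMap A (integralClosure A L) ϖ) (x : L) :
    InLoc π x ∨ InLoc π x⁻¹ := by
  haveI := htower
  haveI := isFractionRing_integralClosure (A := A) (F := F) (L := L) htower
  haveI := isNoetherianRing_integralClosure (A := A) (F := F) (L := L) htower
  have hinj : Function.Injective (algebraMap A (integralClosure A L)) := by
    have hinj' : Function.Injective (algebraMap A L) := by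
      rw [IsScalarTower.algebraMap_eq A F L]
      exact (algebraMap F L).injective.comp (IsFractionRing.injective A F)
    intro a b hab
    apply hinj'
    have := congrArg (Subtype.val) hab
    exact this
  have ht0 : algebraMap A (integralClosure A L) ϖ ≠ 0 := by
    intro h0
    exact hϖ.ne_zero (hinj (h0.trans (map_zero _).symm))
  haveI : (RingHom.ker π).IsPrime := RingHom.ker_isPrime π
  haveI hdvr : IsDiscreteValuationRing (locAt (F := L) (RingHom.ker π)) :=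
    Fermat.Agent.P3G.Krull.isDiscreteValuationRing_locAt_of_principal (RingHom.ker π)
      (t := algebraMap A (integralClosure A L) ϖ) hπϖ ht0 (fun p hp => by
        obtain ⟨s, r, hs, hsr⟩ := h p hp
        exact ⟨s, r, hs, hsr⟩)
  have key : ∀ y : L, y ∈ locAt (F := L) (RingHom.ker π) → InLoc π y := by
    intro y hy
    obtain ⟨a, s, hs, hys⟩ := (mem_locAt_iff (RingHom.ker π) y).1 hy
    exact ⟨a, s, hs, hys⟩
  rcases ValuationRing.isInteger_or_isInteger (locAt (F := L) (RingHom.ker π)) x with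
    ⟨z, hz⟩ | ⟨z, hz⟩
  · left
    apply key
    rw [← hz]
    exact z.2
  · right
    apply key
    rw [← hz]
    exact z.2


include htower hdeg hθ hπ₁ hx₀ ht₀ hπ₂ hne in
/-- the localisation of `C` at `ker π₁` is a valuation ring of `L`. -/
theorem inLoc_or_inLoc_inv₁ {ϖ : A} (hϖ : Irreducible ϖ) (x : L) :
    InLoc π₁ x ∨ InLoc π₁ x⁻¹ := by
  obtain ⟨⟨τ, hτ2, hτ1⟩, -⟩ :=
    exists_mem_ker_notMem_ker htower hdeg θ hθ φ π₁ hπ₁ x₀ t₀ hx₀ ht₀ π₂ hπ₂ hne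
  refine inLoc_or_inLoc_inv_of_principal htower π₁ hϖ ?_ ?_ x
  · rw [hπ₁, hθ ϖ (by rw [hϖ.maximalIdeal_eq]; exact Ideal.mem_span_singleton_self ϖ), map_zero]
  · intro p hp
    obtain ⟨y, hy⟩ := exists_eq_mul_of_map_eq_zero htower hdeg θ hθ φ π₁ hπ₁ x₀ t₀ hx₀ ht₀ π₂ hπ₂
      hne hϖ (τ * p) (by rw [map_mul, hp, mul_zero]) (by rw [map_mul, hτ2, zero_mul])
    exact ⟨τ, y, hτ1, by rw [hy, mul_comm]⟩

include htower hdeg hθ hπ₁ hx₀ ht₀ hπ₂ hne in
/-- the localisation of `C` at `ker π₂` is a valuation ring of `L`. -/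
theorem inLoc_or_inLoc_inv₂ {ϖ : A} (hϖ : Irreducible ϖ) (x : L) :
    InLoc π₂ x ∨ InLoc π₂ x⁻¹ := by
  obtain ⟨-, ⟨τ, hτ1, hτ2⟩⟩ :=
    exists_mem_ker_notMem_ker htower hdeg θ hθ φ π₁ hπ₁ x₀ t₀ hx₀ ht₀ π₂ hπ₂ hne
  refine inLoc_or_inLoc_inv_of_principal htower π₂ hϖ ?_ ?_ x
  · rw [hπ₂, hθ ϖ (by rw [hϖ.maximalIdeal_eq]; exact Ideal.mem_span_singleton_self ϖ)]
  · intro p hp
    obtain ⟨y, hy⟩ := exists_eq_mul_of_map_eq_zero htower hdeg θ hθ φ π₁ hπ₁ x₀ t₀ hx₀ ht₀ π₂ hπ₂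
      hne hϖ (τ * p) (by rw [map_mul, hτ1, zero_mul]) (by rw [map_mul, hp, mul_zero])
    exact ⟨τ, y, hτ2, by rw [hy, mul_comm]⟩

include htower hdeg hθ hπ₁ hx₀ ht₀ hπ₂ hne in
/-- `C` is the intersection of its two localisations. -/
theorem mem_integralClosure_of_inLoc {x : L} (h1 : InLoc π₁ x) (h2 : InLoc π₂ x) :
    x ∈ integralClosure A L := by
  obtain ⟨⟨τ₁, hτ₁2, hτ₁1⟩, ⟨τ₂, hτ₂1, hτ₂2⟩⟩ :=
    exists_mem_ker_notMem_ker htower hdeg θ hθ φ π₁ hπ₁ x₀ t₀ hx₀ ht₀ π₂ hπ₂ hne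
  obtain ⟨a₁, b₁, hb₁, hab₁⟩ := h1
  obtain ⟨a₂, b₂, hb₂, hab₂⟩ := h2
  refine KummerNorm.mem_integralClosure_of_mul_eq htower hdeg θ hθ φ π₁ hπ₁ x₀ t₀ hx₀ ht₀ π₂ hπ₂
    hne x (τ₁ * a₁ + τ₂ * a₂) (τ₁ * b₁ + τ₂ * b₂) ?_ ?_ ?_
  · rw [map_add, map_mul, map_mul, hτ₂1, zero_mul, add_zero]
    exact mul_ne_zero hτ₁1 hb₁
  · rw [map_add, map_mul, map_mul, hτ₁2, zero_mul, zero_add]
    exact mul_ne_zero hτ₂2 hb₂
  · have e1 : x * (b₁ : L) = (a₁ : L) := hab₁
    have e2 : x * (b₂ : L) = (a₂ : L) := hab₂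
    push_cast
    rw [← e1, ← e2]
    ring

include htower hdeg hθ hπ₁ hx₀ ht₀ hπ₂ hne in
/-- `e = 1` at the first place. -/
theorem inLoc_mul_inv_of_inLocMax₁ {ϖ : A} (hϖ : Irreducible ϖ) {x : L} (h : InLocMax π₁ x) :
    InLoc π₁ (x * (algebraMap A L ϖ)⁻¹) := by
  obtain ⟨⟨τ, hτ2, hτ1⟩, -⟩ :=
    exists_mem_ker_notMem_ker htower hdeg θ hθ φ π₁ hπ₁ x₀ t₀ hx₀ ht₀ π₂ hπ₂ hne
  obtain ⟨a, b, ha, hb, hab⟩ := h
  obtain ⟨y, hy⟩ := exists_eq_mul_of_map_eq_zero htower hdeg θ hθ φ π₁ hπ₁ x₀ t₀ hx₀ ht₀ π₂ hπ₂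
    hne hϖ (τ * a) (by rw [map_mul, ha, mul_zero]) (by rw [map_mul, hτ2, zero_mul])
  have hϖL : algebraMap A L ϖ ≠ 0 := by
    haveI := htower
    rw [IsScalarTower.algebraMap_apply A F L]
    exact (_root_.map_ne_zero _).mpr
      ((map_ne_zero_iff _ (IsFractionRing.injective A F)).mpr hϖ.ne_zero)
  refine ⟨y, b * τ, by rw [map_mul]; exact mul_ne_zero hb hτ1, ?_⟩
  have e1 : x * (b : L) = (a : L) := hab
  have e2 : ((τ * a : integralClosure A L) : L) = algebraMap A L ϖ * (y : L) := by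
    rw [hy]; rfl
  show x * (algebraMap A L ϖ)⁻¹ * ((b * τ : integralClosure A L) : L) = (y : L)
  push_cast at e2 ⊢
  have : x * (algebraMap A L ϖ)⁻¹ * ((b : L) * (τ : L)) =
      (algebraMap A L ϖ)⁻¹ * ((τ : L) * (x * (b : L))) := by ring
  rw [this, e1, e2, ← mul_assoc, inv_mul_cancel₀ hϖL, one_mul]

include htower hdeg hθ hπ₁ hx₀ ht₀ hπ₂ hne in
/-- `e = 1` at the second place. -/
theorem inLoc_mul_inv_of_inLocMax₂ {ϖ : A} (hϖ : Irreducible ϖ) {x : L} (h : InLocMax π₂ x) :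
    InLoc π₂ (x * (algebraMap A L ϖ)⁻¹) := by
  obtain ⟨-, ⟨τ, hτ1, hτ2⟩⟩ :=
    exists_mem_ker_notMem_ker htower hdeg θ hθ φ π₁ hπ₁ x₀ t₀ hx₀ ht₀ π₂ hπ₂ hne
  obtain ⟨a, b, ha, hb, hab⟩ := h
  obtain ⟨y, hy⟩ := exists_eq_mul_of_map_eq_zero htower hdeg θ hθ φ π₁ hπ₁ x₀ t₀ hx₀ ht₀ π₂ hπ₂
    hne hϖ (τ * a) (by rw [map_mul, hτ1, zero_mul]) (by rw [map_mul, ha, mul_zero])
  have hϖL : algebraMap A L ϖ ≠ 0 := by
    haveI := htower
    rw [IsScalarTower.algebraMap_apply A F L]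
    exact (_root_.map_ne_zero _).mpr
      ((map_ne_zero_iff _ (IsFractionRing.injective A F)).mpr hϖ.ne_zero)
  refine ⟨y, b * τ, by rw [map_mul]; exact mul_ne_zero hb hτ2, ?_⟩
  have e1 : x * (b : L) = (a : L) := hab
  have e2 : ((τ * a : integralClosure A L) : L) = algebraMap A L ϖ * (y : L) := by
    rw [hy]; rfl
  show x * (algebraMap A L ϖ)⁻¹ * ((b * τ : integralClosure A L) : L) = (y : L)
  push_cast at e2 ⊢
  have : x * (algebraMap A L ϖ)⁻¹ * ((b : L) * (τ : L)) =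
      (algebraMap A L ϖ)⁻¹ * ((τ : L) * (x * (b : L))) := by ring
  rw [this, e1, e2, ← mul_assoc, inv_mul_cancel₀ hϖL, one_mul]


end TwoPlaces

/-! ### The concrete level `(K, O)` -/

section Concrete

variable (K : Type) [Field K] [CharZero K] (N : ℕ) [NeZero N] (ℓ : ℕ) [Fact ℓ.Prime]
  (O : Subring K) [IsDiscreteValuationRing ↥O] [IsFractionRing ↥O K]

set_option quotPrecheck false in
local notation "κ" => IsLocalRing.ResidueField ↥O

/-- **Saturation at level `N`**: `chart ∩ ϖ G_N = ϖ chart` (from `(∗)`, i.e. `ker_rho_eq`). -/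
theorem sat_level {s : FF K N} (hs : s ∈ gaussSubalgebra K N O)
    (htr : Transcendental κ (theta K N O ⟨s, hs⟩))
    (hprime : (fibreIdeal K N O (chartAlg ↥O (FF K N) {s})).IsPrime)
    {ϖ : ↥O} (hϖ : Irreducible ϖ) {r : FF K N} (hr : r ∈ chartAlg ↥O (FF K N) {s})
    (h : r * (algebraMap ↥O (FF K N) ϖ)⁻¹ ∈ gaussSubalgebra K N O) :
    r * (algebraMap ↥O (FF K N) ϖ)⁻¹ ∈ chartAlg ↥O (FF K N) {s} := by
  have hS : ({s} : Set (FF K N)) ⊆ (gaussSubalgebra K N O : Set (FF K N)) :=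
    Set.singleton_subset_iff.mpr hs
  have hϖF : algebraMap ↥O (FF K N) ϖ ≠ 0 := algebraMap_ne_zero K N O hϖ.ne_zero
  have hker := ker_rho_eq K N O hs htr hprime
  have hmem : (⟨r, hr⟩ : chartAlg ↥O (FF K N) {s}) ∈ RingHom.ker (rho K N O hS) := by
    rw [RingHom.mem_ker, rho_eq_theta]
    have e : (⟨r, chartAlg_le_gaussSubalgebra K N O hS hr⟩ : gaussSubalgebra K N O) =
        unif K N O ϖ * ⟨_, h⟩ := by
      apply Subtype.ext
      show r = algebraMap ↥O (FF K N) ϖ * (r * (algebraMap ↥O (FF K N) ϖ)⁻¹)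
      field_simp
    rw [e, map_mul, theta_unif K N O hϖ, zero_mul]
  rw [hker, fibreIdeal_eq_span K N O hϖ, Ideal.mem_span_singleton] at hmem
  obtain ⟨r', hr'⟩ := hmem
  have e2 : r = algebraMap ↥O (FF K N) ϖ * (r' : FF K N) := by
    have := congrArg (Subtype.val) hr'
    exact this
  have e3 : r * (algebraMap ↥O (FF K N) ϖ)⁻¹ = (r' : FF K N) := by
    rw [e2]
    field_simp
  rw [e3]
  exact r'.2

attribute [local instance] AlphaSide.algFL AlphaSide.algGL AlphaSide.isScalarTower_GFL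

/-- `α` as an `O`-algebra homomorphism. -/
def alphaO : FF K N →ₐ[↥O] FF K (N * ℓ) := (alphaF K N ℓ).restrictScalars ↥O

theorem alphaO_apply (x : FF K N) : alphaO K N ℓ O x = alphaF K N ℓ x := rfl

theorem alphaF_algebraMap_O (a : ↥O) :
    alphaF K N ℓ (algebraMap ↥O (FF K N) a) = algebraMap ↥O (FF K (N * ℓ)) a := by
  rw [IsScalarTower.algebraMap_apply ↥O K (FF K N),
    IsScalarTower.algebraMap_apply ↥O K (FF K (N * ℓ)), AlgHom.commutes]

/-- `α` maps a chart of level `N` into the corresponding chart of level `N ℓ`. -/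
theorem alphaF_mem_chartAlg {s : FF K N} {r : FF K N} (hr : r ∈ chartAlg ↥O (FF K N) {s}) :
    alphaF K N ℓ r ∈ chartAlg ↥O (FF K (N * ℓ)) {alphaF K N ℓ s} := by
  rw [mem_chartAlg_iff] at hr ⊢
  have him : Algebra.adjoin ↥O ({alphaF K N ℓ s} : Set (FF K (N * ℓ))) =
      (Algebra.adjoin ↥O ({s} : Set (FF K N))).map (alphaO K N ℓ O) := by
    rw [AlgHom.map_adjoin, Set.image_singleton]
    rfl
  obtain ⟨p, hp, hpr⟩ := hr
  let g : ↥(Algebra.adjoin ↥O ({s} : Set (FF K N))) →+*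
      ↥(Algebra.adjoin ↥O ({alphaF K N ℓ s} : Set (FF K (N * ℓ)))) :=
    ((alphaO K N ℓ O : FF K N →+* FF K (N * ℓ)).comp
      (algebraMap ↥(Algebra.adjoin ↥O ({s} : Set (FF K N))) (FF K N))).codRestrict _ (fun z => by
        rw [him]
        exact ⟨z, z.2, rfl⟩)
  refine ⟨p.map g, hp.map _, ?_⟩
  rw [Polynomial.eval₂_map]
  have : (algebraMap ↥(Algebra.adjoin ↥O ({alphaF K N ℓ s} : Set (FF K (N * ℓ))))
      (FF K (N * ℓ))).comp g = (alphaO K N ℓ O : FF K N →+* FF K (N * ℓ)).comp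
      (algebraMap ↥(Algebra.adjoin ↥O ({s} : Set (FF K N))) (FF K N)) := by
    ext z
    rfl
  rw [this]
  have h3 := Polynomial.hom_eval₂ p (algebraMap ↥(Algebra.adjoin ↥O ({s} : Set (FF K N))) (FF K N))
    (alphaO K N ℓ O : FF K N →+* FF K (N * ℓ)) r
  rw [hpr, map_zero] at h3
  exact h3.symm

/-- `C_α`: the integral closure of `α(G_N)` in `FF K (N ℓ)`. -/
abbrev Cα : Subalgebra ↥(gaussSubalgebra K N O) (FF K (N * ℓ)) :=
  integralClosure ↥(gaussSubalgebra K N O) (FF K (N * ℓ))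

theorem mem_Cα_iff_isIntegralElem {y : FF K (N * ℓ)} :
    y ∈ Cα K N ℓ O ↔ (gMap K N ℓ O (alphaF K N ℓ)).IsIntegralElem y := Iff.rfl

/-- A chart of level `N ℓ` generated by `α s`, `s ∈ G_N`, lies in `C_α`. -/
theorem chartAlg_le_Cα {s : FF K N} (hs : s ∈ gaussSubalgebra K N O) {r : FF K (N * ℓ)}
    (hr : r ∈ chartAlg ↥O (FF K (N * ℓ)) {alphaF K N ℓ s}) : r ∈ Cα K N ℓ O := by
  rw [mem_Cα_iff_isIntegralElem]
  exact isIntegralElem_of_isIntegral_adjoin_image (alphaO K N ℓ O) (gaussSubalgebra K N O) {s}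
    (Set.singleton_subset_iff.mpr hs) (x := r) (by
      rw [Set.image_singleton]
      exact mem_chartAlg_iff.mp hr)

/-- **Descent from `C_α` to the charts** (both charts: `s = j` and `s = j⁻¹`): if `y ∈ C_α` and
`ϖ y` lies in the chart, then `y` lies in the chart. -/
theorem mem_chartAlg_of_mul_mem {s : FF K N} (hs : s ∈ gaussSubalgebra K N O)
    (htr : Transcendental κ (theta K N O ⟨s, hs⟩))
    (hprime : (fibreIdeal K N O (chartAlg ↥O (FF K N) {s})).IsPrime)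
    {ϖ : ↥O} (hϖ : Irreducible ϖ) {y : FF K (N * ℓ)} (hy : y ∈ Cα K N ℓ O)
    (hx : algebraMap ↥O (FF K (N * ℓ)) ϖ * y ∈
      chartAlg ↥O (FF K (N * ℓ)) {alphaF K N ℓ s}) :
    y ∈ chartAlg ↥O (FF K (N * ℓ)) {alphaF K N ℓ s} := by
  have hϖF : algebraMap ↥O (FF K N) ϖ ≠ 0 := algebraMap_ne_zero K N O hϖ.ne_zero
  -- integrality of `y` over `α(chart)`
  have key : ((alphaF K N ℓ : FF K N →+* FF K (N * ℓ)).comp
      (chartAlg ↥O (FF K N) {s}).toSubring.subtype).IsIntegralElem y := by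
    refine isIntegralElem_of_smul (alphaF K N ℓ : FF K N →+* FF K (N * ℓ))
      (gaussSubalgebra K N O).toSubring (chartAlg ↥O (FF K N) {s}).toSubring ?_ ?_
      (algebraMap ↥O (FF K N) ϖ) hϖF ((gaussSubalgebra K N O).algebraMap_mem ϖ) ?_ ?_ ?_
      (x := algebraMap ↥O (FF K (N * ℓ)) ϖ * y) ?_
    · -- `G_N` is integrally closed in `FF K N`
      intro z hz
      have hz' : IsIntegral ↥(gaussSubalgebra K N O) z := hz
      obtain ⟨t, ht⟩ := IsIntegrallyClosed.isIntegral_iff.mp hz'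
      rw [← ht]
      exact t.2
    · -- the chart is integrally closed in `FF K N`
      intro z hz
      have hz' : IsIntegral ↥(chartAlg ↥O (FF K N) {s}) z := hz
      exact isIntegral_chartAlg_iff.mp hz'
    · intro r hr h
      exact sat_level K N O hs htr hprime hϖ hr h
    · -- `ϖ y` is integral over `α(chart)`
      have h1 := isIntegralElem_of_isIntegral_adjoin_image (alphaO K N ℓ O)
        (chartAlg ↥O (FF K N) {s}) {s} (subset_chartAlg {s})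
        (x := algebraMap ↥O (FF K (N * ℓ)) ϖ * y) (by
          rw [Set.image_singleton]
          exact mem_chartAlg_iff.mp hx)
      exact h1
    · exact hy
    · show _ = alphaF K N ℓ (algebraMap ↥O (FF K N) ϖ) * y
      rw [alphaF_algebraMap_O]
  -- conclude
  have h2 : IsIntegral ↥(chartAlg ↥O (FF K (N * ℓ)) {alphaF K N ℓ s}) y := by
    refine KummerNorm.isIntegralElem_of_comp _
      (algebraMap ↥(chartAlg ↥O (FF K (N * ℓ)) {alphaF K N ℓ s}) (FF K (N * ℓ)))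
      (((alphaF K N ℓ : FF K N →+* FF K (N * ℓ)).comp
        (chartAlg ↥O (FF K N) {s}).toSubring.subtype).codRestrict
          (chartAlg ↥O (FF K (N * ℓ)) {alphaF K N ℓ s}).toSubring
          (fun r => alphaF_mem_chartAlg K N ℓ O r.2)) (fun _ => rfl) key
  exact isIntegral_chartAlg_iff.mp h2

/-! #### The two charts -/

theorem Rfin_eq : Rfin K (N * ℓ) O = chartAlg ↥O (FF K (N * ℓ)) {alphaF K N ℓ (jF K N)} := by
  rw [alphaF_jF]

theorem Rinf_eq : Rinf K (N * ℓ) O = chartAlg ↥O (FF K (N * ℓ)) {alphaF K N ℓ (jF K N)⁻¹} := by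
  rw [map_inv₀, alphaF_jF]

theorem transcendental_theta_jF :
    Transcendental κ (theta K N O ⟨jF K N, jF_mem_gaussSubalgebra K N O⟩) := by
  rw [theta_jF]
  exact Fermat.Agent.S24.FFBasics.transcendental_jqModC κ

theorem transcendental_theta_jF_inv :
    Transcendental κ (theta K N O ⟨(jF K N)⁻¹, jF_inv_mem_gaussSubalgebra K N O⟩) := by
  rw [theta_jF_inv]
  have h := Fermat.Agent.S24.FFBasics.transcendental_jqModC κ
  intro halg
  apply h
  have := halg.inv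
  rwa [inv_inv] at this

theorem Rfin_le_Cα {r : FF K (N * ℓ)} (hr : r ∈ Rfin K (N * ℓ) O) : r ∈ Cα K N ℓ O := by
  rw [Rfin_eq K N ℓ O] at hr
  exact chartAlg_le_Cα K N ℓ O (jF_mem_gaussSubalgebra K N O) hr

theorem Rinf_le_Cα {r : FF K (N * ℓ)} (hr : r ∈ Rinf K (N * ℓ) O) : r ∈ Cα K N ℓ O := by
  rw [Rinf_eq K N ℓ O] at hr
  exact chartAlg_le_Cα K N ℓ O (jF_inv_mem_gaussSubalgebra K N O) hr

/-- **Descent, finite chart**: `y ∈ C_α`, `ϖ y ∈ Rfin K (N ℓ) O ⇒ y ∈ Rfin K (N ℓ) O`. -/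
theorem sat_fin (hprime : (fibreIdeal K N O (Rfin K N O)).IsPrime) {ϖ : ↥O} (hϖ : Irreducible ϖ)
    {y : FF K (N * ℓ)} (hy : y ∈ Cα K N ℓ O)
    (hx : algebraMap ↥O (FF K (N * ℓ)) ϖ * y ∈ Rfin K (N * ℓ) O) : y ∈ Rfin K (N * ℓ) O := by
  rw [Rfin_eq K N ℓ O] at hx ⊢
  exact mem_chartAlg_of_mul_mem K N ℓ O (jF_mem_gaussSubalgebra K N O)
    (transcendental_theta_jF K N O) hprime hϖ hy hx

/-- **Descent, chart at infinity**: `y ∈ C_α`, `ϖ y ∈ Rinf K (N ℓ) O ⇒ y ∈ Rinf K (N ℓ) O`. -/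
theorem sat_inf (hprimeInf : (fibreIdeal K N O (Rinf K N O)).IsPrime) {ϖ : ↥O}
    (hϖ : Irreducible ϖ) {y : FF K (N * ℓ)} (hy : y ∈ Cα K N ℓ O)
    (hx : algebraMap ↥O (FF K (N * ℓ)) ϖ * y ∈ Rinf K (N * ℓ) O) : y ∈ Rinf K (N * ℓ) O := by
  rw [Rinf_eq K N ℓ O] at hx ⊢
  exact mem_chartAlg_of_mul_mem K N ℓ O (jF_inv_mem_gaussSubalgebra K N O)
    (transcendental_theta_jF_inv K N O) hprimeInf hϖ hy hx

end Concrete

/-! ### The two Gauss valuation subrings of `FF K (N ℓ)` -/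

section Valuations

variable (K : Type) [Field K] [CharZero K] (N : ℕ) [NeZero N] (ℓ : ℕ) [Fact ℓ.Prime]
  (O : Subring K) [IsDiscreteValuationRing ↥O] [IsFractionRing ↥O K]

set_option quotPrecheck false in
local notation "κ" => IsLocalRing.ResidueField ↥O

attribute [local instance] AlphaSide.algFL AlphaSide.algGL AlphaSide.isScalarTower_GFL

set_option synthInstance.maxHeartbeats 400000

variable [CharP (IsLocalRing.ResidueField ↥O) ℓ]
  (ι : K →+* ℂ) (hℓN : ¬ ℓ ∣ N)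
  (hprime : (fibreIdeal K N O (Rfin K N O)).IsPrime)
  {S : Subring (FF K (N * ℓ))} {ev : ↥S →+* LaurentSeries (IsLocalRing.ResidueField ↥O)}
  (hB : BetaOut K N ℓ O S ev)

/-- The uniformiser in `FF K (N ℓ)`. -/
theorem algebraMap_unif_eq (ϖ : ↥O) :
    algebraMap ↥(gaussSubalgebra K N O) (FF K (N * ℓ)) (unif K N O ϖ) =
      algebraMap ↥O (FF K (N * ℓ)) ϖ :=
  alphaF_algebraMap_O K N ℓ O ϖ

include ι hℓN hprime hB in
/-- **The special fibre of `C_α` is reduced**: an element killed by both places is divisible by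
`ϖ`. -/
theorem exists_eq_mul_of_pi_eq_zero {ϖ : ↥O} (hϖ : Irreducible ϖ) (x : Cα K N ℓ O)
    (h1 : pi1 K N ℓ O hB x = 0) (h2 : pi2 K N ℓ O x = 0) :
    ∃ y : Cα K N ℓ O,
      (x : FF K (N * ℓ)) = algebraMap ↥O (FF K (N * ℓ)) ϖ * (y : FF K (N * ℓ)) := by
  haveI : FiniteDimensional (FF K N) (FF K (N * ℓ)) := finiteDimensional_alpha K N ℓ ι hℓN
  haveI := AlphaSide.charP_laurent K ℓ O
  obtain ⟨y, hy⟩ := exists_eq_mul_of_map_eq_zero (A := ↥(gaussSubalgebra K N O)) (F := FF K N)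
    (L := FF K (N * ℓ)) (IsScalarTower.of_algebraMap_eq fun _ => rfl) (finrank_alpha K N ℓ ι hℓN)
    (theta K N O) (theta_mem_maximalIdeal K N O) (qExpand κ ℓ) (pi1 K N ℓ O hB)
    (pi1_algebraMap K N ℓ O hB) (x0 K N ℓ O) (t0 K N O) (hx0 K N ℓ O hB) (ht0 K N ℓ O)
    (pi2 K N ℓ O) (pi2_algebraMap K N ℓ O) (ker_ne K N ℓ O hB)
    (irreducible_unif K N O hϖ) x h1 h2
  refine ⟨y, ?_⟩
  have := congrArg (Subtype.val) hy
  rw [this, ← algebraMap_unif_eq K N ℓ O ϖ]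
  rfl

include ι hℓN hprime hB in
theorem inLoc_or_inLoc_inv_pi1 (x : FF K (N * ℓ)) :
    InLoc (L := FF K (N * ℓ)) (Ω := LaurentSeries κ) (C := ↥(Cα K N ℓ O)) (pi1 K N ℓ O hB) x ∨
      InLoc (L := FF K (N * ℓ)) (Ω := LaurentSeries κ) (C := ↥(Cα K N ℓ O)) (pi1 K N ℓ O hB) x⁻¹ := by
  haveI : FiniteDimensional (FF K N) (FF K (N * ℓ)) := finiteDimensional_alpha K N ℓ ι hℓN
  haveI := AlphaSide.charP_laurent K ℓ O
  obtain ⟨ϖ, hϖ⟩ := IsDiscreteValuationRing.exists_irreducible ↥O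
  exact inLoc_or_inLoc_inv₁ (A := ↥(gaussSubalgebra K N O)) (F := FF K N)
    (L := FF K (N * ℓ)) (IsScalarTower.of_algebraMap_eq fun _ => rfl) (finrank_alpha K N ℓ ι hℓN)
    (theta K N O) (theta_mem_maximalIdeal K N O) (qExpand κ ℓ) (pi1 K N ℓ O hB)
    (pi1_algebraMap K N ℓ O hB) (x0 K N ℓ O) (t0 K N O) (hx0 K N ℓ O hB) (ht0 K N ℓ O)
    (pi2 K N ℓ O) (pi2_algebraMap K N ℓ O) (ker_ne K N ℓ O hB)
    (irreducible_unif K N O hϖ) x

include ι hℓN hprime hB in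
theorem inLoc_or_inLoc_inv_pi2 (x : FF K (N * ℓ)) :
    InLoc (L := FF K (N * ℓ)) (Ω := LaurentSeries κ) (C := ↥(Cα K N ℓ O)) (pi2 K N ℓ O) x ∨ InLoc (L := FF K (N * ℓ)) (Ω := LaurentSeries κ) (C := ↥(Cα K N ℓ O)) (pi2 K N ℓ O) x⁻¹ := by
  haveI : FiniteDimensional (FF K N) (FF K (N * ℓ)) := finiteDimensional_alpha K N ℓ ι hℓN
  haveI := AlphaSide.charP_laurent K ℓ O
  obtain ⟨ϖ, hϖ⟩ := IsDiscreteValuationRing.exists_irreducible ↥O
  exact inLoc_or_inLoc_inv₂ (A := ↥(gaussSubalgebra K N O)) (F := FF K N)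
    (L := FF K (N * ℓ)) (IsScalarTower.of_algebraMap_eq fun _ => rfl) (finrank_alpha K N ℓ ι hℓN)
    (theta K N O) (theta_mem_maximalIdeal K N O) (qExpand κ ℓ) (pi1 K N ℓ O hB)
    (pi1_algebraMap K N ℓ O hB) (x0 K N ℓ O) (t0 K N O) (hx0 K N ℓ O hB) (ht0 K N ℓ O)
    (pi2 K N ℓ O) (pi2_algebraMap K N ℓ O) (ker_ne K N ℓ O hB)
    (irreducible_unif K N O hϖ) x

/-- **The first Gauss valuation subring** of `FF K (N ℓ)`: the standard one (`q`-expansion at `∞`). -/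
abbrev V₁ : ValuationSubring (FF K (N * ℓ)) := gaussVS K (N * ℓ) O

/-- **The second Gauss valuation subring** of `FF K (N ℓ)`: the localisation of `C_α` at the kernel
of `pi1 = ev|C_α`. -/
def V₂ : ValuationSubring (FF K (N * ℓ)) :=
  locVS (L := FF K (N * ℓ)) (Ω := LaurentSeries κ) (C := ↥(Cα K N ℓ O)) (pi1 K N ℓ O hB) (inLoc_or_inLoc_inv_pi1 K N ℓ O ι hℓN hprime hB)

theorem mem_V₂_iff {x : FF K (N * ℓ)} :
    x ∈ V₂ K N ℓ O ι hℓN hprime hB ↔
      ∃ a b : Cα K N ℓ O, pi1 K N ℓ O hB b ≠ 0 ∧ x * (b : FF K (N * ℓ)) = (a : FF K (N * ℓ)) :=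
  Iff.rfl

theorem algebraMap_Cα_injective :
    Function.Injective (algebraMap (Cα K N ℓ O) (FF K (N * ℓ))) := Subtype.val_injective

theorem mem_nonunits_V₂_iff {x : FF K (N * ℓ)} :
    x ∈ (V₂ K N ℓ O ι hℓN hprime hB).nonunits ↔
      ∃ a b : Cα K N ℓ O, pi1 K N ℓ O hB a = 0 ∧ pi1 K N ℓ O hB b ≠ 0 ∧
        x * (b : FF K (N * ℓ)) = (a : FF K (N * ℓ)) := by
  have h := mem_nonunits_locVS_iff (L := FF K (N * ℓ)) (Ω := LaurentSeries κ)
    (C := ↥(Cα K N ℓ O)) (pi1 K N ℓ O hB) (algebraMap_Cα_injective K N ℓ O)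
    (inLoc_or_inLoc_inv_pi1 K N ℓ O ι hℓN hprime hB) (x := x)
  constructor
  · intro hx
    obtain ⟨a, b, h1, h2, h3⟩ := h.mp hx
    exact ⟨a, b, h1, h2, h3⟩
  · rintro ⟨a, b, h1, h2, h3⟩
    exact h.mpr ⟨a, b, h1, h2, h3⟩

theorem Cα_le_V₂ {x : FF K (N * ℓ)} (hx : x ∈ Cα K N ℓ O) : x ∈ V₂ K N ℓ O ι hℓN hprime hB :=
  (mem_V₂_iff K N ℓ O ι hℓN hprime hB).mpr
    ⟨⟨x, hx⟩, 1, by rw [map_one]; exact one_ne_zero, by simp⟩

theorem Cα_le_V₁ {x : FF K (N * ℓ)} (hx : x ∈ Cα K N ℓ O) : x ∈ V₁ K N ℓ O :=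
  mem_gauss_of_mem_integralClosure K N ℓ O hx

/-- membership in the maximal ideal of `V₁` (any level). -/
theorem mem_nonunits_gaussVS_iff {M : ℕ} [NeZero M] {x : FF K M} :
    x ∈ (gaussVS K M O).nonunits ↔ ∃ h : x ∈ gaussSubalgebra K M O, theta K M O ⟨x, h⟩ = 0 := by
  rw [ValuationSubring.mem_nonunits_iff_exists_mem_maximalIdeal]
  constructor
  · rintro ⟨hx, hm⟩
    refine ⟨hx, ?_⟩
    by_contra h0
    apply (IsLocalRing.mem_maximalIdeal _).1 hm
    exact isUnit_of_theta_ne_zero K M O ⟨x, hx⟩ h0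
  · rintro ⟨hx, h0⟩
    refine ⟨hx, ?_⟩
    rw [IsLocalRing.mem_maximalIdeal, mem_nonunits_iff]
    intro hu
    exact theta_ne_zero_of_isUnit K M O ⟨x, hx⟩ hu h0

include ι hℓN hprime hB in
/-- `V₁` is the localisation of `C_α` at the kernel of `pi2`. -/
theorem mem_V₁_iff {x : FF K (N * ℓ)} :
    x ∈ V₁ K N ℓ O ↔
      ∃ a b : Cα K N ℓ O, pi2 K N ℓ O b ≠ 0 ∧ x * (b : FF K (N * ℓ)) = (a : FF K (N * ℓ)) := by
  constructor
  · intro hx
    rcases inLoc_or_inLoc_inv_pi2 K N ℓ O ι hℓN hprime hB x with h | ⟨a, b, hb, hab⟩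
    · exact h
    · have hab' : x⁻¹ * (b : FF K (N * ℓ)) = (a : FF K (N * ℓ)) := hab
      by_cases hx0 : x = 0
      · subst hx0
        exact ⟨0, 1, by rw [map_one]; exact one_ne_zero, by simp⟩
      by_cases ha : pi2 K N ℓ O a = 0
      · exfalso
        -- `x⁻¹ = a / b` has zero reduction, but `x` is Gauss-integral
        have hbG := Cα_le_V₁ K N ℓ O b.2
        have haG := Cα_le_V₁ K N ℓ O a.2
        have hθb : theta K (N * ℓ) O ⟨(b : FF K (N * ℓ)), hbG⟩ ≠ 0 := hb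
        have hθa : theta K (N * ℓ) O ⟨(a : FF K (N * ℓ)), haG⟩ = 0 := ha
        have e : (⟨(b : FF K (N * ℓ)), hbG⟩ : gaussSubalgebra K (N * ℓ) O) =
            ⟨x, hx⟩ * ⟨(a : FF K (N * ℓ)), haG⟩ := by
          apply Subtype.ext
          show (b : FF K (N * ℓ)) = x * (a : FF K (N * ℓ))
          rw [← hab']
          field_simp
        rw [e, map_mul, hθa, mul_zero] at hθb
        exact hθb rfl
      · refine ⟨b, a, ha, ?_⟩
        rw [← hab']
        field_simp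
  · rintro ⟨a, b, hb, hab⟩
    have hbG := Cα_le_V₁ K N ℓ O b.2
    have haG := Cα_le_V₁ K N ℓ O a.2
    have hθb : theta K (N * ℓ) O ⟨(b : FF K (N * ℓ)), hbG⟩ ≠ 0 := hb
    have hinv := inv_mem_of_theta_ne_zero K (N * ℓ) O ⟨(b : FF K (N * ℓ)), hbG⟩ hθb
    have hb0 : (b : FF K (N * ℓ)) ≠ 0 := by
      intro h0
      apply hθb
      have : (⟨(b : FF K (N * ℓ)), hbG⟩ : gaussSubalgebra K (N * ℓ) O) = 0 := Subtype.ext h0
      rw [this, map_zero]
    have : x = (a : FF K (N * ℓ)) * (b : FF K (N * ℓ))⁻¹ := by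
      rw [← hab]
      field_simp
    rw [this]
    exact (gaussSubalgebra K (N * ℓ) O).mul_mem haG hinv

include ι hℓN hprime hB in
/-- **`C_α = V₁ ⊓ V₂`.** -/
theorem mem_Cα_iff {x : FF K (N * ℓ)} :
    x ∈ Cα K N ℓ O ↔ x ∈ V₁ K N ℓ O ∧ x ∈ V₂ K N ℓ O ι hℓN hprime hB := by
  constructor
  · intro hx
    exact ⟨Cα_le_V₁ K N ℓ O hx, Cα_le_V₂ K N ℓ O ι hℓN hprime hB hx⟩
  · rintro ⟨h1, h2⟩
    haveI : FiniteDimensional (FF K N) (FF K (N * ℓ)) := finiteDimensional_alpha K N ℓ ι hℓN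
    haveI := AlphaSide.charP_laurent K ℓ O
    exact mem_integralClosure_of_inLoc (A := ↥(gaussSubalgebra K N O)) (F := FF K N)
      (L := FF K (N * ℓ)) (IsScalarTower.of_algebraMap_eq fun _ => rfl)
      (finrank_alpha K N ℓ ι hℓN)
      (theta K N O) (theta_mem_maximalIdeal K N O) (qExpand κ ℓ) (pi1 K N ℓ O hB)
      (pi1_algebraMap K N ℓ O hB) (x0 K N ℓ O) (t0 K N O) (hx0 K N ℓ O hB) (ht0 K N ℓ O)
      (pi2 K N ℓ O) (pi2_algebraMap K N ℓ O) (ker_ne K N ℓ O hB)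
      h2 ((mem_V₁_iff K N ℓ O ι hℓN hprime hB).mp h1)

/-- `ϖ` lies in the maximal ideal of `V₁`. -/
theorem unif_mem_nonunits_V₁ {ϖ : ↥O} (hϖ : Irreducible ϖ) :
    algebraMap ↥O (FF K (N * ℓ)) ϖ ∈ (V₁ K N ℓ O).nonunits := by
  rw [mem_nonunits_gaussVS_iff]
  exact ⟨(gaussSubalgebra K (N * ℓ) O).algebraMap_mem ϖ, theta_unif K (N * ℓ) O hϖ⟩

/-- `ϖ` lies in the maximal ideal of `V₂`. -/
theorem unif_mem_nonunits_V₂ {ϖ : ↥O} (hϖ : Irreducible ϖ) :
    algebraMap ↥O (FF K (N * ℓ)) ϖ ∈ (V₂ K N ℓ O ι hℓN hprime hB).nonunits := by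
  rw [mem_nonunits_V₂_iff]
  refine ⟨algebraMap _ _ (unif K N O ϖ), 1, ?_, by rw [map_one]; exact one_ne_zero, ?_⟩
  · rw [pi1_algebraMap, theta_unif K N O hϖ, map_zero]
  · rw [← algebraMap_unif_eq K N ℓ O ϖ]
    simp

/-- **`e = 1` at `V₁`** (any level). -/
theorem mul_inv_mem_gaussVS {M : ℕ} [NeZero M] {ϖ : ↥O} (hϖ : Irreducible ϖ) {x : FF K M}
    (hx : x ∈ (gaussVS K M O).nonunits) :
    x * (algebraMap ↥O (FF K M) ϖ)⁻¹ ∈ gaussVS K M O := by
  obtain ⟨h, h0⟩ := (mem_nonunits_gaussVS_iff K O).mp hx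
  obtain ⟨y, hy⟩ := exists_eq_unif_mul K M O hϖ ⟨x, h⟩ h0
  have hϖF : algebraMap ↥O (FF K M) ϖ ≠ 0 := algebraMap_ne_zero K M O hϖ.ne_zero
  have e : x = algebraMap ↥O (FF K M) ϖ * (y : FF K M) := congrArg Subtype.val hy
  have : x * (algebraMap ↥O (FF K M) ϖ)⁻¹ = (y : FF K M) := by
    rw [e]
    field_simp
  rw [this]
  exact y.2

include ι hℓN hprime hB in
/-- **`e = 1` at `V₂`.** -/
theorem mul_inv_mem_V₂ {ϖ : ↥O} (hϖ : Irreducible ϖ) {x : FF K (N * ℓ)}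
    (hx : x ∈ (V₂ K N ℓ O ι hℓN hprime hB).nonunits) :
    x * (algebraMap ↥O (FF K (N * ℓ)) ϖ)⁻¹ ∈ V₂ K N ℓ O ι hℓN hprime hB := by
  haveI : FiniteDimensional (FF K N) (FF K (N * ℓ)) := finiteDimensional_alpha K N ℓ ι hℓN
  haveI := AlphaSide.charP_laurent K ℓ O
  rw [← algebraMap_unif_eq K N ℓ O ϖ]
  exact inLoc_mul_inv_of_inLocMax₁ (A := ↥(gaussSubalgebra K N O)) (F := FF K N)
    (L := FF K (N * ℓ)) (IsScalarTower.of_algebraMap_eq fun _ => rfl)
    (finrank_alpha K N ℓ ι hℓN)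
    (theta K N O) (theta_mem_maximalIdeal K N O) (qExpand κ ℓ) (pi1 K N ℓ O hB)
    (pi1_algebraMap K N ℓ O hB) (x0 K N ℓ O) (t0 K N O) (hx0 K N ℓ O hB) (ht0 K N ℓ O)
    (pi2 K N ℓ O) (pi2_algebraMap K N ℓ O) (ker_ne K N ℓ O hB)
    (irreducible_unif K N O hϖ) ((mem_nonunits_V₂_iff K N ℓ O ι hℓN hprime hB).mp hx)

end Valuations

/-! ### `hsat` and the semilocal Gauss ring, for both charts -/

section SemiGauss

open Fermat.Agent.P3G.Cover.Lift Fermat.Agent.P3G.Cover.OfValuations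

variable (K : Type) [Field K] [CharZero K] (N : ℕ) [NeZero N] (ℓ : ℕ) [Fact ℓ.Prime]
  (O : Subring K) [IsDiscreteValuationRing ↥O] [IsFractionRing ↥O K]

set_option quotPrecheck false in
local notation "κ" => IsLocalRing.ResidueField ↥O

attribute [local instance] AlphaSide.algFL AlphaSide.algGL AlphaSide.isScalarTower_GFL

set_option synthInstance.maxHeartbeats 400000

variable [CharP (IsLocalRing.ResidueField ↥O) ℓ]
  (ι : K →+* ℂ) (hℓN : ¬ ℓ ∣ N)
  (hprime : (fibreIdeal K N O (Rfin K N O)).IsPrime)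
  {S : Subring (FF K (N * ℓ))} {ev : ↥S →+* LaurentSeries (IsLocalRing.ResidueField ↥O)}
  (hB : BetaOut K N ℓ O S ev)

/-- The two Gauss valuation subrings as a family indexed by `Fin 2`. -/
def Vpair : Fin 2 → ValuationSubring (FF K (N * ℓ)) :=
  ![V₁ K N ℓ O, V₂ K N ℓ O ι hℓN hprime hB]

theorem Vpair_zero : Vpair K N ℓ O ι hℓN hprime hB 0 = V₁ K N ℓ O := rfl

theorem Vpair_one : Vpair K N ℓ O ι hℓN hprime hB 1 = V₂ K N ℓ O ι hℓN hprime hB := rfl

include ι hℓN hprime hB in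
theorem mem_Cα_iff_forall {x : FF K (N * ℓ)} :
    x ∈ Cα K N ℓ O ↔ ∀ i, x ∈ Vpair K N ℓ O ι hℓN hprime hB i := by
  rw [mem_Cα_iff K N ℓ O ι hℓN hprime hB, Fin.forall_fin_two]
  rfl

/-- `W := V₁ ⊓ V₂ = C_α` as a subring of `FF K (N ℓ)`. -/
theorem iInfSubring_Vpair_eq :
    iInfSubring (Vpair K N ℓ O ι hℓN hprime hB) = (Cα K N ℓ O).toSubring := by
  ext x
  rw [mem_iInfSubring, ← mem_Cα_iff_forall K N ℓ O ι hℓN hprime hB]
  rfl

theorem unif_mem_nonunits_Vpair {ϖ : ↥O} (hϖ : Irreducible ϖ) (i : Fin 2) :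
    algebraMap ↥O (FF K (N * ℓ)) ϖ ∈ (Vpair K N ℓ O ι hℓN hprime hB i).nonunits := by
  fin_cases i
  · exact unif_mem_nonunits_V₁ K N ℓ O hϖ
  · exact unif_mem_nonunits_V₂ K N ℓ O ι hℓN hprime hB hϖ

include ι hℓN hprime hB in
/-- **`e = 1`** for both valuation rings, with the SAME uniformiser `ϖ` of `O`. -/
theorem mul_inv_mem_Vpair {ϖ : ↥O} (hϖ : Irreducible ϖ) (i : Fin 2) {x : FF K (N * ℓ)}
    (hx : x ∈ (Vpair K N ℓ O ι hℓN hprime hB i).nonunits) :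
    x * (algebraMap ↥O (FF K (N * ℓ)) ϖ)⁻¹ ∈ Vpair K N ℓ O ι hℓN hprime hB i := by
  fin_cases i
  · exact mul_inv_mem_gaussVS K O hϖ hx
  · exact mul_inv_mem_V₂ K N ℓ O ι hℓN hprime hB hϖ hx

theorem Rfin_le_Vpair (i : Fin 2) (r : ↥(Rfin K (N * ℓ) O)) :
    algebraMap ↥(Rfin K (N * ℓ) O) (FF K (N * ℓ)) r ∈ Vpair K N ℓ O ι hℓN hprime hB i :=
  (mem_Cα_iff_forall K N ℓ O ι hℓN hprime hB).mp (Rfin_le_Cα K N ℓ O r.2) i

theorem Rinf_le_Vpair (i : Fin 2) (r : ↥(Rinf K (N * ℓ) O)) :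
    algebraMap ↥(Rinf K (N * ℓ) O) (FF K (N * ℓ)) r ∈ Vpair K N ℓ O ι hℓN hprime hB i :=
  (mem_Cα_iff_forall K N ℓ O ι hℓN hprime hB).mp (Rinf_le_Cα K N ℓ O r.2) i

include ι hℓN hprime hB in
/-- **`hsat`, finite chart** (the shape of `Cover.OfValuations.isSemiGaussRing_iInf`). -/
theorem hsat_fin {ϖ : ↥O} (hϖ : Irreducible ϖ) (r : ↥(Rfin K (N * ℓ) O))
    (h : ∀ i, algebraMap ↥(Rfin K (N * ℓ) O) (FF K (N * ℓ)) r *
      (algebraMap ↥(Rfin K (N * ℓ) O) (FF K (N * ℓ))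
        (algebraMap ↥O ↥(Rfin K (N * ℓ) O) ϖ))⁻¹ ∈ Vpair K N ℓ O ι hℓN hprime hB i) :
    algebraMap ↥O ↥(Rfin K (N * ℓ) O) ϖ ∣ r := by
  have hϖF : algebraMap ↥O (FF K (N * ℓ)) ϖ ≠ 0 := algebraMap_ne_zero K (N * ℓ) O hϖ.ne_zero
  have hy := (mem_Cα_iff_forall K N ℓ O ι hℓN hprime hB).mpr h
  have hy' : (r : FF K (N * ℓ)) * (algebraMap ↥O (FF K (N * ℓ)) ϖ)⁻¹ ∈ Cα K N ℓ O := hy
  have hmem := sat_fin K N ℓ O hprime hϖ hy' (by
    have : algebraMap ↥O (FF K (N * ℓ)) ϖ *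
        ((r : FF K (N * ℓ)) * (algebraMap ↥O (FF K (N * ℓ)) ϖ)⁻¹) = (r : FF K (N * ℓ)) := by
      field_simp
    rw [this]
    exact r.2)
  refine ⟨⟨_, hmem⟩, ?_⟩
  apply Subtype.ext
  show (r : FF K (N * ℓ)) = algebraMap ↥O (FF K (N * ℓ)) ϖ *
    ((r : FF K (N * ℓ)) * (algebraMap ↥O (FF K (N * ℓ)) ϖ)⁻¹)
  field_simp

include ι hℓN hprime hB in
/-- **`hsat`, chart at infinity.** -/
theorem hsat_inf (hprimeInf : (fibreIdeal K N O (Rinf K N O)).IsPrime) {ϖ : ↥O}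
    (hϖ : Irreducible ϖ) (r : ↥(Rinf K (N * ℓ) O))
    (h : ∀ i, algebraMap ↥(Rinf K (N * ℓ) O) (FF K (N * ℓ)) r *
      (algebraMap ↥(Rinf K (N * ℓ) O) (FF K (N * ℓ))
        (algebraMap ↥O ↥(Rinf K (N * ℓ) O) ϖ))⁻¹ ∈ Vpair K N ℓ O ι hℓN hprime hB i) :
    algebraMap ↥O ↥(Rinf K (N * ℓ) O) ϖ ∣ r := by
  have hϖF : algebraMap ↥O (FF K (N * ℓ)) ϖ ≠ 0 := algebraMap_ne_zero K (N * ℓ) O hϖ.ne_zero
  have hy := (mem_Cα_iff_forall K N ℓ O ι hℓN hprime hB).mpr h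
  have hy' : (r : FF K (N * ℓ)) * (algebraMap ↥O (FF K (N * ℓ)) ϖ)⁻¹ ∈ Cα K N ℓ O := hy
  have hmem := sat_inf K N ℓ O hprimeInf hϖ hy' (by
    have : algebraMap ↥O (FF K (N * ℓ)) ϖ *
        ((r : FF K (N * ℓ)) * (algebraMap ↥O (FF K (N * ℓ)) ϖ)⁻¹) = (r : FF K (N * ℓ)) := by
      field_simp
    rw [this]
    exact r.2)
  refine ⟨⟨_, hmem⟩, ?_⟩
  apply Subtype.ext
  show (r : FF K (N * ℓ)) = algebraMap ↥O (FF K (N * ℓ)) ϖ *
    ((r : FF K (N * ℓ)) * (algebraMap ↥O (FF K (N * ℓ)) ϖ)⁻¹)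
  field_simp

include ι hℓN hprime hB in
/-- **The semilocal Gauss ring of the finite chart** (`hWp` of `Cover.Main.no_split_cover`). -/
theorem isSemiGaussRing_fin {ϖ : ↥O} (hϖ : Irreducible ϖ) :
    IsSemiGaussRing (iInfSubring (Vpair K N ℓ O ι hℓN hprime hB))
      (algebraMap ↥O ↥(Rfin K (N * ℓ) O) ϖ) :=
  isSemiGaussRing_iInf (Vpair K N ℓ O ι hℓN hprime hB) _
    (Rfin_le_Vpair K N ℓ O ι hℓN hprime hB)
    (unif_mem_nonunits_Vpair K N ℓ O ι hℓN hprime hB hϖ)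
    (algebraMap_ne_zero K (N * ℓ) O hϖ.ne_zero)
    (hsat_fin K N ℓ O ι hℓN hprime hB hϖ)

include ι hℓN hprime hB in
/-- **The semilocal Gauss ring of the chart at infinity** (`hWm` of `no_split_cover`). -/
theorem isSemiGaussRing_inf (hprimeInf : (fibreIdeal K N O (Rinf K N O)).IsPrime) {ϖ : ↥O}
    (hϖ : Irreducible ϖ) :
    IsSemiGaussRing (iInfSubring (Vpair K N ℓ O ι hℓN hprime hB))
      (algebraMap ↥O ↥(Rinf K (N * ℓ) O) ϖ) :=
  isSemiGaussRing_iInf (Vpair K N ℓ O ι hℓN hprime hB) _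
    (Rinf_le_Vpair K N ℓ O ι hℓN hprime hB)
    (unif_mem_nonunits_Vpair K N ℓ O ι hℓN hprime hB hϖ)
    (algebraMap_ne_zero K (N * ℓ) O hϖ.ne_zero)
    (hsat_inf K N ℓ O ι hℓN hprime hB hprimeInf hϖ)

end SemiGauss

end Fermat.Agent.P3G.FibreSat
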