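/-
P3-G block (G-N1), abstract part (helper15): **the localisation of a Dedekind domain at a maximal
ideal, as a valuation subring of its fraction field**, with the place extending a ring homomorphism
whose kernel is that maximal ideal.

`C` a Dedekind domain with fraction field `L`, `P` a nonzero maximal ideal:
* `locVS P hP0 : ValuationSubring L` (carrier `{a / s | s ∉ P}`), `mem_locVS_iff`,
  `mem_nonunits_iff`;
* `eq_locVS` : a valuation subring of `L` containing `C` whose maximal ideal contains `P` is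
  `locVS P` (domination);
* `exists_eq_of_mem_of_mem` : if `P₁, P₂` are the only maximal ideals, `locVS P₁ ⊓ locVS P₂ = C`;
* `evLoc π hπ : ↥(locVS P hP0) →+* Ω` for `π : C →+* Ω` (`Ω` a field) with `ker π = P`;
* residue degree one and ramification index one (`exists_sub_mem_nonunits`, `div_mem`).
-/
import Mathlib

set_option autoImplicit false
set_option linter.unusedSectionVars false
set_option linter.overlappingInstances false

namespace Fermat.Agent.P3G.LocVS

open IsLocalRing

section VS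

variable {L : Type*} [Field L] (V : ValuationSubring L)

theorem mem_nonunits_iff_inv_notMem {x : L} (hx : x ≠ 0) : x ∈ V.nonunits ↔ x⁻¹ ∉ V := by
  rw [V.mem_nonunits_iff, ← V.valuation_le_one_iff, map_inv₀, not_le]
  have hv0 : V.valuation x ≠ 0 := fun h0 => hx ((map_eq_zero _).1 h0)
  constructor
  · intro h
    exact (one_lt_inv₀ (zero_lt_iff.2 hv0)).2 h
  · intro h
    exact (one_lt_inv₀ (zero_lt_iff.2 hv0)).1 h

theorem zero_mem_nonunits : (0 : L) ∈ V.nonunits := by
  rw [V.mem_nonunits_iff, map_zero]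
  exact zero_lt_one

theorem mul_mem_nonunits {x y : L} (hx : x ∈ V.nonunits) (hy : y ∈ V) : x * y ∈ V.nonunits := by
  rw [V.mem_nonunits_iff] at hx ⊢
  rw [map_mul]
  exact mul_lt_one_of_lt_of_le hx ((V.valuation_le_one_iff y).2 hy)

theorem one_notMem_nonunits : (1 : L) ∉ V.nonunits := by
  rw [V.mem_nonunits_iff, map_one]
  exact lt_irrefl _

theorem inv_mem_of_one_sub_mem_nonunits {x : L} (hx : 1 - x ∈ V.nonunits) : x⁻¹ ∈ V := by
  have h1 : V.valuation (1 - x) < 1 := V.mem_nonunits_iff.1 hx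
  have h2 : V.valuation x = 1 := by
    have := Valuation.map_one_sub_of_lt (v := V.valuation) h1
    rwa [sub_sub_cancel] at this
  rw [← V.valuation_le_one_iff, map_inv₀, h2, inv_one]

end VS

section Basic

variable {C L : Type*} [CommRing C] [IsDomain C] [IsDedekindDomain C] [Field L] [Algebra C L]
  [IsFractionRing C L] (P : Ideal C) [hPm : P.IsMaximal] (hP0 : P ≠ ⊥)

/-- The localisation `C_P` as a subalgebra of `L`. -/
noncomputable abbrev locAlg : Subalgebra C L :=
  Localization.subalgebra.ofField L P.primeCompl P.primeCompl_le_nonZeroDivisors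

theorem mem_locAlg_iff {x : L} :
    x ∈ locAlg (L := L) P ↔
      ∃ a s : C, s ∉ P ∧ x = algebraMap C L a * (algebraMap C L s)⁻¹ := by
  constructor
  · rintro ⟨a, s, hs, rfl⟩
    exact ⟨a, s, hs, rfl⟩
  · rintro ⟨a, s, hs, rfl⟩
    exact ⟨a, s, hs, rfl⟩

include hP0 in
theorem isDiscreteValuationRing_locAlg : IsDiscreteValuationRing ↥(locAlg (L := L) P) :=
  IsLocalization.AtPrime.isDiscreteValuationRing_of_dedekind_domain C hP0 _

/-- The localisation `C_P` as a valuation subring of `L`. -/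
noncomputable def locVS : ValuationSubring L where
  toSubring := (locAlg (L := L) P).toSubring
  mem_or_inv_mem' x := by
    haveI := isDiscreteValuationRing_locAlg (L := L) P hP0
    rcases ValuationRing.isInteger_or_isInteger ↥(locAlg (L := L) P) x with ⟨a, ha⟩ | ⟨a, ha⟩
    · left
      rw [← ha]
      exact a.2
    · right
      rw [← ha]
      exact a.2

theorem mem_locVS_iff {x : L} :
    x ∈ locVS (L := L) P hP0 ↔
      ∃ a s : C, s ∉ P ∧ x = algebraMap C L a * (algebraMap C L s)⁻¹ :=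
  mem_locAlg_iff P

theorem algebraMap_mem (c : C) : algebraMap C L c ∈ locVS (L := L) P hP0 :=
  (mem_locVS_iff P hP0).2 ⟨c, 1, fun h => hPm.ne_top ((Ideal.eq_top_iff_one _).2 h), by
    rw [map_one, inv_one, mul_one]⟩

theorem algebraMap_ne_zero {s : C} (hs : s ∉ P) : algebraMap C L s ≠ 0 := by
  intro h
  apply hs
  rw [(map_eq_zero_iff _ (IsFractionRing.injective C L)).1 h]
  exact P.zero_mem

theorem inv_mem {s : C} (hs : s ∉ P) : (algebraMap C L s)⁻¹ ∈ locVS (L := L) P hP0 :=
  (mem_locVS_iff P hP0).2 ⟨1, s, hs, by rw [map_one, one_mul]⟩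

theorem mem_nonunits_iff {x : L} :
    x ∈ (locVS (L := L) P hP0).nonunits ↔
      ∃ a s : C, a ∈ P ∧ s ∉ P ∧ x = algebraMap C L a * (algebraMap C L s)⁻¹ := by
  constructor
  · intro hx
    by_cases hx0 : x = 0
    · exact ⟨0, 1, P.zero_mem, fun h => hPm.ne_top ((Ideal.eq_top_iff_one _).2 h), by
        rw [hx0, map_zero, zero_mul]⟩
    have hxV : x ∈ locVS (L := L) P hP0 := by
      rw [← (locVS (L := L) P hP0).valuation_le_one_iff]
      exact le_of_lt ((locVS (L := L) P hP0).mem_nonunits_iff.1 hx)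
    obtain ⟨a, s, hs, rfl⟩ := (mem_locVS_iff P hP0).1 hxV
    refine ⟨a, s, ?_, hs, rfl⟩
    by_contra ha
    have hinv := (mem_nonunits_iff_inv_notMem _ hx0).1 hx
    apply hinv
    rw [mul_inv, inv_inv, mul_comm]
    exact (mem_locVS_iff P hP0).2 ⟨s, a, ha, rfl⟩
  · rintro ⟨a, s, ha, hs, rfl⟩
    by_cases hx0 : algebraMap C L a * (algebraMap C L s)⁻¹ = 0
    · rw [hx0]
      exact zero_mem_nonunits _
    rw [mem_nonunits_iff_inv_notMem _ hx0]
    intro hmem
    obtain ⟨b, t, ht, hbt⟩ := (mem_locVS_iff P hP0).1 hmem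
    have ha0 : algebraMap C L a ≠ 0 := fun h => hx0 (by rw [h, zero_mul])
    have hs0 := algebraMap_ne_zero (L := L) P hs
    have ht0 := algebraMap_ne_zero (L := L) P ht
    rw [mul_inv, inv_inv] at hbt
    have e : algebraMap C L (s * t) = algebraMap C L (a * b) := by
      rw [map_mul, map_mul]
      field_simp at hbt
      linear_combination hbt
    have e' : s * t = a * b := IsFractionRing.injective C L e
    have : s * t ∈ P := by
      rw [e']
      exact P.mul_mem_right _ ha
    rcases hPm.isPrime.mem_or_mem this with h | h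
    · exact hs h
    · exact ht h

/-- **Domination**: a valuation subring containing `C` whose nonunits contain `P` is `C_P`. -/
theorem eq_locVS (V : ValuationSubring L) (hC : ∀ c : C, algebraMap C L c ∈ V)
    (hP : ∀ c ∈ P, algebraMap C L c ∈ V.nonunits) : V = locVS (L := L) P hP0 := by
  have hinv : ∀ s : C, s ∉ P → (algebraMap C L s)⁻¹ ∈ V := by
    intro s hs
    obtain ⟨t, ht⟩ := Ideal.Quotient.exists_inv (I := P) (a := Ideal.Quotient.mk P s)
      (by
        intro h
        exact hs (Ideal.Quotient.eq_zero_iff_mem.1 h))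
    obtain ⟨t, rfl⟩ := Ideal.Quotient.mk_surjective t
    have hp : 1 - s * t ∈ P := by
      rw [← Ideal.Quotient.eq_zero_iff_mem, map_sub, map_one, map_mul, ht, sub_self]
    have h1 : (algebraMap C L (s * t))⁻¹ ∈ V := by
      apply inv_mem_of_one_sub_mem_nonunits
      have := hP _ hp
      rwa [map_sub, map_one] at this
    have e : (algebraMap C L s)⁻¹ = algebraMap C L t * (algebraMap C L (s * t))⁻¹ := by
      have hs0 := algebraMap_ne_zero (L := L) P hs
      by_cases ht0 : algebraMap C L t = 0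
      · exfalso
        have : algebraMap C L (s * t) = 0 := by rw [map_mul, ht0, mul_zero]
        rw [this, inv_zero] at h1
        have h2 := hP _ hp
        rw [map_sub, map_one, this, sub_zero] at h2
        exact one_notMem_nonunits V h2
      · rw [map_mul]
        field_simp
    rw [e]
    exact V.mul_mem _ _ (hC t) h1
  have hge : ∀ x, x ∈ locVS (L := L) P hP0 → x ∈ V := by
    intro x hx
    obtain ⟨a, s, hs, rfl⟩ := (mem_locVS_iff P hP0).1 hx
    exact V.mul_mem _ _ (hC a) (hinv s hs)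
  apply le_antisymm
  · intro x hx
    by_contra hxn
    have hx0 : x ≠ 0 := by
      rintro rfl
      exact hxn (locVS (L := L) P hP0).zero_mem
    have h1 : x⁻¹ ∈ locVS (L := L) P hP0 :=
      ((locVS (L := L) P hP0).mem_or_inv_mem x).resolve_left hxn
    have h2 : x⁻¹ ∈ (locVS (L := L) P hP0).nonunits := by
      rw [mem_nonunits_iff_inv_notMem _ (inv_ne_zero hx0), inv_inv]
      exact hxn
    obtain ⟨a, s, ha, hs, e⟩ := (mem_nonunits_iff P hP0).1 h2
    have h3 : x⁻¹ ∈ V.nonunits := by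
      rw [e]
      exact mul_mem_nonunits V (hP a ha) (hinv s hs)
    have h4 := mul_mem_nonunits V h3 hx
    rw [inv_mul_cancel₀ hx0] at h4
    exact one_notMem_nonunits V h4
  · exact hge

/-- If `P₁`, `P₂` are the only maximal ideals, `C_{P₁} ∩ C_{P₂} = C`. -/
theorem exists_eq_of_mem_of_mem (P₁ P₂ : Ideal C) [P₁.IsMaximal] [P₂.IsMaximal]
    (h1 : P₁ ≠ ⊥) (h2 : P₂ ≠ ⊥)
    (hmax : ∀ Q : Ideal C, Q.IsMaximal → Q = P₁ ∨ Q = P₂) {x : L}
    (hx1 : x ∈ locVS (L := L) P₁ h1) (hx2 : x ∈ locVS (L := L) P₂ h2) :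
    ∃ c : C, algebraMap C L c = x := by
  obtain ⟨a₁, s₁, hs₁, e₁⟩ := (mem_locVS_iff P₁ h1).1 hx1
  obtain ⟨a₂, s₂, hs₂, e₂⟩ := (mem_locVS_iff P₂ h2).1 hx2
  have htop : Ideal.span {s₁, s₂} = (⊤ : Ideal C) := by
    by_contra hne
    obtain ⟨Q, hQ, hle⟩ := Ideal.exists_le_maximal _ hne
    rcases hmax Q hQ with rfl | rfl
    · exact hs₁ (hle (Ideal.subset_span (Set.mem_insert _ _)))
    · exact hs₂ (hle (Ideal.subset_span (Set.mem_insert_of_mem _ rfl)))
  have h1' : (1 : C) ∈ Ideal.span {s₁, s₂} := by rw [htop]; exact Submodule.mem_top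
  obtain ⟨u, v, huv⟩ := Ideal.mem_span_pair.1 h1'
  refine ⟨u * a₁ + v * a₂, ?_⟩
  have hs₁0 := algebraMap_ne_zero (L := L) P₁ hs₁
  have hs₂0 := algebraMap_ne_zero (L := L) P₂ hs₂
  have ea₁ : algebraMap C L a₁ = algebraMap C L s₁ * x := by rw [e₁]; field_simp
  have ea₂ : algebraMap C L a₂ = algebraMap C L s₂ * x := by rw [e₂]; field_simp
  have e3 : algebraMap C L (u * s₁ + v * s₂) = 1 := by rw [huv, map_one]
  rw [map_add, map_mul, map_mul] at e3
  rw [map_add, map_mul, map_mul, ea₁, ea₂]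
  linear_combination x * e3

end Basic

section Place

variable {C L Ω : Type*} [CommRing C] [IsDomain C] [IsDedekindDomain C] [Field L] [Algebra C L]
  [IsFractionRing C L] [Field Ω] (P : Ideal C) [hPm : P.IsMaximal] (hP0 : P ≠ ⊥)
  (π : C →+* Ω) (hπ : RingHom.ker π = P)

/-- `↥(locVS P) → ↥(locAlg P)` (same carrier). -/
noncomputable def toLocAlg : ↥(locVS (L := L) P hP0) →+* ↥(locAlg (L := L) P) :=
  ((locVS (L := L) P hP0).subtype).codRestrict (locAlg (L := L) P) (fun y => y.2)

include hπ in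
theorem isUnit_of_mem_primeCompl (y : P.primeCompl) : IsUnit (π y) := by
  rw [isUnit_iff_ne_zero]
  intro h
  have : (y : C) ∈ RingHom.ker π := h
  rw [hπ] at this
  exact y.2 this

/-- The place of `C_P` extending `π`. -/
noncomputable def evLoc : ↥(locVS (L := L) P hP0) →+* Ω :=
  (IsLocalization.lift (M := P.primeCompl) (S := ↥(locAlg (L := L) P)) (g := π)
    (isUnit_of_mem_primeCompl P π hπ)).comp (toLocAlg P hP0)

theorem evLoc_algebraMap (c : C) :
    evLoc (L := L) P hP0 π hπ ⟨algebraMap C L c, algebraMap_mem P hP0 c⟩ = π c := by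
  unfold evLoc
  rw [RingHom.comp_apply]
  have : toLocAlg (L := L) P hP0 ⟨algebraMap C L c, algebraMap_mem P hP0 c⟩ =
      algebraMap C ↥(locAlg (L := L) P) c := rfl
  rw [this, IsLocalization.lift_eq]

theorem evLoc_div (a s : C) (hs : s ∉ P) (h : algebraMap C L a * (algebraMap C L s)⁻¹ ∈
    locVS (L := L) P hP0) :
    evLoc (L := L) P hP0 π hπ ⟨_, h⟩ = π a / π s := by
  have hs0 : π s ≠ 0 := by
    intro h0
    have : s ∈ RingHom.ker π := h0
    rw [hπ] at this
    exact hs this
  rw [eq_div_iff hs0, ← evLoc_algebraMap (L := L) P hP0 π hπ s,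
    ← evLoc_algebraMap (L := L) P hP0 π hπ a, ← map_mul]
  congr 1
  apply Subtype.ext
  show algebraMap C L a * (algebraMap C L s)⁻¹ * algebraMap C L s = algebraMap C L a
  rw [mul_assoc, inv_mul_cancel₀ (algebraMap_ne_zero (L := L) P hs), mul_one]

theorem evLoc_eq_zero_iff (y : ↥(locVS (L := L) P hP0)) :
    evLoc (L := L) P hP0 π hπ y = 0 ↔ (y : L) ∈ (locVS (L := L) P hP0).nonunits := by
  obtain ⟨y, hy⟩ := y
  obtain ⟨a, s, hs, rfl⟩ := (mem_locVS_iff P hP0).1 hy
  have hs0 : π s ≠ 0 := by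
    intro h0
    have : s ∈ RingHom.ker π := h0
    rw [hπ] at this
    exact hs this
  rw [evLoc_div (L := L) P hP0 π hπ a s hs, div_eq_zero_iff, or_iff_left hs0]
  constructor
  · intro h
    have ha : a ∈ P := by rw [← hπ]; exact h
    exact (mem_nonunits_iff P hP0).2 ⟨a, s, ha, hs, rfl⟩
  · intro h
    obtain ⟨b, t, hb, ht, e⟩ := (mem_nonunits_iff P hP0).1 h
    have hs1 := algebraMap_ne_zero (L := L) P hs
    have ht1 := algebraMap_ne_zero (L := L) P ht
    have e' : algebraMap C L (a * t) = algebraMap C L (b * s) := by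
      rw [map_mul, map_mul]
      field_simp at e
      linear_combination e
    have e'' : a * t = b * s := IsFractionRing.injective C L e'
    have : a * t ∈ P := by rw [e'']; exact P.mul_mem_right _ hb
    rcases hPm.isPrime.mem_or_mem this with h | h
    · have : a ∈ RingHom.ker π := by rw [hπ]; exact h
      exact this
    · exact absurd h ht

end Place

section Degree

variable {A C L : Type*} [CommRing A] [IsLocalRing A] [CommRing C] [IsDomain C]
  [IsDedekindDomain C] [Field L] [Algebra C L] [IsFractionRing C L] (f : A →+* C)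
  (P : Ideal C) [hPm : P.IsMaximal] (hP0 : P ≠ ⊥)

/-- **Residue degree one**: if `C = f A + P` then `C_P = f A + 𝔪_{C_P}`. -/
theorem exists_sub_mem_nonunits (hle : ∀ a ∈ maximalIdeal A, f a ∈ P)
    (hsurj : ∀ c : C, ∃ a : A, c - f a ∈ P) {y : L}
    (hy : y ∈ locVS (L := L) P hP0) :
    ∃ a : A, y - algebraMap C L (f a) ∈ (locVS (L := L) P hP0).nonunits := by
  obtain ⟨c, s, hs, rfl⟩ := (mem_locVS_iff P hP0).1 hy
  obtain ⟨ac, hac⟩ := hsurj c
  obtain ⟨as, has⟩ := hsurj s
  have hu : IsUnit as := by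
    by_contra hnu
    have h1 : f as ∈ P := hle _ ((mem_maximalIdeal as).2 hnu)
    apply hs
    have := P.add_mem has h1
    rwa [sub_add_cancel] at this
  obtain ⟨u, rfl⟩ := hu
  refine ⟨ac * ((u⁻¹ : Aˣ) : A), ?_⟩
  rw [mem_nonunits_iff P hP0]
  refine ⟨c - f (ac * ((u⁻¹ : Aˣ) : A)) * s, s, ?_, hs, ?_⟩
  · have e : c - f (ac * ((u⁻¹ : Aˣ) : A)) * s =
        (c - f ac) - f (ac * ((u⁻¹ : Aˣ) : A)) * (s - f (u : A)) := by
      have h1 : f (ac * ((u⁻¹ : Aˣ) : A)) * f (u : A) = f ac := by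
        rw [← map_mul, mul_assoc, Units.inv_mul, mul_one]
      linear_combination -h1
    rw [e]
    exact P.sub_mem hac (P.mul_mem_left _ has)
  · have hs0 := algebraMap_ne_zero (L := L) P hs
    rw [map_sub, map_mul]
    field_simp
    rw [map_mul, map_mul, map_mul]
    ring

/-- **Ramification index one**: if `Q ⊓ P ⊆ (ϖ)` for an ideal `Q ⊄ P`, then
`𝔪_{C_P} = ϖ C_P`. -/
theorem div_mem (ϖ : C) (hϖ0 : ϖ ≠ 0) (Q : Ideal C) (hQ : ¬ Q ≤ P)
    (hinf : ∀ c, c ∈ Q → c ∈ P → ∃ d, c = ϖ * d) {y : L}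
    (hy : y ∈ (locVS (L := L) P hP0).nonunits) :
    y * (algebraMap C L ϖ)⁻¹ ∈ locVS (L := L) P hP0 := by
  obtain ⟨a, s, ha, hs, rfl⟩ := (mem_nonunits_iff P hP0).1 hy
  obtain ⟨t, htQ, htP⟩ := SetLike.not_le_iff_exists.1 hQ
  obtain ⟨d, hd⟩ := hinf (t * a) (Q.mul_mem_right _ htQ) (P.mul_mem_left _ ha)
  rw [mem_locVS_iff]
  refine ⟨d, t * s, ?_, ?_⟩
  · intro h
    rcases hPm.isPrime.mem_or_mem h with h | h
    · exact htP h
    · exact hs h
  · have hs0 := algebraMap_ne_zero (L := L) P hs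
    have ht0 := algebraMap_ne_zero (L := L) P htP
    have hϖ1 : algebraMap C L ϖ ≠ 0 := fun h =>
      hϖ0 ((map_eq_zero_iff _ (IsFractionRing.injective C L)).1 h)
    have e : algebraMap C L t * algebraMap C L a = algebraMap C L ϖ * algebraMap C L d := by
      rw [← map_mul, ← map_mul, hd]
    rw [map_mul]
    field_simp
    linear_combination e

end Degree

end Fermat.Agent.P3G.LocVS
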