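/-
P3-G, block (G-N), step (d) (and the smooth case (c)) of helper27's design (#1237), ABSTRACT form,
Mathlib only.

Setting (to be instantiated with `R_M = R₊(K;M)`, `R = R₊(K;Mℓ)`, `Rb = R̄ = θ(R_M)` the Dedekind
special fibre of level `M`, `α β : R_M → R` the two degeneracy maps, `θ₁ θ₂ : R → R̄` the two residue
maps of block E, `ψ` = coefficientwise inverse Frobenius of `R̄`):

* `θ₁ ∘ α = θ`, `θ₂ ∘ β = θ`, `θ₁ (β x) = (ψ (θ x)) ^ ℓ`, `θ₂ (α x) = (ψ (θ x)) ^ ℓ`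
  (`f̄(q^ℓ) = (Fr⁻¹ f̄)^ℓ`), `θ` surjective.

For a maximal ideal `𝔫 ⊇ ker θ₁ + ker θ₂` of `R` (a *crossing point*), with `𝔪ₓ := θ₁(𝔫)`,
`𝔪_y := θ₂(𝔫)`:

* `map_psi_mx`, `map_psi_my` : `ψ(𝔪ₓ) = 𝔪_y`, `ψ(𝔪_y) = 𝔪ₓ`;
* `exists_uv` : `u = α z₁ − (β z₂')^ℓ ∈ ker θ₂`, `v = β z₂ − (α z₁')^ℓ ∈ ker θ₁` with
  `θ₁ u ∈ 𝔪ₓ ∖ 𝔪ₓ²`, `θ₂ v ∈ 𝔪_y ∖ 𝔪_y²`, the `z`'s taken in any subring `Z ⊆ R_M` with `θ(Z) = R̄`;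
* `exists_mul_mem_span_uv` : if `ker θ₁ ⊓ ker θ₂ ≤ (ϖ)` then `𝔫` is generated by `u, v, ϖ` locally at
  `𝔫` (`∀ m ∈ 𝔫, ∃ s ∉ 𝔫, s * m ∈ span {u, v, ϖ}`), and `u * v ∈ (ϖ)`;
* `maximalIdeal_eq_span_uv` : the same in any localisation of `R` at `𝔫`;
* smooth case: `exists_mul_mem_span_z`, `maximalIdeal_eq_span_z` for a point on one component only.
-/
import Mathlib

set_option autoImplicit false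

namespace Fermat.Agent.P3G.Crossing

open Ideal

/-! ### A local generator in a Dedekind domain -/

section Dedekind

variable {A : Type*} [CommRing A] [IsDedekindDomain A]

/-- In a Dedekind domain an element `π ∈ P ∖ P²` generates `P` locally at `P`:
every `y ∈ P` has a multiple `s y`, `s ∉ P`, in `(π)`. -/
theorem exists_mul_eq_mul_of_notMem_sq {P : Ideal A} {π : A} (hπ : π ∈ P) (hπ2 : π ∉ P ^ 2)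
    {y : A} (hy : y ∈ P) : ∃ s a : A, s ∉ P ∧ s * y = a * π := by
  have hle : Ideal.span {π} ≤ P := (Ideal.span_singleton_le_iff_mem _).2 hπ
  obtain ⟨J, hJ⟩ := Ideal.dvd_iff_le.2 hle
  have hJP : ¬ J ≤ P := by
    intro h
    obtain ⟨J', hJ'⟩ := Ideal.dvd_iff_le.2 h
    apply hπ2
    have h1 : Ideal.span {π} = P ^ 2 * J' := by rw [hJ, hJ', ← mul_assoc, sq]
    have h2 : Ideal.span {π} ≤ P ^ 2 := h1 ▸ Ideal.mul_le_left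
    exact h2 (Ideal.mem_span_singleton_self π)
  obtain ⟨s, hsJ, hsP⟩ := SetLike.not_le_iff_exists.1 hJP
  have h3 : s * y ∈ Ideal.span {π} := by
    rw [hJ, mul_comm s y]
    exact Ideal.mul_mem_mul hy hsJ
  obtain ⟨a, ha⟩ := Ideal.mem_span_singleton'.1 h3
  exact ⟨s, a, hsP, ha.symm⟩

end Dedekind

/-! ### One component: lifting a local generator -/

section OneComponent

variable {R Rb : Type*} [CommRing R] [CommRing Rb]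
  (θ₁ : R →+* Rb) (hs : Function.Surjective θ₁) (𝔫 : Ideal R) (hk : RingHom.ker θ₁ ≤ 𝔫)

include hs hk in
theorem map_mem_map_iff (r : R) : θ₁ r ∈ 𝔫.map θ₁ ↔ r ∈ 𝔫 := by
  constructor
  · intro h
    obtain ⟨x, hx, hxr⟩ := (Ideal.mem_map_iff_of_surjective θ₁ hs).1 h
    have : r - x ∈ 𝔫 := hk (by rw [RingHom.mem_ker, map_sub, hxr, sub_self])
    simpa using 𝔫.add_mem this hx
  · exact Ideal.mem_map_of_mem θ₁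

include hs hk in
theorem isMaximal_map [h𝔫 : 𝔫.IsMaximal] : (𝔫.map θ₁).IsMaximal := by
  rcases Ideal.map_eq_top_or_isMaximal_of_surjective θ₁ hs h𝔫 with h | h
  · exfalso
    have h1 : θ₁ 1 ∈ 𝔫.map θ₁ := by rw [h]; trivial
    exact h𝔫.ne_top ((Ideal.eq_top_iff_one _).2 ((map_mem_map_iff θ₁ hs 𝔫 hk 1).1 h1))
  · exact h

include hs in
/-- If `θ₁ u` is a local generator of `θ₁(𝔫)`, every `m ∈ 𝔫` is, up to a factor `s ∉ 𝔫`,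
a multiple of `u` modulo `ker θ₁`. -/
theorem exists_mul_sub_mem_ker [IsDedekindDomain Rb] {u : R} (hu2 : θ₁ u ∉ (𝔫.map θ₁) ^ 2) (hu : u ∈ 𝔫)
    {m : R} (hm : m ∈ 𝔫) : ∃ s a : R, s ∉ 𝔫 ∧ s * m - a * u ∈ RingHom.ker θ₁ := by
  obtain ⟨s', a', hs', he⟩ := exists_mul_eq_mul_of_notMem_sq (Ideal.mem_map_of_mem θ₁ hu) hu2
    (Ideal.mem_map_of_mem θ₁ hm)
  obtain ⟨s, rfl⟩ := hs s'
  obtain ⟨a, rfl⟩ := hs a'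
  refine ⟨s, a, fun h => hs' (Ideal.mem_map_of_mem θ₁ h), ?_⟩
  rw [RingHom.mem_ker, map_sub, map_mul, map_mul, he, sub_self]

end OneComponent

/-! ### The crossing data -/

section Main

variable {RM R Rb : Type*} [CommRing RM] [CommRing R] [CommRing Rb]

/-- The hypotheses on the two degeneracy maps `α β` and the two residue maps `θ₁ θ₂`.
`α β` are plain FUNCTIONS `R_M → R` (no homomorphism property is ever used): ring homomorphisms are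
accepted through their coercion, and for the chart at infinity one can take
`β' x := G ^ n(x) * β x` with `G ≡ 1 mod ϖ` (there is no ring homomorphism `β` between the charts at
infinity). -/
structure CrossingData (ℓ : ℕ) (α β : RM → R) (θ : RM →+* Rb) (θ₁ θ₂ : R →+* Rb)
    (ψ : Rb ≃+* Rb) : Prop where
  two_le : 2 ≤ ℓ
  surj : Function.Surjective θ
  h1 : ∀ x, θ₁ (α x) = θ x
  h2 : ∀ x, θ₂ (β x) = θ x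
  h3 : ∀ x, θ₁ (β x) = (ψ (θ x)) ^ ℓ
  h4 : ∀ x, θ₂ (α x) = (ψ (θ x)) ^ ℓ

variable {ℓ : ℕ} {α β : RM → R} {θ : RM →+* Rb} {θ₁ θ₂ : R →+* Rb} {ψ : Rb ≃+* Rb}

namespace CrossingData

variable (D : CrossingData ℓ α β θ θ₁ θ₂ ψ)

include D in
theorem surj₁ : Function.Surjective θ₁ := fun y => by
  obtain ⟨x, rfl⟩ := D.surj y
  exact ⟨α x, D.h1 x⟩

include D in
theorem surj₂ : Function.Surjective θ₂ := fun y => by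
  obtain ⟨x, rfl⟩ := D.surj y
  exact ⟨β x, D.h2 x⟩

include D in
theorem ell_ne_zero : ℓ ≠ 0 := by have := D.two_le; omega

variable (𝔫 : Ideal R) [h𝔫 : 𝔫.IsMaximal]
  (hk1 : RingHom.ker θ₁ ≤ 𝔫) (hk2 : RingHom.ker θ₂ ≤ 𝔫)

include D hk1 in
theorem isMaximal_mx : (𝔫.map θ₁).IsMaximal := isMaximal_map θ₁ D.surj₁ 𝔫 hk1

include D hk2 in
theorem isMaximal_my : (𝔫.map θ₂).IsMaximal := isMaximal_map θ₂ D.surj₂ 𝔫 hk2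

include D hk1 hk2 in
/-- `y ∈ 𝔪ₓ ↔ ψ y ∈ 𝔪_y` (test on `α f`). -/
theorem mem_mx_iff (y : Rb) : y ∈ 𝔫.map θ₁ ↔ ψ y ∈ 𝔫.map θ₂ := by
  obtain ⟨f, rfl⟩ := D.surj y
  have := D.isMaximal_my 𝔫 hk2
  rw [← D.h1 f, map_mem_map_iff θ₁ D.surj₁ 𝔫 hk1, ← map_mem_map_iff θ₂ D.surj₂ 𝔫 hk2, D.h4 f,
    D.h1 f]
  exact ⟨fun h => Ideal.IsPrime.mem_of_pow_mem inferInstance _ h,
    fun h => Ideal.pow_mem_of_mem _ h _ (Nat.pos_of_ne_zero D.ell_ne_zero)⟩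

include D hk1 hk2 in
/-- `y ∈ 𝔪_y ↔ ψ y ∈ 𝔪ₓ` (test on `β f`). -/
theorem mem_my_iff (y : Rb) : y ∈ 𝔫.map θ₂ ↔ ψ y ∈ 𝔫.map θ₁ := by
  obtain ⟨f, rfl⟩ := D.surj y
  have := D.isMaximal_mx 𝔫 hk1
  rw [← D.h2 f, map_mem_map_iff θ₂ D.surj₂ 𝔫 hk2, ← map_mem_map_iff θ₁ D.surj₁ 𝔫 hk1, D.h3 f,
    D.h2 f]
  exact ⟨fun h => Ideal.IsPrime.mem_of_pow_mem inferInstance _ h,
    fun h => Ideal.pow_mem_of_mem _ h _ (Nat.pos_of_ne_zero D.ell_ne_zero)⟩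

include D hk1 hk2 in
/-- `ψ(𝔪ₓ) = 𝔪_y`. -/
theorem map_psi_mx : (𝔫.map θ₁).map (ψ : Rb →+* Rb) = 𝔫.map θ₂ := by
  ext y
  rw [Ideal.mem_map_iff_of_surjective (ψ : Rb →+* Rb) ψ.surjective]
  constructor
  · rintro ⟨x, hx, rfl⟩
    exact (D.mem_mx_iff 𝔫 hk1 hk2 x).1 hx
  · intro hy
    refine ⟨ψ.symm y, (D.mem_mx_iff 𝔫 hk1 hk2 _).2 ?_, by simp⟩
    simpa using hy

include D hk1 hk2 in
/-- `ψ(𝔪_y) = 𝔪ₓ`. -/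
theorem map_psi_my : (𝔫.map θ₂).map (ψ : Rb →+* Rb) = 𝔫.map θ₁ := by
  ext y
  rw [Ideal.mem_map_iff_of_surjective (ψ : Rb →+* Rb) ψ.surjective]
  constructor
  · rintro ⟨x, hx, rfl⟩
    exact (D.mem_my_iff 𝔫 hk1 hk2 x).1 hx
  · intro hy
    refine ⟨ψ.symm y, (D.mem_my_iff 𝔫 hk1 hk2 _).2 ?_, by simp⟩
    simpa using hy

include D hk1 hk2 in
/-- `ψ²` preserves `𝔪ₓ`. -/
theorem psi_psi_mem_mx {y : Rb} (hy : y ∈ 𝔫.map θ₁) : ψ (ψ y) ∈ 𝔫.map θ₁ :=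
  (D.mem_my_iff 𝔫 hk1 hk2 _).1 ((D.mem_mx_iff 𝔫 hk1 hk2 _).1 hy)

include D hk1 hk2 in
/-- `ψ²` preserves `𝔪_y`. -/
theorem psi_psi_mem_my {y : Rb} (hy : y ∈ 𝔫.map θ₂) : ψ (ψ y) ∈ 𝔫.map θ₂ :=
  (D.mem_mx_iff 𝔫 hk1 hk2 _).1 ((D.mem_my_iff 𝔫 hk1 hk2 _).1 hy)

/-- `(w ^ ℓ) ^ ℓ ∈ P ^ 2` for `w ∈ P`, `2 ≤ ℓ`. -/
theorem pow_pow_mem_sq {P : Ideal Rb} {w : Rb} (hw : w ∈ P) (h2 : 2 ≤ ℓ) :
    (w ^ ℓ) ^ ℓ ∈ P ^ 2 := by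
  have h4 : 2 ≤ ℓ * ℓ := by nlinarith
  rw [← pow_mul]
  exact Ideal.pow_le_pow_right h4 (Ideal.pow_mem_pow hw _)

include D in
/-- The values of `u = α z₁ − (β z₂')^ℓ` under `θ₁`, `θ₂`. -/
theorem theta₁_u (z₁ z₂' : RM) :
    θ₁ (α z₁ - (β z₂') ^ ℓ) = θ z₁ - ((ψ (θ z₂')) ^ ℓ) ^ ℓ := by
  rw [map_sub, map_pow, D.h1, D.h3]

include D in
theorem theta₂_u (z₁ z₂' : RM) :
    θ₂ (α z₁ - (β z₂') ^ ℓ) = (ψ (θ z₁)) ^ ℓ - (θ z₂') ^ ℓ := by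
  rw [map_sub, map_pow, D.h4, D.h2]

include D in
/-- The values of `v = β z₂ − (α z₁')^ℓ` under `θ₁`, `θ₂`. -/
theorem theta₂_v (z₂ z₁' : RM) :
    θ₂ (β z₂ - (α z₁') ^ ℓ) = θ z₂ - ((ψ (θ z₁')) ^ ℓ) ^ ℓ := by
  rw [map_sub, map_pow, D.h2, D.h4]

include D in
theorem theta₁_v (z₂ z₁' : RM) :
    θ₁ (β z₂ - (α z₁') ^ ℓ) = (ψ (θ z₂)) ^ ℓ - (θ z₁') ^ ℓ := by
  rw [map_sub, map_pow, D.h3, D.h1]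

include D hk1 hk2 in
/-- **The crossing-point coordinates** `u, v` (helper27 #1237 (d)).  `Z` is any subring of `R_M`
on which `θ` is still surjective (e.g. the image of the unramified level `K₀`, so that `u, v` are
fixed by inertia).  `Rb` is not a field (`hbot`). -/
theorem exists_uv [IsDedekindDomain Rb] (Z : Subring RM) (hZ : ∀ y : Rb, ∃ z ∈ Z, θ z = y)
    (hbot : 𝔫.map θ₁ ≠ ⊥) :
    ∃ z₁ ∈ Z, ∃ z₂ ∈ Z, ∃ z₁' ∈ Z, ∃ z₂' ∈ Z,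
      (α z₁ - (β z₂') ^ ℓ) ∈ RingHom.ker θ₂ ∧ (β z₂ - (α z₁') ^ ℓ) ∈ RingHom.ker θ₁ ∧
      θ₁ (α z₁ - (β z₂') ^ ℓ) ∈ 𝔫.map θ₁ ∧ θ₁ (α z₁ - (β z₂') ^ ℓ) ∉ (𝔫.map θ₁) ^ 2 ∧
      θ₂ (β z₂ - (α z₁') ^ ℓ) ∈ 𝔫.map θ₂ ∧ θ₂ (β z₂ - (α z₁') ^ ℓ) ∉ (𝔫.map θ₂) ^ 2 ∧
      (α z₁ - (β z₂') ^ ℓ) ∈ 𝔫 ∧ (β z₂ - (α z₁') ^ ℓ) ∈ 𝔫 := by
  have hmx := D.isMaximal_mx 𝔫 hk1
  have hmy := D.isMaximal_my 𝔫 hk2
  have hboty : 𝔫.map θ₂ ≠ ⊥ := by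
    intro h
    apply hbot
    rw [← D.map_psi_my 𝔫 hk1 hk2, h, Ideal.map_bot]
  obtain ⟨y₁, hy₁, hy₁2⟩ := Ideal.exists_mem_pow_notMem_pow_succ (𝔫.map θ₁) hbot hmx.ne_top 1
  obtain ⟨y₂, hy₂, hy₂2⟩ := Ideal.exists_mem_pow_notMem_pow_succ (𝔫.map θ₂) hboty hmy.ne_top 1
  rw [pow_one] at hy₁ hy₂
  obtain ⟨z₁, hz₁Z, hz₁⟩ := hZ y₁
  obtain ⟨z₂, hz₂Z, hz₂⟩ := hZ y₂
  obtain ⟨z₁', hz₁'Z, hz₁'⟩ := hZ (ψ y₂)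
  obtain ⟨z₂', hz₂'Z, hz₂'⟩ := hZ (ψ y₁)
  have hu2 : θ₂ (α z₁ - (β z₂') ^ ℓ) = 0 := by
    rw [D.theta₂_u, hz₁, hz₂', sub_self]
  have hv1 : θ₁ (β z₂ - (α z₁') ^ ℓ) = 0 := by
    rw [D.theta₁_v, hz₂, hz₁', sub_self]
  have hu1 : θ₁ (α z₁ - (β z₂') ^ ℓ) = y₁ - ((ψ (ψ y₁)) ^ ℓ) ^ ℓ := by
    rw [D.theta₁_u, hz₁, hz₂']
  have hv2 : θ₂ (β z₂ - (α z₁') ^ ℓ) = y₂ - ((ψ (ψ y₂)) ^ ℓ) ^ ℓ := by
    rw [D.theta₂_v, hz₂, hz₁']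
  have hc1 : ((ψ (ψ y₁)) ^ ℓ) ^ ℓ ∈ (𝔫.map θ₁) ^ 2 :=
    pow_pow_mem_sq (D.psi_psi_mem_mx 𝔫 hk1 hk2 hy₁) D.two_le
  have hc2 : ((ψ (ψ y₂)) ^ ℓ) ^ ℓ ∈ (𝔫.map θ₂) ^ 2 :=
    pow_pow_mem_sq (D.psi_psi_mem_my 𝔫 hk1 hk2 hy₂) D.two_le
  have hsq1 : (𝔫.map θ₁) ^ 2 ≤ 𝔫.map θ₁ := Ideal.pow_le_self two_ne_zero
  have hsq2 : (𝔫.map θ₂) ^ 2 ≤ 𝔫.map θ₂ := Ideal.pow_le_self two_ne_zero
  have hu1m : θ₁ (α z₁ - (β z₂') ^ ℓ) ∈ 𝔫.map θ₁ := by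
    rw [hu1]; exact Ideal.sub_mem _ hy₁ (hsq1 hc1)
  have hv2m : θ₂ (β z₂ - (α z₁') ^ ℓ) ∈ 𝔫.map θ₂ := by
    rw [hv2]; exact Ideal.sub_mem _ hy₂ (hsq2 hc2)
  refine ⟨z₁, hz₁Z, z₂, hz₂Z, z₁', hz₁'Z, z₂', hz₂'Z, hu2, hv1, hu1m, ?_, hv2m, ?_,
    (map_mem_map_iff θ₁ D.surj₁ 𝔫 hk1 _).1 hu1m, (map_mem_map_iff θ₂ D.surj₂ 𝔫 hk2 _).1 hv2m⟩
  · intro h
    rw [hu1] at h
    apply hy₁2
    have := Ideal.add_mem _ h hc1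
    simpa using this
  · intro h
    rw [hv2] at h
    apply hy₂2
    have := Ideal.add_mem _ h hc2
    simpa using this

end CrossingData

end Main

/-! ### Local generation of the maximal ideal -/

section Generation

variable {R Rb : Type*} [CommRing R] [CommRing Rb]
  (θ₁ θ₂ : R →+* Rb) (hs₁ : Function.Surjective θ₁) (hs₂ : Function.Surjective θ₂)
  (𝔫 : Ideal R) [h𝔫 : 𝔫.IsMaximal]

include hs₁ hs₂ in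
/-- **Crossing point: `𝔫 = (u, v, ϖ)` locally at `𝔫`** (helper27 #1237 (A2)).
`ϖ` generates `ker θ₁ ⊓ ker θ₂` (only `≤` is used). -/
theorem exists_mul_mem_span_uv [IsDedekindDomain Rb] (hk1 : RingHom.ker θ₁ ≤ 𝔫)
    {ϖ u v : R} (hϖ : RingHom.ker θ₁ ⊓ RingHom.ker θ₂ ≤ Ideal.span {ϖ})
    (hu : u ∈ 𝔫) (hu1 : θ₁ u ∉ (𝔫.map θ₁) ^ 2)
    (hv : v ∈ 𝔫) (hv1 : v ∈ RingHom.ker θ₁) (hv2 : θ₂ v ∉ (𝔫.map θ₂) ^ 2)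
    {m : R} (hm : m ∈ 𝔫) : ∃ s : R, s ∉ 𝔫 ∧ s * m ∈ Ideal.span {u, v, ϖ} := by
  obtain ⟨s, a, hs, hsa⟩ := exists_mul_sub_mem_ker θ₁ hs₁ 𝔫 hu1 hu hm
  have hm' : s * m - a * u ∈ 𝔫 := hk1 hsa
  obtain ⟨t, b, ht, htb⟩ := exists_mul_sub_mem_ker θ₂ hs₂ 𝔫 hv2 hv hm'
  have h1 : t * (s * m - a * u) - b * v ∈ RingHom.ker θ₁ :=
    Ideal.sub_mem _ (Ideal.mul_mem_left _ _ hsa) (Ideal.mul_mem_left _ _ hv1)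
  have h3 : t * (s * m - a * u) - b * v ∈ Ideal.span {ϖ} := hϖ ⟨h1, htb⟩
  obtain ⟨r, hr⟩ := Ideal.mem_span_singleton'.1 h3
  refine ⟨t * s, fun h => (h𝔫.isPrime.mem_or_mem h).elim ht hs, ?_⟩
  have he : t * s * m = (t * a) * u + b * v + r * ϖ := by rw [hr]; ring
  rw [he]
  have hsub : ∀ x ∈ ({u, v, ϖ} : Set R), x ∈ Ideal.span ({u, v, ϖ} : Set R) :=
    fun x hx => Ideal.subset_span hx
  exact Ideal.add_mem _ (Ideal.add_mem _ (Ideal.mul_mem_left _ _ (hsub u (by simp)))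
    (Ideal.mul_mem_left _ _ (hsub v (by simp)))) (Ideal.mul_mem_left _ _ (hsub ϖ (by simp)))

/-- `u v ∈ (ϖ)`. -/
theorem mul_mem_span {ϖ u v : R} (hϖ : RingHom.ker θ₁ ⊓ RingHom.ker θ₂ ≤ Ideal.span {ϖ})
    (hu2 : u ∈ RingHom.ker θ₂) (hv1 : v ∈ RingHom.ker θ₁) : u * v ∈ Ideal.span {ϖ} :=
  hϖ ⟨Ideal.mul_mem_left _ _ hv1, Ideal.mul_mem_right _ _ hu2⟩

include hs₁ in
/-- **Smooth point: `𝔫 = (z, ϖ)` locally at `𝔫`** when `𝔫` lies on the component `ker θ₁` only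
(`𝔮` = the ideal of the other component, e.g. `ker θ₂`). -/
theorem exists_mul_mem_span_z [IsDedekindDomain Rb] {𝔮 : Ideal R} (h𝔮 : ¬ 𝔮 ≤ 𝔫)
    {ϖ z : R} (hϖ : RingHom.ker θ₁ ⊓ 𝔮 ≤ Ideal.span {ϖ})
    (hz : z ∈ 𝔫) (hz1 : θ₁ z ∉ (𝔫.map θ₁) ^ 2)
    {m : R} (hm : m ∈ 𝔫) : ∃ s : R, s ∉ 𝔫 ∧ s * m ∈ Ideal.span {z, ϖ} := by
  obtain ⟨s, a, hs, hsa⟩ := exists_mul_sub_mem_ker θ₁ hs₁ 𝔫 hz1 hz hm
  obtain ⟨w, hw𝔮, hw𝔫⟩ := SetLike.not_le_iff_exists.1 h𝔮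
  have h3 : w * (s * m - a * z) ∈ Ideal.span {ϖ} :=
    hϖ ⟨Ideal.mul_mem_left _ _ hsa, Ideal.mul_mem_right _ _ hw𝔮⟩
  obtain ⟨r, hr⟩ := Ideal.mem_span_singleton'.1 h3
  refine ⟨w * s, fun h => (h𝔫.isPrime.mem_or_mem h).elim hw𝔫 hs, ?_⟩
  have he : w * s * m = (w * a) * z + r * ϖ := by rw [hr]; ring
  rw [he]
  exact Ideal.add_mem _ (Ideal.mul_mem_left _ _ (Ideal.subset_span (by simp)))
    (Ideal.mul_mem_left _ _ (Ideal.subset_span (by simp)))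

include hs₁ in
/-- A local generator `z` at a point of the component `ker θ₁` exists (if `Rb` is not a field). -/
theorem exists_z [IsDedekindDomain Rb] (hk1 : RingHom.ker θ₁ ≤ 𝔫) (hbot : 𝔫.map θ₁ ≠ ⊥) :
    ∃ z ∈ 𝔫, θ₁ z ∉ (𝔫.map θ₁) ^ 2 := by
  have hmx := isMaximal_map θ₁ hs₁ 𝔫 hk1
  obtain ⟨y, hy, hy2⟩ := Ideal.exists_mem_pow_notMem_pow_succ (𝔫.map θ₁) hbot hmx.ne_top 1
  rw [pow_one] at hy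
  obtain ⟨z, rfl⟩ := hs₁ y
  exact ⟨z, (map_mem_map_iff θ₁ hs₁ 𝔫 hk1 z).1 hy, hy2⟩

/-- A prime containing `ker θ₁ ⊓ ker θ₂` contains one of the two kernels. -/
theorem ker_le_or_ker_le (hle : RingHom.ker θ₁ ⊓ RingHom.ker θ₂ ≤ 𝔫) :
    RingHom.ker θ₁ ≤ 𝔫 ∨ RingHom.ker θ₂ ≤ 𝔫 :=
  (h𝔫.isPrime.inf_le).1 hle

end Generation

/-! ### The same statements in a localisation at `𝔫` -/

section Localised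

variable {R : Type*} [CommRing R] (𝔫 : Ideal R) [h𝔫 : 𝔫.IsPrime]
  (S : Type*) [CommRing S] [Algebra R S] [IsLocalization.AtPrime S 𝔫] [IsLocalRing S]

/-- If `T ⊆ 𝔫` generates `𝔫` locally at `𝔫`, its image generates the maximal ideal of `R_𝔫`. -/
theorem maximalIdeal_eq_span_image (T : Set R) (hT : T ⊆ 𝔫)
    (h : ∀ m ∈ 𝔫, ∃ s : R, s ∉ 𝔫 ∧ s * m ∈ Ideal.span T) :
    IsLocalRing.maximalIdeal S = Ideal.span (algebraMap R S '' T) := by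
  rw [← IsLocalization.AtPrime.map_eq_maximalIdeal 𝔫 S, ← Ideal.map_span]
  apply le_antisymm
  · rw [Ideal.map_le_iff_le_comap]
    intro m hm
    obtain ⟨s, hs, hsm⟩ := h m hm
    rw [Ideal.mem_comap]
    have hu : IsUnit (algebraMap R S s) :=
      IsLocalization.map_units S (⟨s, hs⟩ : 𝔫.primeCompl)
    have h1 : algebraMap R S (s * m) ∈ Ideal.map (algebraMap R S) (Ideal.span T) :=
      Ideal.mem_map_of_mem _ hsm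
    rw [map_mul] at h1
    exact (Ideal.unit_mul_mem_iff_mem _ hu).1 h1
  · exact Ideal.map_mono (Ideal.span_le.2 hT)

end Localised

/-! ### The packaged statements -/

section Package

variable {RM R Rb : Type*} [CommRing RM] [CommRing R] [CommRing Rb] [IsDedekindDomain Rb]
  {ℓ : ℕ} {α β : RM → R} {θ : RM →+* Rb} {θ₁ θ₂ : R →+* Rb} {ψ : Rb ≃+* Rb}
  (D : CrossingData ℓ α β θ θ₁ θ₂ ψ) (𝔫 : Ideal R) [h𝔫 : 𝔫.IsMaximal]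

include D in
/-- **Crossing point, packaged** (helper27 #1237 (d)+(A2)): at a maximal ideal `𝔫` containing both
`ker θ₁` and `ker θ₂` there are `u = α z₁ − (β z₂')^ℓ ∈ ker θ₂`, `v = β z₂ − (α z₁')^ℓ ∈ ker θ₁`
(`z`'s in `Z`) with `u ∉ ker θ₁`, `v ∉ ker θ₂`, `u v ∈ (ϖ)` and `𝔫 = (u, v, ϖ)` locally at `𝔫`. -/
theorem exists_crossing_coordinates (hk1 : RingHom.ker θ₁ ≤ 𝔫) (hk2 : RingHom.ker θ₂ ≤ 𝔫)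
    (Z : Subring RM) (hZ : ∀ y : Rb, ∃ z ∈ Z, θ z = y) (hbot : 𝔫.map θ₁ ≠ ⊥)
    {ϖ : R} (hϖ : RingHom.ker θ₁ ⊓ RingHom.ker θ₂ ≤ Ideal.span {ϖ}) :
    ∃ z₁ ∈ Z, ∃ z₂ ∈ Z, ∃ z₁' ∈ Z, ∃ z₂' ∈ Z, ∃ u v : R,
      u = α z₁ - (β z₂') ^ ℓ ∧ v = β z₂ - (α z₁') ^ ℓ ∧
      u ∈ 𝔫 ∧ v ∈ 𝔫 ∧ u ∈ RingHom.ker θ₂ ∧ v ∈ RingHom.ker θ₁ ∧
      u ∉ RingHom.ker θ₁ ∧ v ∉ RingHom.ker θ₂ ∧
      θ₁ u ∉ (𝔫.map θ₁) ^ 2 ∧ θ₂ v ∉ (𝔫.map θ₂) ^ 2 ∧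
      u * v ∈ Ideal.span {ϖ} ∧
      ∀ m ∈ 𝔫, ∃ s : R, s ∉ 𝔫 ∧ s * m ∈ Ideal.span {u, v, ϖ} := by
  obtain ⟨z₁, hz₁, z₂, hz₂, z₁', hz₁', z₂', hz₂', hu2, hv1, -, hu1, -, hv2, hu, hv⟩ :=
    D.exists_uv 𝔫 hk1 hk2 Z hZ hbot
  refine ⟨z₁, hz₁, z₂, hz₂, z₁', hz₁', z₂', hz₂', _, _, rfl, rfl, hu, hv, hu2, hv1, ?_, ?_,
    hu1, hv2, mul_mem_span θ₁ θ₂ hϖ hu2 hv1, fun m hm => ?_⟩
  · intro h
    rw [RingHom.mem_ker] at h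
    exact hu1 (h ▸ Ideal.zero_mem _)
  · intro h
    rw [RingHom.mem_ker] at h
    exact hv2 (h ▸ Ideal.zero_mem _)
  · exact exists_mul_mem_span_uv θ₁ θ₂ D.surj₁ D.surj₂ 𝔫 hk1 hϖ hu hu1 hv hv1 hv2 hm

include D in
/-- **Smooth point on the first component, packaged**: `𝔫 ⊇ ker θ₁`, `𝔫 ⊉ ker θ₂`. -/
theorem exists_smooth_coordinate₁ (hk1 : RingHom.ker θ₁ ≤ 𝔫) (hk2 : ¬ RingHom.ker θ₂ ≤ 𝔫)
    (hbot : 𝔫.map θ₁ ≠ ⊥) {ϖ : R} (hϖ : RingHom.ker θ₁ ⊓ RingHom.ker θ₂ ≤ Ideal.span {ϖ}) :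
    ∃ z ∈ 𝔫, z ∉ RingHom.ker θ₁ ∧ θ₁ z ∉ (𝔫.map θ₁) ^ 2 ∧
      ∀ m ∈ 𝔫, ∃ s : R, s ∉ 𝔫 ∧ s * m ∈ Ideal.span {z, ϖ} := by
  obtain ⟨z, hz, hz1⟩ := exists_z θ₁ D.surj₁ 𝔫 hk1 hbot
  refine ⟨z, hz, ?_, hz1, fun m hm => exists_mul_mem_span_z θ₁ D.surj₁ 𝔫 hk2 hϖ hz hz1 hm⟩
  intro h
  rw [RingHom.mem_ker] at h
  exact hz1 (h ▸ Ideal.zero_mem _)

include D in
/-- **Smooth point on the second component, packaged**: `𝔫 ⊇ ker θ₂`, `𝔫 ⊉ ker θ₁`. -/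
theorem exists_smooth_coordinate₂ (hk2 : RingHom.ker θ₂ ≤ 𝔫) (hk1 : ¬ RingHom.ker θ₁ ≤ 𝔫)
    (hbot : 𝔫.map θ₂ ≠ ⊥) {ϖ : R} (hϖ : RingHom.ker θ₁ ⊓ RingHom.ker θ₂ ≤ Ideal.span {ϖ}) :
    ∃ z ∈ 𝔫, z ∉ RingHom.ker θ₂ ∧ θ₂ z ∉ (𝔫.map θ₂) ^ 2 ∧
      ∀ m ∈ 𝔫, ∃ s : R, s ∉ 𝔫 ∧ s * m ∈ Ideal.span {z, ϖ} := by
  obtain ⟨z, hz, hz1⟩ := exists_z θ₂ D.surj₂ 𝔫 hk2 hbot
  have hϖ' : RingHom.ker θ₂ ⊓ RingHom.ker θ₁ ≤ Ideal.span {ϖ} := by rwa [inf_comm]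
  refine ⟨z, hz, ?_, hz1, fun m hm => exists_mul_mem_span_z θ₂ D.surj₂ 𝔫 hk1 hϖ' hz hz1 hm⟩
  intro h
  rw [RingHom.mem_ker] at h
  exact hz1 (h ▸ Ideal.zero_mem _)

omit [IsDedekindDomain Rb] in
/-- **Trichotomy** at a maximal ideal containing `ϖ` (if `(ϖ) = ker θ₁ ⊓ ker θ₂`). -/
theorem ker_le_or_of_mem {ϖ : R} (hϖ : RingHom.ker θ₁ ⊓ RingHom.ker θ₂ = Ideal.span {ϖ})
    (hmem : ϖ ∈ 𝔫) : RingHom.ker θ₁ ≤ 𝔫 ∨ RingHom.ker θ₂ ≤ 𝔫 :=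
  ker_le_or_ker_le θ₁ θ₂ 𝔫 (hϖ ▸ (Ideal.span_singleton_le_iff_mem _).2 hmem)

end Package

end Fermat.Agent.P3G.Crossing
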