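/-
P3-G, block (G-N), step (d): the ADAPTER from `LaurentSeries κ`-valued residue maps (the shape in
which block E / `TwoComponents` delivers them: `θ₁ (β x) = qExpand κ ℓ (θ x)` etc.) to the abstract
`Crossing.CrossingData` (helper13's interface of #1246).

Data: a perfect field `κ` of characteristic `ℓ`, `Λ := LaurentSeries κ`,
`Fr := coeffMap (frobenius κ ℓ) : Λ →+* Λ`, `φ := qExpand κ ℓ`, so that `x ^ ℓ = φ (Fr x)`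
(`Kronecker.pow_char_eq_qExpand`); a subring `Rbar ⊆ Λ` which is a Dedekind domain, not a field,
and `Fr`-stable in both directions (`Fr x ∈ Rbar ↔ x ∈ Rbar`); `θ : R₀ →+* Λ` with range `Rbar`;
`α β : R₀ → R` (plain FUNCTIONS: ring homs are accepted by coercion, and the
chart at infinity needs `β' x := G^n · β x`, which is not a ring hom); `θ₁ θ₂ : R →+* Λ` with values in `Rbar` and
`θ₁ ∘ α = θ`, `θ₁ ∘ β = φ ∘ θ`, `θ₂ ∘ β = θ`, `θ₂ ∘ α = φ ∘ θ`.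

Main results: `crossingData`, `exists_crossing_coordinates`, `exists_smooth_coordinate₁/₂`,
`frob_mem_mx_iff`, and the generic `(A2)`-form `exists_mul_sub_sub_mem_inf`.
-/
import Mathlib
import Fermat.Agent.P3G.Crossing
import Fermat.Agent.N4.Kronecker

set_option autoImplicit false

namespace Fermat.Agent.P3G.CrossingLaurent

open ModularCurve Fermat.Agent.P3G.Crossing

/-! ### Generic `(A2)` without a generator of `ker θ₁ ⊓ ker θ₂` -/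

section Generic

variable {R Rb : Type*} [CommRing R] [CommRing Rb] [IsDedekindDomain Rb]
  (θ₁ θ₂ : R →+* Rb) (hs₁ : Function.Surjective θ₁) (hs₂ : Function.Surjective θ₂)
  (𝔫 : Ideal R) [h𝔫 : 𝔫.IsMaximal]

include hs₁ hs₂ in
/-- **(A2)** in helper13's form: `s m − a u − b v ∈ ker θ₁ ⊓ ker θ₂` with `s ∉ 𝔫`. -/
theorem exists_mul_sub_sub_mem_inf (hk1 : RingHom.ker θ₁ ≤ 𝔫)
    {u v : R} (hu : u ∈ 𝔫) (hu1 : θ₁ u ∉ (𝔫.map θ₁) ^ 2)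
    (hv : v ∈ 𝔫) (hv1 : v ∈ RingHom.ker θ₁) (hv2 : θ₂ v ∉ (𝔫.map θ₂) ^ 2)
    {m : R} (hm : m ∈ 𝔫) :
    ∃ s a b : R, s ∉ 𝔫 ∧ s * m - a * u - b * v ∈ RingHom.ker θ₁ ⊓ RingHom.ker θ₂ := by
  obtain ⟨s, a, hs, hsa⟩ := exists_mul_sub_mem_ker θ₁ hs₁ 𝔫 hu1 hu hm
  have hm' : s * m - a * u ∈ 𝔫 := hk1 hsa
  obtain ⟨t, b, ht, htb⟩ := exists_mul_sub_mem_ker θ₂ hs₂ 𝔫 hv2 hv hm'
  have h1 : t * (s * m - a * u) - b * v ∈ RingHom.ker θ₁ :=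
    Ideal.sub_mem _ (Ideal.mul_mem_left _ _ hsa) (Ideal.mul_mem_left _ _ hv1)
  refine ⟨t * s, t * a, b, fun h => (h𝔫.isPrime.mem_or_mem h).elim ht hs, ?_⟩
  have he : t * s * m - t * a * u - b * v = t * (s * m - a * u) - b * v := by ring
  rw [he]
  exact ⟨h1, htb⟩

end Generic

/-! ### Coefficientwise Frobenius on Laurent series over a perfect field -/

section Frobenius

variable (κ : Type*) [Field κ] (ℓ : ℕ) [Fact ℓ.Prime] [CharP κ ℓ] [PerfectRing κ ℓ]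

/-- Coefficientwise Frobenius `Fr`. -/
noncomputable def Fr : LaurentSeries κ →+* LaurentSeries κ := coeffMap (frobenius κ ℓ)

/-- Coefficientwise inverse Frobenius. -/
noncomputable def FrInv : LaurentSeries κ →+* LaurentSeries κ :=
  coeffMap ((frobeniusEquiv κ ℓ).symm : κ →+* κ)

theorem Fr_FrInv (x : LaurentSeries κ) : Fr κ ℓ (FrInv κ ℓ x) = x := by
  ext k
  simp [Fr, FrInv, frobenius_apply_frobeniusEquiv_symm]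

theorem FrInv_Fr (x : LaurentSeries κ) : FrInv κ ℓ (Fr κ ℓ x) = x := by
  ext k
  simp [Fr, FrInv, frobeniusEquiv_symm_apply_frobenius]

/-- `f(q^ℓ) = (Fr⁻¹ f)^ℓ`. -/
theorem qExpand_eq_FrInv_pow (x : LaurentSeries κ) :
    qExpand κ ℓ x = (FrInv κ ℓ x) ^ ℓ := by
  rw [Fermat.Agent.N4.Kronecker.pow_char_eq_qExpand ℓ (FrInv κ ℓ x)]
  congr 1
  exact (Fr_FrInv κ ℓ x).symm

variable {κ ℓ}
variable (Rbar : Subring (LaurentSeries κ))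
  (hFr : ∀ x, Fr κ ℓ x ∈ Rbar ↔ x ∈ Rbar)

include hFr in
theorem FrInv_mem {x : LaurentSeries κ} (hx : x ∈ Rbar) : FrInv κ ℓ x ∈ Rbar :=
  (hFr _).1 (by rwa [Fr_FrInv])

/-- Inverse Frobenius as a ring automorphism of an `Fr`-stable subring. -/
noncomputable def psi : Rbar ≃+* Rbar :=
  RingEquiv.ofRingHom
    (((FrInv κ ℓ).comp Rbar.subtype).codRestrict Rbar fun x => FrInv_mem Rbar hFr x.2)
    (((Fr κ ℓ).comp Rbar.subtype).codRestrict Rbar fun x => (hFr _).2 x.2)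
    (by ext x; simp [FrInv_Fr])
    (by ext x; simp [Fr_FrInv])

@[simp] theorem coe_psi (x : Rbar) : ((psi Rbar hFr x : Rbar) : LaurentSeries κ) = FrInv κ ℓ x :=
  rfl

@[simp] theorem coe_psi_symm (x : Rbar) :
    (((psi Rbar hFr).symm x : Rbar) : LaurentSeries κ) = Fr κ ℓ x := rfl

end Frobenius

/-! ### The adapter -/

section Adapter

variable {κ : Type*} [Field κ] {ℓ : ℕ} [Fact ℓ.Prime] [CharP κ ℓ] [PerfectRing κ ℓ]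
  (Rbar : Subring (LaurentSeries κ)) (hFr : ∀ x, Fr κ ℓ x ∈ Rbar ↔ x ∈ Rbar)
  {R₀ R : Type*} [CommRing R₀] [CommRing R]
  (α β : R₀ → R) (θ : R₀ →+* LaurentSeries κ) (θ₁ θ₂ : R →+* LaurentSeries κ)
  (hθ : ∀ x, θ x ∈ Rbar) (hθ₁ : ∀ r, θ₁ r ∈ Rbar) (hθ₂ : ∀ r, θ₂ r ∈ Rbar)

/-- The hypotheses in `LaurentSeries`-valued form. -/
structure LaurentData : Prop where
  surj : ∀ y ∈ Rbar, ∃ x, θ x = y
  h1 : ∀ x, θ₁ (α x) = θ x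
  h2 : ∀ x, θ₂ (β x) = θ x
  h3 : ∀ x, θ₁ (β x) = qExpand κ ℓ (θ x)
  h4 : ∀ x, θ₂ (α x) = qExpand κ ℓ (θ x)

/-- `θ`, `θ₁`, `θ₂` with codomain `Rbar`. -/
noncomputable abbrev res {T : Type*} [CommRing T] (f : T →+* LaurentSeries κ)
    (hf : ∀ x, f x ∈ Rbar) : T →+* Rbar := f.codRestrict Rbar hf

theorem ker_res {T : Type*} [CommRing T] (f : T →+* LaurentSeries κ) (hf : ∀ x, f x ∈ Rbar) :
    RingHom.ker (res Rbar f hf) = RingHom.ker f := by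
  ext x
  simp [RingHom.mem_ker, Subtype.ext_iff]

variable {Rbar α β θ θ₁ θ₂}

include hFr in
/-- **The adapter**: `LaurentData` gives `Crossing.CrossingData` for the corestricted maps and
`ψ` = coefficientwise inverse Frobenius on `Rbar`. -/
theorem crossingData (D : LaurentData (ℓ := ℓ) Rbar α β θ θ₁ θ₂) :
    CrossingData ℓ α β (res Rbar θ hθ) (res Rbar θ₁ hθ₁) (res Rbar θ₂ hθ₂) (psi Rbar hFr) where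
  two_le := (Fact.out : ℓ.Prime).two_le
  surj := fun y => by
    obtain ⟨x, hx⟩ := D.surj y y.2
    exact ⟨x, Subtype.ext hx⟩
  h1 := fun x => Subtype.ext (D.h1 x)
  h2 := fun x => Subtype.ext (D.h2 x)
  h3 := fun x => Subtype.ext (by
    simp only [RingHom.codRestrict_apply, SubmonoidClass.coe_pow, coe_psi]
    rw [D.h3, qExpand_eq_FrInv_pow])
  h4 := fun x => Subtype.ext (by
    simp only [RingHom.codRestrict_apply, SubmonoidClass.coe_pow, coe_psi]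
    rw [D.h4, qExpand_eq_FrInv_pow])

variable [IsDedekindDomain Rbar] (hfield : ¬ IsField Rbar)
  (𝔫 : Ideal R) [h𝔫 : 𝔫.IsMaximal]

include hfield in
omit [Fact ℓ.Prime] [CharP κ ℓ] [PerfectRing κ ℓ] [IsDedekindDomain Rbar] in
/-- Images of maximal ideals in `Rbar` are nonzero (`Rbar` is not a field). -/
theorem map_ne_bot {f : R →+* Rbar} (hf : Function.Surjective f) (hk : RingHom.ker f ≤ 𝔫) :
    𝔫.map f ≠ ⊥ :=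
  haveI := isMaximal_map f hf 𝔫 hk
  Ring.ne_bot_of_isMaximal_of_not_isField inferInstance hfield

include hFr hfield hθ hθ₁ hθ₂ in
/-- **Crossing point** (`𝔫 ⊇ ker θ₁ + ker θ₂`) in `LaurentSeries`-valued form.
`Z` = a subring of `R₀` on which `θ` still surjects onto `Rbar` (inertia-fixed elements). -/
theorem exists_crossing_coordinates (D : LaurentData (ℓ := ℓ) Rbar α β θ θ₁ θ₂)
    (hk1 : RingHom.ker θ₁ ≤ 𝔫) (hk2 : RingHom.ker θ₂ ≤ 𝔫)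
    (Z : Subring R₀) (hZ : ∀ y ∈ Rbar, ∃ z ∈ Z, θ z = y)
    {ϖ : R} (hϖ : RingHom.ker θ₁ ⊓ RingHom.ker θ₂ ≤ Ideal.span {ϖ}) :
    ∃ z₁ ∈ Z, ∃ z₂ ∈ Z, ∃ z₁' ∈ Z, ∃ z₂' ∈ Z, ∃ u v : R,
      u = α z₁ - (β z₂') ^ ℓ ∧ v = β z₂ - (α z₁') ^ ℓ ∧
      u ∈ 𝔫 ∧ v ∈ 𝔫 ∧ θ₂ u = 0 ∧ θ₁ v = 0 ∧ θ₁ u ≠ 0 ∧ θ₂ v ≠ 0 ∧
      res Rbar θ₁ hθ₁ u ∉ (𝔫.map (res Rbar θ₁ hθ₁)) ^ 2 ∧
      res Rbar θ₂ hθ₂ v ∉ (𝔫.map (res Rbar θ₂ hθ₂)) ^ 2 ∧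
      u * v ∈ Ideal.span {ϖ} ∧
      (∀ m ∈ 𝔫, ∃ s : R, s ∉ 𝔫 ∧ s * m ∈ Ideal.span {u, v, ϖ}) ∧
      ∀ m ∈ 𝔫, ∃ s a b : R, s ∉ 𝔫 ∧
        s * m - a * u - b * v ∈ RingHom.ker θ₁ ⊓ RingHom.ker θ₂ := by
  have CD := crossingData hFr hθ hθ₁ hθ₂ D
  have hk1' : RingHom.ker (res Rbar θ₁ hθ₁) ≤ 𝔫 := by rwa [ker_res]
  have hk2' : RingHom.ker (res Rbar θ₂ hθ₂) ≤ 𝔫 := by rwa [ker_res]
  have hϖ' : RingHom.ker (res Rbar θ₁ hθ₁) ⊓ RingHom.ker (res Rbar θ₂ hθ₂) ≤ Ideal.span {ϖ} := by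
    rwa [ker_res, ker_res]
  have hZ' : ∀ y : Rbar, ∃ z ∈ Z, res Rbar θ hθ z = y := fun y => by
    obtain ⟨z, hz, hzy⟩ := hZ y y.2
    exact ⟨z, hz, Subtype.ext hzy⟩
  obtain ⟨z₁, hz₁, z₂, hz₂, z₁', hz₁', z₂', hz₂', u, v, hu, hv, hu𝔫, hv𝔫, hu2, hv1, hu1, hv2,
      hu1sq, hv2sq, huv, hgen⟩ :=
    Crossing.exists_crossing_coordinates CD 𝔫 hk1' hk2' Z hZ'
      (map_ne_bot hfield 𝔫 CD.surj₁ hk1') hϖ'
  rw [ker_res] at hu2 hv1 hu1 hv2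
  refine ⟨z₁, hz₁, z₂, hz₂, z₁', hz₁', z₂', hz₂', u, v, hu, hv, hu𝔫, hv𝔫, hu2, hv1, hu1, hv2,
    hu1sq, hv2sq, huv, hgen, fun m hm => ?_⟩
  obtain ⟨s, a, b, hs, hsab⟩ := exists_mul_sub_sub_mem_inf (res Rbar θ₁ hθ₁) (res Rbar θ₂ hθ₂)
    CD.surj₁ CD.surj₂ 𝔫 hk1' hu𝔫 hu1sq hv𝔫 (by rwa [ker_res]) hv2sq hm
  rw [ker_res, ker_res] at hsab
  exact ⟨s, a, b, hs, hsab⟩

include hFr hfield hθ hθ₁ hθ₂ in
/-- **Smooth point on the first component** (`𝔫 ⊇ ker θ₁`, `𝔫 ⊉ ker θ₂`). -/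
theorem exists_smooth_coordinate₁ (D : LaurentData (ℓ := ℓ) Rbar α β θ θ₁ θ₂)
    (hk1 : RingHom.ker θ₁ ≤ 𝔫) (hk2 : ¬ RingHom.ker θ₂ ≤ 𝔫)
    {ϖ : R} (hϖ : RingHom.ker θ₁ ⊓ RingHom.ker θ₂ ≤ Ideal.span {ϖ}) :
    ∃ z ∈ 𝔫, θ₁ z ≠ 0 ∧ res Rbar θ₁ hθ₁ z ∉ (𝔫.map (res Rbar θ₁ hθ₁)) ^ 2 ∧
      ∀ m ∈ 𝔫, ∃ s : R, s ∉ 𝔫 ∧ s * m ∈ Ideal.span {z, ϖ} := by
  have CD := crossingData hFr hθ hθ₁ hθ₂ D
  have hk1' : RingHom.ker (res Rbar θ₁ hθ₁) ≤ 𝔫 := by rwa [ker_res]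
  have hk2' : ¬ RingHom.ker (res Rbar θ₂ hθ₂) ≤ 𝔫 := by rwa [ker_res]
  have hϖ' : RingHom.ker (res Rbar θ₁ hθ₁) ⊓ RingHom.ker (res Rbar θ₂ hθ₂) ≤ Ideal.span {ϖ} := by
    rwa [ker_res, ker_res]
  obtain ⟨z, hz, hz1, hzsq, hgen⟩ := Crossing.exists_smooth_coordinate₁ CD 𝔫 hk1' hk2'
    (map_ne_bot hfield 𝔫 CD.surj₁ hk1') hϖ'
  rw [ker_res] at hz1
  exact ⟨z, hz, hz1, hzsq, hgen⟩

include hFr hfield hθ hθ₁ hθ₂ in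
/-- **Smooth point on the second component** (`𝔫 ⊇ ker θ₂`, `𝔫 ⊉ ker θ₁`). -/
theorem exists_smooth_coordinate₂ (D : LaurentData (ℓ := ℓ) Rbar α β θ θ₁ θ₂)
    (hk2 : RingHom.ker θ₂ ≤ 𝔫) (hk1 : ¬ RingHom.ker θ₁ ≤ 𝔫)
    {ϖ : R} (hϖ : RingHom.ker θ₁ ⊓ RingHom.ker θ₂ ≤ Ideal.span {ϖ}) :
    ∃ z ∈ 𝔫, θ₂ z ≠ 0 ∧ res Rbar θ₂ hθ₂ z ∉ (𝔫.map (res Rbar θ₂ hθ₂)) ^ 2 ∧
      ∀ m ∈ 𝔫, ∃ s : R, s ∉ 𝔫 ∧ s * m ∈ Ideal.span {z, ϖ} := by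
  have CD := crossingData hFr hθ hθ₁ hθ₂ D
  have hk2' : RingHom.ker (res Rbar θ₂ hθ₂) ≤ 𝔫 := by rwa [ker_res]
  have hk1' : ¬ RingHom.ker (res Rbar θ₁ hθ₁) ≤ 𝔫 := by rwa [ker_res]
  have hϖ' : RingHom.ker (res Rbar θ₁ hθ₁) ⊓ RingHom.ker (res Rbar θ₂ hθ₂) ≤ Ideal.span {ϖ} := by
    rwa [ker_res, ker_res]
  obtain ⟨z, hz, hz1, hzsq, hgen⟩ := Crossing.exists_smooth_coordinate₂ CD 𝔫 hk2' hk1'
    (map_ne_bot hfield 𝔫 CD.surj₂ hk2') hϖ'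
  rw [ker_res] at hz1
  exact ⟨z, hz, hz1, hzsq, hgen⟩

include hFr hθ hθ₁ hθ₂ in
/-- `𝔪ₓ = Fr(𝔪_y)`: for `y ∈ Rbar`, `y ∈ θ₁(𝔫) ↔ Fr⁻¹ y ∈ θ₂(𝔫)` (and symmetrically). -/
theorem mem_mx_iff (D : LaurentData (ℓ := ℓ) Rbar α β θ θ₁ θ₂)
    (hk1 : RingHom.ker θ₁ ≤ 𝔫) (hk2 : RingHom.ker θ₂ ≤ 𝔫) (y : Rbar) :
    (y ∈ 𝔫.map (res Rbar θ₁ hθ₁) ↔ psi Rbar hFr y ∈ 𝔫.map (res Rbar θ₂ hθ₂)) ∧
    (y ∈ 𝔫.map (res Rbar θ₂ hθ₂) ↔ psi Rbar hFr y ∈ 𝔫.map (res Rbar θ₁ hθ₁)) := by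
  have CD := crossingData hFr hθ hθ₁ hθ₂ D
  have hk1' : RingHom.ker (res Rbar θ₁ hθ₁) ≤ 𝔫 := by rwa [ker_res]
  have hk2' : RingHom.ker (res Rbar θ₂ hθ₂) ≤ 𝔫 := by rwa [ker_res]
  exact ⟨CD.mem_mx_iff 𝔫 hk1' hk2' y, CD.mem_my_iff 𝔫 hk1' hk2' y⟩

end Adapter

end Fermat.Agent.P3G.CrossingLaurent
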