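/-
P3-G, block (G-N): the inverse coefficientwise Frobenius `ψ` on the Dedekind fibre rings
`SigmaFin k N`, `SigmaInf k N` (`ChartFibre`: integral closures of `k[j̄]`, `k[j̄⁻¹]` in `FF k N`),
`k` a perfect field of characteristic `ℓ`:

* `coeffRingAut_mem_chartAlg_iff` : a coefficientwise automorphism preserves (both ways) the
  integral closure of `k[s]` for every `s` it fixes;
* `psiFin`, `psiInf : ↥Σ ≃+* ↥Σ`, `coe_psiFin : ↑↑(psiFin x) = FrInv k ℓ ↑↑x`;
* `qExpand_eq_psiFin_pow : qExpand k ℓ ↑↑x = (↑↑(psiFin x)) ^ ℓ`, i.e. `x(q^ℓ) = (ψ x)^ℓ` — this turns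
  block E's `θ₁ (β x) = qExpand κ ℓ (θ x)` into hypothesis `h3` of `Crossing.CrossingData` with
  `Rb := ↥(SigmaFin κ N)`;
* `not_isField_SigmaFin`, `not_isField_SigmaInf`;
* the `Subring (LaurentSeries k)` forms `RbarFin`, `RbarInf` with `hFr` for `CrossingLaurent`.
-/
import Mathlib
import Fermat.Agent.N4F.C.ChartFibre
import Fermat.Agent.N4F.C.CoeffAut
import Fermat.Agent.N4.FFAlgebraic
import Fermat.Agent.S28.GaussRing
import Fermat.Agent.P3G.CrossingLaurent

set_option autoImplicit false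

open Polynomial ModularCurve

namespace Fermat.Agent.P3G.SigmaFrob

open Fermat.Agent.N4.Chart Fermat.Agent.N4.Setting Fermat.Agent.N4.IntClosure
  Fermat.Agent.N4F.C.ChartFibre Fermat.Agent.N4F.C.CoeffAut Fermat.Agent.P3G.CrossingLaurent

/-! ### Semilinear automorphisms preserve charts -/

section Generic

variable {k F : Type*} [Field k] [Field F] [Algebra k F]

/-- A ring automorphism `Ψ` of `F`, semilinear over `τ : k ≃+* k` and fixing `s`, maps the integral
closure of `k[s]` into itself. -/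
theorem map_mem_chartAlg (Ψ : F ≃+* F) (τ : k ≃+* k)
    (hΨ : ∀ a, Ψ (algebraMap k F a) = algebraMap k F (τ a)) {s : F} (hs : Ψ s = s) {x : F}
    (hx : x ∈ chartAlg k F {s}) : Ψ x ∈ chartAlg k F {s} := by
  rw [mem_chartAlg_singleton_iff] at hx ⊢
  obtain ⟨p, hp, hpx⟩ := hx
  refine ⟨p.map (Polynomial.mapRingHom (τ : k →+* k)), hp.map _, ?_⟩
  rw [eval₂_map]
  have hcomp : ((aeval s : k[X] →ₐ[k] F) : k[X] →+* F).comp (Polynomial.mapRingHom (τ : k →+* k)) =
      (Ψ : F →+* F).comp ((aeval s : k[X] →ₐ[k] F) : k[X] →+* F) := by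
    refine Polynomial.ringHom_ext (fun a => ?_) ?_
    · simp [hΨ]
    · simp [hs]
  rw [hcomp]
  have h := Polynomial.hom_eval₂ p ((aeval s : k[X] →ₐ[k] F) : k[X] →+* F) (Ψ : F →+* F) x
  rw [hpx, map_zero] at h
  exact h.symm

/-- Both directions. -/
theorem map_mem_chartAlg_iff (Ψ : F ≃+* F) (τ : k ≃+* k)
    (hΨ : ∀ a, Ψ (algebraMap k F a) = algebraMap k F (τ a)) {s : F} (hs : Ψ s = s) {x : F} :
    Ψ x ∈ chartAlg k F {s} ↔ x ∈ chartAlg k F {s} := by
  refine ⟨fun h => ?_, map_mem_chartAlg Ψ τ hΨ hs⟩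
  have hΨ' : ∀ a, Ψ.symm (algebraMap k F a) = algebraMap k F (τ.symm a) := fun a => by
    rw [RingEquiv.symm_apply_eq, hΨ, RingEquiv.apply_symm_apply]
  have hs' : Ψ.symm s = s := by rw [RingEquiv.symm_apply_eq, hs]
  have := map_mem_chartAlg Ψ.symm τ.symm hΨ' hs' h
  rwa [RingEquiv.symm_apply_apply] at this

/-- If the integral closure of `k[s]` in `F` is a field, `s` is algebraic over `k`. -/
theorem isAlgebraic_of_isField_chartAlg {s : F} (hs0 : s ≠ 0)
    (hfield : IsField (chartAlg k F {s})) : IsAlgebraic k s := by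
  -- `s⁻¹` lies in the chart
  have hsmem : s ∈ chartAlg k F {s} := adjoin_le_chartAlg {s} (Algebra.subset_adjoin rfl)
  have hne : (⟨s, hsmem⟩ : chartAlg k F {s}) ≠ 0 := fun h => hs0 (congrArg Subtype.val h)
  obtain ⟨y, hy⟩ := hfield.mul_inv_cancel hne
  have hy' : s * (y : F) = 1 := congrArg Subtype.val hy
  have hyinv : (y : F) = s⁻¹ := eq_inv_of_mul_eq_one_right hy'
  -- `s⁻¹` is integral over `k[s] ∋ (s⁻¹)⁻¹`, hence lies in `k[s]`
  have hint : IsIntegral (Algebra.adjoin k ({s} : Set F)).toSubring s⁻¹ := by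
    rw [← hyinv]
    exact y.2
  have hmem : s⁻¹ ∈ (Algebra.adjoin k ({s} : Set F)).toSubring :=
    Fermat.Agent.S28.Gauss.mem_of_isIntegral_of_inv_mem _ hint
      (by rw [inv_inv]; exact Algebra.subset_adjoin rfl)
  -- `s⁻¹ = P(s)` gives an algebraic relation
  have hmem' : s⁻¹ ∈ Algebra.adjoin k ({s} : Set F) := hmem
  rw [Algebra.adjoin_singleton_eq_range_aeval] at hmem'
  obtain ⟨P, hP⟩ := hmem'
  refine ⟨X * P - 1, fun h0 => ?_, ?_⟩
  · have h1 := congrArg (Polynomial.eval 0) h0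
    simp at h1
  · have : (aeval s) P = s⁻¹ := hP
    simp [this, mul_inv_cancel₀ hs0]

end Generic

/-! ### The fibre rings -/

section Sigma

variable (k : Type) [Field k] (ℓ : ℕ) [Fact ℓ.Prime] [CharP k ℓ] [PerfectRing k ℓ] (N : ℕ)

/-- Coefficientwise inverse Frobenius on `FF k N`. -/
noncomputable def psiFF : FF k N ≃+* FF k N := coeffRingAut k N (frobeniusEquiv k ℓ).symm

theorem coe_psiFF (x : FF k N) : ((psiFF k ℓ N x : FF k N) : LaurentSeries k) = FrInv k ℓ x := rfl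

theorem coe_psiFF_symm (x : FF k N) :
    (((psiFF k ℓ N).symm x : FF k N) : LaurentSeries k) = Fr k ℓ x := rfl

theorem psiFF_algebraMap (a : k) :
    psiFF k ℓ N (algebraMap k (FF k N) a) = algebraMap k (FF k N) ((frobeniusEquiv k ℓ).symm a) :=
  coeffRingAut_algebraMap k N _ a

theorem psiFF_jF : psiFF k ℓ N (jF k N) = jF k N := by
  apply Subtype.ext
  rw [coe_psiFF]
  show coeffMap _ (jqModC k) = jqModC k
  exact coeffMap_jqModC _

theorem psiFF_jF_inv : psiFF k ℓ N (jF k N)⁻¹ = (jF k N)⁻¹ := by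
  rw [map_inv₀, psiFF_jF]

/-- `x(q^ℓ) = (ψ x)^ℓ`. -/
theorem qExpand_eq_psiFF_pow (x : FF k N) :
    qExpand k ℓ (x : LaurentSeries k) = ((psiFF k ℓ N x : FF k N) : LaurentSeries k) ^ ℓ := by
  rw [coe_psiFF]
  exact qExpand_eq_FrInv_pow k ℓ _

theorem psiFF_mem_SigmaFin_iff {x : FF k N} : psiFF k ℓ N x ∈ SigmaFin k N ↔ x ∈ SigmaFin k N :=
  map_mem_chartAlg_iff (psiFF k ℓ N) (frobeniusEquiv k ℓ).symm (psiFF_algebraMap k ℓ N)
    (psiFF_jF k ℓ N)

theorem psiFF_mem_SigmaInf_iff {x : FF k N} : psiFF k ℓ N x ∈ SigmaInf k N ↔ x ∈ SigmaInf k N :=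
  map_mem_chartAlg_iff (psiFF k ℓ N) (frobeniusEquiv k ℓ).symm (psiFF_algebraMap k ℓ N)
    (psiFF_jF_inv k ℓ N)

/-- Restriction of a ring automorphism to a subalgebra it preserves in both directions. -/
noncomputable def restrictEquiv {F : Type*} [Field F] [Algebra k F] (Ψ : F ≃+* F) (S : Subalgebra k F)
    (h : ∀ x, Ψ x ∈ S ↔ x ∈ S) : S ≃+* S :=
  RingEquiv.ofRingHom
    (((Ψ : F →+* F).comp S.toSubring.subtype).codRestrict S.toSubring fun x => (h _).2 x.2)
    (((Ψ.symm : F →+* F).comp S.toSubring.subtype).codRestrict S.toSubring fun x =>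
      (h _).1 (by
        show Ψ (Ψ.symm (x : F)) ∈ S
        rw [RingEquiv.apply_symm_apply]
        exact x.2))
    (by ext x; simp)
    (by ext x; simp)

@[simp] theorem coe_restrictEquiv {F : Type*} [Field F] [Algebra k F] (Ψ : F ≃+* F)
    (S : Subalgebra k F) (h : ∀ x, Ψ x ∈ S ↔ x ∈ S) (x : S) :
    ((restrictEquiv k Ψ S h x : S) : F) = Ψ x := rfl

@[simp] theorem coe_restrictEquiv_symm {F : Type*} [Field F] [Algebra k F] (Ψ : F ≃+* F)
    (S : Subalgebra k F) (h : ∀ x, Ψ x ∈ S ↔ x ∈ S) (x : S) :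
    (((restrictEquiv k Ψ S h).symm x : S) : F) = Ψ.symm x := rfl

/-- **Inverse Frobenius on `SigmaFin k N`.** -/
noncomputable def psiFin : SigmaFin k N ≃+* SigmaFin k N :=
  restrictEquiv k (psiFF k ℓ N) (SigmaFin k N) fun _ => psiFF_mem_SigmaFin_iff k ℓ N

/-- **Inverse Frobenius on `SigmaInf k N`.** -/
noncomputable def psiInf : SigmaInf k N ≃+* SigmaInf k N :=
  restrictEquiv k (psiFF k ℓ N) (SigmaInf k N) fun _ => psiFF_mem_SigmaInf_iff k ℓ N

theorem coe_psiFin (x : SigmaFin k N) :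
    (((psiFin k ℓ N x : SigmaFin k N) : FF k N) : LaurentSeries k) =
      FrInv k ℓ ((x : FF k N) : LaurentSeries k) := rfl

theorem coe_psiInf (x : SigmaInf k N) :
    (((psiInf k ℓ N x : SigmaInf k N) : FF k N) : LaurentSeries k) =
      FrInv k ℓ ((x : FF k N) : LaurentSeries k) := rfl

/-- `x(q^ℓ) = (ψ x)^ℓ` on `SigmaFin k N`. -/
theorem qExpand_eq_psiFin_pow (x : SigmaFin k N) :
    qExpand k ℓ ((x : FF k N) : LaurentSeries k) =
      (((psiFin k ℓ N x : SigmaFin k N) : FF k N) : LaurentSeries k) ^ ℓ :=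
  qExpand_eq_psiFF_pow k ℓ N x

/-- `x(q^ℓ) = (ψ x)^ℓ` on `SigmaInf k N`. -/
theorem qExpand_eq_psiInf_pow (x : SigmaInf k N) :
    qExpand k ℓ ((x : FF k N) : LaurentSeries k) =
      (((psiInf k ℓ N x : SigmaInf k N) : FF k N) : LaurentSeries k) ^ ℓ :=
  qExpand_eq_psiFF_pow k ℓ N x

/-- The form used for `h3`/`h4` of `Crossing.CrossingData` with `Rb := ↥(SigmaFin k N)`:
an element `y` of `SigmaFin k N` whose `q`-expansion is `x(q^ℓ)` equals `(ψ x)^ℓ`. -/
theorem eq_psiFin_pow_of_coe_eq {x y : SigmaFin k N}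
    (h : ((y : FF k N) : LaurentSeries k) = qExpand k ℓ ((x : FF k N) : LaurentSeries k)) :
    y = (psiFin k ℓ N x) ^ ℓ := by
  apply Subtype.ext
  apply Subtype.ext
  rw [h, qExpand_eq_psiFin_pow]
  rfl

theorem eq_psiInf_pow_of_coe_eq {x y : SigmaInf k N}
    (h : ((y : FF k N) : LaurentSeries k) = qExpand k ℓ ((x : FF k N) : LaurentSeries k)) :
    y = (psiInf k ℓ N x) ^ ℓ := by
  apply Subtype.ext
  apply Subtype.ext
  rw [h, qExpand_eq_psiInf_pow]
  rfl

end Sigma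

/-! ### The fibre rings are not fields -/

section NotField

variable (k : Type) [Field k] (N : ℕ)

theorem not_isField_SigmaFin : ¬ IsField (SigmaFin k N) := fun h =>
  Fermat.Agent.N4.FFAlgebraic.transcendental_jF k N
    (isAlgebraic_of_isField_chartAlg (jF_ne_zero k N) h)

theorem not_isField_SigmaInf : ¬ IsField (SigmaInf k N) := fun h =>
  Fermat.Agent.N4.FFAlgebraic.transcendental_jF_inv k N
    (isAlgebraic_of_isField_chartAlg (inv_ne_zero (jF_ne_zero k N)) h)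

end NotField

/-! ### The `Subring (LaurentSeries k)` forms, for `CrossingLaurent` -/

section Rbar

variable (k : Type) [Field k] (ℓ : ℕ) [Fact ℓ.Prime] [CharP k ℓ] [PerfectRing k ℓ] (N : ℕ)

/-- The embedding `FF k N → k((q))` as a ring homomorphism. -/
noncomputable def incl : FF k N →+* LaurentSeries k := (modularFunctionFieldFullC k N).val.toRingHom

theorem incl_injective : Function.Injective (incl k N) := Subtype.val_injective

/-- The image in `k((q))` of a subalgebra of `FF k N`. -/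
noncomputable def Rbar (S : Subalgebra k (FF k N)) : Subring (LaurentSeries k) :=
  S.toSubring.map (incl k N)

theorem mem_Rbar_iff (S : Subalgebra k (FF k N)) {y : LaurentSeries k} :
    y ∈ Rbar k N S ↔ ∃ x : FF k N, x ∈ S ∧ (x : LaurentSeries k) = y := by
  unfold Rbar
  rw [Subring.mem_map]
  rfl

theorem coe_mem_Rbar (S : Subalgebra k (FF k N)) {x : FF k N} (hx : x ∈ S) :
    (x : LaurentSeries k) ∈ Rbar k N S := (mem_Rbar_iff k N S).2 ⟨x, hx, rfl⟩

/-- `S ≃+* Rbar S`. -/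
noncomputable def equivRbar (S : Subalgebra k (FF k N)) : S ≃+* Rbar k N S :=
  S.toSubring.equivMapOfInjective (incl k N) (incl_injective k N)

theorem coe_equivRbar (S : Subalgebra k (FF k N)) (x : S) :
    ((equivRbar k N S x : Rbar k N S) : LaurentSeries k) = ((x : FF k N) : LaurentSeries k) := rfl

theorem isDedekindDomain_Rbar (S : Subalgebra k (FF k N)) [IsDedekindDomain S] :
    IsDedekindDomain (Rbar k N S) :=
  Fermat.Agent.N4F.C.ChartRange.isDedekindDomain_of_ringEquiv (equivRbar k N S)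

theorem not_isField_Rbar (S : Subalgebra k (FF k N)) (h : ¬ IsField S) : ¬ IsField (Rbar k N S) :=
  fun hf => h ((equivRbar k N S).toMulEquiv.isField hf)

/-- `Fr`-stability (both ways) of the image of a subalgebra preserved by `ψ`. -/
theorem Fr_mem_Rbar_iff (S : Subalgebra k (FF k N))
    (hS : ∀ x : FF k N, psiFF k ℓ N x ∈ S ↔ x ∈ S) (y : LaurentSeries k) :
    Fr k ℓ y ∈ Rbar k N S ↔ y ∈ Rbar k N S := by
  constructor
  · intro h
    obtain ⟨x, hx, hxy⟩ := (mem_Rbar_iff k N S).1 h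
    refine (mem_Rbar_iff k N S).2 ⟨psiFF k ℓ N x, (hS x).2 hx, ?_⟩
    rw [coe_psiFF, hxy, FrInv_Fr]
  · intro h
    obtain ⟨x, hx, rfl⟩ := (mem_Rbar_iff k N S).1 h
    refine (mem_Rbar_iff k N S).2 ⟨(psiFF k ℓ N).symm x, (hS _).1 ?_, rfl⟩
    rwa [RingEquiv.apply_symm_apply]

/-- `hFr` of `CrossingLaurent` for the image of `SigmaFin k N`. -/
theorem Fr_mem_RbarFin_iff (y : LaurentSeries k) :
    Fr k ℓ y ∈ Rbar k N (SigmaFin k N) ↔ y ∈ Rbar k N (SigmaFin k N) :=
  Fr_mem_Rbar_iff k ℓ N _ (fun _ => psiFF_mem_SigmaFin_iff k ℓ N) y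

/-- `hFr` of `CrossingLaurent` for the image of `SigmaInf k N`. -/
theorem Fr_mem_RbarInf_iff (y : LaurentSeries k) :
    Fr k ℓ y ∈ Rbar k N (SigmaInf k N) ↔ y ∈ Rbar k N (SigmaInf k N) :=
  Fr_mem_Rbar_iff k ℓ N _ (fun _ => psiFF_mem_SigmaInf_iff k ℓ N) y

theorem not_isField_RbarFin : ¬ IsField (Rbar k N (SigmaFin k N)) :=
  not_isField_Rbar k N _ (not_isField_SigmaFin k N)

theorem not_isField_RbarInf : ¬ IsField (Rbar k N (SigmaInf k N)) :=
  not_isField_Rbar k N _ (not_isField_SigmaInf k N)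

end Rbar

end Fermat.Agent.P3G.SigmaFrob
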