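/-
P3-G block (G-N1), concrete part 2 (helper15): **the components of the special fibre at level
`N ℓ`** — `(b)` of the blueprint.

Level `(K, O)` as in block E, `S : SecondVal K N ℓ O` the second Gauss valuation of `FF K (N ℓ)`
(`P3G/SecondValuation.lean`), `V₁ = gaussVS K (N ℓ) O` the first one.

* `gauss_alpha` : the mirror statement on the `α`-side: `V₁` has residue degree one over `α (G_N)`,
  `S.V` and `V₁` are the only valuation subrings of `FF K (N ℓ)` dominating `α (G_N)`, and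
  `S.V ∩ V₁` is integral over `α (G_N)`.
* charts: `Rfin K (N ℓ) O ≤ S.V`, `Rinf K (N ℓ) O ≤ S.V`;
* **components**: for `y` in the chart `R± (N ℓ)`, both reductions `θ_{Nℓ} y` and `S.ev y` lie in
  the image in `κ((q))` of the Dedekind ring `SigmaFin κ N` (resp. `SigmaInf κ N`) = integral
  closure of `κ[j̄^{±1}]` in `FF κ N`.
-/
import Mathlib
import Fermat.Agent.P3G.SecondValuation
import Fermat.Agent.P3G.SigmaFrob

set_option autoImplicit false
set_option linter.unusedSectionVars false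
set_option linter.style.haveILetI false

open ModularCurve AlgebraicCurve Polynomial
open Fermat.Agent.S28.Gauss Fermat.Agent.N4.Setting Fermat.Agent.N4.FibreEmbedding
open Fermat.Agent.N4.Chart Fermat.Agent.N4.Kronecker Fermat.Agent.N4.ModPolyDescent
open Fermat.Agent.N4F.E.DegreeLevelRaise Fermat.Agent.N4F.E.GaussDVR
open Fermat.Agent.N4F.E Fermat.Agent.N4F.E.BetaSide Fermat.Agent.P3G.SecondValuation
open Fermat.Agent.N4F.C.ChartFibre

noncomputable section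

namespace Fermat.Agent.P3G.FibreComp

/-! ### Generic: transfer of integrality along `X ↦ s` -/

section Generic

variable {O k W Ω : Type*} [CommRing O] [CommRing k] [CommRing W] [CommRing Ω] [Algebra k Ω]

/-- If `Θ ∘ g = (aeval s̄) ∘ (map res)` on `O[X]`, integrality over `g` is carried by `Θ` to
integrality along `X ↦ s̄`. -/
theorem isIntegralElem_map (res : O →+* k) (g : O[X] →+* W) (Θ : W →+* Ω) (sbar : Ω)
    (hcomp : Θ.comp g =
      ((aeval sbar : k[X] →ₐ[k] Ω) : k[X] →+* Ω).comp (mapRingHom res)) {x : W}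
    (hx : g.IsIntegralElem x) :
    ((aeval sbar : k[X] →ₐ[k] Ω) : k[X] →+* Ω).IsIntegralElem (Θ x) := by
  obtain ⟨p, hp, hpx⟩ := hx
  refine ⟨p.map (mapRingHom res), hp.map _, ?_⟩
  rw [eval₂_map, ← hcomp, ← hom_eval₂, hpx, map_zero]

/-- Integrality along `X ↦ s ^ n` implies integrality along `X ↦ s`. -/
theorem isIntegralElem_of_pow (s : Ω) (n : ℕ) {x : Ω}
    (hx : ((aeval (s ^ n) : k[X] →ₐ[k] Ω) : k[X] →+* Ω).IsIntegralElem x) :
    ((aeval s : k[X] →ₐ[k] Ω) : k[X] →+* Ω).IsIntegralElem x := by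
  obtain ⟨p, hp, hpx⟩ := hx
  have hcomp : ((aeval (s ^ n) : k[X] →ₐ[k] Ω) : k[X] →+* Ω) =
      ((aeval s : k[X] →ₐ[k] Ω) : k[X] →+* Ω).comp
        ((aeval (X ^ n : k[X]) : k[X] →ₐ[k] k[X]) : k[X] →+* k[X]) := by
    refine Polynomial.ringHom_ext (fun a => ?_) ?_
    · simp
    · simp
  refine ⟨p.map ((aeval (X ^ n : k[X]) : k[X] →ₐ[k] k[X]) : k[X] →+* k[X]), hp.map _, ?_⟩
  rw [eval₂_map, ← hcomp]
  exact hpx

/-- Integrality descends along an injective ring homomorphism. -/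
theorem isIntegralElem_of_injective {A B B' : Type*} [CommRing A] [CommRing B] [CommRing B']
    (f : A →+* B) (i : B →+* B') (hi : Function.Injective i) {x : B}
    (hx : (i.comp f).IsIntegralElem (i x)) : f.IsIntegralElem x := by
  obtain ⟨p, hp, hpx⟩ := hx
  refine ⟨p, hp, hi ?_⟩
  rw [map_zero, hom_eval₂]
  exact hpx

/-- Integrality ascends along a ring homomorphism. -/
theorem isIntegralElem_comp {A B B' : Type*} [CommRing A] [CommRing B] [CommRing B']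
    (f : A →+* B) (i : B →+* B') {x : B} (hx : f.IsIntegralElem x) :
    (i.comp f).IsIntegralElem (i x) := by
  obtain ⟨p, hp, hpx⟩ := hx
  refine ⟨p, hp, ?_⟩
  rw [← hom_eval₂, hpx, map_zero]

end Generic

/-! ### The `α`-side -/

section Alpha

variable (K : Type) [Field K] [CharZero K] (N : ℕ) [NeZero N] (ℓ : ℕ) [hℓ : Fact ℓ.Prime]
  (O : Subring K) [IsDiscreteValuationRing ↥O] [IsFractionRing ↥O K]

set_option quotPrecheck false in
local notation "κ" => IsLocalRing.ResidueField ↥O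

/-- `FF K (N ℓ)` as an algebra over `FF K N` through `α` (local instance of this section). -/
@[reducible] def algAlpha : Algebra (FF K N) (FF K (N * ℓ)) := algebraAlong (alphaF K N ℓ)

attribute [local instance] algAlpha

/-- shortcut instance -/
@[reducible] def algGLα : Algebra ↥(gaussSubalgebra K N O) (FF K (N * ℓ)) := inferInstance

attribute [local instance] algGLα

/-- The integral closure `C_α` of `α (G_N)` in `FF K (N ℓ)`. -/
abbrev Cα : Subalgebra ↥(gaussSubalgebra K N O) (FF K (N * ℓ)) :=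
  integralClosure ↥(gaussSubalgebra K N O) (FF K (N * ℓ))

/-- shortcut instance (the canonical algebra structure of a subalgebra) -/
@[reducible] def algGCα : Algebra ↥(gaussSubalgebra K N O) ↥(Cα K N ℓ O) :=
  Subalgebra.algebra (Cα K N ℓ O)

attribute [local instance] algGCα

/-- shortcut instance -/
@[reducible] def commRingCα : CommRing ↥(Cα K N ℓ O) := inferInstance

attribute [local instance] commRingCα

theorem finrank_alpha (ι : K →+* ℂ) (hℓN : ¬ ℓ ∣ N) :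
    Module.finrank (FF K N) (FF K (N * ℓ)) = ℓ + 1 :=
  finrank_of_algebraMap_eq_alphaF K N ℓ ι hℓN rfl

theorem finiteDimensional_alpha (ι : K →+* ℂ) (hℓN : ¬ ℓ ∣ N) :
    FiniteDimensional (FF K N) (FF K (N * ℓ)) :=
  Module.finite_of_finrank_pos (by rw [finrank_alpha K N ℓ ι hℓN]; exact Nat.succ_pos ℓ)

theorem Cα_le_gauss (y : Cα K N ℓ O) : (y : FF K (N * ℓ)) ∈ gaussSubalgebra K (N * ℓ) O :=
  mem_gauss_of_isIntegral K N ℓ O (alphaF K N ℓ) (fun _ hx => alphaF_mem K O N ℓ hx) y y.2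

/-- `C_α → G_{Nℓ}`. -/
def toGauss : Cα K N ℓ O →+* ↥(gaussSubalgebra K (N * ℓ) O) :=
  ((Cα K N ℓ O).val.toRingHom).codRestrict (gaussSubalgebra K (N * ℓ) O) (Cα_le_gauss K N ℓ O)

/-- The Gauss place `π₂ = θ_{Nℓ}|C_α`. -/
def pi₂ : Cα K N ℓ O →+* LaurentSeries κ := (theta K (N * ℓ) O).comp (toGauss K N ℓ O)

theorem pi₂_apply (y : Cα K N ℓ O) :
    pi₂ K N ℓ O y = theta K (N * ℓ) O ⟨(y : FF K (N * ℓ)), Cα_le_gauss K N ℓ O y⟩ := rfl

theorem pi₂_algebraMap (a : ↥(gaussSubalgebra K N O)) :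
    pi₂ K N ℓ O (algebraMap ↥(gaussSubalgebra K N O) (Cα K N ℓ O) a) = theta K N O a :=
  theta_alphaF K O N ℓ a

/-- `β j ∈ C_α`. -/
def y₀ : Cα K N ℓ O :=
  ⟨betaF K N ℓ (jF K N), isIntegral_beta_of_mem_Rfin K N ℓ O
    (subset_chartAlg _ (Set.mem_singleton _))⟩

theorem pi₂_y₀ : pi₂ K N ℓ O (y₀ K N ℓ O) = qExpand κ ℓ (jqModC κ) := by
  rw [pi₂_apply]
  exact (theta_betaF K O N ℓ ⟨jF K N, jF_mem_gaussSubalgebra K N O⟩).trans
    (congrArg _ (theta_jF K N O))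

variable (S : SecondVal K N ℓ O)

theorem Cα_le_V (y : Cα K N ℓ O) : (y : FF K (N * ℓ)) ∈ S.V := by
  have h1 : IsIntegral ↥S.V.toSubring (y : FF K (N * ℓ)) :=
    isIntegral_subring_of_isIntegral (R := ↥(gaussSubalgebra K N O)) S.V.toSubring
      (fun r => S.alpha_mem r r.2) y.2
  obtain ⟨z, hz⟩ := IsIntegrallyClosed.isIntegral_iff.mp
    (show IsIntegral ↥S.V (y : FF K (N * ℓ)) from h1)
  rw [← hz]
  exact z.2

/-- `C_α → S.V`. -/
def toV : Cα K N ℓ O →+* ↥S.V :=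
  ((Cα K N ℓ O).val.toRingHom).codRestrict S.V (Cα_le_V K N ℓ O S)

/-- The place `π₁ = ev|C_α`. -/
def pi₁ : Cα K N ℓ O →+* LaurentSeries κ := S.ev.comp (toV K N ℓ O S)

theorem pi₁_apply (y : Cα K N ℓ O) :
    pi₁ K N ℓ O S y = S.ev ⟨(y : FF K (N * ℓ)), Cα_le_V K N ℓ O S y⟩ := rfl

theorem pi₁_algebraMap (a : ↥(gaussSubalgebra K N O)) :
    pi₁ K N ℓ O S (algebraMap ↥(gaussSubalgebra K N O) (Cα K N ℓ O) a) =
      qExpand κ ℓ (theta K N O a) :=
  S.ev_alpha a a.2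

theorem pi₁_y₀ : pi₁ K N ℓ O S (y₀ K N ℓ O) = jqModC κ :=
  (S.ev_beta (jF K N) (jF_mem_gaussSubalgebra K N O)).trans (theta_jF K N O)

variable [CharP (IsLocalRing.ResidueField ↥O) ℓ]

theorem pi₁_y₀_pow :
    pi₁ K N ℓ O S (y₀ K N ℓ O) ^ ℓ = qExpand κ ℓ (theta K N O (t₀ K N O)) := by
  rw [pi₁_y₀, theta_t₀, jqModC_pow_eq]

/-- The two places of `C_α` are different: `(β j)^ℓ - α j` separates them. -/
theorem ker_ne : RingHom.ker (pi₂ K N ℓ O) ≠ RingHom.ker (pi₁ K N ℓ O S) := by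
  intro h
  have hz : y₀ K N ℓ O ^ ℓ - algebraMap ↥(gaussSubalgebra K N O) (Cα K N ℓ O) (t₀ K N O) ∈
      RingHom.ker (pi₁ K N ℓ O S) := by
    rw [RingHom.mem_ker, map_sub, map_pow, pi₁_y₀_pow, pi₁_algebraMap, sub_self]
  rw [← h, RingHom.mem_ker, map_sub, map_pow, pi₂_y₀, pi₂_algebraMap, theta_t₀, sub_eq_zero] at hz
  exact Integrality.jqModC_ne_pow κ ℓ _ hz

set_option maxHeartbeats 1600000 in
/-- **The `α`-side mirror**: `V₁ = gaussVS` has residue degree one over `α (G_N)`; `S.V` and `V₁`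
are the only valuation subrings dominating `α (G_N)`; `S.V ∩ V₁` is integral over `α (G_N)`. -/
theorem gauss_alpha (ι : K →+* ℂ) (hℓN : ¬ ℓ ∣ N) :
    (∀ y ∈ gaussVS K (N * ℓ) O, ∃ a : ↥(gaussSubalgebra K N O),
      y - alphaF K N ℓ (a : FF K N) ∈ (gaussVS K (N * ℓ) O).nonunits) ∧
    (∀ V' : ValuationSubring (FF K (N * ℓ)),
      (∀ x ∈ gaussSubalgebra K N O, alphaF K N ℓ x ∈ V') →
      (∀ ϖ : ↥O, Irreducible ϖ → algebraMap K (FF K (N * ℓ)) (ϖ : K) ∈ V'.nonunits) →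
      V' = S.V ∨ V' = gaussVS K (N * ℓ) O) ∧
    (∀ y : FF K (N * ℓ), y ∈ S.V → y ∈ gaussVS K (N * ℓ) O →
      IsIntegral ↥(gaussSubalgebra K N O) y) := by
  haveI := finiteDimensional_alpha K N ℓ ι hℓN
  haveI : Algebra.IsSeparable (FF K N) (FF K (N * ℓ)) := inferInstance
  haveI : CharP (LaurentSeries κ) ℓ := charP_laurent K ℓ O
  obtain ⟨V, ev₂, hC, hevC, hker, hdeg1, hram1, hneV, honly, hint⟩ :=
    exists_secondVal (finrank_alpha K N ℓ ι hℓN) (theta K N O)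
      (theta_maximalIdeal K N O) (qExpand κ ℓ) (pi₁ K N ℓ O S) (pi₁_algebraMap K N ℓ O S)
      (y₀ K N ℓ O) (t₀ K N O) (pi₁_y₀_pow K N ℓ O S) (theta_pow_ne K N ℓ O)
      (pi₂ K N ℓ O) (pi₂_algebraMap K N ℓ O) (ker_ne K N ℓ O S)
      S.V (fun c => Cα_le_V K N ℓ O S c)
      (fun c hc => (S.ev_eq_zero_iff ⟨_, Cα_le_V K N ℓ O S c⟩).1 hc)
  obtain ⟨ϖ₀, hϖ₀⟩ := IsDiscreteValuationRing.exists_irreducible ↥O
  have hmax : ∀ (V' : ValuationSubring (FF K (N * ℓ))),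
      (∀ ϖ : ↥O, Irreducible ϖ → algebraMap K (FF K (N * ℓ)) (ϖ : K) ∈ V'.nonunits) →
      (∀ x ∈ gaussSubalgebra K N O, alphaF K N ℓ x ∈ V') →
      ∀ a ∈ IsLocalRing.maximalIdeal ↥(gaussSubalgebra K N O),
        algebraMap ↥(gaussSubalgebra K N O) (FF K (N * ℓ)) a ∈ V'.nonunits := by
    intro V' hϖ' hα' a ha
    rw [maximalIdeal_eq_span K N O hϖ₀, Ideal.mem_span_singleton'] at ha
    obtain ⟨b, rfl⟩ := ha
    have e : algebraMap ↥(gaussSubalgebra K N O) (FF K (N * ℓ)) (b * unif K N O ϖ₀) =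
        algebraMap K (FF K (N * ℓ)) (ϖ₀ : K) * alphaF K N ℓ (b : FF K N) := by
      show alphaF K N ℓ ((b : FF K N) * algebraMap K (FF K N) (ϖ₀ : K)) = _
      rw [map_mul, AlgHom.commutes]
      exact mul_comm _ _
    rw [e]
    exact LocVS.mul_mem_nonunits V' (hϖ' ϖ₀ hϖ₀) (hα' b b.2)
  have hϖG : ∀ ϖ : ↥O, Irreducible ϖ →
      algebraMap K (FF K (N * ℓ)) (ϖ : K) ∈ (gaussVS K (N * ℓ) O).nonunits := by
    intro ϖ hϖ
    have h := (mem_nonunits_gaussVS_iff K (N * ℓ) O (unif K (N * ℓ) O ϖ).2).2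
      (theta_unif K (N * ℓ) O hϖ)
    exact h
  have hVG : gaussVS K (N * ℓ) O = V := by
    rcases honly (gaussVS K (N * ℓ) O) (fun a => alphaF_mem K O N ℓ a.2)
      (hmax _ hϖG (fun x hx => alphaF_mem K O N ℓ hx)) with h | h
    · exact absurd h.symm S.ne_gauss
    · exact h
  rw [hVG]
  refine ⟨?_, ?_, ?_⟩
  · intro y hy
    obtain ⟨a, ha⟩ := hdeg1 y hy
    exact ⟨a, ha⟩
  · intro V' hα' hϖ'
    exact honly V' (fun a => hα' a a.2) (hmax V' hϖ' hα')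
  · intro y hy1 hy2
    exact hint y hy1 hy2

end Alpha

/-! ### The components -/

section Full

variable (k : Type) [Field k] (N : ℕ) [NeZero N]

/-- An element of `FF k N ⊆ k((q))` integral along `X ↦ s̄` lies in the image of the chart
`chartAlg k (FF k N) {s̄}`. -/
theorem mem_Rbar_of_isIntegralElem (sb : FF k N) (w : LaurentSeries k)
    (hw : w ∈ modularFunctionFieldFullC k N)
    (hint : ((aeval ((sb : FF k N) : LaurentSeries k) : k[X] →ₐ[k] LaurentSeries k) :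
      k[X] →+* LaurentSeries k).IsIntegralElem w) :
    w ∈ SigmaFrob.Rbar k N (chartAlg k (FF k N) {sb}) := by
  rw [SigmaFrob.mem_Rbar_iff]
  refine ⟨⟨w, hw⟩, ?_, rfl⟩
  rw [Fermat.Agent.N4.IntClosure.mem_chartAlg_singleton_iff]
  apply isIntegralElem_of_injective _ (SigmaFrob.incl k N) (SigmaFrob.incl_injective k N)
  have hcomp : (SigmaFrob.incl k N).comp
      ((aeval sb : k[X] →ₐ[k] FF k N) : k[X] →+* FF k N) =
      ((aeval ((sb : FF k N) : LaurentSeries k) : k[X] →ₐ[k] LaurentSeries k) :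
        k[X] →+* LaurentSeries k) := by
    refine Polynomial.ringHom_ext (fun a => ?_) ?_
    · simp only [RingHom.comp_apply, RingHom.coe_coe, aeval_C]
      rfl
    · simp only [RingHom.comp_apply, RingHom.coe_coe, aeval_X]
      rfl
  rw [hcomp]
  exact hint

end Full

section Comp

variable (K : Type) [Field K] [CharZero K] (N : ℕ) [NeZero N] (ℓ : ℕ) [hℓ : Fact ℓ.Prime]
  (O : Subring K) [IsDiscreteValuationRing ↥O] [IsFractionRing ↥O K]
  [CharP (IsLocalRing.ResidueField ↥O) ℓ] (S : SecondVal K N ℓ O)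
  (ι : K →+* ℂ) (hℓN : ¬ ℓ ∣ N)
  (hA2 : ∀ x : ↥(gaussSubalgebra K N O),
    theta K N O x ∈ modularFunctionFieldFullC (IsLocalRing.ResidueField ↥O) N)

set_option quotPrecheck false in
local notation "κ" => IsLocalRing.ResidueField ↥O

include S ι hℓN hA2 in
/-- **(A2) at level `N ℓ`, with values in `FF κ N`**: the Gauss reduction of `G_{Nℓ}` takes values
in `FF κ N` (residue degree one over `α (G_N)`). -/
theorem theta_mem_full (y : FF K (N * ℓ)) (hy : y ∈ gaussSubalgebra K (N * ℓ) O) :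
    theta K (N * ℓ) O ⟨y, hy⟩ ∈ modularFunctionFieldFullC κ N := by
  obtain ⟨a, ha⟩ := (gauss_alpha K N ℓ O S ι hℓN).1 y hy
  have hαa := alphaF_mem K O N ℓ a.2
  have hsub : y - alphaF K N ℓ (a : FF K N) ∈ gaussSubalgebra K (N * ℓ) O :=
    (gaussSubalgebra K (N * ℓ) O).sub_mem hy hαa
  have h0 := (mem_nonunits_gaussVS_iff K (N * ℓ) O hsub).1 ha
  have e : (⟨y - alphaF K N ℓ (a : FF K N), hsub⟩ : gaussSubalgebra K (N * ℓ) O) =
      ⟨y, hy⟩ - ⟨alphaF K N ℓ (a : FF K N), hαa⟩ := rfl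
  rw [e, map_sub, sub_eq_zero] at h0
  rw [h0, theta_alphaF K O N ℓ a]
  exact hA2 a

include S hA2 in
/-- The second place takes values in `FF κ N`. -/
theorem ev_mem_full (y : ↥S.V) : S.ev y ∈ modularFunctionFieldFullC κ N := by
  obtain ⟨a, ha⟩ := S.deg_one y y.2
  have hβ := S.beta_mem a a.2
  have h0 := (S.ev_eq_zero_iff ⟨_, S.V.sub_mem y.2 hβ⟩).2 ha
  have e : (⟨(y : FF K (N * ℓ)) - betaF K N ℓ (a : FF K N), S.V.sub_mem y.2 hβ⟩ : ↥S.V) =
      y - ⟨betaF K N ℓ (a : FF K N), hβ⟩ := rfl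
  rw [e, map_sub, sub_eq_zero] at h0
  rw [h0, S.ev_beta a a.2]
  exact hA2 a

/-- `O[X] → G_{Nℓ}`, `X ↦ s`. -/
def toG (s : FF K (N * ℓ)) (hs : s ∈ gaussSubalgebra K (N * ℓ) O) :
    (↥O)[X] →+* ↥(gaussSubalgebra K (N * ℓ) O) :=
  ((aeval (⟨s, hs⟩ : gaussSubalgebra K (N * ℓ) O) :
    (↥O)[X] →ₐ[↥O] ↥(gaussSubalgebra K (N * ℓ) O)) : (↥O)[X] →+* _)

theorem val_comp_toG (s : FF K (N * ℓ)) (hs : s ∈ gaussSubalgebra K (N * ℓ) O) :
    ((gaussSubalgebra K (N * ℓ) O).val.toRingHom).comp (toG K N ℓ O s hs) =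
      ((aeval s : (↥O)[X] →ₐ[↥O] FF K (N * ℓ)) : (↥O)[X] →+* FF K (N * ℓ)) := by
  refine Polynomial.ringHom_ext (fun a => ?_) ?_
  · simp only [toG, RingHom.comp_apply, RingHom.coe_coe, aeval_C]
    rfl
  · simp only [toG, RingHom.comp_apply, RingHom.coe_coe, aeval_X]
    rfl

theorem theta_comp_toG (s : FF K (N * ℓ)) (hs : s ∈ gaussSubalgebra K (N * ℓ) O) :
    (theta K (N * ℓ) O).comp (toG K N ℓ O s hs) =
      ((aeval (theta K (N * ℓ) O ⟨s, hs⟩) : κ[X] →ₐ[κ] LaurentSeries κ) :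
        κ[X] →+* LaurentSeries κ).comp (mapRingHom (IsLocalRing.residue ↥O)) := by
  refine Polynomial.ringHom_ext (fun a => ?_) ?_
  · simp only [toG, RingHom.comp_apply, RingHom.coe_coe, aeval_C, coe_mapRingHom, map_C]
    rw [theta_algebraMap, algebraMap_laurentSeries_eq_single]
    rfl
  · simp only [toG, RingHom.comp_apply, RingHom.coe_coe, aeval_X, coe_mapRingHom, map_X]

include S ι hℓN hA2 in
/-- **Component 1**: the Gauss reduction of the chart `chartAlg O (FF K (N ℓ)) {s}` lies in the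
image of `chartAlg κ (FF κ N) {s̄}`. -/
theorem theta_mem_Rbar (s : FF K (N * ℓ)) (hs : s ∈ gaussSubalgebra K (N * ℓ) O) (sb : FF κ N)
    (hsb : ((sb : FF κ N) : LaurentSeries κ) = theta K (N * ℓ) O ⟨s, hs⟩) {y : FF K (N * ℓ)}
    (hy : y ∈ chartAlg ↥O (FF K (N * ℓ)) {s}) :
    theta K (N * ℓ) O ⟨y, chartAlg_le_gaussSubalgebra K (N * ℓ) O
      (Set.singleton_subset_iff.mpr hs) hy⟩ ∈
      SigmaFrob.Rbar κ N (chartAlg κ (FF κ N) {sb}) := by
  have hyG := chartAlg_le_gaussSubalgebra K (N * ℓ) O (Set.singleton_subset_iff.mpr hs) hy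
  apply mem_Rbar_of_isIntegralElem κ N sb _ (theta_mem_full K N ℓ O S ι hℓN hA2 y hyG)
  rw [hsb]
  apply isIntegralElem_map (IsLocalRing.residue ↥O) (toG K N ℓ O s hs) (theta K (N * ℓ) O) _
    (theta_comp_toG K N ℓ O s hs)
  apply isIntegralElem_of_injective _ ((gaussSubalgebra K (N * ℓ) O).val.toRingHom)
    Subtype.val_injective
  rw [val_comp_toG]
  exact (Fermat.Agent.N4.IntClosure.mem_chartAlg_singleton_iff s).1 hy

theorem const_mem (a : ↥O) : algebraMap K (FF K N) (a : K) ∈ gaussSubalgebra K N O :=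
  (gaussSubalgebra K N O).algebraMap_mem a

include S in
theorem const_mem_V (a : ↥O) : algebraMap K (FF K (N * ℓ)) (a : K) ∈ S.V := by
  have h := S.alpha_mem (algebraMap K (FF K N) (a : K)) (const_mem K N O a)
  rwa [AlgHom.commutes] at h

/-- The constants, inside `S.V`. -/
def cV : ↥O →+* ↥S.V :=
  ((algebraMap K (FF K (N * ℓ))).comp O.subtype).codRestrict S.V
    (fun a => const_mem_V K N ℓ O S a)

/-- `O[X] → S.V`, `X ↦ α s₀`. -/
def toV' (s₀ : FF K N) (hs₀ : s₀ ∈ gaussSubalgebra K N O) : (↥O)[X] →+* ↥S.V :=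
  eval₂RingHom (cV K N ℓ O S) ⟨alphaF K N ℓ s₀, S.alpha_mem s₀ hs₀⟩

theorem val_comp_toV' (s₀ : FF K N) (hs₀ : s₀ ∈ gaussSubalgebra K N O) :
    (S.V.subtype).comp (toV' K N ℓ O S s₀ hs₀) =
      ((aeval (alphaF K N ℓ s₀) : (↥O)[X] →ₐ[↥O] FF K (N * ℓ)) :
        (↥O)[X] →+* FF K (N * ℓ)) := by
  refine Polynomial.ringHom_ext (fun a => ?_) ?_
  · simp only [toV', RingHom.comp_apply, coe_eval₂RingHom, eval₂_C, RingHom.coe_coe, aeval_C]
    rfl
  · simp only [toV', RingHom.comp_apply, coe_eval₂RingHom, eval₂_X, RingHom.coe_coe, aeval_X]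
    rfl

theorem ev_comp_toV' (s₀ : FF K N) (hs₀ : s₀ ∈ gaussSubalgebra K N O) :
    S.ev.comp (toV' K N ℓ O S s₀ hs₀) =
      ((aeval (qExpand κ ℓ (theta K N O ⟨s₀, hs₀⟩)) : κ[X] →ₐ[κ] LaurentSeries κ) :
        κ[X] →+* LaurentSeries κ).comp (mapRingHom (IsLocalRing.residue ↥O)) := by
  refine Polynomial.ringHom_ext (fun a => ?_) ?_
  · simp only [toV', RingHom.comp_apply, coe_eval₂RingHom, eval₂_C, RingHom.coe_coe, aeval_C,
      coe_mapRingHom, map_C]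
    have h := S.ev_alpha (algebraMap K (FF K N) (a : K)) (const_mem K N O a)
    have e : (cV K N ℓ O S a : ↥S.V) = ⟨alphaF K N ℓ (algebraMap K (FF K N) (a : K)),
        S.alpha_mem _ (const_mem K N O a)⟩ := by
      apply Subtype.ext
      exact ((alphaF K N ℓ).commutes (a : K)).symm
    rw [e, h]
    have h2 : (⟨algebraMap K (FF K N) (a : K), const_mem K N O a⟩ :
        gaussSubalgebra K N O) = algebraMap ↥O (gaussSubalgebra K N O) a := rfl
    rw [h2, theta_algebraMap, qExpand_C, algebraMap_laurentSeries_eq_single]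
    rfl
  · simp only [toV', RingHom.comp_apply, coe_eval₂RingHom, eval₂_X, RingHom.coe_coe, aeval_X,
      coe_mapRingHom, map_X]
    exact S.ev_alpha s₀ hs₀

include S in
/-- The chart `chartAlg O (FF K (N ℓ)) {α s₀}` lies in `S.V`. -/
theorem chart_le_V (s₀ : FF K N) (hs₀ : s₀ ∈ gaussSubalgebra K N O) {y : FF K (N * ℓ)}
    (hy : y ∈ chartAlg ↥O (FF K (N * ℓ)) {alphaF K N ℓ s₀}) : y ∈ S.V := by
  obtain ⟨p, hp, hpy⟩ := (Fermat.Agent.N4.IntClosure.mem_chartAlg_singleton_iff _).1 hy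
  rw [← val_comp_toV' K N ℓ O S s₀ hs₀] at hpy
  have h1 : IsIntegral ↥S.V y := by
    refine ⟨p.map (toV' K N ℓ O S s₀ hs₀), hp.map _, ?_⟩
    rw [eval₂_map]
    exact hpy
  obtain ⟨z, hz⟩ := IsIntegrallyClosed.isIntegral_iff.mp h1
  rw [← hz]
  exact z.2

include S hA2 in
/-- **Component 2**: the second place of the chart `chartAlg O (FF K (N ℓ)) {α s₀}` lies in the
image of `chartAlg κ (FF κ N) {s̄₀}` (when `s̄₀(q^ℓ) = s̄₀^ℓ`). -/
theorem ev_mem_Rbar (s₀ : FF K N) (hs₀ : s₀ ∈ gaussSubalgebra K N O) (sb : FF κ N)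
    (hsb : ((sb : FF κ N) : LaurentSeries κ) = theta K N O ⟨s₀, hs₀⟩)
    (hpow : qExpand κ ℓ (theta K N O ⟨s₀, hs₀⟩) = theta K N O ⟨s₀, hs₀⟩ ^ ℓ)
    {y : FF K (N * ℓ)} (hy : y ∈ chartAlg ↥O (FF K (N * ℓ)) {alphaF K N ℓ s₀}) :
    S.ev ⟨y, chart_le_V K N ℓ O S s₀ hs₀ hy⟩ ∈
      SigmaFrob.Rbar κ N (chartAlg κ (FF κ N) {sb}) := by
  apply mem_Rbar_of_isIntegralElem κ N sb _ (ev_mem_full K N ℓ O S hA2 _)
  rw [hsb]
  apply isIntegralElem_of_pow _ ℓ
  rw [← hpow]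
  apply isIntegralElem_map (IsLocalRing.residue ↥O) (toV' K N ℓ O S s₀ hs₀) S.ev _
    (ev_comp_toV' K N ℓ O S s₀ hs₀)
  apply isIntegralElem_of_injective _ (S.V.subtype) Subtype.val_injective
  rw [val_comp_toV']
  exact (Fermat.Agent.N4.IntClosure.mem_chartAlg_singleton_iff _).1 hy

/-! ### The four concrete cases: both charts `R±(K; N ℓ)`, both components -/

include S in
/-- `Rfin K (N ℓ) O ⊆ S.V`. -/
theorem Rfin_le_V {y : FF K (N * ℓ)} (hy : y ∈ Rfin K (N * ℓ) O) : y ∈ S.V := by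
  refine chart_le_V K N ℓ O S (jF K N) (jF_mem_gaussSubalgebra K N O) ?_
  rw [alphaF_jF]
  exact hy

include S in
/-- `Rinf K (N ℓ) O ⊆ S.V`. -/
theorem Rinf_le_V {y : FF K (N * ℓ)} (hy : y ∈ Rinf K (N * ℓ) O) : y ∈ S.V := by
  refine chart_le_V K N ℓ O S (jF K N)⁻¹ (jF_inv_mem_gaussSubalgebra K N O) ?_
  rw [map_inv₀, alphaF_jF]
  exact hy

include S ι hℓN hA2 in
/-- **Component 1, finite chart**: `θ_{Nℓ}(Rfin K (N ℓ) O) ⊆ SigmaFin κ N`. -/
theorem theta_mem_RbarFin {y : FF K (N * ℓ)} (hy : y ∈ Rfin K (N * ℓ) O)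
    (hyG : y ∈ gaussSubalgebra K (N * ℓ) O) :
    theta K (N * ℓ) O ⟨y, hyG⟩ ∈ SigmaFrob.Rbar κ N (SigmaFin κ N) :=
  theta_mem_Rbar K N ℓ O S ι hℓN hA2 (jF K (N * ℓ)) (jF_mem_gaussSubalgebra K (N * ℓ) O)
    (jF κ N) (by rw [theta_jF]; rfl) hy

include S ι hℓN hA2 in
/-- **Component 1, chart at infinity**: `θ_{Nℓ}(Rinf K (N ℓ) O) ⊆ SigmaInf κ N`. -/
theorem theta_mem_RbarInf {y : FF K (N * ℓ)} (hy : y ∈ Rinf K (N * ℓ) O)
    (hyG : y ∈ gaussSubalgebra K (N * ℓ) O) :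
    theta K (N * ℓ) O ⟨y, hyG⟩ ∈ SigmaFrob.Rbar κ N (SigmaInf κ N) :=
  theta_mem_Rbar K N ℓ O S ι hℓN hA2 (jF K (N * ℓ))⁻¹ (jF_inv_mem_gaussSubalgebra K (N * ℓ) O)
    (jF κ N)⁻¹ (by rw [theta_jF_inv, IntermediateField.coe_inv]; rfl) hy

include S hA2 in
/-- **Component 2, finite chart**: `S.ev (Rfin K (N ℓ) O) ⊆ SigmaFin κ N`. -/
theorem ev_mem_RbarFin {y : FF K (N * ℓ)} (hy : y ∈ Rfin K (N * ℓ) O) (hyV : y ∈ S.V) :
    S.ev ⟨y, hyV⟩ ∈ SigmaFrob.Rbar κ N (SigmaFin κ N) := by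
  have hy' : y ∈ chartAlg ↥O (FF K (N * ℓ)) {alphaF K N ℓ (jF K N)} := by
    rw [alphaF_jF]
    exact hy
  exact ev_mem_Rbar K N ℓ O S hA2 (jF K N) (jF_mem_gaussSubalgebra K N O) (jF κ N)
    (by rw [theta_jF]; rfl) (by rw [theta_jF, jqModC_pow_eq]) hy'

include S hA2 in
/-- **Component 2, chart at infinity**: `S.ev (Rinf K (N ℓ) O) ⊆ SigmaInf κ N`. -/
theorem ev_mem_RbarInf {y : FF K (N * ℓ)} (hy : y ∈ Rinf K (N * ℓ) O) (hyV : y ∈ S.V) :
    S.ev ⟨y, hyV⟩ ∈ SigmaFrob.Rbar κ N (SigmaInf κ N) := by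
  have hy' : y ∈ chartAlg ↥O (FF K (N * ℓ)) {alphaF K N ℓ (jF K N)⁻¹} := by
    rw [map_inv₀, alphaF_jF]
    exact hy
  exact ev_mem_Rbar K N ℓ O S hA2 (jF K N)⁻¹ (jF_inv_mem_gaussSubalgebra K N O) (jF κ N)⁻¹
    (by rw [theta_jF_inv, IntermediateField.coe_inv]; rfl)
    (by rw [theta_jF_inv, map_inv₀, inv_pow, jqModC_pow_eq]) hy'

end Comp

end Fermat.Agent.P3G.FibreComp
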