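/-
P3-G (helper15): **bridge between the two twin structures** `FibreTwo.SecondVal` (file
`P3G/FibreTwo.lean`, used by `P3G/GammaV2.lean`) and `SecondValuation.SecondVal` (file
`P3G/SecondValuation.lean`, used by `P3G/FibreComp.lean`). The two structures have identical fields;
`toTwo`/`ofTwo` copy them, and `V`, `ev` are preserved definitionally.

The exports of `P3G/FibreComp.lean` are restated for `FibreTwo.SecondVal`.
-/
import Mathlib
import Fermat.Agent.P3G.FibreTwo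
import Fermat.Agent.P3G.FibreComp

set_option autoImplicit false
set_option linter.unusedSectionVars false

open ModularCurve AlgebraicCurve Polynomial
open Fermat.Agent.S28.Gauss Fermat.Agent.N4.Setting Fermat.Agent.N4.FibreEmbedding
open Fermat.Agent.N4.Chart
open Fermat.Agent.N4F.E.DegreeLevelRaise Fermat.Agent.N4F.E.GaussDVR
open Fermat.Agent.N4F.C.ChartFibre

noncomputable section

namespace Fermat.Agent.P3G.SecondValBridge

variable {K : Type} [Field K] [CharZero K] {N : ℕ} [NeZero N] {ℓ : ℕ} [hℓ : Fact ℓ.Prime]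
  {O : Subring K} [IsDiscreteValuationRing ↥O] [IsFractionRing ↥O K]

/-- `SecondValuation.SecondVal → FibreTwo.SecondVal`. -/
def toTwo (S : SecondValuation.SecondVal K N ℓ O) : FibreTwo.SecondVal K N ℓ O where
  V := S.V
  ev := S.ev
  beta_mem := S.beta_mem
  alpha_mem := S.alpha_mem
  ev_beta := S.ev_beta
  ev_alpha := S.ev_alpha
  ev_eq_zero_iff := S.ev_eq_zero_iff
  deg_one := S.deg_one
  ram_one := S.ram_one
  ne_gauss := S.ne_gauss
  only_two := S.only_two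
  isIntegral_of_mem := S.isIntegral_of_mem

/-- `FibreTwo.SecondVal → SecondValuation.SecondVal`. -/
def ofTwo (S : FibreTwo.SecondVal K N ℓ O) : SecondValuation.SecondVal K N ℓ O where
  V := S.V
  ev := S.ev
  beta_mem := S.beta_mem
  alpha_mem := S.alpha_mem
  ev_beta := S.ev_beta
  ev_alpha := S.ev_alpha
  ev_eq_zero_iff := S.ev_eq_zero_iff
  deg_one := S.deg_one
  ram_one := S.ram_one
  ne_gauss := S.ne_gauss
  only_two := S.only_two
  isIntegral_of_mem := S.isIntegral_of_mem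

@[simp] theorem toTwo_V (S : SecondValuation.SecondVal K N ℓ O) : (toTwo S).V = S.V := rfl
@[simp] theorem toTwo_ev (S : SecondValuation.SecondVal K N ℓ O) : (toTwo S).ev = S.ev := rfl
@[simp] theorem ofTwo_V (S : FibreTwo.SecondVal K N ℓ O) : (ofTwo S).V = S.V := rfl
@[simp] theorem ofTwo_ev (S : FibreTwo.SecondVal K N ℓ O) : (ofTwo S).ev = S.ev := rfl
@[simp] theorem toTwo_ofTwo (S : FibreTwo.SecondVal K N ℓ O) : toTwo (ofTwo S) = S := rfl
@[simp] theorem ofTwo_toTwo (S : SecondValuation.SecondVal K N ℓ O) : ofTwo (toTwo S) = S := rfl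

/-! ### The exports of `FibreComp` for `FibreTwo.SecondVal` -/

section Comp

variable (K N ℓ O)
variable [CharP (IsLocalRing.ResidueField ↥O) ℓ] (S : FibreTwo.SecondVal K N ℓ O)
  (ι : K →+* ℂ) (hℓN : ¬ ℓ ∣ N)
  (hA2 : ∀ x : ↥(gaussSubalgebra K N O),
    theta K N O x ∈ modularFunctionFieldFullC (IsLocalRing.ResidueField ↥O) N)

set_option quotPrecheck false in
local notation "κ" => IsLocalRing.ResidueField ↥O

include S in
theorem Rfin_le_V {y : FF K (N * ℓ)} (hy : y ∈ Rfin K (N * ℓ) O) : y ∈ S.V :=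
  FibreComp.Rfin_le_V K N ℓ O (ofTwo S) hy

include S in
theorem Rinf_le_V {y : FF K (N * ℓ)} (hy : y ∈ Rinf K (N * ℓ) O) : y ∈ S.V :=
  FibreComp.Rinf_le_V K N ℓ O (ofTwo S) hy

include S ι hℓN hA2 in
theorem theta_mem_full (y : FF K (N * ℓ)) (hy : y ∈ gaussSubalgebra K (N * ℓ) O) :
    theta K (N * ℓ) O ⟨y, hy⟩ ∈ modularFunctionFieldFullC κ N :=
  FibreComp.theta_mem_full K N ℓ O (ofTwo S) ι hℓN hA2 y hy

include hA2 in
theorem ev_mem_full (y : ↥S.V) : S.ev y ∈ modularFunctionFieldFullC κ N :=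
  FibreComp.ev_mem_full K N ℓ O (ofTwo S) hA2 y

include S ι hℓN hA2 in
theorem theta_mem_RbarFin {y : FF K (N * ℓ)} (hy : y ∈ Rfin K (N * ℓ) O)
    (hyG : y ∈ gaussSubalgebra K (N * ℓ) O) :
    theta K (N * ℓ) O ⟨y, hyG⟩ ∈ SigmaFrob.Rbar κ N (SigmaFin κ N) :=
  FibreComp.theta_mem_RbarFin K N ℓ O (ofTwo S) ι hℓN hA2 hy hyG

include S ι hℓN hA2 in
theorem theta_mem_RbarInf {y : FF K (N * ℓ)} (hy : y ∈ Rinf K (N * ℓ) O)
    (hyG : y ∈ gaussSubalgebra K (N * ℓ) O) :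
    theta K (N * ℓ) O ⟨y, hyG⟩ ∈ SigmaFrob.Rbar κ N (SigmaInf κ N) :=
  FibreComp.theta_mem_RbarInf K N ℓ O (ofTwo S) ι hℓN hA2 hy hyG

include hA2 in
theorem ev_mem_RbarFin {y : FF K (N * ℓ)} (hy : y ∈ Rfin K (N * ℓ) O) (hyV : y ∈ S.V) :
    S.ev ⟨y, hyV⟩ ∈ SigmaFrob.Rbar κ N (SigmaFin κ N) :=
  FibreComp.ev_mem_RbarFin K N ℓ O (ofTwo S) hA2 hy hyV

include hA2 in
theorem ev_mem_RbarInf {y : FF K (N * ℓ)} (hy : y ∈ Rinf K (N * ℓ) O) (hyV : y ∈ S.V) :
    S.ev ⟨y, hyV⟩ ∈ SigmaFrob.Rbar κ N (SigmaInf κ N) :=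
  FibreComp.ev_mem_RbarInf K N ℓ O (ofTwo S) hA2 hy hyV

include ι hℓN in
/-- The `α`-side mirror: `f (V₁ | α) = 1`, only `S.V` and `V₁` dominate `α (G_N)`. -/
theorem gauss_alpha :
    (∀ y ∈ gaussVS K (N * ℓ) O, ∃ a : ↥(gaussSubalgebra K N O),
        y - alphaF K N ℓ (a : FF K N) ∈ (gaussVS K (N * ℓ) O).nonunits) ∧
      (∀ V' : ValuationSubring (FF K (N * ℓ)),
        (∀ x ∈ gaussSubalgebra K N O, alphaF K N ℓ x ∈ V') →
        (∀ ϖ : ↥O, Irreducible ϖ → algebraMap K (FF K (N * ℓ)) (ϖ : K) ∈ V'.nonunits) →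
        V' = S.V ∨ V' = gaussVS K (N * ℓ) O) :=
  ⟨(FibreComp.gauss_alpha K N ℓ O (ofTwo S) ι hℓN).1,
    (FibreComp.gauss_alpha K N ℓ O (ofTwo S) ι hℓN).2.1⟩

end Comp

end Fermat.Agent.P3G.SecondValBridge
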