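/-
P3-G (helper15): **one `V₂`** — identification of helper12's second valuation subring
`FibreSat.V₂` (localisation of `C_α` at the kernel of `pi1`) with the second Gauss valuation
`S.V` of `FibreTwo.SecondVal` (the type used by `P3G/GammaV2.lean`), and the exports of
`P3G/FibreSat.lean` restated in `S`-language.
-/
import Mathlib
import Fermat.Agent.P3G.FibreSat
import Fermat.Agent.P3G.SecondValBridge

set_option autoImplicit false
set_option linter.unusedSectionVars false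
set_option linter.style.haveILetI false

open Polynomial IsLocalRing

open ModularCurve Fermat.Agent.S28.Gauss Fermat.Agent.N4.Setting Fermat.Agent.N4.FibreEmbedding
open Fermat.Agent.N4F.E.DegreeLevelRaise Fermat.Agent.N4F.E.GaussDVR AlgebraicCurve
open Fermat.Agent.N4.Chart Fermat.Agent.N4F.E Fermat.Agent.N4F.E.AlphaSide
open Fermat.Agent.P3G.Cover.Lift Fermat.Agent.P3G.Cover.OfValuations

noncomputable section

namespace Fermat.Agent.P3G.FibreIdent

variable (K : Type) [Field K] [CharZero K] (N : ℕ) [NeZero N] (ℓ : ℕ) [Fact ℓ.Prime]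
  (O : Subring K) [IsDiscreteValuationRing ↥O] [IsFractionRing ↥O K]

set_option quotPrecheck false in
local notation "κ" => IsLocalRing.ResidueField ↥O

attribute [local instance] AlphaSide.algFL AlphaSide.algGL AlphaSide.isScalarTower_GFL

set_option synthInstance.maxHeartbeats 400000

/-- The `β`-side output `BetaOut` of block E, from a `SecondVal`. -/
theorem betaOut_of_secondVal (S : FibreTwo.SecondVal K N ℓ O) :
    BetaOut K N ℓ O S.V.toSubring S.ev where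
  closed := by
    intro y hy
    have h1 : IsIntegral ↥S.V y := hy
    obtain ⟨z, hz⟩ := IsIntegrallyClosed.isIntegral_iff.mp h1
    rw [← hz]
    exact z.2
  beta := fun a => ⟨S.beta_mem a a.2, S.ev_beta a a.2⟩
  alpha := fun a => ⟨S.alpha_mem a a.2, S.ev_alpha a a.2⟩

variable [CharP (IsLocalRing.ResidueField ↥O) ℓ]
  (ι : K →+* ℂ) (hℓN : ¬ ℓ ∣ N)
  (hprime : (fibreIdeal K N O (Rfin K N O)).IsPrime)
  (S : FibreTwo.SecondVal K N ℓ O)
  {S₀ : Subring (FF K (N * ℓ))} {ev₀ : ↥S₀ →+* LaurentSeries (IsLocalRing.ResidueField ↥O)}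
  (hB : BetaOut K N ℓ O S₀ ev₀)

/-- On `C_α`, the maximal ideal of `FibreSat.V₂` cuts out the kernel of `pi1`. -/
theorem mem_nonunits_V₂_iff_pi1 (c : FibreSat.Cα K N ℓ O) :
    (c : FF K (N * ℓ)) ∈ (FibreSat.V₂ K N ℓ O ι hℓN hprime hB).nonunits ↔
      pi1 K N ℓ O hB c = 0 := by
  rw [FibreSat.mem_nonunits_V₂_iff]
  constructor
  · rintro ⟨a, b, ha, hb, hab⟩
    have e : c * b = a := Subtype.ext hab
    have h := congrArg (pi1 K N ℓ O hB) e
    rw [map_mul, ha] at h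
    rcases mul_eq_zero.mp h with h | h
    · exact h
    · exact absurd h hb
  · intro h
    exact ⟨c, 1, h, by rw [map_one]; exact one_ne_zero, by simp⟩

/-- On `C_α`, the maximal ideal of `V₁` cuts out the kernel of `pi2`. -/
theorem mem_nonunits_V₁_iff_pi2 (c : FibreSat.Cα K N ℓ O) :
    (c : FF K (N * ℓ)) ∈ (gaussVS K (N * ℓ) O).nonunits ↔ pi2 K N ℓ O c = 0 := by
  rw [FibreSat.mem_nonunits_gaussVS_iff]
  constructor
  · rintro ⟨h, h0⟩
    exact h0
  · intro h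
    exact ⟨mem_gauss_of_mem_integralClosure K N ℓ O c.2, h⟩

include S in
/-- **One `V₂`**: helper12's `FibreSat.V₂` (for any `β`-side output `hB`) is the second Gauss
valuation subring `S.V`. -/
theorem V₂_eq : FibreSat.V₂ K N ℓ O ι hℓN hprime hB = S.V := by
  have h := (SecondValBridge.gauss_alpha K N ℓ O S ι hℓN).2
    (FibreSat.V₂ K N ℓ O ι hℓN hprime hB)
    (fun x hx => FibreSat.Cα_le_V₂ K N ℓ O ι hℓN hprime hB
      ((FibreSat.Cα K N ℓ O).algebraMap_mem ⟨x, hx⟩))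
    (fun ϖ hϖ => FibreSat.unif_mem_nonunits_V₂ K N ℓ O ι hℓN hprime hB hϖ)
  rcases h with h | h
  · exact h
  · exfalso
    apply AlphaSide.ker_ne K N ℓ O hB
    ext c
    rw [RingHom.mem_ker, RingHom.mem_ker, ← mem_nonunits_V₁_iff_pi2,
      ← mem_nonunits_V₂_iff_pi1 K N ℓ O ι hℓN hprime hB, h]

include S in
/-- `Vpair` in `S`-language. -/
theorem Vpair_eq :
    FibreSat.Vpair K N ℓ O ι hℓN hprime hB = ![gaussVS K (N * ℓ) O, S.V] := by
  unfold FibreSat.Vpair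
  rw [V₂_eq K N ℓ O ι hℓN hprime S hB]

include ι hℓN hprime in
/-- **`C_α = V₁ ⊓ S.V`.** -/
theorem mem_Cα_iff_secondVal {x : FF K (N * ℓ)} :
    x ∈ FibreSat.Cα K N ℓ O ↔ x ∈ gaussVS K (N * ℓ) O ∧ x ∈ S.V := by
  rw [FibreSat.mem_Cα_iff K N ℓ O ι hℓN hprime (betaOut_of_secondVal K N ℓ O S),
    V₂_eq K N ℓ O ι hℓN hprime S]

include ι hℓN hprime in
/-- `W := V₁ ⊓ S.V = C_α` as a subring. -/
theorem iInfSubring_eq :
    iInfSubring ![gaussVS K (N * ℓ) O, S.V] = (FibreSat.Cα K N ℓ O).toSubring := by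
  rw [← Vpair_eq K N ℓ O ι hℓN hprime S (betaOut_of_secondVal K N ℓ O S)]
  exact FibreSat.iInfSubring_Vpair_eq K N ℓ O ι hℓN hprime (betaOut_of_secondVal K N ℓ O S)

include ι hℓN hprime in
/-- **The semilocal Gauss ring of the finite chart**, in `S`-language. -/
theorem isSemiGaussRing_fin_secondVal {ϖ : ↥O} (hϖ : Irreducible ϖ) :
    IsSemiGaussRing (iInfSubring ![gaussVS K (N * ℓ) O, S.V])
      (algebraMap ↥O ↥(Rfin K (N * ℓ) O) ϖ) := by
  rw [← Vpair_eq K N ℓ O ι hℓN hprime S (betaOut_of_secondVal K N ℓ O S)]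
  exact FibreSat.isSemiGaussRing_fin K N ℓ O ι hℓN hprime (betaOut_of_secondVal K N ℓ O S) hϖ

include ι hℓN hprime in
/-- **The semilocal Gauss ring of the chart at infinity**, in `S`-language. -/
theorem isSemiGaussRing_inf_secondVal (hprimeInf : (fibreIdeal K N O (Rinf K N O)).IsPrime)
    {ϖ : ↥O} (hϖ : Irreducible ϖ) :
    IsSemiGaussRing (iInfSubring ![gaussVS K (N * ℓ) O, S.V])
      (algebraMap ↥O ↥(Rinf K (N * ℓ) O) ϖ) := by
  rw [← Vpair_eq K N ℓ O ι hℓN hprime S (betaOut_of_secondVal K N ℓ O S)]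
  exact FibreSat.isSemiGaussRing_inf K N ℓ O ι hℓN hprime (betaOut_of_secondVal K N ℓ O S)
    hprimeInf hϖ

include ι hℓN hprime in
/-- **`hsat`, finite chart**, in `S`-language. -/
theorem hsat_fin_secondVal {ϖ : ↥O} (hϖ : Irreducible ϖ) {r : FF K (N * ℓ)}
    (hr : r ∈ Rfin K (N * ℓ) O)
    (h1 : r * (algebraMap ↥O (FF K (N * ℓ)) ϖ)⁻¹ ∈ gaussVS K (N * ℓ) O)
    (h2 : r * (algebraMap ↥O (FF K (N * ℓ)) ϖ)⁻¹ ∈ S.V) :
    r * (algebraMap ↥O (FF K (N * ℓ)) ϖ)⁻¹ ∈ Rfin K (N * ℓ) O := by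
  have hϖF : algebraMap ↥O (FF K (N * ℓ)) ϖ ≠ 0 := algebraMap_ne_zero K (N * ℓ) O hϖ.ne_zero
  have hy := (mem_Cα_iff_secondVal K N ℓ O ι hℓN hprime S).mpr ⟨h1, h2⟩
  refine FibreSat.sat_fin K N ℓ O hprime hϖ hy ?_
  have : algebraMap ↥O (FF K (N * ℓ)) ϖ * (r * (algebraMap ↥O (FF K (N * ℓ)) ϖ)⁻¹) = r := by
    field_simp
  rw [this]
  exact hr

include ι hℓN hprime in
/-- **`hsat`, chart at infinity**, in `S`-language. -/
theorem hsat_inf_secondVal (hprimeInf : (fibreIdeal K N O (Rinf K N O)).IsPrime)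
    {ϖ : ↥O} (hϖ : Irreducible ϖ) {r : FF K (N * ℓ)}
    (hr : r ∈ Rinf K (N * ℓ) O)
    (h1 : r * (algebraMap ↥O (FF K (N * ℓ)) ϖ)⁻¹ ∈ gaussVS K (N * ℓ) O)
    (h2 : r * (algebraMap ↥O (FF K (N * ℓ)) ϖ)⁻¹ ∈ S.V) :
    r * (algebraMap ↥O (FF K (N * ℓ)) ϖ)⁻¹ ∈ Rinf K (N * ℓ) O := by
  have hϖF : algebraMap ↥O (FF K (N * ℓ)) ϖ ≠ 0 := algebraMap_ne_zero K (N * ℓ) O hϖ.ne_zero
  have hy := (mem_Cα_iff_secondVal K N ℓ O ι hℓN hprime S).mpr ⟨h1, h2⟩
  refine FibreSat.sat_inf K N ℓ O hprimeInf hϖ hy ?_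
  have : algebraMap ↥O (FF K (N * ℓ)) ϖ * (r * (algebraMap ↥O (FF K (N * ℓ)) ϖ)⁻¹) = r := by
    field_simp
  rw [this]
  exact hr

end Fermat.Agent.P3G.FibreIdent
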