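import Mathlib
import Fermat.Agent.P3G.GammaBase

/-!
# P3-G, block (G-Γ) (helper28): units and roots of unity of a level

For the assembly (G-A): at a level `K ⊇ goodRoots A` with `O_K = baseRing A K = A ∩ K`,

* `isUnit_natCast_baseRing` : a natural number prime to the residue characteristic `ℓ` is a unit of
  `O_K` (the hypothesis `hpO` of `no_split_cover`);
* `exists_primitiveRoot_baseRing` : `O_K` contains a primitive `m`-th root of unity for every
  `m` prime to `ℓ` (the hypothesis `hζ`);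
* `natCast_mem_maximalIdeal_baseRing`.
-/

set_option autoImplicit false
set_option linter.unusedSectionVars false
set_option linter.style.haveILetI false

open Fermat.Agent.N4.BigDVR Fermat.Agent.N4.Setting
open Fermat.Agent.N4F.C Fermat.Agent.N4F.C.Levels

namespace Fermat.Agent.P3G.GammaUnits

open Fermat.Agent.P3G.Gamma Fermat.Agent.P3G.GammaBase

variable {A : ValuationSubring Qb} (K : IntermediateField ℚ Qb)

/-- A natural number prime to the residue characteristic is a unit of `A`. -/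
theorem natCast_not_mem_nonunits {ℓ : ℕ} (hℓ : ℓ.Prime) (hA : A.LiesOverPrime ℓ) {m : ℕ}
    (hm : ¬ ℓ ∣ m) : (m : Qb) ∉ A.nonunits := by
  have h := intCast_not_mem_nonunits hℓ hA (m := (m : ℤ))
    (fun h => hm (Int.natCast_dvd_natCast.mp h))
  simpa using h

/-- **A natural number prime to `ℓ` is a unit of `O_K`.** -/
theorem isUnit_natCast_baseRing {ℓ : ℕ} (hℓ : ℓ.Prime) (hA : A.LiesOverPrime ℓ) {m : ℕ}
    (hm : ¬ ℓ ∣ m) : IsUnit ((m : ℕ) : ↥(baseRing A K)) := by
  have hm0 : m ≠ 0 := by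
    rintro rfl
    exact hm (dvd_zero ℓ)
  have hnon := natCast_not_mem_nonunits hℓ hA hm
  have hv : A.valuation (m : Qb) = 1 := valuation_natCast_eq_one hnon
  -- the inverse lies in `A ∩ K`
  have hinv : ((m : Lvl K))⁻¹ ∈ baseRing A K := by
    show algebraMap (Lvl K) Qb ((m : Lvl K))⁻¹ ∈ A
    rw [map_inv₀, map_natCast, ← A.valuation_le_one_iff, map_inv₀, hv, inv_one]
  refine isUnit_iff_exists_inv.mpr ⟨⟨((m : Lvl K))⁻¹, hinv⟩, ?_⟩
  apply Subtype.ext
  show ((m : ℕ) : Lvl K) * ((m : Lvl K))⁻¹ = 1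
  exact mul_inv_cancel₀ (Nat.cast_ne_zero.mpr hm0)

/-- `ℓ` lies in the maximal ideal of `O_K`. -/
theorem natCast_mem_nonunits_tr {ℓ : ℕ} (hA : A.LiesOverPrime ℓ) :
    ((ℓ : ℕ) : Lvl K) ∈ (tr A (Lvl K)).nonunits := by
  have hℓA : ((ℓ : ℕ) : Qb) ∈ A.nonunits := hA
  rw [mem_tr_nonunits_iff, map_natCast]
  exact hℓA

/-- **`O_K` contains the roots of unity of order prime to `ℓ`.** -/
theorem exists_primitiveRoot_baseRing {ℓ : ℕ} (hℓ : ℓ.Prime) (hA : A.LiesOverPrime ℓ)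
    (hgood : ∀ ξ ∈ goodRoots A, ξ ∈ K) {m : ℕ} (hm : ¬ ℓ ∣ m) :
    ∃ ζ : ↥(baseRing A K), IsPrimitiveRoot ζ m := by
  have hm0 : m ≠ 0 := by
    rintro rfl
    exact hm (dvd_zero ℓ)
  haveI : NeZero m := ⟨hm0⟩
  obtain ⟨ξ, hξ⟩ := HasEnoughRootsOfUnity.exists_primitiveRoot Qb m
  have hξm : ξ ^ m = 1 := hξ.pow_eq_one
  have hξK : ξ ∈ K := hgood ξ ⟨m, natCast_not_mem_nonunits hℓ hA hm, hξm⟩
  -- `ξ ∈ A` since it is integral over `ℤ`
  have hξA : ξ ∈ A := by
    rw [← A.valuation_le_one_iff]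
    by_contra hlt
    push Not at hlt
    have h1 : A.valuation (ξ ^ m) = 1 := by rw [hξm, map_one]
    rw [map_pow] at h1
    exact absurd h1 (ne_of_gt (one_lt_pow₀ hlt hm0))
  let ζK : Lvl K := (Lvl.toSub K).symm ⟨ξ, hξK⟩
  have hζK : algebraMap (Lvl K) Qb ζK = ξ := rfl
  have hζmem : ζK ∈ baseRing A K := by
    show algebraMap (Lvl K) Qb ζK ∈ A
    rw [hζK]
    exact hξA
  refine ⟨⟨ζK, hζmem⟩, ?_⟩
  have hinj : Function.Injective
      ((algebraMap (Lvl K) Qb).comp (baseRing A K).subtype) :=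
    (algebraMap (Lvl K) Qb).injective.comp Subtype.val_injective
  refine IsPrimitiveRoot.of_map_of_injective (f := (algebraMap (Lvl K) Qb).comp
    (baseRing A K).subtype) ?_ hinj
  show IsPrimitiveRoot (algebraMap (Lvl K) Qb ζK) m
  rw [hζK]
  exact hξ

end Fermat.Agent.P3G.GammaUnits
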