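/-
P3-G block (G-N1), concrete part 1 (helper15): **the second Gauss valuation of `FF K (N ℓ)`**.

Level `(K, O)` as in block E (`BetaSide`).  The integral closure `C_β` of `β (G_N)` in `FF K (N ℓ)`
is a Dedekind domain with exactly two maximal ideals `ker π₁` (`π₁` = the Gauss reduction at level
`N ℓ`) and `ker ev` (`ev` = the second place of `BetaSide`).  Its localisation at `ker ev` is a
valuation subring `V₂` of `FF K (N ℓ)`; we record (structure `SecondVal`):
* `β (G_N) ⊆ V₂`, `α (G_N) ⊆ V₂`, the place `ev₂ : V₂ → κ((q))` with `ev₂ ∘ β = θ`,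
  `ev₂ ∘ α = φ ∘ θ`, `ker ev₂ = nonunits`;
* residue degree one and ramification index one over `β (G_N)`;
* `V₂ ≠ V₁` (the Gauss valuation subring) and `V₁, V₂` are the only valuation subrings of
  `FF K (N ℓ)` dominating `β (G_N)`;
* `V₁ ∩ V₂` is integral over `β (G_N)`.
-/
import Mathlib
import Fermat.Agent.N4F.E.BetaSide
import Fermat.Agent.P3G.LocVS

set_option autoImplicit false
set_option linter.unusedSectionVars false
set_option linter.style.haveILetI false

open ModularCurve AlgebraicCurve Polynomial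
open Fermat.Agent.S28.Gauss Fermat.Agent.N4.Setting Fermat.Agent.N4.FibreEmbedding
open Fermat.Agent.N4.Chart Fermat.Agent.N4.Kronecker Fermat.Agent.N4.ModPolyDescent
open Fermat.Agent.N4F.E.DegreeLevelRaise Fermat.Agent.N4F.E.GaussDVR
open Fermat.Agent.N4F.E Fermat.Agent.N4F.E.BetaSide

noncomputable section

namespace Fermat.Agent.P3G.FibreTwo

/-! ### Abstract complement to `KummerPlace`: `𝔪_A C = ker π₁ ⊓ ker π₂` -/

section Abstract

open IsLocalRing

variable {A F L : Type*} [CommRing A] [IsDomain A] [IsDiscreteValuationRing A] [Field F]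
  [Algebra A F] [IsFractionRing A F] [Field L] [Algebra F L] [Algebra A L] [IsScalarTower A F L]
  [FiniteDimensional F L] [Algebra.IsSeparable F L]
  {Ω : Type*} [Field Ω] {l : ℕ} [hl : Fact l.Prime] [CharP Ω l]
  (hdeg : Module.finrank F L = l + 1)
  (θ : A →+* Ω) (hθ : ∀ a ∈ maximalIdeal A, θ a = 0) (φ : Ω →+* Ω)
  (π₁ : integralClosure A L →+* Ω)
  (hπ₁ : ∀ a : A, π₁ (algebraMap A (integralClosure A L) a) = φ (θ a))
  (x₀ : integralClosure A L) (t₀ : A) (hx₀ : π₁ x₀ ^ l = φ (θ t₀))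
  (ht₀ : ∀ a : A, θ a ^ l ≠ θ t₀)
  (π₂ : integralClosure A L →+* Ω)
  (hπ₂ : ∀ a : A, π₂ (algebraMap A (integralClosure A L) a) = θ a)
  (hne : RingHom.ker π₂ ≠ RingHom.ker π₁)

include hdeg hθ hπ₁ hx₀ ht₀ hπ₂ hne in
theorem map_eq_inf :
    (maximalIdeal A).map (algebraMap A (integralClosure A L)) =
      RingHom.ker π₁ ⊓ RingHom.ker π₂ := by
  have h1 := TwoPrimes.isMaximal_liesOver_ker F L π₁
    (fun a ha => by rw [hπ₁, hθ a ha, map_zero])
  haveI := h1.1
  haveI := h1.2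
  have hx : x₀ ^ l - algebraMap A (integralClosure A L) t₀ ∈ RingHom.ker π₁ := by
    rw [RingHom.mem_ker, map_sub, map_pow, hπ₁, hx₀, sub_self]
  have ht : ∀ a : A, a ^ l - t₀ ∉ maximalIdeal A := by
    intro a ha
    have := hθ _ ha
    rw [map_sub, map_pow, sub_eq_zero] at this
    exact ht₀ a this
  obtain ⟨P₂, -, -, -, hpair, hinf, -, -⟩ :=
    TwoPrimes.exists_second_prime_integralClosure (K := F) (L := L) hl.out hdeg
      (RingHom.ker π₁) x₀ t₀ hx ht
  have h2 := TwoPrimes.isMaximal_liesOver_ker F L π₂ (fun a ha => by rw [hπ₂, hθ a ha])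
  have hmem : RingHom.ker π₂ ∈ (maximalIdeal A).primesOver (integralClosure A L) :=
    ⟨h2.1.isPrime, h2.2⟩
  rw [hpair] at hmem
  rcases hmem with h | h
  · exact absurd h hne
  · have h' : RingHom.ker π₂ = P₂ := h
    rw [h', hinf]


set_option maxHeartbeats 1600000 in
include hdeg hθ hπ₁ hx₀ ht₀ hπ₂ hne in
/-- **The second valuation, abstractly**: the localisation of `C` at `ker π₂` as a valuation
subring of `L`, with its place, residue degree one, ramification index one, and the description of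
all valuation subrings of `L` dominating `A`. -/
theorem exists_secondVal (V₁ : ValuationSubring L)
    (hV₁C : ∀ c : integralClosure A L, (c : L) ∈ V₁)
    (hV₁ : ∀ c : integralClosure A L, π₁ c = 0 → (c : L) ∈ V₁.nonunits) :
    ∃ (V : ValuationSubring L) (ev : ↥V →+* Ω) (hC : ∀ c : integralClosure A L, (c : L) ∈ V),
      (∀ c : integralClosure A L, ev ⟨(c : L), hC c⟩ = π₂ c) ∧
      (∀ y : ↥V, ev y = 0 ↔ (y : L) ∈ V.nonunits) ∧
      (∀ y ∈ V, ∃ a : A, y - algebraMap A L a ∈ V.nonunits) ∧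
      (∀ ϖ : A, maximalIdeal A = Ideal.span {ϖ} → ∀ y ∈ V.nonunits,
        y * (algebraMap A L ϖ)⁻¹ ∈ V) ∧
      V ≠ V₁ ∧
      (∀ V' : ValuationSubring L, (∀ a : A, algebraMap A L a ∈ V') →
        (∀ a ∈ maximalIdeal A, algebraMap A L a ∈ V'.nonunits) → V' = V₁ ∨ V' = V) ∧
      (∀ y : L, y ∈ V₁ → y ∈ V → IsIntegral A y) := by
  obtain ⟨hDed, -, -, -⟩ := TwoPrimes.integralClosure_structure A F L (integralClosure A L)
  haveI := hDed
  haveI : IsFractionRing (integralClosure A L) L :=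
    IsIntegralClosure.isFractionRing_of_finite_extension A F L (integralClosure A L)
  have hmaxiff := KummerPlace.isMaximal_iff hdeg θ hθ φ π₁ hπ₁ x₀ t₀ hx₀ ht₀ π₂ hπ₂ hne
  haveI hM₂ : (RingHom.ker π₂).IsMaximal := (hmaxiff _).2 (Or.inr rfl)
  haveI hM₁ : (RingHom.ker π₁).IsMaximal := (hmaxiff _).2 (Or.inl rfl)
  have hinf := map_eq_inf hdeg θ hθ φ π₁ hπ₁ x₀ t₀ hx₀ ht₀ π₂ hπ₂ hne
  obtain ⟨-, hsurj⟩ := KummerPlace.primesOver_eq hdeg θ hθ φ π₁ hπ₁ x₀ t₀ hx₀ ht₀ π₂ hπ₂ hne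
  obtain ⟨ϖ₀, hϖ₀⟩ := IsDiscreteValuationRing.exists_irreducible A
  have hϖ₀m : ϖ₀ ∈ maximalIdeal A := by
    rw [hϖ₀.maximalIdeal_eq]
    exact Ideal.mem_span_singleton_self ϖ₀
  have hinjAC : Function.Injective (algebraMap A (integralClosure A L)) := by
    have hinj' : Function.Injective (algebraMap A L) := by
      rw [IsScalarTower.algebraMap_eq A F L]
      exact (algebraMap F L).injective.comp (IsFractionRing.injective A F)
    intro a b hab
    apply hinj'
    have := congrArg (algebraMap (integralClosure A L) L) hab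
    rwa [← IsScalarTower.algebraMap_apply, ← IsScalarTower.algebraMap_apply] at this
  have hϖ₀C : algebraMap A (integralClosure A L) ϖ₀ ≠ 0 := by
    intro h
    exact hϖ₀.ne_zero (hinjAC (by rw [h, map_zero]))
  have hker₂ : ∀ a ∈ maximalIdeal A, algebraMap A (integralClosure A L) a ∈ RingHom.ker π₂ := by
    intro a ha
    rw [RingHom.mem_ker, hπ₂, hθ a ha]
  have hker₁ : ∀ a ∈ maximalIdeal A, algebraMap A (integralClosure A L) a ∈ RingHom.ker π₁ := by
    intro a ha
    rw [RingHom.mem_ker, hπ₁, hθ a ha, map_zero]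
  have hP₂0 : RingHom.ker π₂ ≠ ⊥ := by
    intro h
    have := hker₂ ϖ₀ hϖ₀m
    rw [h, Ideal.mem_bot] at this
    exact hϖ₀C this
  have hP₁0 : RingHom.ker π₁ ≠ ⊥ := by
    intro h
    have := hker₁ ϖ₀ hϖ₀m
    rw [h, Ideal.mem_bot] at this
    exact hϖ₀C this
  have hgauss : V₁ = LocVS.locVS (L := L) (RingHom.ker π₁) hP₁0 :=
    LocVS.eq_locVS (RingHom.ker π₁) hP₁0 V₁ hV₁C (fun c hc => hV₁ c hc)
  set V₂ := LocVS.locVS (L := L) (RingHom.ker π₂) hP₂0 with hV₂
  have hC₂ : ∀ c : integralClosure A L, (c : L) ∈ V₂ := fun c =>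
    LocVS.algebraMap_mem (L := L) (RingHom.ker π₂) hP₂0 c
  have hmemV₁ : ∀ c : integralClosure A L, (c : L) ∈ V₁.nonunits ↔ π₁ c = 0 := by
    intro c
    refine ⟨fun h => ?_, hV₁ c⟩
    have h1 := LocVS.evLoc_eq_zero_iff (L := L) (RingHom.ker π₁) hP₁0 π₁ rfl
      ⟨_, LocVS.algebraMap_mem (L := L) (RingHom.ker π₁) hP₁0 c⟩
    rw [LocVS.evLoc_algebraMap] at h1
    refine h1.2 ?_
    have h2 : (c : L) ∈ (LocVS.locVS (L := L) (RingHom.ker π₁) hP₁0).nonunits := by
      rw [← hgauss]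
      exact h
    exact h2
  refine ⟨V₂, LocVS.evLoc (L := L) (RingHom.ker π₂) hP₂0 π₂ rfl, hC₂, ?_, ?_, ?_, ?_, ?_, ?_, ?_⟩
  · intro c
    exact LocVS.evLoc_algebraMap (L := L) (RingHom.ker π₂) hP₂0 π₂ rfl c
  · intro y
    exact LocVS.evLoc_eq_zero_iff (L := L) (RingHom.ker π₂) hP₂0 π₂ rfl y
  · intro y hy
    obtain ⟨a, ha⟩ := LocVS.exists_sub_mem_nonunits (L := L)
      (algebraMap A (integralClosure A L)) (RingHom.ker π₂) hP₂0 hker₂ hsurj hy
    exact ⟨a, ha⟩
  · intro ϖ hϖ y hy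
    have hϖm : ϖ ∈ maximalIdeal A := by
      rw [hϖ]
      exact Ideal.mem_span_singleton_self ϖ
    have hϖ0 : ϖ ≠ 0 := by
      rintro rfl
      have : maximalIdeal A = ⊥ := by rw [hϖ, Ideal.span_singleton_eq_bot]
      exact IsDiscreteValuationRing.not_a_field A this
    have hϖC : algebraMap A (integralClosure A L) ϖ ≠ 0 := by
      intro h
      exact hϖ0 (hinjAC (by rw [h, map_zero]))
    exact LocVS.div_mem (L := L) (RingHom.ker π₂) hP₂0
      (algebraMap A (integralClosure A L) ϖ) hϖC (RingHom.ker π₁)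
      (fun hle => hne (hM₁.eq_of_le hM₂.ne_top hle).symm)
      (fun c hc1 hc2 => by
        have hc : c ∈ (maximalIdeal A).map (algebraMap A (integralClosure A L)) := by
          rw [hinf]
          exact ⟨hc1, hc2⟩
        rw [hϖ, Ideal.map_span, Set.image_singleton, Ideal.mem_span_singleton'] at hc
        obtain ⟨d, hd⟩ := hc
        exact ⟨d, hd.symm.trans (mul_comm _ _)⟩) hy
  · intro h
    apply hne
    ext c
    rw [RingHom.mem_ker, RingHom.mem_ker]
    have h1 := LocVS.evLoc_eq_zero_iff (L := L) (RingHom.ker π₂) hP₂0 π₂ rfl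
      ⟨_, LocVS.algebraMap_mem (L := L) (RingHom.ker π₂) hP₂0 c⟩
    rw [LocVS.evLoc_algebraMap] at h1
    have h2 : (c : L) ∈ V₂.nonunits ↔ (c : L) ∈ V₁.nonunits := by rw [h]
    exact h1.trans (h2.trans (hmemV₁ c))
  · intro V' hA' hm'
    have hC : ∀ c : integralClosure A L, algebraMap (integralClosure A L) L c ∈ V' := by
      intro c
      have h1 : IsIntegral ↥V'.toSubring (c : L) :=
        BetaSide.isIntegral_subring_of_isIntegral (R := A) V'.toSubring hA' c.2
      obtain ⟨z, hz⟩ := IsIntegrallyClosed.isIntegral_iff.mp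
        (show IsIntegral ↥V' (c : L) from h1)
      show (c : L) ∈ V'
      rw [← hz]
      exact z.2
    let incl : integralClosure A L →+* ↥V' :=
      (algebraMap (integralClosure A L) L).codRestrict V'.toSubring hC
    set P : Ideal (integralClosure A L) := (maximalIdeal ↥V').comap incl with hP
    have hPmem : ∀ c : integralClosure A L, c ∈ P ↔ (c : L) ∈ V'.nonunits := by
      intro c
      rw [hP, Ideal.mem_comap, ValuationSubring.mem_nonunits_iff_exists_mem_maximalIdeal]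
      constructor
      · intro h
        exact ⟨hC c, h⟩
      · rintro ⟨_, h⟩
        exact h
    haveI hPprime : P.IsPrime := Ideal.comap_isPrime incl _
    have hPne : P ≠ ⊥ := by
      intro h
      have h1 : algebraMap A (integralClosure A L) ϖ₀ ∈ P := by
        rw [hPmem]
        exact hm' ϖ₀ hϖ₀m
      rw [h, Ideal.mem_bot] at h1
      exact hϖ₀C h1
    have hPmax : P.IsMaximal := hPprime.isMaximal hPne
    rcases (hmaxiff P).1 hPmax with h | h
    · left
      rw [hgauss]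
      apply LocVS.eq_locVS
      · exact hC
      · intro c hc
        rw [← h] at hc
        exact (hPmem c).1 hc
    · right
      apply LocVS.eq_locVS
      · exact hC
      · intro c hc
        rw [← h] at hc
        exact (hPmem c).1 hc
  · intro y hy1 hy2
    rw [hgauss] at hy1
    obtain ⟨c, hc⟩ := LocVS.exists_eq_of_mem_of_mem (L := L)
      (RingHom.ker π₁) (RingHom.ker π₂) hP₁0 hP₂0
      (fun Q hQ => (hmaxiff Q).1 hQ) hy1 hy2
    rw [← hc]
    exact c.2

end Abstract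

/-! ### The Gauss valuation subring: nonunits -/

section GaussVS

variable (K : Type) [Field K] [CharZero K] (M : ℕ) [NeZero M]
  (O : Subring K) [IsDiscreteValuationRing ↥O] [IsFractionRing ↥O K]

theorem mem_nonunits_gaussVS_iff {x : FF K M} (hx : x ∈ gaussSubalgebra K M O) :
    x ∈ (gaussVS K M O).nonunits ↔ theta K M O ⟨x, hx⟩ = 0 := by
  by_cases hx0 : x = 0
  · subst hx0
    constructor
    · intro _
      exact map_zero (theta K M O)
    · intro _
      exact LocVS.zero_mem_nonunits _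
  rw [LocVS.mem_nonunits_iff_inv_notMem _ hx0]
  constructor
  · intro h
    by_contra hne
    exact h (inv_mem_of_theta_ne_zero K M O ⟨x, hx⟩ hne)
  · intro h hinv
    have h1 : theta K M O (⟨x, hx⟩ * ⟨x⁻¹, hinv⟩) = 1 := by
      have : (⟨x, hx⟩ * ⟨x⁻¹, hinv⟩ : gaussSubalgebra K M O) = 1 := by
        apply Subtype.ext
        show x * x⁻¹ = 1
        exact mul_inv_cancel₀ hx0
      rw [this, map_one]
    rw [map_mul, h, zero_mul] at h1
    exact zero_ne_one h1

end GaussVS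

/-! ### The second valuation -/

section Beta

variable (K : Type) [Field K] [CharZero K] (N : ℕ) [NeZero N] (ℓ : ℕ) [hℓ : Fact ℓ.Prime]
  (O : Subring K) [IsDiscreteValuationRing ↥O] [IsFractionRing ↥O K]

set_option quotPrecheck false in
local notation "κ" => IsLocalRing.ResidueField ↥O

/-- **The second Gauss valuation of `FF K (N ℓ)`** with its place. -/
structure SecondVal where
  /-- the valuation subring -/
  V : ValuationSubring (FF K (N * ℓ))
  /-- its place -/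
  ev : ↥V →+* LaurentSeries (IsLocalRing.ResidueField ↥O)
  beta_mem : ∀ x ∈ gaussSubalgebra K N O, betaF K N ℓ x ∈ V
  alpha_mem : ∀ x ∈ gaussSubalgebra K N O, alphaF K N ℓ x ∈ V
  ev_beta : ∀ (x : FF K N) (hx : x ∈ gaussSubalgebra K N O),
    ev ⟨betaF K N ℓ x, beta_mem x hx⟩ = theta K N O ⟨x, hx⟩
  ev_alpha : ∀ (x : FF K N) (hx : x ∈ gaussSubalgebra K N O),
    ev ⟨alphaF K N ℓ x, alpha_mem x hx⟩ =
      qExpand (IsLocalRing.ResidueField ↥O) ℓ (theta K N O ⟨x, hx⟩)
  ev_eq_zero_iff : ∀ y : ↥V, ev y = 0 ↔ (y : FF K (N * ℓ)) ∈ V.nonunits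
  deg_one : ∀ y ∈ V, ∃ a : ↥(gaussSubalgebra K N O),
    y - betaF K N ℓ (a : FF K N) ∈ V.nonunits
  ram_one : ∀ ϖ : ↥O, Irreducible ϖ → ∀ y ∈ V.nonunits,
    y * (algebraMap K (FF K (N * ℓ)) (ϖ : K))⁻¹ ∈ V
  ne_gauss : V ≠ gaussVS K (N * ℓ) O
  only_two : ∀ V' : ValuationSubring (FF K (N * ℓ)),
    (∀ x ∈ gaussSubalgebra K N O, betaF K N ℓ x ∈ V') →
    (∀ ϖ : ↥O, Irreducible ϖ → algebraMap K (FF K (N * ℓ)) (ϖ : K) ∈ V'.nonunits) →
    V' = gaussVS K (N * ℓ) O ∨ V' = V
  isIntegral_of_mem : ∀ y : FF K (N * ℓ), y ∈ gaussVS K (N * ℓ) O → y ∈ V →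
    (letI := algebraAlong (betaF K N ℓ); IsIntegral ↥(gaussSubalgebra K N O) y)

attribute [local instance] BetaSide.algBeta BetaSide.algGL BetaSide.algGC BetaSide.commRingCβ

variable [CharP (IsLocalRing.ResidueField ↥O) ℓ] (ι : K →+* ℂ) (hℓN : ¬ ℓ ∣ N)
  (hprime : (fibreIdeal K N O (Rfin K N O)).IsPrime)
  (hA2 : ∀ x : ↥(gaussSubalgebra K N O),
    theta K N O x ∈ modularFunctionFieldFullC (IsLocalRing.ResidueField ↥O) N)

set_option maxHeartbeats 1600000 in
include ι hℓN hprime hA2 in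
/-- **Existence of the second Gauss valuation.** -/
theorem nonempty_secondVal : Nonempty (SecondVal K N ℓ O) := by
  haveI := finiteDimensional_beta K N ℓ ι hℓN
  haveI : Algebra.IsSeparable (FF K N) (FF K (N * ℓ)) := inferInstance
  haveI : CharP (LaurentSeries κ) ℓ := charP_laurent K ℓ O
  obtain ⟨ev, hev, hne⟩ := BetaSide.exists_ev K N ℓ O ι hℓN
  have hα := BetaSide.alpha_mem K N ℓ O ι hℓN ev hev hne hprime
  obtain ⟨V, ev₂, hC, hevC, hker, hdeg1, hram1, hneG, honly, hint⟩ :=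
    exists_secondVal (finrank_beta K N ℓ ι hℓN) (theta K N O)
      (theta_maximalIdeal K N O) (qExpand κ ℓ) (pi₁ K N ℓ O) (pi₁_algebraMap K N ℓ O)
      (x₀ K N ℓ O) (t₀ K N O) (pi₁_x₀_pow K N ℓ O) (theta_pow_ne K N ℓ O) ev hev hne
      (gaussVS K (N * ℓ) O) (fun c => Cβ_le_gauss K N ℓ O c)
      (fun c hc => (mem_nonunits_gaussVS_iff K (N * ℓ) O (Cβ_le_gauss K N ℓ O c)).2 hc)
  have hβmem : ∀ x ∈ gaussSubalgebra K N O, betaF K N ℓ x ∈ V := fun x hx =>
    hC (algebraMap ↥(gaussSubalgebra K N O) ↥(Cβ K N ℓ O) ⟨x, hx⟩)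
  have hαmem : ∀ x ∈ gaussSubalgebra K N O, alphaF K N ℓ x ∈ V := fun x hx =>
    hC ⟨_, hα x hx⟩
  refine ⟨⟨V, ev₂, hβmem, hαmem, ?_, ?_, hker, ?_, ?_, hneG, ?_, ?_⟩⟩
  · intro x hx
    exact (hevC (algebraMap ↥(gaussSubalgebra K N O) ↥(Cβ K N ℓ O) ⟨x, hx⟩)).trans
      (hev ⟨x, hx⟩)
  · intro x hx
    exact (hevC ⟨_, hα x hx⟩).trans
      (BetaSide.ev_alphaG K N ℓ O hℓN ev hev hA2 hα ⟨x, hx⟩)
  · intro y hy
    obtain ⟨a, ha⟩ := hdeg1 y hy
    exact ⟨a, ha⟩
  · intro ϖ hϖ y hy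
    have h := hram1 (unif K N O ϖ) (maximalIdeal_eq_span K N O hϖ) y hy
    have e : algebraMap ↥(gaussSubalgebra K N O) (FF K (N * ℓ)) (unif K N O ϖ) =
        algebraMap K (FF K (N * ℓ)) (ϖ : K) := by
      show betaF K N ℓ (algebraMap K (FF K N) (ϖ : K)) = _
      rw [AlgHom.commutes]
    rw [e] at h
    exact h
  · intro V' hβ' hϖ'
    obtain ⟨ϖ₀, hϖ₀⟩ := IsDiscreteValuationRing.exists_irreducible ↥O
    refine honly V' (fun a => hβ' a a.2) ?_
    intro a ha
    rw [maximalIdeal_eq_span K N O hϖ₀, Ideal.mem_span_singleton'] at ha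
    obtain ⟨b, rfl⟩ := ha
    have e : algebraMap ↥(gaussSubalgebra K N O) (FF K (N * ℓ)) (b * unif K N O ϖ₀) =
        algebraMap K (FF K (N * ℓ)) (ϖ₀ : K) * betaF K N ℓ (b : FF K N) := by
      show betaF K N ℓ ((b : FF K N) * algebraMap K (FF K N) (ϖ₀ : K)) = _
      rw [map_mul, AlgHom.commutes]
      exact mul_comm _ _
    rw [e]
    exact LocVS.mul_mem_nonunits V' (hϖ' ϖ₀ hϖ₀) (hβ' b b.2)
  · intro y hy1 hy2
    exact hint y hy1 hy2

end Beta

end Fermat.Agent.P3G.FibreTwo
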