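import Mathlib

/-!
# P3-G, block (G-Γ) (helper28): discreteness of a valuation ring with `𝔪 = ϖ V` in an algebraic
extension of a discretely valued field  (Mathlib only)

`φ : F₁ → L` a field extension, every element of `L` algebraic over `F₁`, `V` a valuation subring of
`L`, `ϖ ∈ L` with `𝔪_V = ϖ V` (`e = 1`) such that the value of every nonzero element of `F₁` is an
integral power of `v(ϖ)`.  Then

* `exists_pow_lt` : `⋂ ϖⁿ V = 0`;
* `exists_zpow_valuation_eq` : the value of every nonzero element of `L` is an integral power of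
  `v(ϖ)` (the hypothesis `hdisc` of the second-difference lemma);
* `valuation_apply_eq` : a ring automorphism `τ` of `L` with `τ V = V` and `v(τ ϖ) = v(ϖ)` preserves
  the valuation (`hval`).
-/

set_option autoImplicit false

open Polynomial

namespace Fermat.Agent.P3G.GammaDisc

variable {F₁ L : Type*} [Field F₁] [Field L] (φ : F₁ →+* L) (V : ValuationSubring L) {ϖ : L}

theorem valuation_unif_pos (hϖ0 : ϖ ≠ 0) : 0 < V.valuation ϖ :=
  zero_lt_iff.mpr ((Valuation.ne_zero_iff _).mpr hϖ0)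

/-- **Separatedness**: a nonzero element is not divisible by all powers of `ϖ`. -/
theorem exists_pow_lt
    (halg : ∀ b : L, ∃ p : F₁[X], p ≠ 0 ∧ p.eval₂ φ b = 0)
    (hϖ0 : ϖ ≠ 0) (hϖ : ϖ ∈ V.nonunits)
    (hbase : ∀ c : F₁, c ≠ 0 → ∃ m : ℤ, V.valuation (φ c) = V.valuation ϖ ^ m)
    {b : L} (hb : b ≠ 0) (hbV : b ∈ V) : ∃ n : ℕ, V.valuation ϖ ^ n < V.valuation b := by
  classical
  by_contra hcon
  push Not at hcon
  have hv0 : 0 < V.valuation ϖ := valuation_unif_pos V hϖ0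
  have hv1 : V.valuation ϖ < 1 := (ValuationSubring.mem_nonunits_iff V).mp hϖ
  have hvb0 : V.valuation b ≠ 0 := (Valuation.ne_zero_iff _).mpr hb
  have hvb1 : V.valuation b ≤ 1 := (V.valuation_le_one_iff b).mpr hbV
  obtain ⟨p, hp0, hpb⟩ := halg b
  -- the exponents of the coefficients
  have hm : ∀ i : ℕ, ∃ m : ℤ, p.coeff i ≠ 0 → V.valuation (φ (p.coeff i)) = V.valuation ϖ ^ m := by
    intro i
    by_cases h : p.coeff i = 0
    · exact ⟨0, fun h' => absurd h h'⟩
    · obtain ⟨m, hm⟩ := hbase _ h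
      exact ⟨m, fun _ => hm⟩
  choose m hm using hm
  set k := p.natTrailingDegree with hk
  have hck : p.coeff k ≠ 0 := by
    have := Polynomial.trailingCoeff_nonzero_iff_nonzero.mpr hp0
    exact this
  have hkmem : k ∈ p.support := Polynomial.mem_support_iff.mpr hck
  -- a uniform bound
  set n : ℕ := (∑ i ∈ p.support, (m k - m i).natAbs) + 1 with hn
  have hbound : ∀ i ∈ p.support, m k < m i + n := by
    intro i hi
    have h1 : (m k - m i).natAbs ≤ ∑ j ∈ p.support, (m k - m j).natAbs :=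
      Finset.single_le_sum (f := fun j => (m k - m j).natAbs) (fun _ _ => Nat.zero_le _) hi
    have h2 : m k - m i ≤ ((m k - m i).natAbs : ℤ) := Int.le_natAbs
    have h3 : ((m k - m i).natAbs : ℤ) ≤ ((∑ j ∈ p.support, (m k - m j).natAbs : ℕ) : ℤ) := by
      exact_mod_cast h1
    have h4 : m k - m i ≤ ((∑ j ∈ p.support, (m k - m j).natAbs : ℕ) : ℤ) := le_trans h2 h3
    rw [hn, Nat.cast_succ]
    linarith
  -- split the sum
  rw [Polynomial.eval₂_eq_sum, Polynomial.sum_def, ← Finset.add_sum_erase _ _ hkmem] at hpb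
  have hlead : V.valuation (φ (p.coeff k) * b ^ k) = V.valuation ϖ ^ (m k) * V.valuation b ^ k := by
    rw [map_mul, map_pow, hm k hck]
  have hlead0 : V.valuation ϖ ^ (m k) * V.valuation b ^ k ≠ 0 :=
    mul_ne_zero (zpow_ne_zero _ hv0.ne') (pow_ne_zero _ hvb0)
  have hrest : V.valuation (∑ i ∈ p.support.erase k, φ (p.coeff i) * b ^ i) <
      V.valuation ϖ ^ (m k) * V.valuation b ^ k := by
    refine Valuation.map_sum_lt _ hlead0 fun i hi => ?_
    have hisupp : i ∈ p.support := Finset.mem_of_mem_erase hi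
    have hci : p.coeff i ≠ 0 := Polynomial.mem_support_iff.mp hisupp
    have hki : k < i := by
      have h1 : k ≤ i := Polynomial.natTrailingDegree_le_of_ne_zero hci
      exact lt_of_le_of_ne h1 (Finset.ne_of_mem_erase hi).symm
    obtain ⟨d, rfl⟩ : ∃ d, i = k + d + 1 := ⟨i - k - 1, by omega⟩
    rw [map_mul, map_pow, hm _ hci]
    have h1 : V.valuation b ^ (k + d + 1) ≤ V.valuation b ^ k * V.valuation b := by
      rw [pow_succ, pow_add, mul_assoc]
      refine mul_le_mul_right (mul_le_of_le_one_left zero_le (pow_le_one₀ zero_le hvb1)) _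
    have h2 : V.valuation ϖ ^ (m (k + d + 1)) * V.valuation b < V.valuation ϖ ^ (m k) := by
      calc V.valuation ϖ ^ (m (k + d + 1)) * V.valuation b
          ≤ V.valuation ϖ ^ (m (k + d + 1)) * V.valuation ϖ ^ n :=
            mul_le_mul_right (hcon n) _
        _ = V.valuation ϖ ^ (m (k + d + 1) + (n : ℤ)) := by
            rw [zpow_add₀ hv0.ne', zpow_natCast]
        _ < V.valuation ϖ ^ (m k) :=
            zpow_lt_zpow_right_of_lt_one₀ hv0 hv1 (hbound _ hisupp)
    calc V.valuation ϖ ^ (m (k + d + 1)) * V.valuation b ^ (k + d + 1)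
        ≤ V.valuation ϖ ^ (m (k + d + 1)) * (V.valuation b ^ k * V.valuation b) :=
          mul_le_mul_right h1 _
      _ = (V.valuation ϖ ^ (m (k + d + 1)) * V.valuation b) * V.valuation b ^ k := by
          rw [mul_comm (V.valuation b ^ k), mul_assoc]
      _ < V.valuation ϖ ^ (m k) * V.valuation b ^ k :=
          mul_lt_mul_of_pos_right h2 (zero_lt_iff.mpr (pow_ne_zero _ hvb0))
  have hsum := Valuation.map_add_eq_of_lt_left V.valuation (hlead ▸ hrest)
  rw [hpb, map_zero, hlead] at hsum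
  exact hlead0 hsum.symm

/-- For `b ∈ V` nonzero the value is a natural power of `v(ϖ)`. -/
theorem exists_pow_valuation_eq
    (halg : ∀ b : L, ∃ p : F₁[X], p ≠ 0 ∧ p.eval₂ φ b = 0)
    (hϖ0 : ϖ ≠ 0) (hϖ : ϖ ∈ V.nonunits)
    (hram : ∀ y ∈ V.nonunits, y * ϖ⁻¹ ∈ V)
    (hbase : ∀ c : F₁, c ≠ 0 → ∃ m : ℤ, V.valuation (φ c) = V.valuation ϖ ^ m)
    {b : L} (hb : b ≠ 0) (hbV : b ∈ V) : ∃ n : ℕ, V.valuation b = V.valuation ϖ ^ n := by
  have hv0 : 0 < V.valuation ϖ := valuation_unif_pos V hϖ0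
  obtain ⟨n, hn⟩ := exists_pow_lt φ V halg hϖ0 hϖ hbase hb hbV
  induction n generalizing b with
  | zero =>
      rw [pow_zero] at hn
      exact absurd ((V.valuation_le_one_iff b).mpr hbV) (not_le.mpr hn)
  | succ n ih =>
      by_cases hu : V.valuation b = 1
      · exact ⟨0, by rw [hu, pow_zero]⟩
      · have hnon : b ∈ V.nonunits := by
          rw [ValuationSubring.mem_nonunits_iff]
          exact lt_of_le_of_ne ((V.valuation_le_one_iff b).mpr hbV) hu
        have hb₁V := hram b hnon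
        have hb₁0 : b * ϖ⁻¹ ≠ 0 := mul_ne_zero hb (inv_ne_zero hϖ0)
        have hval : V.valuation (b * ϖ⁻¹) = V.valuation b * (V.valuation ϖ)⁻¹ := by
          rw [map_mul, map_inv₀]
        have hlt : V.valuation ϖ ^ n < V.valuation (b * ϖ⁻¹) := by
          rw [hval, lt_mul_inv_iff₀ hv0, ← pow_succ]
          exact hn
        obtain ⟨k, hk⟩ := ih hb₁0 hb₁V hlt
        refine ⟨k + 1, ?_⟩
        rw [hval] at hk
        rw [pow_succ, ← hk, mul_assoc, inv_mul_cancel₀ hv0.ne', mul_one]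

/-- **Discreteness**: the value of every nonzero element is an integral power of `v(ϖ)`. -/
theorem exists_zpow_valuation_eq
    (halg : ∀ b : L, ∃ p : F₁[X], p ≠ 0 ∧ p.eval₂ φ b = 0)
    (hϖ0 : ϖ ≠ 0) (hϖ : ϖ ∈ V.nonunits)
    (hram : ∀ y ∈ V.nonunits, y * ϖ⁻¹ ∈ V)
    (hbase : ∀ c : F₁, c ≠ 0 → ∃ m : ℤ, V.valuation (φ c) = V.valuation ϖ ^ m)
    {b : L} (hb : b ≠ 0) : ∃ n : ℤ, V.valuation b = V.valuation ϖ ^ n := by
  rcases V.mem_or_inv_mem b with h | h
  · obtain ⟨n, hn⟩ := exists_pow_valuation_eq φ V halg hϖ0 hϖ hram hbase hb h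
    exact ⟨n, by rw [hn, zpow_natCast]⟩
  · obtain ⟨n, hn⟩ := exists_pow_valuation_eq φ V halg hϖ0 hϖ hram hbase (inv_ne_zero hb) h
    refine ⟨-n, ?_⟩
    rw [map_inv₀] at hn
    rw [zpow_neg, zpow_natCast, ← hn, inv_inv]

/-- **An automorphism preserving `V` and the value of the uniformiser preserves the valuation.** -/
theorem valuation_apply_eq (τ : L ≃+* L) (hτV : ∀ x, τ x ∈ V ↔ x ∈ V)
    (hϖτ : V.valuation (τ ϖ) = V.valuation ϖ)
    (hdisc : ∀ b : L, b ≠ 0 → ∃ n : ℤ, V.valuation b = V.valuation ϖ ^ n) (hϖ0 : ϖ ≠ 0)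
    (b : L) : V.valuation (τ b) = V.valuation b := by
  by_cases hb : b = 0
  · rw [hb, map_zero]
  obtain ⟨n, hn⟩ := hdisc b hb
  -- `u := b / ϖ ^ n` is a unit of `V`, hence so is `τ u`
  have hv0 : V.valuation ϖ ≠ 0 := (Valuation.ne_zero_iff _).mpr hϖ0
  have hu : V.valuation (b * (ϖ ^ n)⁻¹) = 1 := by
    rw [map_mul, map_inv₀, map_zpow₀, hn, mul_inv_cancel₀ (zpow_ne_zero _ hv0)]
  have hunit : ∀ u : L, V.valuation u = 1 → V.valuation (τ u) = 1 := by
    intro u hu
    have hu0 : u ≠ 0 := by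
      rintro rfl
      rw [map_zero] at hu
      exact zero_ne_one hu
    have h1 : τ u ∈ V := (hτV u).mpr ((V.valuation_le_one_iff u).mp hu.le)
    have h2 : τ u⁻¹ ∈ V := (hτV u⁻¹).mpr
      ((V.valuation_le_one_iff _).mp (by rw [map_inv₀, hu, inv_one]))
    rw [map_inv₀] at h2
    have h3 := (V.valuation_le_one_iff _).mpr h1
    have h4 := (V.valuation_le_one_iff _).mpr h2
    rw [map_inv₀] at h4
    have hτu0 : V.valuation (τ u) ≠ 0 :=
      (Valuation.ne_zero_iff _).mpr ((map_ne_zero τ).mpr hu0)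
    exact le_antisymm h3 ((inv_le_one₀ (zero_lt_iff.mpr hτu0)).mp h4)
  have h5 := hunit _ hu
  rw [map_mul, map_inv₀, map_zpow₀, map_mul, map_inv₀, map_zpow₀, hϖτ] at h5
  rw [hn]
  have hz : V.valuation ϖ ^ n ≠ 0 := zpow_ne_zero _ hv0
  calc V.valuation (τ b) = V.valuation (τ b) * (V.valuation ϖ ^ n)⁻¹ * V.valuation ϖ ^ n := by
        rw [mul_assoc, inv_mul_cancel₀ hz, mul_one]
    _ = V.valuation ϖ ^ n := by rw [h5, one_mul]

end Fermat.Agent.P3G.GammaDisc
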