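import Mathlib
import Fermat.Agent.P3G.GammaAut
import Fermat.Agent.N4F.C.LevelTheta
import Fermat.Agent.N4F.E.GaussDVR

/-!
# P3-G, block (G-Γ), part (Γ4) at a level (helper28): the Gauss valuation `V₁` is Galois-stable and
inertia acts trivially on its residue field

* generic (`S28.Gauss` setting, `A` a DVR with fraction field `Q`): a ring endomorphism `ψ` of `Q`
  restricting to a local endomorphism `φ` of `A` preserves the Gauss ring,
  `gaussRed (ψ x) = φ̄ (gaussRed x)` coefficientwise (`coeffMap_mem_gaussRing`, `gaussRed_coeffMap`),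
  and `gaussRed (ψ x) = gaussRed x` when `φ` induces the identity on the residue field;
* level `K` (stable under `Γ`), any `N`: `levelFF_smul_mem_gaussSubalgebra_iff` (decomposition
  group), `theta_levelFF_smul` (inertia), `trivialOnResidue_gaussVS` : the hypotheses `hσV`, `htriv`
  of the second-difference lemma for `V₁ = gaussVS (Lvl K) N O_K`; `valuation_levelFF_gaussVS`;
  `levelFF_second_diff_gaussVS`;
* abstract: `exists_eq_mul_of_sat` : triviality of `σ` modulo `ϖ` on a chart from saturation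
  (`hsat`) and triviality on the residue fields of the vertical valuation rings.
-/

set_option autoImplicit false
set_option linter.unusedSectionVars false
set_option linter.style.haveILetI false

open AlgebraicCurve ModularCurve
open Fermat.Agent.N4.BigDVR Fermat.Agent.N4.FrobDensity Fermat.Agent.N4.Setting
open Fermat.Agent.N4.Chart Fermat.Agent.N4.FibreEmbedding
open Fermat.Agent.N4F.C Fermat.Agent.N4F.C.Levels Fermat.Agent.N4F.C.LevelCharts
open Fermat.Agent.N4F.C.CoeffAut Fermat.Agent.N4F.C.Galois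
open Fermat.Agent.S28.Gauss

namespace Fermat.Agent.P3G.GammaGauss

open Fermat.Agent.P3G.Gamma Fermat.Agent.P3G.GammaTame Fermat.Agent.P3G.GammaAut

local notation "Γ" => (AlgebraicClosure ℚ ≃ₐ[ℚ] AlgebraicClosure ℚ)

/-! ### Functoriality of the Gauss ring of a discrete valuation ring -/

section Generic

variable {A : Type*} [CommRing A] [IsDomain A] [IsDiscreteValuationRing A]
  {Q : Type*} [Field Q] [Algebra A Q] [IsFractionRing A Q]
  (φ : A →+* A) [IsLocalHom φ] (ψ : Q →+* Q)
  (hcomp : ψ.comp (algebraMap A Q) = (algebraMap A Q).comp φ)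

include hcomp in
theorem coeffMap_emb (a : LaurentSeries A) :
    coeffMap ψ (emb A Q a) = emb A Q (coeffMap φ a) := by
  show coeffMap ψ (coeffMap (algebraMap A Q) a) = coeffMap (algebraMap A Q) (coeffMap φ a)
  rw [coeffMap_coeffMap, coeffMap_coeffMap, hcomp]

theorem red_coeffMap (a : LaurentSeries A) :
    red A (coeffMap φ a) = coeffMap (IsLocalRing.ResidueField.map φ) (red A a) := by
  show coeffMap (IsLocalRing.residue A) (coeffMap φ a) =
    coeffMap (IsLocalRing.ResidueField.map φ) (coeffMap (IsLocalRing.residue A) a)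
  rw [coeffMap_coeffMap, coeffMap_coeffMap]
  refine coeffMap_congr (RingHom.ext fun c => ?_) a
  simp [IsLocalRing.ResidueField.map_residue]

theorem red_coeffMap_ne_zero {b : LaurentSeries A} (hb : red A b ≠ 0) :
    red A (coeffMap φ b) ≠ 0 := by
  rw [red_coeffMap]
  intro h
  apply hb
  have hinj : Function.Injective (coeffMap (IsLocalRing.ResidueField.map φ)) := by
    intro x y hxy
    ext n
    exact (IsLocalRing.ResidueField.map φ).injective
      (congrArg (fun z : LaurentSeries (IsLocalRing.ResidueField A) => z.coeff n) hxy)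
  exact hinj (h.trans (map_zero _).symm)

include hcomp in
/-- **Functoriality of the Gauss ring.** -/
theorem coeffMap_mem_gaussRing {x : LaurentSeries Q} (hx : x ∈ gaussRing A Q) :
    coeffMap ψ x ∈ gaussRing A Q := by
  obtain ⟨a, b, hb, h⟩ := hx
  refine ⟨coeffMap φ a, coeffMap φ b, red_coeffMap_ne_zero φ hb, ?_⟩
  rw [← coeffMap_emb φ ψ hcomp, ← coeffMap_emb φ ψ hcomp, ← map_mul, h]

include hcomp in
/-- **Functoriality of the Gauss reduction.** -/
theorem gaussRed_coeffMap (x : gaussRing A Q) :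
    gaussRed (⟨coeffMap ψ (x : LaurentSeries Q), coeffMap_mem_gaussRing φ ψ hcomp x.2⟩ :
        gaussRing A Q) =
      coeffMap (IsLocalRing.ResidueField.map φ) (gaussRed x) := by
  obtain ⟨a, b, hb, h⟩ := x.2
  have h' : ((⟨coeffMap ψ (x : LaurentSeries Q), coeffMap_mem_gaussRing φ ψ hcomp x.2⟩ :
      gaussRing A Q) : LaurentSeries Q) * emb A Q (coeffMap φ b) = emb A Q (coeffMap φ a) := by
    show coeffMap ψ (x : LaurentSeries Q) * _ = _
    rw [← coeffMap_emb φ ψ hcomp, ← coeffMap_emb φ ψ hcomp, ← map_mul, h]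
  rw [gaussRed_eq _ (red_coeffMap_ne_zero φ hb) h', gaussRed_eq x hb h, red_coeffMap,
    red_coeffMap, map_div₀]

include hcomp in
/-- If `φ` induces the identity on the residue field, the Gauss reduction is invariant. -/
theorem gaussRed_coeffMap_of_trivial (hφ : ∀ a : A, φ a - a ∈ IsLocalRing.maximalIdeal A)
    (x : gaussRing A Q) :
    gaussRed (⟨coeffMap ψ (x : LaurentSeries Q), coeffMap_mem_gaussRing φ ψ hcomp x.2⟩ :
        gaussRing A Q) = gaussRed x := by
  rw [gaussRed_coeffMap φ ψ hcomp x]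
  have hid : IsLocalRing.ResidueField.map φ = RingHom.id (IsLocalRing.ResidueField A) := by
    refine RingHom.ext fun c => ?_
    obtain ⟨a, rfl⟩ := IsLocalRing.residue_surjective c
    rw [IsLocalRing.ResidueField.map_residue, RingHom.id_apply, ← sub_eq_zero, ← map_sub,
      IsLocalRing.residue_eq_zero_iff]
    exact hφ a
  rw [hid, coeffMap_id]

end Generic

/-! ### The Gauss valuation of a stable level -/

section Level

variable (K : IntermediateField ℚ Qb) (hK : ∀ (τ : Γ) (x : Qb), x ∈ K → τ x ∈ K)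
  (N : ℕ) [NeZero N] {A : ValuationSubring Qb} [IsDiscreteValuationRing ↥(baseRing A K)]

theorem algebraMap_comp_baseAut {τ : Γ} (hτ : τ ∈ A.decompositionSubgroup ℚ) :
    ((levelAut K hK τ : Lvl K ≃+* Lvl K) : Lvl K →+* Lvl K).comp
        (algebraMap ↥(baseRing A K) (Lvl K)) =
      (algebraMap ↥(baseRing A K) (Lvl K)).comp
        ((baseAut K hK hτ : ↥(baseRing A K) ≃+* ↥(baseRing A K)) :
          ↥(baseRing A K) →+* ↥(baseRing A K)) := rfl

/-- The decomposition group preserves the Gauss ring of level `K`. -/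
theorem levelFF_smul_mem_gaussSubalgebra {τ : Γ} (hτ : τ ∈ A.decompositionSubgroup ℚ)
    {x : FF (Lvl K) N} (hx : x ∈ gaussSubalgebra (Lvl K) N (baseRing A K)) :
    levelFF K hK N τ • x ∈ gaussSubalgebra (Lvl K) N (baseRing A K) := by
  rw [mem_gaussSubalgebra_iff] at hx ⊢
  exact coeffMap_mem_gaussRing
    ((baseAut K hK hτ : ↥(baseRing A K) ≃+* ↥(baseRing A K)) : ↥(baseRing A K) →+* ↥(baseRing A K))
    ((levelAut K hK τ : Lvl K ≃+* Lvl K) : Lvl K →+* Lvl K) (algebraMap_comp_baseAut K hK hτ) hx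

theorem levelFF_smul_mem_gaussSubalgebra_iff {τ : Γ} (hτ : τ ∈ A.decompositionSubgroup ℚ)
    {x : FF (Lvl K) N} :
    levelFF K hK N τ • x ∈ gaussSubalgebra (Lvl K) N (baseRing A K) ↔
      x ∈ gaussSubalgebra (Lvl K) N (baseRing A K) := by
  refine ⟨fun h => ?_, levelFF_smul_mem_gaussSubalgebra K hK N hτ⟩
  have h1 := levelFF_smul_mem_gaussSubalgebra K hK N (inv_mem hτ) h
  rwa [levelFF_inv_smul_smul] at h1

/-- **`V₁` is stable under the decomposition group** (the hypothesis `hσV`). -/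
theorem levelFF_mem_gaussVS_iff {τ : Γ} (hτ : τ ∈ A.decompositionSubgroup ℚ) (x : FF (Lvl K) N) :
    SemilinearAut.toRingAut (levelFF K hK N τ) x ∈
        Fermat.Agent.N4F.E.GaussDVR.gaussVS (Lvl K) N (baseRing A K) ↔
      x ∈ Fermat.Agent.N4F.E.GaussDVR.gaussVS (Lvl K) N (baseRing A K) :=
  levelFF_smul_mem_gaussSubalgebra_iff K hK N hτ

/-- **Inertia does not change the Gauss reduction.** -/
theorem theta_levelFF_smul {σ : Γ} (hσ : σ ∈ A.inertiaSubgroupIn ℚ)
    (x : gaussSubalgebra (Lvl K) N (baseRing A K)) :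
    theta (Lvl K) N (baseRing A K)
        ⟨levelFF K hK N σ • (x : FF (Lvl K) N),
          levelFF_smul_mem_gaussSubalgebra K hK N
            (mem_decompositionSubgroup_of_mem_inertia hσ) x.2⟩ =
      theta (Lvl K) N (baseRing A K) x := by
  rw [theta_apply, theta_apply]
  have hτ := mem_decompositionSubgroup_of_mem_inertia hσ
  refine gaussRed_coeffMap_of_trivial
    ((baseAut K hK hτ : ↥(baseRing A K) ≃+* ↥(baseRing A K)) : ↥(baseRing A K) →+* ↥(baseRing A K))
    ((levelAut K hK σ : Lvl K ≃+* Lvl K) : Lvl K →+* Lvl K) (algebraMap_comp_baseAut K hK hτ)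
    (fun a => ?_) ⟨((x : FF (Lvl K) N) : LaurentSeries (Lvl K)), x.2⟩
  have h := trivialOnResidue_levelAut K hK hσ (a : Lvl K) a.2
  rw [IsLocalRing.mem_maximalIdeal, mem_nonunits_iff]
  intro hu
  obtain ⟨z, hz⟩ := isUnit_iff_exists_inv.mp hu
  have h1 : (levelAut K hK σ (a : Lvl K) - (a : Lvl K)) * (z : Lvl K) = 1 :=
    congrArg Subtype.val hz
  rw [ValuationSubring.mem_nonunits_iff] at h
  have hz1 : (tr A (Lvl K)).valuation (z : Lvl K) ≤ 1 :=
    (ValuationSubring.valuation_le_one_iff _ _).mpr z.2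
  have h2 := congrArg (tr A (Lvl K)).valuation h1
  rw [map_mul, map_one] at h2
  exact absurd h2 (ne_of_lt (mul_lt_one_of_lt_of_le h hz1))

/-- **Inertia acts trivially on the residue field of `V₁`** (the hypothesis `htriv`). -/
theorem trivialOnResidue_gaussVS {σ : Γ} (hσ : σ ∈ A.inertiaSubgroupIn ℚ) :
    TrivialOnResidue (Fermat.Agent.N4F.E.GaussDVR.gaussVS (Lvl K) N (baseRing A K))
      (SemilinearAut.toRingAut (levelFF K hK N σ)) := by
  intro w hw
  have hτ := mem_decompositionSubgroup_of_mem_inertia hσ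
  have hw' : w ∈ gaussSubalgebra (Lvl K) N (baseRing A K) := hw
  have hσw : levelFF K hK N σ • w ∈ gaussSubalgebra (Lvl K) N (baseRing A K) :=
    levelFF_smul_mem_gaussSubalgebra K hK N hτ hw'
  set y : gaussSubalgebra (Lvl K) N (baseRing A K) := ⟨levelFF K hK N σ • w, hσw⟩ - ⟨w, hw'⟩
    with hy
  have hy0 : theta (Lvl K) N (baseRing A K) y = 0 := by
    rw [hy, map_sub, theta_levelFF_smul K hK N hσ ⟨w, hw'⟩, sub_self]
  show levelFF K hK N σ • w - w ∈ _
  rw [ValuationSubring.mem_nonunits_iff_or]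
  by_cases h0 : levelFF K hK N σ • w - w = 0
  · exact Or.inl h0
  · right
    intro hinv
    have hinv' : (levelFF K hK N σ • w - w)⁻¹ ∈ gaussSubalgebra (Lvl K) N (baseRing A K) := hinv
    have h1 : y * ⟨(levelFF K hK N σ • w - w)⁻¹, hinv'⟩ = 1 :=
      Subtype.ext (mul_inv_cancel₀ h0)
    have h2 := congrArg (theta (Lvl K) N (baseRing A K)) h1
    rw [map_mul, hy0, zero_mul, map_one] at h2
    exact zero_ne_one h2

/-- The decomposition group preserves the Gauss valuation. -/
theorem valuation_levelFF_gaussVS {τ : Γ} (hτ : τ ∈ A.decompositionSubgroup ℚ)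
    (b : FF (Lvl K) N) :
    (Fermat.Agent.N4F.E.GaussDVR.gaussVS (Lvl K) N (baseRing A K)).valuation
        (SemilinearAut.toRingAut (levelFF K hK N τ) b) =
      (Fermat.Agent.N4F.E.GaussDVR.gaussVS (Lvl K) N (baseRing A K)).valuation b := by
  haveI : IsDiscreteValuationRing
      ↥(Fermat.Agent.N4F.E.GaussDVR.gaussVS (Lvl K) N (baseRing A K)) :=
    Fermat.Agent.N4F.E.GaussDVR.isDiscreteValuationRing_gauss (Lvl K) N (baseRing A K)
  exact valuation_apply_eq_of_dvr (levelFF_mem_gaussVS_iff K hK N hτ) b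

/-- **Second differences are principal units at `V₁`.** -/
theorem levelFF_second_diff_gaussVS {σ : Γ} (hσ : σ ∈ A.inertiaSubgroupIn ℚ)
    {b : FF (Lvl K) N} (hb : b ≠ 0) :
    levelFF K hK N σ • (levelFF K hK N σ • b) * b / (levelFF K hK N σ • b) ^ 2 - 1 ∈
      (Fermat.Agent.N4F.E.GaussDVR.gaussVS (Lvl K) N (baseRing A K)).nonunits :=
  (trivialOnResidue_gaussVS K hK N hσ).second_diff hb
    (valuation_levelFF_gaussVS K hK N (mem_decompositionSubgroup_of_mem_inertia hσ) b)

end Level

/-! ### Triviality modulo `ϖ` on a saturated chart -/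

section Sat

variable {F : Type*} [Field F]

/-- If `R ∩ ϖ (⋂ V i) = ϖ R` (saturation), `ϖ` generates the maximal ideal of every `V i`
(`e = 1`), and `τ` stabilises `R` and acts trivially on the residue fields of the `V i`, then `τ`
acts trivially on `R / ϖ R`. -/
theorem exists_eq_mul_of_sat {ι : Type*} (V : ι → ValuationSubring F) (R : Set F) {π : F}
    (τ : F ≃+* F) (hτR : ∀ r ∈ R, τ r ∈ R) (hRV : ∀ i, ∀ r ∈ R, r ∈ V i)
    (hsub : ∀ r ∈ R, ∀ s ∈ R, r - s ∈ R)
    (htriv : ∀ i, TrivialOnResidue (V i) τ)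
    (he : ∀ i, ∀ x ∈ (V i).nonunits, x * π⁻¹ ∈ V i)
    (hsat : ∀ r ∈ R, (∀ i, r * π⁻¹ ∈ V i) → ∃ s ∈ R, r = π * s) :
    ∀ r ∈ R, ∃ s ∈ R, τ r - r = π * s := fun r hr =>
  hsat _ (hsub _ (hτR r hr) _ hr) fun i => he i _ (htriv i r (hRV i r hr))

end Sat

end Fermat.Agent.P3G.GammaGauss
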