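import Mathlib
import Fermat.Agent.P3G.GammaGauss
import Fermat.Agent.N4F.E.DegreeLevelRaise

/-!
# P3-G, block (G-Γ), part (Γ4) for the second component (helper28)

`K` a `Γ`-stable level, `σ_M := levelFF K hK M σ` the coefficientwise Galois action on
`F_K(M) = FF (Lvl K) M`.

* `levelFF_smul_alphaF`, `levelFF_smul_betaF` : the degeneracy maps `α, β : F_K(N) → F_K(N m)` are
  Galois-equivariant;
* `exists_eq_unif_mul_of_mem_inertia` : for `σ ∈ I_A` and `x` in the Gauss ring `G_N`,
  `σ x - x = ϖ y` with `y ∈ G_N`;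
* `trivialOnResidue_of_generated` (abstract) : if the residue field of a `τ`-stable valuation
  subring `W` is generated by a set `G` on which `τ` is trivial modulo `𝔪_W`, then `τ` acts
  trivially on the residue field of `W`;
* `trivialOnResidue_of_levelMap` : the second vertical valuation ring `V₂` of `F_K(N ℓ)`: if it is
  `σ`-stable, contains `φ(G_N)` (`φ = α` or `β`) and has residue degree one over it, then `σ ∈ I_A`
  acts trivially on its residue field (the hypothesis `htriv` of the second-difference lemma).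
* `stable_of_two` (abstract) : if a `τ`-stable subring has exactly two valuation rings of `F` over it
  (satisfying a `τ`-invariant condition) and one of them is `τ`-stable, so is the other.
-/

set_option autoImplicit false
set_option linter.unusedSectionVars false
set_option linter.style.haveILetI false

open AlgebraicCurve ModularCurve
open Fermat.Agent.N4.BigDVR Fermat.Agent.N4.FrobDensity Fermat.Agent.N4.Setting
open Fermat.Agent.N4.Chart Fermat.Agent.N4.FibreEmbedding
open Fermat.Agent.N4F.C Fermat.Agent.N4F.C.Levels Fermat.Agent.N4F.C.LevelCharts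
open Fermat.Agent.N4F.C.CoeffAut Fermat.Agent.N4F.C.Galois
open Fermat.Agent.N4F.E.DegreeLevelRaise Fermat.Agent.N4F.E.GaussDVR
open Fermat.Agent.S28.Gauss

namespace Fermat.Agent.P3G.GammaLevelMaps

open Fermat.Agent.P3G.Gamma Fermat.Agent.P3G.GammaTame Fermat.Agent.P3G.GammaAut
open Fermat.Agent.P3G.GammaGauss

local notation "Γ" => (AlgebraicClosure ℚ ≃ₐ[ℚ] AlgebraicClosure ℚ)

/-! ### Abstract lemmas -/

section Abstract

variable {F : Type*} [Field F]

theorem apply_mem_nonunits_of_stable (W : ValuationSubring F) (τ : F ≃+* F)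
    (hτW : ∀ x, τ x ∈ W ↔ x ∈ W) {n : F} (hn : n ∈ W.nonunits) : τ n ∈ W.nonunits := by
  rw [ValuationSubring.mem_nonunits_iff_or] at hn ⊢
  rcases hn with h | h
  · exact Or.inl (by rw [h, map_zero])
  · right
    rw [← map_inv₀, hτW]
    exact h

/-- If the residue field of a `τ`-stable valuation subring `W` is generated by a set `G` on which
`τ` is trivial modulo `𝔪_W`, then `τ` acts trivially on the residue field of `W`. -/
theorem trivialOnResidue_of_generated (W : ValuationSubring F) (τ : F ≃+* F)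
    (hτW : ∀ x, τ x ∈ W ↔ x ∈ W) (G : Set F)
    (hgen : ∀ w ∈ W, ∃ g ∈ G, w - g ∈ W.nonunits)
    (hτG : ∀ g ∈ G, τ g - g ∈ W.nonunits) : TrivialOnResidue W τ := by
  intro w hw
  obtain ⟨g, hg, hn⟩ := hgen w hw
  have h1 : τ (w - g) ∈ W.nonunits := apply_mem_nonunits_of_stable W τ hτW hn
  have h2 := hτG g hg
  have h : τ w - w = τ (w - g) - (w - g) + (τ g - g) := by
    rw [map_sub]; ring
  rw [h]
  rw [ValuationSubring.mem_nonunits_iff] at h1 hn h2 ⊢
  refine lt_of_le_of_lt (Valuation.map_add _ _ _) (max_lt ?_ h2)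
  exact lt_of_le_of_lt (Valuation.map_sub _ _ _) (max_lt h1 hn)

/-- **Only two ⇒ stable.**  Let `P` be a `τ`-invariant property of valuation subrings of `F`
satisfied by exactly two of them; if one is `τ`-stable, so is the other. -/
theorem stable_of_two (τ : F ≃+* F) (P : ValuationSubring F → Prop)
    (hP : ∀ W : ValuationSubring F, P W → P (W.comap (τ : F →+* F)))
    (W₁ W₂ : ValuationSubring F) (hne : W₁ ≠ W₂) (h2 : P W₂)
    (hall : ∀ W, P W → W = W₁ ∨ W = W₂) (h₁ : ∀ x, τ x ∈ W₁ ↔ x ∈ W₁) :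
    ∀ x, τ x ∈ W₂ ↔ x ∈ W₂ := by
  have hcomap₁ : W₁.comap (τ : F →+* F) = W₁ := by
    ext x
    rw [ValuationSubring.mem_comap]
    exact h₁ x
  have hinj : ∀ U U' : ValuationSubring F,
      U.comap (τ : F →+* F) = U'.comap (τ : F →+* F) → U = U' := by
    intro U U' h
    ext x
    have := congrArg (fun Z : ValuationSubring F => τ.symm x ∈ Z) h
    simp only [ValuationSubring.mem_comap] at this
    have h' : ((τ : F →+* F) (τ.symm x)) = x := τ.apply_symm_apply x
    rw [h'] at this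
    exact Iff.of_eq this
  rcases hall _ (hP W₂ h2) with h | h
  · exact absurd (hinj W₂ W₁ (h.trans hcomap₁.symm)).symm hne
  · intro x
    have := congrArg (fun Z : ValuationSubring F => x ∈ Z) h
    simp only [ValuationSubring.mem_comap] at this
    exact Iff.of_eq this

end Abstract

/-! ### The degeneracy maps are Galois-equivariant -/

section LevelMaps

variable (K : IntermediateField ℚ Qb) (hK : ∀ (τ : Γ) (x : Qb), x ∈ K → τ x ∈ K)
  (N m : ℕ) [NeZero N] [NeZero m]

theorem levelFF_smul_alphaF (τ : Γ) (x : FF (Lvl K) N) :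
    levelFF K hK (N * m) τ • alphaF (Lvl K) N m x =
      alphaF (Lvl K) N m (levelFF K hK N τ • x) := by
  apply Subtype.ext
  rw [coe_levelFF_smul, coe_alphaF, coe_alphaF, coe_levelFF_smul]

theorem levelFF_smul_betaF (τ : Γ) (x : FF (Lvl K) N) :
    levelFF K hK (N * m) τ • betaF (Lvl K) N m x =
      betaF (Lvl K) N m (levelFF K hK N τ • x) := by
  apply Subtype.ext
  rw [coe_levelFF_smul, coe_betaF, coe_betaF, coe_levelFF_smul, coeffMap_qExpand]

end LevelMaps

/-! ### Inertia on the Gauss ring and on the second component -/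

section Inertia

variable (K : IntermediateField ℚ Qb) (hK : ∀ (τ : Γ) (x : Qb), x ∈ K → τ x ∈ K)
  (N : ℕ) [NeZero N] {A : ValuationSubring Qb} [IsDiscreteValuationRing ↥(baseRing A K)]

/-- For `σ ∈ I_A` and `x` in the Gauss ring: `σ x - x = ϖ y` with `y` in the Gauss ring. -/
theorem exists_eq_unif_mul_of_mem_inertia {σ : Γ} (hσ : σ ∈ A.inertiaSubgroupIn ℚ)
    {ϖ : ↥(baseRing A K)} (hϖ : Irreducible ϖ) {x : FF (Lvl K) N}
    (hx : x ∈ gaussSubalgebra (Lvl K) N (baseRing A K)) :
    ∃ y ∈ gaussSubalgebra (Lvl K) N (baseRing A K),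
      levelFF K hK N σ • x - x = algebraMap ↥(baseRing A K) (FF (Lvl K) N) ϖ * y := by
  have hτ := mem_decompositionSubgroup_of_mem_inertia hσ
  have hσx : levelFF K hK N σ • x ∈ gaussSubalgebra (Lvl K) N (baseRing A K) :=
    levelFF_smul_mem_gaussSubalgebra K hK N hτ hx
  have h0 : theta (Lvl K) N (baseRing A K)
      ((⟨levelFF K hK N σ • x, hσx⟩ : gaussSubalgebra (Lvl K) N (baseRing A K)) - ⟨x, hx⟩) = 0 := by
    rw [map_sub, theta_levelFF_smul K hK N hσ ⟨x, hx⟩, sub_self]
  obtain ⟨y, hy⟩ := exists_eq_unif_mul (Lvl K) N (baseRing A K) hϖ _ h0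
  exact ⟨y, y.2, congrArg Subtype.val hy⟩

variable (ℓ : ℕ) [NeZero ℓ]

/-- **Inertia acts trivially on the residue field of the second vertical valuation ring**: if `V₂`
is `σ`-stable, contains `φ(G_N)` and the uniformiser as a nonunit, and has residue degree one over
`φ(G_N)`, where `φ : F_K(N) → F_K(N ℓ)` is a Galois-equivariant `O`-linear ring homomorphism
(`φ = betaF` or `alphaF`). -/
theorem trivialOnResidue_of_levelMap {σ : Γ} (hσ : σ ∈ A.inertiaSubgroupIn ℚ)
    {ϖ : ↥(baseRing A K)} (hϖ : Irreducible ϖ)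
    (V₂ : ValuationSubring (FF (Lvl K) (N * ℓ)))
    (φ : FF (Lvl K) N →+* FF (Lvl K) (N * ℓ))
    (hφσ : ∀ x, levelFF K hK (N * ℓ) σ • φ x = φ (levelFF K hK N σ • x))
    (hφϖ : φ (algebraMap ↥(baseRing A K) (FF (Lvl K) N) ϖ) =
      algebraMap ↥(baseRing A K) (FF (Lvl K) (N * ℓ)) ϖ)
    (hφV : ∀ x ∈ gaussSubalgebra (Lvl K) N (baseRing A K), φ x ∈ V₂)
    (hϖV : algebraMap ↥(baseRing A K) (FF (Lvl K) (N * ℓ)) ϖ ∈ V₂.nonunits)
    (hstab : ∀ x, SemilinearAut.toRingAut (levelFF K hK (N * ℓ) σ) x ∈ V₂ ↔ x ∈ V₂)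
    (hgen : ∀ w ∈ V₂, ∃ x ∈ gaussSubalgebra (Lvl K) N (baseRing A K), w - φ x ∈ V₂.nonunits) :
    TrivialOnResidue V₂ (SemilinearAut.toRingAut (levelFF K hK (N * ℓ) σ)) := by
  refine trivialOnResidue_of_generated V₂ _ hstab
    (φ '' (gaussSubalgebra (Lvl K) N (baseRing A K) : Set (FF (Lvl K) N))) ?_ ?_
  · intro w hw
    obtain ⟨x, hx, h⟩ := hgen w hw
    exact ⟨φ x, ⟨x, hx, rfl⟩, h⟩
  · rintro _ ⟨x, hx, rfl⟩
    obtain ⟨y, hy, hxy⟩ := exists_eq_unif_mul_of_mem_inertia K hK N hσ hϖ hx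
    show levelFF K hK (N * ℓ) σ • φ x - φ x ∈ V₂.nonunits
    rw [hφσ, ← map_sub, hxy, map_mul, hφϖ]
    have h1 := hφV y hy
    rw [ValuationSubring.mem_nonunits_iff] at hϖV ⊢
    rw [map_mul]
    exact mul_lt_one_of_lt_of_le hϖV ((ValuationSubring.valuation_le_one_iff _ _).mpr h1)

end Inertia

end Fermat.Agent.P3G.GammaLevelMaps
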