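import Mathlib
import Fermat.Agent.P3G.GammaLevelMaps
import Fermat.Agent.P3G.GammaDisc
import Fermat.Agent.P3G.FibreTwo
import Fermat.Agent.N4F.E.BetaSide

/-!
# P3-G, block (G-Γ) (helper28): the Galois action and the second vertical valuation `V₂`

`K` a `Γ`-stable level with `O_K = baseRing A K` a discrete valuation ring, `ℓ ∤ N`,
`S : FibreTwo.SecondVal (Lvl K) N ℓ O_K` (helper15), `V₂ = S.V ⊆ F_K(N ℓ)`, `σ_M = levelFF K hK M σ`.

* `unif_mem_nonunits_secondVal`;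
* `secondVal_stable` : the decomposition group preserves `V₂` (`hσV`) — from `only_two`;
* `trivialOnResidue_secondVal` : inertia acts trivially on the residue field of `V₂` (`htriv`) — from
  `deg_one`;
* `exists_zpow_valuation_secondVal` : the value group of `V₂` is generated by `v₂(ϖ)` (`hdisc`);
* `valuation_levelFF_secondVal` : the decomposition group preserves the valuation of `V₂` (`hval`);
* `levelFF_second_diff_secondVal` : second differences are principal units at `V₂`;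
* `exists_second_diff_eq` : `σ²b · b / (σ b)² - 1 = ϖ w` with `w ∈ V₁ ∩ V₂` (the shape `hh`).
-/

set_option autoImplicit false
set_option linter.unusedSectionVars false
set_option linter.style.haveILetI false

open AlgebraicCurve ModularCurve
open Fermat.Agent.N4.BigDVR Fermat.Agent.N4.FrobDensity Fermat.Agent.N4.Setting
open Fermat.Agent.N4.Chart Fermat.Agent.N4.FibreEmbedding
open Fermat.Agent.N4F.C Fermat.Agent.N4F.C.Levels Fermat.Agent.N4F.C.LevelCharts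
open Fermat.Agent.N4F.C.CoeffAut Fermat.Agent.N4F.C.Galois Fermat.Agent.N4F.C.LevelTheta
open Fermat.Agent.N4F.E.DegreeLevelRaise Fermat.Agent.N4F.E.GaussDVR
open Fermat.Agent.S28.Gauss

namespace Fermat.Agent.P3G.GammaV2

open Fermat.Agent.P3G.Gamma Fermat.Agent.P3G.GammaTame Fermat.Agent.P3G.GammaAut
open Fermat.Agent.P3G.GammaGauss Fermat.Agent.P3G.GammaLevelMaps Fermat.Agent.P3G.FibreTwo

local notation "Γ" => (AlgebraicClosure ℚ ≃ₐ[ℚ] AlgebraicClosure ℚ)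

variable (K : IntermediateField ℚ Qb) (hK : ∀ (τ : Γ) (x : Qb), x ∈ K → τ x ∈ K)
  (N : ℕ) [NeZero N] (ℓ : ℕ) [hℓ : Fact ℓ.Prime]
  {A : ValuationSubring Qb} [IsDiscreteValuationRing ↥(baseRing A K)]
  (S : SecondVal (Lvl K) N ℓ (baseRing A K))

/-- The uniformiser of `O_K` inside `F_K(M)`, as the image of a constant. -/
theorem algebraMap_base_eq (M : ℕ) (a : ↥(baseRing A K)) :
    algebraMap ↥(baseRing A K) (FF (Lvl K) M) a = algebraMap (Lvl K) (FF (Lvl K) M) (a : Lvl K) :=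
  rfl

/-- The uniformiser is a nonunit of `V₂`. -/
theorem unif_mem_nonunits_secondVal {ϖ : ↥(baseRing A K)} (hϖ : Irreducible ϖ) :
    algebraMap (Lvl K) (FF (Lvl K) (N * ℓ)) (ϖ : Lvl K) ∈ S.V.nonunits := by
  have hmem : algebraMap ↥(baseRing A K) (FF (Lvl K) N) ϖ ∈
      gaussSubalgebra (Lvl K) N (baseRing A K) :=
    (gaussSubalgebra (Lvl K) N (baseRing A K)).algebraMap_mem ϖ
  have h1 := S.ev_beta _ hmem
  have h2 : theta (Lvl K) N (baseRing A K) ⟨_, hmem⟩ = 0 := theta_unif (Lvl K) N (baseRing A K) hϖ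
  rw [h2] at h1
  have h3 := (S.ev_eq_zero_iff _).mp h1
  have h4 : betaF (Lvl K) N ℓ (algebraMap ↥(baseRing A K) (FF (Lvl K) N) ϖ) =
      algebraMap (Lvl K) (FF (Lvl K) (N * ℓ)) (ϖ : Lvl K) := by
    rw [algebraMap_base_eq, AlgHom.commutes]
  rw [← h4]
  exact h3

/-- **The decomposition group preserves `V₂`.** -/
theorem secondVal_stable {τ : Γ} (hτ : τ ∈ A.decompositionSubgroup ℚ) (x : FF (Lvl K) (N * ℓ)) :
    SemilinearAut.toRingAut (levelFF K hK (N * ℓ) τ) x ∈ S.V ↔ x ∈ S.V := by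
  refine stable_of_two (SemilinearAut.toRingAut (levelFF K hK (N * ℓ) τ))
    (fun W => (∀ x ∈ gaussSubalgebra (Lvl K) N (baseRing A K), betaF (Lvl K) N ℓ x ∈ W) ∧
      (∀ ϖ : ↥(baseRing A K), Irreducible ϖ →
        algebraMap (Lvl K) (FF (Lvl K) (N * ℓ)) (ϖ : Lvl K) ∈ W.nonunits)) ?_
    (gaussVS (Lvl K) (N * ℓ) (baseRing A K)) S.V S.ne_gauss.symm
    ⟨S.beta_mem, fun ϖ hϖ => unif_mem_nonunits_secondVal K N ℓ S hϖ⟩
    (fun W hW => S.only_two W hW.1 hW.2)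
    (levelFF_mem_gaussVS_iff K hK (N * ℓ) hτ) x
  rintro W ⟨hW1, hW2⟩
  refine ⟨fun y hy => ?_, fun ϖ hϖ => ?_⟩
  · rw [ValuationSubring.mem_comap]
    show levelFF K hK (N * ℓ) τ • betaF (Lvl K) N ℓ y ∈ W
    rw [levelFF_smul_betaF]
    exact hW1 _ (levelFF_smul_mem_gaussSubalgebra K hK N hτ hy)
  · -- `τ ϖ` is again a uniformiser
    have hirr : Irreducible (baseAut K hK hτ ϖ) :=
      (MulEquiv.irreducible_iff (baseAut K hK hτ)).mpr hϖ
    have h1 := hW2 _ hirr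
    have h2 : levelFF K hK (N * ℓ) τ • algebraMap (Lvl K) (FF (Lvl K) (N * ℓ)) (ϖ : Lvl K) =
        algebraMap (Lvl K) (FF (Lvl K) (N * ℓ)) ((baseAut K hK hτ ϖ : ↥(baseRing A K)) : Lvl K) :=
      levelFF_smul_algebraMap K hK (N * ℓ) τ _
    rw [ValuationSubring.mem_nonunits_iff_or] at h1 ⊢
    rcases h1 with h1 | h1
    · left
      have h3 : levelFF K hK (N * ℓ) τ •
          algebraMap (Lvl K) (FF (Lvl K) (N * ℓ)) (ϖ : Lvl K) = 0 := by rw [h2, h1]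
      exact (smul_eq_zero_iff_eq _).mp h3
    · right
      rw [ValuationSubring.mem_comap]
      show levelFF K hK (N * ℓ) τ •
        (algebraMap (Lvl K) (FF (Lvl K) (N * ℓ)) (ϖ : Lvl K))⁻¹ ∉ W
      rw [smul_inv'', h2]
      exact h1

/-- **Inertia acts trivially on the residue field of `V₂`.** -/
theorem trivialOnResidue_secondVal {σ : Γ} (hσ : σ ∈ A.inertiaSubgroupIn ℚ) :
    TrivialOnResidue S.V (SemilinearAut.toRingAut (levelFF K hK (N * ℓ) σ)) := by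
  obtain ⟨ϖ, hϖ⟩ := IsDiscreteValuationRing.exists_irreducible ↥(baseRing A K)
  refine trivialOnResidue_of_levelMap K hK N ℓ hσ hϖ S.V
    (betaF (Lvl K) N ℓ : FF (Lvl K) N →+* FF (Lvl K) (N * ℓ))
    (fun x => levelFF_smul_betaF K hK N ℓ σ x) ?_ S.beta_mem
    (unif_mem_nonunits_secondVal K N ℓ S hϖ)
    (secondVal_stable K hK N ℓ S (mem_decompositionSubgroup_of_mem_inertia hσ)) ?_
  · show betaF (Lvl K) N ℓ (algebraMap ↥(baseRing A K) (FF (Lvl K) N) ϖ) = _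
    rw [algebraMap_base_eq, AlgHom.commutes]
    rfl
  · intro w hw
    obtain ⟨a, ha⟩ := S.deg_one w hw
    exact ⟨a, a.2, ha⟩

/-! ### Discreteness of `V₂` and invariance of its valuation -/

local instance isAlgebraicQb_V2 : Algebra.IsAlgebraic ℚ (AlgebraicClosure ℚ) :=
  AlgebraicClosure.isAlgebraic ℚ

/-- An embedding of a level into `ℂ`. -/
noncomputable def lvlToComplex : Lvl K →+* ℂ :=
  ((IsAlgClosed.lift : Qb →ₐ[ℚ] ℂ) : Qb →+* ℂ).comp (algebraMap (Lvl K) Qb)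

attribute [local instance] Fermat.Agent.N4F.E.BetaSide.algBeta in
/-- `F_K(N ℓ)` is algebraic over `β(F_K(N))`. -/
theorem exists_poly_betaF (hℓN : ¬ ℓ ∣ N) (b : FF (Lvl K) (N * ℓ)) :
    ∃ p : Polynomial (FF (Lvl K) N), p ≠ 0 ∧
      p.eval₂ (betaF (Lvl K) N ℓ : FF (Lvl K) N →+* FF (Lvl K) (N * ℓ)) b = 0 := by
  haveI := Fermat.Agent.N4F.E.BetaSide.finiteDimensional_beta (Lvl K) N ℓ (lvlToComplex K) hℓN
  obtain ⟨p, hp0, hp⟩ : IsAlgebraic (FF (Lvl K) N) b := Algebra.IsAlgebraic.isAlgebraic b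
  exact ⟨p, hp0, hp⟩

/-- Units of the Gauss ring of level `N` map to units of `V₂` under `β`. -/
theorem valuation_betaF_of_theta_ne_zero (u : gaussSubalgebra (Lvl K) N (baseRing A K))
    (hu : theta (Lvl K) N (baseRing A K) u ≠ 0) :
    S.V.valuation (betaF (Lvl K) N ℓ (u : FF (Lvl K) N)) = 1 := by
  have h1 : betaF (Lvl K) N ℓ (u : FF (Lvl K) N) ∈ S.V := S.beta_mem _ u.2
  have h2 : betaF (Lvl K) N ℓ ((u : FF (Lvl K) N))⁻¹ ∈ S.V :=
    S.beta_mem _ (inv_mem_of_theta_ne_zero (Lvl K) N (baseRing A K) u hu)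
  rw [map_inv₀] at h2
  have hu0 : (u : FF (Lvl K) N) ≠ 0 := by
    intro h0
    apply hu
    have : u = 0 := Subtype.ext h0
    rw [this, map_zero]
  have hb0 : S.V.valuation (betaF (Lvl K) N ℓ (u : FF (Lvl K) N)) ≠ 0 :=
    (Valuation.ne_zero_iff _).mpr ((map_ne_zero _).mpr hu0)
  have h3 := (S.V.valuation_le_one_iff _).mpr h1
  have h4 := (S.V.valuation_le_one_iff _).mpr h2
  rw [map_inv₀] at h4
  exact le_antisymm h3 ((inv_le_one₀ (zero_lt_iff.mpr hb0)).mp h4)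

/-- The values of `β(F_K(N))` at `V₂` are powers of `v₂(ϖ)`. -/
theorem exists_zpow_valuation_betaF {ϖ : ↥(baseRing A K)} (hϖ : Irreducible ϖ)
    (c : FF (Lvl K) N) (hc : c ≠ 0) :
    ∃ m : ℤ, S.V.valuation (betaF (Lvl K) N ℓ c) =
      S.V.valuation (algebraMap (Lvl K) (FF (Lvl K) (N * ℓ)) (ϖ : Lvl K)) ^ m := by
  have key : ∀ x : gaussSubalgebra (Lvl K) N (baseRing A K), x ≠ 0 →
      ∃ n : ℕ, S.V.valuation (betaF (Lvl K) N ℓ (x : FF (Lvl K) N)) =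
        S.V.valuation (algebraMap (Lvl K) (FF (Lvl K) (N * ℓ)) (ϖ : Lvl K)) ^ n := by
    intro x hx
    obtain ⟨n, u, hu, rfl⟩ := exists_eq_pow_mul (Lvl K) N (baseRing A K) hϖ x hx
    refine ⟨n, ?_⟩
    have h1 : betaF (Lvl K) N ℓ
        ((unif (Lvl K) N (baseRing A K) ϖ ^ n * u : gaussSubalgebra (Lvl K) N (baseRing A K)) :
          FF (Lvl K) N) =
        algebraMap (Lvl K) (FF (Lvl K) (N * ℓ)) (ϖ : Lvl K) ^ n *
          betaF (Lvl K) N ℓ (u : FF (Lvl K) N) := by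
      have h2 : ((unif (Lvl K) N (baseRing A K) ϖ ^ n * u :
          gaussSubalgebra (Lvl K) N (baseRing A K)) : FF (Lvl K) N) =
          algebraMap (Lvl K) (FF (Lvl K) N) (ϖ : Lvl K) ^ n * (u : FF (Lvl K) N) := rfl
      rw [h2, map_mul, map_pow, AlgHom.commutes]
    rw [h1, map_mul, map_pow, valuation_betaF_of_theta_ne_zero K N ℓ S u hu, mul_one]
  by_cases hmem : c ∈ gaussSubalgebra (Lvl K) N (baseRing A K)
  · obtain ⟨n, hn⟩ := key ⟨c, hmem⟩ (fun h => hc (congrArg Subtype.val h))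
    exact ⟨n, by rw [hn, zpow_natCast]⟩
  · rcases Fermat.Agent.N4F.E.GaussDVR.mem_or_inv_mem (Lvl K) N (baseRing A K) c hc with h | ⟨h, -⟩
    · exact absurd h hmem
    · obtain ⟨n, hn⟩ := key ⟨c⁻¹, h⟩
        (fun h0 => inv_ne_zero hc (congrArg Subtype.val h0))
      refine ⟨-n, ?_⟩
      have hn' : S.V.valuation (betaF (Lvl K) N ℓ c⁻¹) =
          S.V.valuation (algebraMap (Lvl K) (FF (Lvl K) (N * ℓ)) (ϖ : Lvl K)) ^ n := hn
      rw [map_inv₀, map_inv₀] at hn'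
      rw [zpow_neg, zpow_natCast, ← hn', inv_inv]

theorem algebraMap_unif_ne_zero {ϖ : ↥(baseRing A K)} (hϖ : Irreducible ϖ) :
    algebraMap (Lvl K) (FF (Lvl K) (N * ℓ)) (ϖ : Lvl K) ≠ 0 := by
  rw [Ne, map_eq_zero_iff _ (algebraMap (Lvl K) (FF (Lvl K) (N * ℓ))).injective]
  exact fun h => hϖ.ne_zero (Subtype.ext h)

/-- **The value group of `V₂` is generated by `v₂(ϖ)`** (the hypothesis `hdisc`). -/
theorem exists_zpow_valuation_secondVal (hℓN : ¬ ℓ ∣ N) {ϖ : ↥(baseRing A K)}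
    (hϖ : Irreducible ϖ) {b : FF (Lvl K) (N * ℓ)} (hb : b ≠ 0) :
    ∃ n : ℤ, S.V.valuation b =
      S.V.valuation (algebraMap (Lvl K) (FF (Lvl K) (N * ℓ)) (ϖ : Lvl K)) ^ n :=
  GammaDisc.exists_zpow_valuation_eq
    (betaF (Lvl K) N ℓ : FF (Lvl K) N →+* FF (Lvl K) (N * ℓ)) S.V
    (exists_poly_betaF K N ℓ hℓN) (algebraMap_unif_ne_zero K N ℓ hϖ)
    (unif_mem_nonunits_secondVal K N ℓ S hϖ) (S.ram_one ϖ hϖ)
    (exists_zpow_valuation_betaF K N ℓ S hϖ) hb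

/-- **The decomposition group preserves the valuation of `V₂`** (the hypothesis `hval`). -/
theorem valuation_levelFF_secondVal (hℓN : ¬ ℓ ∣ N) {τ : Γ}
    (hτ : τ ∈ A.decompositionSubgroup ℚ) (b : FF (Lvl K) (N * ℓ)) :
    S.V.valuation (SemilinearAut.toRingAut (levelFF K hK (N * ℓ) τ) b) = S.V.valuation b := by
  obtain ⟨ϖ, hϖ⟩ := IsDiscreteValuationRing.exists_irreducible ↥(baseRing A K)
  have hϖ0 := algebraMap_unif_ne_zero K N ℓ (A := A) hϖ
  refine GammaDisc.valuation_apply_eq S.V _ (secondVal_stable K hK N ℓ S hτ) ?_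
    (fun b hb => exists_zpow_valuation_secondVal K N ℓ S hℓN hϖ hb) hϖ0 b
  -- `τ ϖ` is again a uniformiser
  have hirr : Irreducible (baseAut K hK hτ ϖ) :=
    (MulEquiv.irreducible_iff (baseAut K hK hτ)).mpr hϖ
  have h2 : SemilinearAut.toRingAut (levelFF K hK (N * ℓ) τ)
      (algebraMap (Lvl K) (FF (Lvl K) (N * ℓ)) (ϖ : Lvl K)) =
      algebraMap (Lvl K) (FF (Lvl K) (N * ℓ)) ((baseAut K hK hτ ϖ : ↥(baseRing A K)) : Lvl K) :=
    levelFF_smul_algebraMap K hK (N * ℓ) τ _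
  rw [h2]
  have hτϖ0 := algebraMap_unif_ne_zero K N ℓ (A := A) hirr
  have h3 := S.ram_one ϖ hϖ _ (unif_mem_nonunits_secondVal K N ℓ S hirr)
  have h4 := S.ram_one _ hirr _ (unif_mem_nonunits_secondVal K N ℓ S hϖ)
  rw [← S.V.valuation_le_one_iff, map_mul, map_inv₀] at h3 h4
  have hv0 : 0 < S.V.valuation (algebraMap (Lvl K) (FF (Lvl K) (N * ℓ)) (ϖ : Lvl K)) :=
    zero_lt_iff.mpr ((Valuation.ne_zero_iff _).mpr hϖ0)
  have hv0' : 0 < S.V.valuation (algebraMap (Lvl K) (FF (Lvl K) (N * ℓ))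
      ((baseAut K hK hτ ϖ : ↥(baseRing A K)) : Lvl K)) :=
    zero_lt_iff.mpr ((Valuation.ne_zero_iff _).mpr hτϖ0)
  rw [mul_inv_le_iff₀ hv0, one_mul] at h3
  rw [mul_inv_le_iff₀ hv0', one_mul] at h4
  exact le_antisymm h3 h4

/-- **Second differences are principal units at `V₂`.** -/
theorem levelFF_second_diff_secondVal (hℓN : ¬ ℓ ∣ N) {σ : Γ} (hσ : σ ∈ A.inertiaSubgroupIn ℚ)
    {b : FF (Lvl K) (N * ℓ)} (hb : b ≠ 0) :
    levelFF K hK (N * ℓ) σ • (levelFF K hK (N * ℓ) σ • b) * b /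
        (levelFF K hK (N * ℓ) σ • b) ^ 2 - 1 ∈ S.V.nonunits :=
  (trivialOnResidue_secondVal K hK N ℓ S hσ).second_diff hb
    (valuation_levelFF_secondVal K hK N ℓ S hℓN (mem_decompositionSubgroup_of_mem_inertia hσ) b)

/-- A nonunit of the Gauss valuation ring is divisible by the uniformiser. -/
theorem mul_inv_mem_gaussVS (M : ℕ) [NeZero M] {ϖ : ↥(baseRing A K)} (hϖ : Irreducible ϖ)
    {x : FF (Lvl K) M} (hx : x ∈ (gaussVS (Lvl K) M (baseRing A K)).nonunits) :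
    x * (algebraMap (Lvl K) (FF (Lvl K) M) (ϖ : Lvl K))⁻¹ ∈ gaussVS (Lvl K) M (baseRing A K) := by
  have hxG : x ∈ gaussSubalgebra (Lvl K) M (baseRing A K) :=
    (gaussVS (Lvl K) M (baseRing A K)).nonunits_subset hx
  have h0 := (mem_nonunits_gaussVS_iff (Lvl K) M (baseRing A K) hxG).mp hx
  obtain ⟨y, hy⟩ := exists_eq_unif_mul (Lvl K) M (baseRing A K) hϖ ⟨x, hxG⟩ h0
  have hy' : x = algebraMap (Lvl K) (FF (Lvl K) M) (ϖ : Lvl K) * (y : FF (Lvl K) M) :=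
    congrArg Subtype.val hy
  have hϖ0 : algebraMap (Lvl K) (FF (Lvl K) M) (ϖ : Lvl K) ≠ 0 := by
    rw [Ne, map_eq_zero_iff _ (algebraMap (Lvl K) (FF (Lvl K) M)).injective]
    exact fun h => hϖ.ne_zero (Subtype.ext h)
  rw [hy', mul_comm, ← mul_assoc, inv_mul_cancel₀ hϖ0, one_mul]
  exact y.2

/-- **The shape `hh`**: the second difference of any `b ≠ 0` is `≡ 1` modulo `ϖ (V₁ ∩ V₂)`. -/
theorem exists_second_diff_eq (hℓN : ¬ ℓ ∣ N) {σ : Γ} (hσ : σ ∈ A.inertiaSubgroupIn ℚ)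
    {ϖ : ↥(baseRing A K)} (hϖ : Irreducible ϖ) {b : FF (Lvl K) (N * ℓ)} (hb : b ≠ 0) :
    ∃ w : FF (Lvl K) (N * ℓ), w ∈ gaussVS (Lvl K) (N * ℓ) (baseRing A K) ∧ w ∈ S.V ∧
      levelFF K hK (N * ℓ) σ • (levelFF K hK (N * ℓ) σ • b) * b /
          (levelFF K hK (N * ℓ) σ • b) ^ 2 - 1 =
        algebraMap (Lvl K) (FF (Lvl K) (N * ℓ)) (ϖ : Lvl K) * w := by
  have hϖ0 := algebraMap_unif_ne_zero K N ℓ (A := A) hϖ
  refine ⟨_ * (algebraMap (Lvl K) (FF (Lvl K) (N * ℓ)) (ϖ : Lvl K))⁻¹,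
    mul_inv_mem_gaussVS K (N * ℓ) hϖ (levelFF_second_diff_gaussVS K hK (N * ℓ) hσ hb),
    S.ram_one ϖ hϖ _ (levelFF_second_diff_secondVal K hK N ℓ S hℓN hσ hb), ?_⟩
  exact (mul_div_cancel₀ _ hϖ0).symm.trans (by rw [div_eq_mul_inv])

end Fermat.Agent.P3G.GammaV2
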