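/-
P3-G block (G-N), pure algebra (Mathlib only): **descent of `ϖ`-divisibility from the integral closure
of the generic local ring to the integral closure of the chart.**

`R₀` an integrally closed domain with fraction field `F₀`, `ϖ ∈ R₀` a prime element, `W ⊆ F₀` an
integrally closed domain with fraction field `F₀` all of whose elements are fractions `c / d` with
`c, d ∈ R₀`, `ϖ ∤ d` (in the application `W = (R₀)_(ϖ)`, the Gauss valuation ring), `F' / F₀` an
algebraic field extension.  If `y ∈ F'` is integral over `W` and `ϖ y` is integral over `R₀`, then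
`y` is integral over `R₀`.  (Proof: the minimal polynomial of `ϖ y` over `F₀` is the root-scaling
of that of `y`; compare coefficients and use that `ϖ` is prime.)
-/
import Mathlib

set_option autoImplicit false

namespace Fermat.Agent.P3G.Descent

open Polynomial

variable {R₀ W F₀ F' : Type*} [CommRing R₀] [IsDomain R₀] [IsIntegrallyClosed R₀]
  [CommRing W] [IsDomain W] [IsIntegrallyClosed W]
  [Field F₀] [Algebra R₀ F₀] [IsFractionRing R₀ F₀] [Algebra W F₀] [IsFractionRing W F₀]
  [Field F'] [Algebra F₀ F'] [Algebra R₀ F'] [IsScalarTower R₀ F₀ F'] [Algebra W F']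
  [IsScalarTower W F₀ F']

/-- **Descent of integrality along a prime element.** -/
theorem isIntegral_of_isIntegral_mul {ϖ : R₀} (hϖ : Prime ϖ)
    (hW : ∀ w : W, ∃ c d : R₀, ¬ ϖ ∣ d ∧
      algebraMap W F₀ w * algebraMap R₀ F₀ d = algebraMap R₀ F₀ c)
    {y : F'} (hx : IsIntegral R₀ (algebraMap R₀ F' ϖ * y)) (hy : IsIntegral W y) :
    IsIntegral R₀ y := by
  have hinj : Function.Injective (algebraMap R₀ F₀) := IsFractionRing.injective R₀ F₀
  set a : F₀ := algebraMap R₀ F₀ ϖ with ha
  have ha0 : a ≠ 0 := by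
    rw [ha, Ne, map_eq_zero_iff _ hinj]
    exact hϖ.ne_zero
  have hyF : IsIntegral F₀ y := hy.tower_top
  have h1 : minpoly F₀ (a • y) = (minpoly F₀ y).scaleRoots a :=
    IsIntegrallyClosed.minpoly_smul ha0 hyF
  have hay : a • y = algebraMap R₀ F' ϖ * y := by
    rw [Algebra.smul_def, ha, ← IsScalarTower.algebraMap_apply]
  have h2 : minpoly F₀ (a • y) =
      (minpoly R₀ (algebraMap R₀ F' ϖ * y)).map (algebraMap R₀ F₀) := by
    rw [hay]
    exact minpoly.isIntegrallyClosed_eq_field_fractions' F₀ hx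
  have h3 : minpoly F₀ y = (minpoly W y).map (algebraMap W F₀) :=
    minpoly.isIntegrallyClosed_eq_field_fractions' F₀ hy
  set p := minpoly R₀ (algebraMap R₀ F' ϖ * y) with hp
  set q := minpoly W y with hq
  set n := (minpoly F₀ y).natDegree with hn
  have hcoeff : ∀ i, algebraMap R₀ F₀ (p.coeff i) = algebraMap W F₀ (q.coeff i) * a ^ (n - i) := by
    intro i
    have := congrArg (fun f => f.coeff i) (h2.symm.trans h1)
    simp only [coeff_map, coeff_scaleRoots] at this
    rw [this, ← hn]
    conv_lhs => rw [h3, coeff_map]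
  have hlift : ∀ i, ∃ r : R₀, algebraMap R₀ F₀ r = algebraMap W F₀ (q.coeff i) := by
    intro i
    obtain ⟨c, d, hd, hcd⟩ := hW (q.coeff i)
    have e1 : p.coeff i * d = c * ϖ ^ (n - i) := by
      apply hinj
      rw [map_mul, map_mul, map_pow, hcoeff i, ← hcd, ← ha]
      ring
    have e2 : ϖ ^ (n - i) ∣ p.coeff i :=
      hϖ.pow_dvd_of_dvd_mul_right (n - i) hd ⟨c, by rw [e1]; ring⟩
    obtain ⟨r, hr⟩ := e2
    refine ⟨r, ?_⟩
    have e3 := hcoeff i
    rw [hr, map_mul, map_pow, ← ha] at e3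
    have ha' : a ^ (n - i) ≠ 0 := pow_ne_zero _ ha0
    apply mul_left_cancel₀ ha'
    rw [e3]
    ring
  have hl : minpoly F₀ y ∈ lifts (algebraMap R₀ F₀) := by
    rw [lifts_iff_coeff_lifts]
    intro i
    rw [h3, coeff_map]
    obtain ⟨r, hr⟩ := hlift i
    exact ⟨r, hr⟩
  obtain ⟨Q, hQ, -, hQm⟩ := lifts_and_degree_eq_and_monic hl (minpoly.monic hyF)
  refine ⟨Q, hQm, ?_⟩
  have h4 : aeval y (Q.map (algebraMap R₀ F₀)) = 0 := by
    rw [hQ]
    exact minpoly.aeval F₀ y
  rwa [aeval_map_algebraMap, aeval_def] at h4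

end Fermat.Agent.P3G.Descent
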