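/-
P3-G block (G-N1) (helper13), base lemmas for the two-component fibre at level `N ℓ`:

* abstract (KummerPlace setting: `A` a DVR, `C` its integral closure in a separable extension of degree
  `l + 1`, two places `π₁` (twisted by `φ`), `π₂` (residue degree one)):
  `map_maximalIdeal_eq_inf : 𝔪_A C = ker π₁ ⊓ ker π₂` (the fibre of `C` is reduced),
  `exists_theta_eq : ∀ b, ∃ a, π₂ b = θ a` (residue degree one of `π₂`);
* `exists_betaOut_range` : the output `AlphaSide.BetaOut` of the `β`-side (block E) TOGETHER with the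
  statement that the second place `ev` only takes values of `θ_N` (needed for the components
  `θ₂(R) = θ(R_N)`), which `BetaSide.exists_second_place` hides.
-/
import Mathlib
import Fermat.Agent.N4F.E.AlphaSideFinal
import Fermat.Agent.N4.Cover.Main
import Fermat.Agent.P3G.Descent

set_option autoImplicit false
set_option linter.unusedSectionVars false
set_option linter.style.haveILetI false

open ModularCurve Fermat.Agent.S28.Gauss Fermat.Agent.N4.Setting Fermat.Agent.N4.FibreEmbedding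
open Fermat.Agent.N4.Chart
open Fermat.Agent.N4F.E.DegreeLevelRaise Fermat.Agent.N4F.E.GaussDVR AlgebraicCurve Polynomial
open Fermat.Agent.N4F.E IsLocalRing

noncomputable section

namespace Fermat.Agent.P3G.FibreBase

/-! ### Abstract: the fibre of the integral closure of a DVR with a Kummer pair -/

section Abstract

variable {A F L : Type*} [CommRing A] [IsDomain A] [IsDiscreteValuationRing A] [Field F]
  [Algebra A F] [IsFractionRing A F] [Field L] [Algebra F L] [Algebra A L] [IsScalarTower A F L]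
  [FiniteDimensional F L] [Algebra.IsSeparable F L]
  {Ω : Type*} [Field Ω] {l : ℕ} [hl : Fact l.Prime] [CharP Ω l]
  (hdeg : Module.finrank F L = l + 1)
  (θ : A →+* Ω) (hθ : ∀ a ∈ maximalIdeal A, θ a = 0) (φ : Ω →+* Ω)
  (π₁ : integralClosure A L →+* Ω)
  (hπ₁ : ∀ a : A, π₁ (algebraMap A (integralClosure A L) a) = φ (θ a))
  (x₀ : integralClosure A L) (t₀ : A) (hx₀ : π₁ x₀ ^ l = φ (θ t₀))
  (ht₀ : ∀ a : A, θ a ^ l ≠ θ t₀)
  (π₂ : integralClosure A L →+* Ω)
  (hπ₂ : ∀ a : A, π₂ (algebraMap A (integralClosure A L) a) = θ a)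
  (hne : RingHom.ker π₂ ≠ RingHom.ker π₁)

include hdeg hθ hπ₁ hx₀ ht₀ hπ₂ hne in
/-- `𝔪_A C = ker π₁ ⊓ ker π₂`: the fibre of `C` is reduced. -/
theorem map_maximalIdeal_eq_inf :
    (maximalIdeal A).map (algebraMap A (integralClosure A L)) =
      RingHom.ker π₁ ⊓ RingHom.ker π₂ := by
  have h1 := TwoPrimes.isMaximal_liesOver_ker F L π₁
    (fun a ha => by rw [hπ₁, hθ a ha, map_zero])
  haveI := h1.1
  haveI := h1.2
  have hx : x₀ ^ l - algebraMap A (integralClosure A L) t₀ ∈ RingHom.ker π₁ := by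
    rw [RingHom.mem_ker, map_sub, map_pow, hπ₁, hx₀, sub_self]
  have ht : ∀ a : A, a ^ l - t₀ ∉ maximalIdeal A := by
    intro a ha
    have := hθ _ ha
    rw [map_sub, map_pow, sub_eq_zero] at this
    exact ht₀ a this
  obtain ⟨P₂, -, -, -, hpair, hmap, -, -⟩ :=
    TwoPrimes.exists_second_prime_integralClosure (K := F) (L := L) hl.out hdeg
      (RingHom.ker π₁) x₀ t₀ hx ht
  have h2 := TwoPrimes.isMaximal_liesOver_ker F L π₂ (fun a ha => by rw [hπ₂, hθ a ha])
  have hmem : RingHom.ker π₂ ∈ (maximalIdeal A).primesOver (integralClosure A L) :=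
    ⟨h2.1.isPrime, h2.2⟩
  rw [hpair] at hmem
  rcases hmem with h | h
  · exact absurd h hne
  · have h' : RingHom.ker π₂ = P₂ := h
    rw [hmap, h']

include hdeg hθ hπ₁ hx₀ ht₀ hπ₂ hne in
/-- `π₂` has residue degree one: its values are values of `θ`. -/
theorem exists_theta_eq (b : integralClosure A L) : ∃ a : A, π₂ b = θ a := by
  obtain ⟨a, ha⟩ := (KummerPlace.primesOver_eq hdeg θ hθ φ π₁ hπ₁ x₀ t₀ hx₀ ht₀ π₂ hπ₂ hne).2 b
  refine ⟨a, ?_⟩
  rw [RingHom.mem_ker, map_sub, hπ₂, sub_eq_zero] at ha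
  exact ha

end Abstract

/-! ### The `β`-side output with its range -/

section BetaPlug

variable (K : Type) [Field K] [CharZero K] (N : ℕ) [NeZero N] (ℓ : ℕ) [Fact ℓ.Prime]
  (O : Subring K) [IsDiscreteValuationRing ↥O] [IsFractionRing ↥O K]
  [CharP (IsLocalRing.ResidueField ↥O) ℓ]

set_option quotPrecheck false in
local notation "κ" => IsLocalRing.ResidueField ↥O

attribute [local instance] BetaSide.algBeta BetaSide.algGL BetaSide.algGC BetaSide.commRingCβ

/-- The output of the `β`-side (`AlphaSide.BetaOut`) together with: the values of the second place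
`ev` are values of `θ_N` (residue degree one). -/
theorem exists_betaOut_range (hℓN : ¬ ℓ ∣ N) (ι : K →+* ℂ)
    (hprime : (fibreIdeal K N O (Rfin K N O)).IsPrime)
    (hA2 : ∀ x : ↥(gaussSubalgebra K N O),
      theta K N O x ∈ modularFunctionFieldFullC (IsLocalRing.ResidueField ↥O) N) :
    ∃ (S : Subring (FF K (N * ℓ)))
      (ev : ↥S →+* LaurentSeries (IsLocalRing.ResidueField ↥O)),
      AlphaSide.BetaOut K N ℓ O S ev ∧
        ∀ y : S, ∃ a : ↥(gaussSubalgebra K N O), ev y = theta K N O a := by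
  obtain ⟨ev, hev, hne⟩ := BetaSide.exists_ev K N ℓ O ι hℓN
  have hα := BetaSide.alpha_mem K N ℓ O ι hℓN ev hev hne hprime
  let incl : ↥(BetaSide.Cβ K N ℓ O).toSubring →+* ↥(BetaSide.Cβ K N ℓ O) :=
    ((BetaSide.Cβ K N ℓ O).toSubring.subtype).codRestrict (BetaSide.Cβ K N ℓ O) (fun y => y.2)
  refine ⟨(BetaSide.Cβ K N ℓ O).toSubring, ev.comp incl, ⟨?_, ?_, ?_⟩, ?_⟩
  · intro y hy
    exact BetaSide.mem_of_isIntegral_toSubring y hy
  · intro a
    exact ⟨(BetaSide.Cβ K N ℓ O).algebraMap_mem a, hev a⟩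
  · intro a
    exact ⟨hα a a.2, BetaSide.ev_alphaG K N ℓ O hℓN ev hev hA2 hα a⟩
  · intro y
    haveI := BetaSide.finiteDimensional_beta K N ℓ ι hℓN
    haveI : Algebra.IsSeparable (FF K N) (FF K (N * ℓ)) := inferInstance
    haveI : CharP (LaurentSeries κ) ℓ := BetaSide.charP_laurent K ℓ O
    exact exists_theta_eq (BetaSide.finrank_beta K N ℓ ι hℓN) (theta K N O)
      (BetaSide.theta_maximalIdeal K N O) (qExpand κ ℓ) (BetaSide.pi₁ K N ℓ O)
      (BetaSide.pi₁_algebraMap K N ℓ O) (BetaSide.x₀ K N ℓ O) (BetaSide.t₀ K N O)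
      (BetaSide.pi₁_x₀_pow K N ℓ O) (BetaSide.theta_pow_ne K N ℓ O) ev hev hne (incl y)

end BetaPlug

end Fermat.Agent.P3G.FibreBase
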