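import Fermat.Agent.N4F.E.ChartIntegrality
import Fermat.Agent.N4F.E.Integrality

/-!
# P3-G / (G-N) : chart integrality of `Ψ_x` at a finite level `(K, O)`

Level `(K, O)` (Setting language), `α := alphaF K N ℓ`, `β := betaF K N ℓ : FF K N →ₐ[K] FF K (N ℓ)`.
For `x ∈ Rfin K N O` (the integral closure of `O[j]` in `FF K N`):

* `coeff_charpolyAlong_mem_Rfin` : every coefficient of `Ψ_x = charpolyAlong β hfin (α x)` lies in
  `Rfin K N O`;
* `coeff_charpolyAlong_swap_mem_Rfin` : the same for `charpolyAlong α hfin (β x)`;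
* `exists_lift_Rfin`, `exists_lift_swap_Rfin` : monic lifts to `(Rfin K N O)[X]`.

This is the level version of `ChartIntegrality.coeff_charpolyAlong_mem_RtFin` (which is stated over
`(Q̄, A)`); it is the integrality input of the local description
`R₊(M)[X]/(Ψ_z) → R₊(Mℓ)` of the correspondence `T_ℓ` in (G-N).
-/

set_option autoImplicit false
set_option linter.style.haveILetI false

namespace Fermat.Agent.P3G.LevelIntegrality

open Polynomial AlgebraicCurve ModularCurve
open Fermat.Agent.N4.Setting Fermat.Agent.N4.Chart Fermat.Agent.N4.Kronecker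
open Fermat.Agent.N4.ModPolyDescent Fermat.Agent.N4.ModPolyShape
open Fermat.Agent.N4F.E.DegreeLevelRaise Fermat.Agent.N4F.E.ChartIntegrality
open Fermat.Agent.N4F.E

variable (K : Type) [Field K] (N : ℕ) [NeZero N] (ℓ : ℕ) [NeZero ℓ] (O : Subring K)

/-- `α j` is integral over `β(O[j])`. -/
theorem isIntegralElem_alphaF_jF :
    (viaHom (betaF K N ℓ) (Algebra.adjoin ↥O {jF K N})).IsIntegralElem
      (alphaF K N ℓ (jF K N)) :=
  isIntegralElem_of_evZ_monic _ _ (Algebra.subset_adjoin (Set.mem_singleton _)) (modPoly ℓ)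
    (modPoly_monic ℓ) (Integrality.evZ_modPoly_beta_alpha K N ℓ)

/-- `β j` is integral over `α(O[j])`. -/
theorem isIntegralElem_betaF_jF :
    (viaHom (alphaF K N ℓ) (Algebra.adjoin ↥O {jF K N})).IsIntegralElem
      (betaF K N ℓ (jF K N)) :=
  isIntegralElem_of_evZ_monic _ _ (Algebra.subset_adjoin (Set.mem_singleton _)) (modPoly ℓ)
    (modPoly_monic ℓ) (Integrality.evZ_modPoly_alpha_beta K N ℓ)

/-- **Chart integrality at a level.** `x ∈ Rfin K N O ⇒` every coefficient of
`Ψ_x = charpolyAlong β hfin (α x)` lies in `Rfin K N O`. -/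
theorem coeff_charpolyAlong_mem_Rfin (hfin : FiniteAlong K (betaF K N ℓ)) {x : FF K N}
    (hx : x ∈ Rfin K N O) (i : ℕ) :
    (GenericFibreAlong.charpolyAlong (betaF K N ℓ) hfin (alphaF K N ℓ x)).coeff i ∈
      Rfin K N O := by
  rw [mem_chartAlg_iff] at hx ⊢
  refine isIntegral_coeff_charpolyAlong (betaF K N ℓ) hfin (Algebra.adjoin ↥O {jF K N})
    (isIntegralElem_alpha (alphaF K N ℓ) (betaF K N ℓ) _ {jF K N} ?_ hx) i
  rintro s rfl
  exact isIntegralElem_alphaF_jF K N ℓ O

/-- The swapped order: `x ∈ Rfin K N O ⇒` every coefficient of `charpolyAlong α hfin (β x)` lies in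
`Rfin K N O`. -/
theorem coeff_charpolyAlong_swap_mem_Rfin (hfin : FiniteAlong K (alphaF K N ℓ)) {x : FF K N}
    (hx : x ∈ Rfin K N O) (i : ℕ) :
    (GenericFibreAlong.charpolyAlong (alphaF K N ℓ) hfin (betaF K N ℓ x)).coeff i ∈
      Rfin K N O := by
  rw [mem_chartAlg_iff] at hx ⊢
  refine isIntegral_coeff_charpolyAlong (alphaF K N ℓ) hfin (Algebra.adjoin ↥O {jF K N})
    (isIntegralElem_alpha (betaF K N ℓ) (alphaF K N ℓ) _ {jF K N} ?_ hx) i
  rintro s rfl
  exact isIntegralElem_betaF_jF K N ℓ O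

/-- `Ψ_x` has a monic lift to `Rfin K N O` for `x ∈ Rfin K N O`. -/
theorem exists_lift_Rfin (hfin : FiniteAlong K (betaF K N ℓ)) {x : FF K N}
    (hx : x ∈ Rfin K N O) :
    ∃ χ : (Rfin K N O)[X], χ.Monic ∧ χ.map (algebraMap (Rfin K N O) (FF K N)) =
      GenericFibreAlong.charpolyAlong (betaF K N ℓ) hfin (alphaF K N ℓ x) := by
  have hl : GenericFibreAlong.charpolyAlong (betaF K N ℓ) hfin (alphaF K N ℓ x) ∈
      Polynomial.lifts (algebraMap (Rfin K N O) (FF K N)) := by
    rw [Polynomial.lifts_iff_coeff_lifts]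
    intro n
    exact ⟨⟨_, coeff_charpolyAlong_mem_Rfin K N ℓ O hfin hx n⟩, rfl⟩
  obtain ⟨χ, hχ, -, hm⟩ := Polynomial.lifts_and_degree_eq_and_monic hl
    (GenericFibreAlong.charpolyAlong_monic _ hfin _)
  exact ⟨χ, hm, hχ⟩

/-- `charpolyAlong α hfin (β x)` has a monic lift to `Rfin K N O` for `x ∈ Rfin K N O`. -/
theorem exists_lift_swap_Rfin (hfin : FiniteAlong K (alphaF K N ℓ)) {x : FF K N}
    (hx : x ∈ Rfin K N O) :
    ∃ χ : (Rfin K N O)[X], χ.Monic ∧ χ.map (algebraMap (Rfin K N O) (FF K N)) =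
      GenericFibreAlong.charpolyAlong (alphaF K N ℓ) hfin (betaF K N ℓ x) := by
  have hl : GenericFibreAlong.charpolyAlong (alphaF K N ℓ) hfin (betaF K N ℓ x) ∈
      Polynomial.lifts (algebraMap (Rfin K N O) (FF K N)) := by
    rw [Polynomial.lifts_iff_coeff_lifts]
    intro n
    exact ⟨⟨_, coeff_charpolyAlong_swap_mem_Rfin K N ℓ O hfin hx n⟩, rfl⟩
  obtain ⟨χ, hχ, -, hm⟩ := Polynomial.lifts_and_degree_eq_and_monic hl
    (GenericFibreAlong.charpolyAlong_monic _ hfin _)
  exact ⟨χ, hm, hχ⟩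

/-! ### Cayley–Hamilton for `charpolyAlong` -/

section CayleyHamilton

variable {K' F F' : Type*} [Field K'] [Field F] [Field F'] [Algebra K' F] [Algebra K' F']

/-- **Cayley–Hamilton**: `Ψ_g(g) = 0`, where the coefficients of `Ψ_g = charpolyAlong φ hfin g` act
through `φ`. -/
theorem eval₂_charpolyAlong (φ : F →ₐ[K'] F') (hfin : FiniteAlong K' φ) (g : F') :
    Polynomial.eval₂ (φ : F →+* F') g (GenericFibreAlong.charpolyAlong φ hfin g) = 0 := by
  letI := algebraAlong φ
  haveI : Module.Finite F F' := hfin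
  have h := LinearMap.aeval_self_charpoly (Algebra.lmul F F' g)
  have h2 : Polynomial.aeval (Algebra.lmul F F' g) (Algebra.lmul F F' g).charpoly =
      Algebra.lmul F F' (Polynomial.aeval g (Algebra.lmul F F' g).charpoly) :=
    Polynomial.aeval_algHom_apply (Algebra.lmul F F') g _
  rw [h2] at h
  have h3 : Algebra.lmul F F' (Polynomial.aeval g (Algebra.lmul F F' g).charpoly) 1 = 0 := by
    rw [h]; rfl
  have h4 : Algebra.lmul F F' (Polynomial.aeval g (Algebra.lmul F F' g).charpoly) 1 =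
      Polynomial.aeval g (Algebra.lmul F F' g).charpoly * 1 := rfl
  rw [h4, mul_one] at h3
  exact h3

end CayleyHamilton

/-! ### The level maps on the finite charts -/

section Charts

/-- `α` maps the finite chart of level `N` into the finite chart of level `N ℓ`. -/
theorem alphaF_mem_Rfin {x : FF K N} (hx : x ∈ Rfin K N O) :
    alphaF K N ℓ x ∈ Rfin K (N * ℓ) O := by
  rw [mem_chartAlg_iff, ← alphaF_jF K N ℓ]
  exact Integrality.isIntegral_alphaF_of_mem_Rfin_self K N ℓ O hx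

/-- `β` maps the finite chart of level `N` into the finite chart of level `N ℓ`
(`j(q^ℓ)` is integral over `ℤ[j(q)]`). -/
theorem betaF_mem_Rfin {x : FF K N} (hx : x ∈ Rfin K N O) :
    betaF K N ℓ x ∈ Rfin K (N * ℓ) O := by
  rw [mem_chartAlg_iff, ← alphaF_jF K N ℓ]
  exact Integrality.isIntegral_betaF_of_mem_Rfin K N ℓ O hx

/-- `α` on the finite charts. -/
noncomputable def alphaR : Rfin K N O →ₐ[↥O] Rfin K (N * ℓ) O :=
  (((alphaF K N ℓ).restrictScalars ↥O).comp (Rfin K N O).val).codRestrict (Rfin K (N * ℓ) O)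
    fun x => alphaF_mem_Rfin K N ℓ O x.2

/-- `β` on the finite charts. -/
noncomputable def betaR : Rfin K N O →ₐ[↥O] Rfin K (N * ℓ) O :=
  (((betaF K N ℓ).restrictScalars ↥O).comp (Rfin K N O).val).codRestrict (Rfin K (N * ℓ) O)
    fun x => betaF_mem_Rfin K N ℓ O x.2

@[simp] theorem coe_alphaR (x : Rfin K N O) :
    ((alphaR K N ℓ O x : Rfin K (N * ℓ) O) : FF K (N * ℓ)) = alphaF K N ℓ (x : FF K N) := rfl

@[simp] theorem coe_betaR (x : Rfin K N O) :
    ((betaR K N ℓ O x : Rfin K (N * ℓ) O) : FF K (N * ℓ)) = betaF K N ℓ (x : FF K N) := rfl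

theorem alphaR_injective : Function.Injective (alphaR K N ℓ O) := fun _ _ h =>
  Subtype.ext ((alphaF K N ℓ).injective (congrArg Subtype.val h))

theorem betaR_injective : Function.Injective (betaR K N ℓ O) := fun _ _ h =>
  Subtype.ext ((betaF K N ℓ).injective (congrArg Subtype.val h))

/-- **The correspondence relation on the charts**: for `z ∈ Rfin K N O` and a lift
`χ ∈ (Rfin K N O)[X]` of `Ψ_z = charpolyAlong β hfin (α z)`, `χ^β(α z) = 0` in the chart of level
`N ℓ`. -/
theorem eval₂_betaR_lift (hfin : FiniteAlong K (betaF K N ℓ)) (z : Rfin K N O)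
    {χ : (Rfin K N O)[X]} (hχ : χ.map (algebraMap (Rfin K N O) (FF K N)) =
      GenericFibreAlong.charpolyAlong (betaF K N ℓ) hfin (alphaF K N ℓ (z : FF K N))) :
    Polynomial.eval₂ (betaR K N ℓ O : Rfin K N O →+* Rfin K (N * ℓ) O) (alphaR K N ℓ O z) χ = 0 := by
  apply Subtype.val_injective
  have h1 := Polynomial.hom_eval₂ χ (betaR K N ℓ O : Rfin K N O →+* Rfin K (N * ℓ) O)
    (Rfin K (N * ℓ) O).val.toRingHom (alphaR K N ℓ O z)
  have h2 : ((Rfin K (N * ℓ) O).val.toRingHom).comp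
      (betaR K N ℓ O : Rfin K N O →+* Rfin K (N * ℓ) O) =
      ((betaF K N ℓ : FF K N →+* FF K (N * ℓ))).comp (algebraMap (Rfin K N O) (FF K N)) :=
    RingHom.ext fun _ => rfl
  have h3 := eval₂_charpolyAlong (betaF K N ℓ) hfin (alphaF K N ℓ (z : FF K N))
  rw [← hχ, Polynomial.eval₂_map] at h3
  rw [h2] at h1
  exact h1.trans h3

/-- The swapped correspondence relation: for a lift `χ` of `charpolyAlong α hfin (β z)`,
`χ^α(β z) = 0`. -/
theorem eval₂_alphaR_lift (hfin : FiniteAlong K (alphaF K N ℓ)) (z : Rfin K N O)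
    {χ : (Rfin K N O)[X]} (hχ : χ.map (algebraMap (Rfin K N O) (FF K N)) =
      GenericFibreAlong.charpolyAlong (alphaF K N ℓ) hfin (betaF K N ℓ (z : FF K N))) :
    Polynomial.eval₂ (alphaR K N ℓ O : Rfin K N O →+* Rfin K (N * ℓ) O) (betaR K N ℓ O z) χ = 0 := by
  apply Subtype.val_injective
  have h1 := Polynomial.hom_eval₂ χ (alphaR K N ℓ O : Rfin K N O →+* Rfin K (N * ℓ) O)
    (Rfin K (N * ℓ) O).val.toRingHom (betaR K N ℓ O z)
  have h2 : ((Rfin K (N * ℓ) O).val.toRingHom).comp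
      (alphaR K N ℓ O : Rfin K N O →+* Rfin K (N * ℓ) O) =
      ((alphaF K N ℓ : FF K N →+* FF K (N * ℓ))).comp (algebraMap (Rfin K N O) (FF K N)) :=
    RingHom.ext fun _ => rfl
  have h3 := eval₂_charpolyAlong (alphaF K N ℓ) hfin (betaF K N ℓ (z : FF K N))
  rw [← hχ, Polynomial.eval₂_map] at h3
  rw [h2] at h1
  exact h1.trans h3

end Charts

end Fermat.Agent.P3G.LevelIntegrality
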