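/-
P3-G block (G-N) (helper13): **the Gauss reduction of the finite chart and its range.**

Level `(K, O)` (Setting language), `κ` the residue field of `O`.
* `thetaFin K M O : Rfin K M O →+* κ((q))` the Gauss reduction on the finite chart of level `M`;
* `RbarFin K M O` its range (`quotEquivRbarFin : Rfin / ϖ ≃+* RbarFin`), a Dedekind domain
  (`isDedekindDomain_RbarFin`, from (S)) which is not a field (`not_isField_RbarFin`);
* `exists_sub_algebraMap_mem` : closed points of the special fibre are `κ`-rational (`κ` alg. closed).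
-/
import Mathlib
import Fermat.Agent.P3G.FibreBase
import Fermat.Agent.P3G.CrossingLaurent
import Fermat.Agent.P3G.LevelIntegrality
import Fermat.Agent.N4.S18Glue.NotField
import Fermat.Agent.N4.SmoothDescent
import Fermat.Agent.N4F.C.ChartRange

set_option autoImplicit false
set_option linter.unusedSectionVars false
set_option linter.style.haveILetI false

open ModularCurve Fermat.Agent.S28.Gauss Fermat.Agent.N4.Setting Fermat.Agent.N4.FibreEmbedding
open Fermat.Agent.N4.Chart
open Fermat.Agent.N4F.E.DegreeLevelRaise Fermat.Agent.N4F.E.GaussDVR AlgebraicCurve Polynomial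
open Fermat.Agent.N4F.E IsLocalRing

noncomputable section

namespace Fermat.Agent.P3G.RbarFin

/-! ### The Gauss reduction on a finite chart and its range -/

section Level

variable (K : Type) [Field K] [CharZero K] (M : ℕ) [NeZero M]
  (O : Subring K) [IsDiscreteValuationRing ↥O] [IsFractionRing ↥O K]

set_option quotPrecheck false in
local notation "κ" => IsLocalRing.ResidueField ↥O

theorem sFin_le_gauss : ({jF K M} : Set (FF K M)) ⊆ (gaussSubalgebra K M O : Set (FF K M)) :=
  Set.singleton_subset_iff.mpr (jF_mem_gaussSubalgebra K M O)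

/-- The Gauss reduction on the finite chart of level `M`. -/
def thetaFin : ↥(Rfin K M O) →+* LaurentSeries κ := rho K M O (sFin_le_gauss K M O)

theorem thetaFin_apply (x : ↥(Rfin K M O)) :
    thetaFin K M O x =
      theta K M O ⟨(x : FF K M), chartAlg_le_gaussSubalgebra K M O (sFin_le_gauss K M O) x.2⟩ :=
  rfl

/-- The reduction of the finite chart: the coordinate ring of the affine special fibre, inside
`κ((q))`. -/
def RbarFin : Subring (LaurentSeries κ) := (thetaFin K M O).range

theorem thetaFin_mem (x : ↥(Rfin K M O)) : thetaFin K M O x ∈ RbarFin K M O := ⟨x, rfl⟩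

theorem transcendental_theta_jF :
    Transcendental κ (theta K M O ⟨jF K M, jF_mem_gaussSubalgebra K M O⟩) := by
  rw [theta_jF]
  exact Fermat.Agent.S24.FFBasics.transcendental_jqModC κ

theorem ker_thetaFin (hprime : (fibreIdeal K M O (Rfin K M O)).IsPrime) :
    RingHom.ker (thetaFin K M O) = fibreIdeal K M O (Rfin K M O) :=
  ker_rho_eq K M O (jF_mem_gaussSubalgebra K M O) (transcendental_theta_jF K M O) hprime

/-- `Rfin / ϖ ≃ Rbar`. -/
def quotEquivRbarFin (hprime : (fibreIdeal K M O (Rfin K M O)).IsPrime) :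
    (↥(Rfin K M O) ⧸ fibreIdeal K M O (Rfin K M O)) ≃+* ↥(RbarFin K M O) :=
  (Ideal.quotEquivOfEq (ker_thetaFin K M O hprime).symm).trans
    (RingHom.quotientKerEquivRange (thetaFin K M O))

theorem isDedekindDomain_RbarFin (hprime : (fibreIdeal K M O (Rfin K M O)).IsPrime)
    (hsmooth : IsDedekindDomain (↥(Rfin K M O) ⧸ fibreIdeal K M O (Rfin K M O))) :
    IsDedekindDomain ↥(RbarFin K M O) :=
  @Fermat.Agent.N4F.C.ChartRange.isDedekindDomain_of_ringEquiv
    (↥(Rfin K M O) ⧸ fibreIdeal K M O (Rfin K M O)) _ (Ideal.Quotient.commRing _) _ hsmooth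
    (quotEquivRbarFin K M O hprime)

theorem not_isField_RbarFin (hprime : (fibreIdeal K M O (Rfin K M O)).IsPrime) :
    ¬ IsField ↥(RbarFin K M O) := by
  obtain ⟨ϖ, hϖ⟩ := IsDiscreteValuationRing.exists_irreducible ↥O
  intro h
  have h1 : IsField (↥(Rfin K M O) ⧸ fibreIdeal K M O (Rfin K M O)) :=
    (quotEquivRbarFin K M O hprime).toMulEquiv.isField h
  rw [fibreIdeal_eq_span K M O hϖ] at h1
  exact Fermat.Agent.N4.S18Glue.not_isField_fibre K M O (jF_mem_gaussSubalgebra K M O)
    (transcendental_theta_jF K M O) hϖ h1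

/-- Closed points of the special fibre of the finite chart are rational (`κ` algebraically
closed). -/
theorem exists_sub_algebraMap_mem [IsAlgClosed (IsLocalRing.ResidueField ↥O)] {ϖ : ↥O}
    (hϖ : Irreducible ϖ) (𝔫 : Ideal ↥(Rfin K M O)) [𝔫.IsMaximal]
    (h𝔫 : algebraMap ↥O ↥(Rfin K M O) ϖ ∈ 𝔫) (r : ↥(Rfin K M O)) :
    ∃ a : ↥O, r - algebraMap ↥O ↥(Rfin K M O) a ∈ 𝔫 :=
  (Fermat.Agent.N4.SmoothDescent.ratPt_of_isMaximal hϖ.maximalIdeal_eq (Set.finite_singleton _)
    𝔫 h𝔫).rat r

end Level

end Fermat.Agent.P3G.RbarFin
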