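/-
P3-G block (G-N) (helper13), INTEGRATOR for the finite chart: **local structure of the level-`N ℓ`
chart `Rfin K (N ℓ) O` at every closed point of its special fibre** (characteristic `ℓ ∤ N`).

Level `(K, O)` (Setting language), `κ` the residue field of `O`, `R₀ := Rfin K N O`,
`R := Rfin K (N ℓ) O`, `α β : R₀ → R` the two level maps (`LevelIntegrality.alphaR/betaR`),
`θ := RbarFin.thetaFin K N O`, `Rbar := RbarFin.RbarFin K N O`.

* `theta1 := thetaFin K (N ℓ) O` (Gauss reduction, `= pi2|R`), `theta2 := ev|R = pi1|R` (second place of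
  block E), `toClosure : R → C_α`;
* `laurentData` : `θ₁∘α = θ`, `θ₂∘β = θ`, `θ₁∘β = φ∘θ`, `θ₂∘α = φ∘θ` (`CrossingLaurent.LaurentData`);
* `span_le_inf_ker` : `ϖ R ≤ ker θ₁ ⊓ ker θ₂`;
* `ker_le_or_ker_le`, `exists_crossing_coordinates`, `exists_smooth_coordinate₁/₂` : at every maximal
  `𝔫 ∋ ϖ` of `R`: crossing coordinates `(u, v)` or a smooth coordinate `z` (element-wise statements
  in `R`; `CrossingLocal` transports them to the local ring).

Inputs taken as hypotheses here: `(V)` (`ker θ₁ ⊓ ker θ₂ ≤ ϖ R`), `(b)` (`θ_i(R) ⊆ Rbar`),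
Frobenius-stability of `Rbar`, `(∗)`/`(S)` at level `N`.
-/
import Mathlib
import Fermat.Agent.P3G.RbarFin

set_option autoImplicit false
set_option linter.unusedSectionVars false
set_option linter.style.haveILetI false

open ModularCurve Fermat.Agent.S28.Gauss Fermat.Agent.N4.Setting Fermat.Agent.N4.FibreEmbedding
open Fermat.Agent.N4.Chart
open Fermat.Agent.N4F.E.DegreeLevelRaise Fermat.Agent.N4F.E.GaussDVR AlgebraicCurve Polynomial
open Fermat.Agent.N4F.E IsLocalRing Fermat.Agent.P3G.RbarFin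

noncomputable section

namespace Fermat.Agent.P3G.TwoComponents

section Two

variable (K : Type) [Field K] [CharZero K] (N : ℕ) [NeZero N] (ℓ : ℕ) [Fact ℓ.Prime]
  (O : Subring K) [IsDiscreteValuationRing ↥O] [IsFractionRing ↥O K]

set_option quotPrecheck false in
local notation "κ" => IsLocalRing.ResidueField ↥O

attribute [local instance] AlphaSide.algFL AlphaSide.algGL AlphaSide.isScalarTower_GFL

set_option synthInstance.maxHeartbeats 400000

/-- The finite chart of level `N ℓ` lies in the integral closure `C_α` of `α (G_N)`. -/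
theorem mem_closure_of_mem_Rfin {x : FF K (N * ℓ)} (hx : x ∈ Rfin K (N * ℓ) O) :
    x ∈ integralClosure ↥(gaussSubalgebra K N O) (FF K (N * ℓ)) := by
  have hx' : IsIntegral (Algebra.adjoin ↥O {alphaF K N ℓ (jF K N)}) x := by
    rw [alphaF_jF]
    exact hx
  refine BetaSide.isIntegral_of_le_range (R := ↥(gaussSubalgebra K N O))
    (Algebra.adjoin ↥O {alphaF K N ℓ (jF K N)}) ?_ hx'
  intro s hs
  obtain ⟨x, hx, rfl⟩ := Integrality.adjoin_alphaF_jF_le K N ℓ O hs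
  exact ⟨⟨x, hx⟩, rfl⟩

/-- The inclusion `Rfin K (N ℓ) O → C_α`. -/
def toClosure : ↥(Rfin K (N * ℓ) O) →+*
    ↥(integralClosure ↥(gaussSubalgebra K N O) (FF K (N * ℓ))) :=
  RingHom.codRestrict ((Rfin K (N * ℓ) O).val.toRingHom)
    (integralClosure ↥(gaussSubalgebra K N O) (FF K (N * ℓ)))
    (fun x => mem_closure_of_mem_Rfin K N ℓ O x.2)

theorem coe_toClosure (x : ↥(Rfin K (N * ℓ) O)) :
    ((toClosure K N ℓ O x : ↥(integralClosure ↥(gaussSubalgebra K N O) (FF K (N * ℓ)))) :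
      FF K (N * ℓ)) = (x : FF K (N * ℓ)) :=
  RingHom.codRestrict_apply _ _ _ _

variable {S : Subring (FF K (N * ℓ))}
  {ev : ↥S →+* LaurentSeries (IsLocalRing.ResidueField ↥O)}
  (hB : AlphaSide.BetaOut K N ℓ O S ev)

/-- The second reduction of the finite chart of level `N ℓ`: the restriction of the second place
`ev` of block E. -/
def theta2 : ↥(Rfin K (N * ℓ) O) →+* LaurentSeries κ :=
  (AlphaSide.pi1 K N ℓ O hB).comp (toClosure K N ℓ O)

theorem theta2_eq_pi1 (x : ↥(Rfin K (N * ℓ) O)) :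
    theta2 K N ℓ O hB x = AlphaSide.pi1 K N ℓ O hB (toClosure K N ℓ O x) :=
  RingHom.comp_apply _ _ _

/-- The first reduction of the finite chart of level `N ℓ` is the restriction of the place `pi2` of
`C_α` (the Gauss reduction). -/
theorem thetaFin_eq_pi2 (x : ↥(Rfin K (N * ℓ) O)) :
    thetaFin K (N * ℓ) O x = AlphaSide.pi2 K N ℓ O (toClosure K N ℓ O x) := by
  rw [thetaFin_apply, AlphaSide.pi2_apply]
  exact congrArg (theta K (N * ℓ) O) (Subtype.ext (coe_toClosure K N ℓ O x).symm)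

theorem gauss_of_mem_Rfin (x : ↥(Rfin K N O)) : (x : FF K N) ∈ gaussSubalgebra K N O :=
  chartAlg_le_gaussSubalgebra K N O (sFin_le_gauss K N O) x.2

/-- `θ₁ ∘ α = θ`. -/
theorem thetaFin_alphaR (x : ↥(Rfin K N O)) :
    thetaFin K (N * ℓ) O (LevelIntegrality.alphaR K N ℓ O x) = thetaFin K N O x := by
  rw [thetaFin_apply, thetaFin_apply]
  exact theta_alphaF K O N ℓ ⟨(x : FF K N), gauss_of_mem_Rfin K N O x⟩

/-- `θ₁ ∘ β = φ ∘ θ`. -/
theorem thetaFin_betaR (x : ↥(Rfin K N O)) :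
    thetaFin K (N * ℓ) O (LevelIntegrality.betaR K N ℓ O x) =
      qExpand κ ℓ (thetaFin K N O x) := by
  rw [thetaFin_apply, thetaFin_apply]
  exact theta_betaF K O N ℓ ⟨(x : FF K N), gauss_of_mem_Rfin K N O x⟩

/-- `θ₂ ∘ β = θ`. -/
theorem theta2_betaR (x : ↥(Rfin K N O)) :
    theta2 K N ℓ O hB (LevelIntegrality.betaR K N ℓ O x) = thetaFin K N O x := by
  have hmem : betaF K N ℓ (x : FF K N) ∈
      integralClosure ↥(gaussSubalgebra K N O) (FF K (N * ℓ)) := by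
    have h := (toClosure K N ℓ O (LevelIntegrality.betaR K N ℓ O x)).2
    rwa [coe_toClosure, LevelIntegrality.coe_betaR] at h
  have e : toClosure K N ℓ O (LevelIntegrality.betaR K N ℓ O x) = ⟨_, hmem⟩ :=
    Subtype.ext ((coe_toClosure K N ℓ O _).trans (LevelIntegrality.coe_betaR K N ℓ O x))
  rw [theta2_eq_pi1, thetaFin_apply, e]
  exact AlphaSide.pi1_beta K N ℓ O hB ⟨(x : FF K N), gauss_of_mem_Rfin K N O x⟩ hmem

/-- `θ₂ ∘ α = φ ∘ θ`. -/
theorem theta2_alphaR (x : ↥(Rfin K N O)) :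
    theta2 K N ℓ O hB (LevelIntegrality.alphaR K N ℓ O x) =
      qExpand κ ℓ (thetaFin K N O x) := by
  have e : toClosure K N ℓ O (LevelIntegrality.alphaR K N ℓ O x) =
      algebraMap ↥(gaussSubalgebra K N O)
        ↥(integralClosure ↥(gaussSubalgebra K N O) (FF K (N * ℓ)))
        ⟨(x : FF K N), gauss_of_mem_Rfin K N O x⟩ :=
    Subtype.ext ((coe_toClosure K N ℓ O _).trans (LevelIntegrality.coe_alphaR K N ℓ O x))
  rw [theta2_eq_pi1, thetaFin_apply, e]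
  exact AlphaSide.pi1_algebraMap K N ℓ O hB ⟨(x : FF K N), gauss_of_mem_Rfin K N O x⟩

/-- The four identities in the shape of `CrossingLaurent.LaurentData`. -/
theorem laurentData :
    CrossingLaurent.LaurentData (ℓ := ℓ) (RbarFin K N O)
      (LevelIntegrality.alphaR K N ℓ O).toRingHom (LevelIntegrality.betaR K N ℓ O).toRingHom
      (thetaFin K N O) (thetaFin K (N * ℓ) O) (theta2 K N ℓ O hB) where
  surj := fun y hy => hy
  h1 := thetaFin_alphaR K N ℓ O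
  h2 := theta2_betaR K N ℓ O hB
  h3 := thetaFin_betaR K N ℓ O
  h4 := theta2_alphaR K N ℓ O hB

/-- `ϖ` lies in both kernels. -/
theorem span_le_inf_ker {ϖ : ↥O} (hϖ : Irreducible ϖ) :
    Ideal.span {algebraMap ↥O ↥(Rfin K (N * ℓ) O) ϖ} ≤
      RingHom.ker (thetaFin K (N * ℓ) O) ⊓ RingHom.ker (theta2 K N ℓ O hB) := by
  rw [Ideal.span_le, Set.singleton_subset_iff]
  have e0 : algebraMap ↥O ↥(Rfin K (N * ℓ) O) ϖ =
      LevelIntegrality.alphaR K N ℓ O (algebraMap ↥O ↥(Rfin K N O) ϖ) :=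
    ((LevelIntegrality.alphaR K N ℓ O).commutes ϖ).symm
  have e1 : thetaFin K N O (algebraMap ↥O ↥(Rfin K N O) ϖ) = 0 := by
    have h := rho_algebraMap K N O (sFin_le_gauss K N O) ϖ
    rw [residue_irreducible K O hϖ, map_zero] at h
    exact h
  refine ⟨?_, ?_⟩
  · show thetaFin K (N * ℓ) O _ = 0
    rw [e0, thetaFin_alphaR, e1]
  · show theta2 K N ℓ O hB _ = 0
    rw [e0, theta2_alphaR, e1, map_zero]

end Two

/-! ### Local structure at the closed points of the special fibre -/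

section Local

variable (K : Type) [Field K] [CharZero K] (N : ℕ) [NeZero N] (ℓ : ℕ) [Fact ℓ.Prime]
  (O : Subring K) [IsDiscreteValuationRing ↥O] [IsFractionRing ↥O K]
  [CharP (IsLocalRing.ResidueField ↥O) ℓ] [PerfectRing (IsLocalRing.ResidueField ↥O) ℓ]

set_option quotPrecheck false in
local notation "κ" => IsLocalRing.ResidueField ↥O

variable {S : Subring (FF K (N * ℓ))}
  {ev : ↥S →+* LaurentSeries (IsLocalRing.ResidueField ↥O)}
  (hB : AlphaSide.BetaOut K N ℓ O S ev)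
  (hprime : (fibreIdeal K N O (Rfin K N O)).IsPrime)
  (hsmooth : IsDedekindDomain (↥(Rfin K N O) ⧸ fibreIdeal K N O (Rfin K N O)))
  (hFr : ∀ x : LaurentSeries (IsLocalRing.ResidueField ↥O),
    CrossingLaurent.Fr (IsLocalRing.ResidueField ↥O) ℓ x ∈ RbarFin K N O ↔ x ∈ RbarFin K N O)
  (hθ₁ : ∀ r, thetaFin K (N * ℓ) O r ∈ RbarFin K N O)
  (hθ₂ : ∀ r, theta2 K N ℓ O hB r ∈ RbarFin K N O)
  {ϖ : ↥O} (hϖ : Irreducible ϖ)
  (hV : RingHom.ker (thetaFin K (N * ℓ) O) ⊓ RingHom.ker (theta2 K N ℓ O hB) ≤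
    Ideal.span {algebraMap ↥O ↥(Rfin K (N * ℓ) O) ϖ})
  (𝔫 : Ideal ↥(Rfin K (N * ℓ) O)) [h𝔫 : 𝔫.IsMaximal]

include hϖ hV in
/-- Every closed point of the special fibre lies on one of the two components. -/
theorem ker_le_or_ker_le (hmem : algebraMap ↥O ↥(Rfin K (N * ℓ) O) ϖ ∈ 𝔫) :
    RingHom.ker (thetaFin K (N * ℓ) O) ≤ 𝔫 ∨ RingHom.ker (theta2 K N ℓ O hB) ≤ 𝔫 :=
  Crossing.ker_le_or_ker_le _ _ 𝔫
    (hV.trans ((Ideal.span_singleton_le_iff_mem _).2 hmem))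

include hprime hsmooth hFr hθ₁ hθ₂ hV in
/-- **Crossing point**: coordinates `u, v` (built from level-`N` functions through `α`, `β`). -/
theorem exists_crossing_coordinates
    (hk1 : RingHom.ker (thetaFin K (N * ℓ) O) ≤ 𝔫)
    (hk2 : RingHom.ker (theta2 K N ℓ O hB) ≤ 𝔫) :
    ∃ z₁ z₂ z₁' z₂' : ↥(Rfin K N O), ∃ u v : ↥(Rfin K (N * ℓ) O),
      u = LevelIntegrality.alphaR K N ℓ O z₁ - (LevelIntegrality.betaR K N ℓ O z₂') ^ ℓ ∧
      v = LevelIntegrality.betaR K N ℓ O z₂ - (LevelIntegrality.alphaR K N ℓ O z₁') ^ ℓ ∧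
      u ∈ 𝔫 ∧ v ∈ 𝔫 ∧ theta2 K N ℓ O hB u = 0 ∧ thetaFin K (N * ℓ) O v = 0 ∧
      thetaFin K (N * ℓ) O u ≠ 0 ∧ theta2 K N ℓ O hB v ≠ 0 ∧
      u * v ∈ Ideal.span {algebraMap ↥O ↥(Rfin K (N * ℓ) O) ϖ} ∧
      (∀ m ∈ 𝔫, ∃ s : ↥(Rfin K (N * ℓ) O), s ∉ 𝔫 ∧
        s * m ∈ Ideal.span {u, v, algebraMap ↥O ↥(Rfin K (N * ℓ) O) ϖ}) ∧
      ∀ m ∈ 𝔫, ∃ s a b : ↥(Rfin K (N * ℓ) O), s ∉ 𝔫 ∧
        s * m - a * u - b * v ∈
          RingHom.ker (thetaFin K (N * ℓ) O) ⊓ RingHom.ker (theta2 K N ℓ O hB) := by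
  haveI := isDedekindDomain_RbarFin K N O hprime hsmooth
  obtain ⟨z₁, -, z₂, -, z₁', -, z₂', -, u, v, hu, hv, h1, h2, h3, h4, h5, h6, -, -, h7, h8, h9⟩ :=
    CrossingLaurent.exists_crossing_coordinates (ℓ := ℓ) (Rbar := RbarFin K N O) hFr
      (thetaFin_mem K N O) hθ₁ hθ₂ (not_isField_RbarFin K N O hprime) 𝔫
      (laurentData K N ℓ O hB) hk1 hk2 ⊤ (fun y hy => by
        obtain ⟨z, hz⟩ := hy
        exact ⟨z, trivial, hz⟩) hV
  exact ⟨z₁, z₂, z₁', z₂', u, v, hu, hv, h1, h2, h3, h4, h5, h6, h7, h8, h9⟩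

include hprime hsmooth hFr hθ₁ hθ₂ hV in
/-- **Smooth point on the first component.** -/
theorem exists_smooth_coordinate₁
    (hk1 : RingHom.ker (thetaFin K (N * ℓ) O) ≤ 𝔫)
    (hk2 : ¬ RingHom.ker (theta2 K N ℓ O hB) ≤ 𝔫) :
    ∃ z ∈ 𝔫, thetaFin K (N * ℓ) O z ≠ 0 ∧
      ∀ m ∈ 𝔫, ∃ s : ↥(Rfin K (N * ℓ) O), s ∉ 𝔫 ∧
        s * m ∈ Ideal.span {z, algebraMap ↥O ↥(Rfin K (N * ℓ) O) ϖ} := by
  haveI := isDedekindDomain_RbarFin K N O hprime hsmooth
  obtain ⟨z, hz, h1, -, h2⟩ :=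
    CrossingLaurent.exists_smooth_coordinate₁ (ℓ := ℓ) (Rbar := RbarFin K N O) hFr
      (thetaFin_mem K N O) hθ₁ hθ₂ (not_isField_RbarFin K N O hprime) 𝔫
      (laurentData K N ℓ O hB) hk1 hk2 hV
  exact ⟨z, hz, h1, h2⟩

include hprime hsmooth hFr hθ₁ hθ₂ hV in
/-- **Smooth point on the second component.** -/
theorem exists_smooth_coordinate₂
    (hk2 : RingHom.ker (theta2 K N ℓ O hB) ≤ 𝔫)
    (hk1 : ¬ RingHom.ker (thetaFin K (N * ℓ) O) ≤ 𝔫) :
    ∃ z ∈ 𝔫, theta2 K N ℓ O hB z ≠ 0 ∧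
      ∀ m ∈ 𝔫, ∃ s : ↥(Rfin K (N * ℓ) O), s ∉ 𝔫 ∧
        s * m ∈ Ideal.span {z, algebraMap ↥O ↥(Rfin K (N * ℓ) O) ϖ} := by
  haveI := isDedekindDomain_RbarFin K N O hprime hsmooth
  obtain ⟨z, hz, h1, -, h2⟩ :=
    CrossingLaurent.exists_smooth_coordinate₂ (ℓ := ℓ) (Rbar := RbarFin K N O) hFr
      (thetaFin_mem K N O) hθ₁ hθ₂ (not_isField_RbarFin K N O hprime) 𝔫
      (laurentData K N ℓ O hB) hk2 hk1 hV
  exact ⟨z, hz, h1, h2⟩

end Local

end Fermat.Agent.P3G.TwoComponents
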