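/-
P3-G / (G-N1), helper12: **(V) in kernel form** — the special fibre of the level-`Nℓ` charts is
reduced with the two components `ker θ₁`, `ker θ₂`:  `ker θ₁ ⊓ ker θ₂ ≤ (ϖ)`.

* generic (any chart `R ≤ C_α` saturated in `C_α`): `exists_eq_mul_of_mem_fin`, `exists_eq_mul_of_mem_inf`
  (an element of `Rfin/Rinf K (Nℓ) O` killed by `pi1` and `pi2` is `ϖ ·` an element of the chart);
* `ker_inf_ker_le_fin` : the hypothesis `hV` of `P3G/TwoComponents` (helper13's names `thetaFin`,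
  `theta2`).
-/
import Mathlib
import Fermat.Agent.P3G.FibreSat
import Fermat.Agent.P3G.TwoComponents

set_option autoImplicit false
set_option linter.unusedSectionVars false
set_option linter.style.haveILetI false

open Polynomial IsLocalRing

open ModularCurve Fermat.Agent.S28.Gauss Fermat.Agent.N4.Setting Fermat.Agent.N4.FibreEmbedding
open Fermat.Agent.N4F.E.DegreeLevelRaise Fermat.Agent.N4F.E.GaussDVR AlgebraicCurve
open Fermat.Agent.N4F.E Fermat.Agent.N4F.E.AlphaSide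
open Fermat.Agent.P3G.FibreSat Fermat.Agent.P3G.RbarFin Fermat.Agent.P3G.TwoComponents

noncomputable section

namespace Fermat.Agent.P3G.FibreSatKer

variable (K : Type) [Field K] [CharZero K] (N : ℕ) [NeZero N] (ℓ : ℕ) [Fact ℓ.Prime]
  (O : Subring K) [IsDiscreteValuationRing ↥O] [IsFractionRing ↥O K]

set_option quotPrecheck false in
local notation "κ" => IsLocalRing.ResidueField ↥O

attribute [local instance] AlphaSide.algFL AlphaSide.algGL AlphaSide.isScalarTower_GFL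

set_option synthInstance.maxHeartbeats 400000

variable [CharP (IsLocalRing.ResidueField ↥O) ℓ]
  (ι : K →+* ℂ) (hℓN : ¬ ℓ ∣ N)
  (hprime : (fibreIdeal K N O (Rfin K N O)).IsPrime)
  {S : Subring (FF K (N * ℓ))} {ev : ↥S →+* LaurentSeries (IsLocalRing.ResidueField ↥O)}
  (hB : BetaOut K N ℓ O S ev)

include ι hℓN hprime hB in
/-- **(V), finite chart, element form**: an element of `Rfin K (Nℓ) O` killed by both places of
`C_α` is `ϖ` times an element of `Rfin K (Nℓ) O`. -/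
theorem exists_eq_mul_of_mem_fin {ϖ : ↥O} (hϖ : Irreducible ϖ) (x : Cα K N ℓ O)
    (hx : (x : FF K (N * ℓ)) ∈ Rfin K (N * ℓ) O)
    (h1 : pi1 K N ℓ O hB x = 0) (h2 : pi2 K N ℓ O x = 0) :
    ∃ y ∈ Rfin K (N * ℓ) O, (x : FF K (N * ℓ)) = algebraMap ↥O (FF K (N * ℓ)) ϖ * y := by
  obtain ⟨y, hy⟩ := exists_eq_mul_of_pi_eq_zero K N ℓ O ι hℓN hprime hB hϖ x h1 h2
  exact ⟨y, sat_fin K N ℓ O hprime hϖ y.2 (hy ▸ hx), hy⟩

include ι hℓN hprime hB in
/-- **(V), chart at infinity, element form.** -/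
theorem exists_eq_mul_of_mem_inf (hprimeInf : (fibreIdeal K N O (Rinf K N O)).IsPrime)
    {ϖ : ↥O} (hϖ : Irreducible ϖ) (x : Cα K N ℓ O)
    (hx : (x : FF K (N * ℓ)) ∈ Rinf K (N * ℓ) O)
    (h1 : pi1 K N ℓ O hB x = 0) (h2 : pi2 K N ℓ O x = 0) :
    ∃ y ∈ Rinf K (N * ℓ) O, (x : FF K (N * ℓ)) = algebraMap ↥O (FF K (N * ℓ)) ϖ * y := by
  obtain ⟨y, hy⟩ := exists_eq_mul_of_pi_eq_zero K N ℓ O ι hℓN hprime hB hϖ x h1 h2
  exact ⟨y, sat_inf K N ℓ O hprimeInf hϖ y.2 (hy ▸ hx), hy⟩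

include ι hℓN hprime in
/-- **(V) for the finite chart, in the shape `hV` of `P3G/TwoComponents`.** -/
theorem ker_inf_ker_le_fin {ϖ : ↥O} (hϖ : Irreducible ϖ) :
    RingHom.ker (thetaFin K (N * ℓ) O) ⊓ RingHom.ker (theta2 K N ℓ O hB) ≤
      Ideal.span {algebraMap ↥O ↥(Rfin K (N * ℓ) O) ϖ} := by
  rintro x ⟨h1, h2⟩
  have h1' : pi2 K N ℓ O (toClosure K N ℓ O x) = 0 := by
    rw [← thetaFin_eq_pi2]
    exact h1
  have h2' : pi1 K N ℓ O hB (toClosure K N ℓ O x) = 0 := h2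
  obtain ⟨y, hyR, hy⟩ := exists_eq_mul_of_mem_fin K N ℓ O ι hℓN hprime hB hϖ
    (toClosure K N ℓ O x) (by rw [coe_toClosure]; exact x.2) h2' h1'
  rw [Ideal.mem_span_singleton]
  refine ⟨⟨y, hyR⟩, Subtype.ext ?_⟩
  rw [coe_toClosure] at hy
  rw [hy]
  rfl

end Fermat.Agent.P3G.FibreSatKer
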