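import Fermat.Agent.N4F.E.ChartIntegrality
import Fermat.Agent.N4F.E.Integrality

/-!
# P3-G / (G-N) : `β`-lifts on the chart at infinity

Level `(K, O)` (Setting language), `α := alphaF K N ℓ`, `β := betaF K N ℓ : FF K N →ₐ[K] FF K (N ℓ)`,
`u := j⁻¹`.  On the finite charts `β(Rfin K N O) ⊆ Rfin K (N ℓ) O` (`LevelIntegrality.betaR`), but on the
charts at infinity `β(Rinf K N O) ⊄ Rinf K (N ℓ) O` (`{α j ≠ 0} ≠ {β j ≠ 0}`).  The defect is the
horizontal divisor `α(g(u)) = 0`, `g := gPoly ℓ = reverse (Φ_ℓ(·, 0))`, and this divisor does not meet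
the special fibre at `ℓ`:

* `gPoly_eq_one_add` : `g = 1 + ℓ h` in `ℤ[X]` (Kronecker's congruence: `Φ_ℓ(X, 0) ≡ X^{ℓ+1}` mod `ℓ`);
* `alphaF_gUK_sub_one` : `G := α(g(u)) = 1 + ℓ r` with `r ∈ Rinf K (N ℓ) O`;
* `gUK_mul_betaF_inv_mem` : `G · β(u) ∈ Rinf K (N ℓ) O`;
* `exists_pow_mul_betaF_mem_Rinf` : for `x ∈ Rinf K N O`, `G ^ n · β x ∈ Rinf K (N ℓ) O` for some `n`.

So every `x ∈ Rinf K N O` has a `β`-lift `y := G ^ n · β x ∈ Rinf K (N ℓ) O`, `y ≡ β x` modulo `ℓ`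
(in any ring containing `Rinf K (N ℓ) O` and `β x`): the two residue maps `θ₁, θ₂` of the special fibre
of level `N ℓ` take the values `θ₁ y = θ₁ (β x)`, `θ₂ y = θ₂ (β x)`.
-/

set_option autoImplicit false
set_option linter.style.haveILetI false

namespace Fermat.Agent.P3G.BetaInf

open Polynomial AlgebraicCurve ModularCurve
open Fermat.Agent.N4.Setting Fermat.Agent.N4.Chart Fermat.Agent.N4.Kronecker
open Fermat.Agent.N4.ModPolyDescent Fermat.Agent.N4.ModPolyShape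
open Fermat.Agent.N4F.E.DegreeLevelRaise Fermat.Agent.N4F.E.ChartIntegrality
open Fermat.Agent.N4F.E

/-! ### Generic integrality lemmas -/

section Generic

variable {R B : Type*} [CommRing R] [CommRing B] [Algebra R B]

/-- A two-variable relation `P(a, y) = 0`, `P ∈ ℤ[Y][X]`, makes `lc(a) · y` integral over `R[a]`,
`lc ∈ ℤ[Y]` the leading coefficient of `P`. -/
theorem isIntegral_leadingCoeff_mul_of_evZ (a y : B) (P : ℤ[X][X]) (h : evZ a y P = 0) :
    IsIntegral (Algebra.adjoin R {a}) (eval₂ (Int.castRingHom B) a P.leadingCoeff * y) := by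
  set S := Algebra.adjoin R {a} with hS
  set a' : S := ⟨a, Algebra.self_mem_adjoin_singleton R a⟩ with ha'
  have hcomp : (algebraMap S B).comp (eval₂RingHom (Int.castRingHom S) a') =
      eval₂RingHom (Int.castRingHom B) a := by
    refine Polynomial.ringHom_ext' (RingHom.ext_int _ _) ?_
    simp only [RingHom.comp_apply, coe_eval₂RingHom, eval₂_X]
    rfl
  have h1 := RingHom.isIntegralElem_leadingCoeff_mul (eval₂RingHom (Int.castRingHom B) a) P y
    (by rw [← evZ_apply]; exact h)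
  rw [← hcomp] at h1
  have h2 := RingHom.IsIntegralElem.of_comp h1
  rw [hcomp, coe_eval₂RingHom] at h2
  exact h2

/-- An integer polynomial in an element of a subalgebra lies in the subalgebra. -/
theorem eval₂_int_mem (T : Subalgebra R B) {s : B} (hs : s ∈ T) (p : ℤ[X]) :
    eval₂ (Int.castRingHom B) s p ∈ T := by
  rw [eval₂_eq_sum_range]
  exact Subalgebra.sum_mem _ fun i _ =>
    Subalgebra.mul_mem _ (by rw [eq_intCast]; exact Subalgebra.intCast_mem _ _)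
      (Subalgebra.pow_mem _ hs i)

end Generic

/-! ### `g ≡ 1` modulo `ℓ` -/

section GPoly

variable (ℓ : ℕ) [Fact ℓ.Prime]

/-- Kronecker: `Φ_ℓ(X, 0) ≡ X ^ (ℓ + 1)` modulo `ℓ`. -/
theorem map_coeff_zero_modPoly :
    ((modPoly ℓ).coeff 0).map (Int.castRingHom (ZMod ℓ)) = X ^ (ℓ + 1) := by
  have hℓ : ℓ ≠ 0 := (Fact.out : ℓ.Prime).ne_zero
  have h := congrArg (fun P : (ZMod ℓ)[X][X] => P.coeff 0) (kronecker ℓ)
  simp only [coeff_map, coe_mapRingHom, mul_coeff_zero, coeff_sub, coeff_X_pow, coeff_C_zero,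
    coeff_X_zero] at h
  rw [if_neg (Ne.symm hℓ)] at h
  rw [h]
  ring

/-- `g = reverse (Φ_ℓ(·, 0)) ≡ 1` modulo `ℓ`. -/
theorem map_gPoly : (gPoly ℓ).map (Int.castRingHom (ZMod ℓ)) = 1 := by
  rw [gPoly_eq_reflect, dedekindPsi_prime, ← reflect_map, map_coeff_zero_modPoly, reflect_monomial,
    revAt_le le_rfl, Nat.sub_self, pow_zero]

/-- `g = 1 + ℓ h` in `ℤ[X]`. -/
theorem gPoly_eq_one_add : ∃ h : ℤ[X], gPoly ℓ = 1 + C (ℓ : ℤ) * h := by
  have h1 : C (ℓ : ℤ) ∣ gPoly ℓ - 1 := by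
    rw [Polynomial.C_dvd_iff_dvd_coeff]
    intro i
    have h2 := congrArg (fun p : (ZMod ℓ)[X] => p.coeff i) (map_gPoly ℓ)
    simp only [coeff_map, eq_intCast] at h2
    rw [← (ZMod.intCast_zmod_eq_zero_iff_dvd _ ℓ), coeff_sub, Int.cast_sub, h2, coeff_one, coeff_one]
    split_ifs <;> simp
  obtain ⟨h, hh⟩ := h1
  exact ⟨h, by rw [← hh]; ring⟩

end GPoly

/-! ### Charts: adding a redundant generator -/

section ChartGen

variable {O F : Type*} [CommRing O] [Field F] [Algebra O F]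

/-- Adding an element of `O[S]` to the generators does not change the chart. -/
theorem chartAlg_insert_le_of_mem_adjoin {S : Set F} {s : F} (hs : s ∈ Algebra.adjoin O S) :
    chartAlg O F (insert s S) ≤ chartAlg O F S := by
  intro x hx
  rw [mem_chartAlg_iff] at hx ⊢
  have hle : Algebra.adjoin O (insert s S) ≤ Algebra.adjoin O S :=
    Algebra.adjoin_le (Set.insert_subset hs Algebra.subset_adjoin)
  exact hx.map_of_comp_eq (Subalgebra.inclusion hle).toRingHom (RingHom.id F) (by ext; rfl)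

/-- An element integral over `O[w]`, `w` in the chart, lies in the chart. -/
theorem mem_chartAlg_of_isIntegral_adjoin {S : Set F} {w x : F} (hw : w ∈ chartAlg O F S)
    (hx : IsIntegral (Algebra.adjoin O {w}) x) : x ∈ chartAlg O F S := by
  rw [← isIntegral_chartAlg_iff]
  have hle : Algebra.adjoin O {w} ≤ chartAlg O F S :=
    Algebra.adjoin_le (Set.singleton_subset_iff.2 hw)
  exact Integrality.isIntegral_mono hle hx

end ChartGen

/-! ### The level maps on the charts at infinity -/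

section Level

variable (K : Type) [Field K] (N : ℕ) [NeZero N] (ℓ : ℕ) [NeZero ℓ] (O : Subring K)

/-- `g(u)`, `u = j⁻¹`, as an element of `FF K N`. -/
noncomputable def gUK : FF K N := eval₂ (Int.castRingHom (FF K N)) (jF K N)⁻¹ (gPoly ℓ)

theorem gUK_mem_Rinf : gUK K N ℓ ∈ Rinf K N O :=
  eval₂_int_mem _ (subset_chartAlg _ (Set.mem_singleton _)) _

/-- `α(g(u)) = g(u')`, `u' = j⁻¹` at level `N ℓ`. -/
theorem alphaF_gUK : alphaF K N ℓ (gUK K N ℓ) =
    eval₂ (Int.castRingHom (FF K (N * ℓ))) (jF K (N * ℓ))⁻¹ (gPoly ℓ) := by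
  unfold gUK
  have h := Polynomial.hom_eval₂ (gPoly ℓ) (Int.castRingHom (FF K N))
    (alphaF K N ℓ : FF K N →+* FF K (N * ℓ)) (jF K N)⁻¹
  rw [show ((alphaF K N ℓ : FF K N →+* FF K (N * ℓ)).comp (Int.castRingHom (FF K N))) =
    Int.castRingHom (FF K (N * ℓ)) from RingHom.ext_int _ _] at h
  rw [RingHom.coe_coe, map_inv₀, alphaF_jF] at h
  exact h

theorem alphaF_gUK_mem_Rinf : alphaF K N ℓ (gUK K N ℓ) ∈ Rinf K (N * ℓ) O := by
  rw [alphaF_gUK]
  exact eval₂_int_mem _ (subset_chartAlg _ (Set.mem_singleton _)) _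

theorem alphaF_gUK_mem_adjoin :
    alphaF K N ℓ (gUK K N ℓ) ∈ Algebra.adjoin ↥O {(jF K (N * ℓ))⁻¹} := by
  rw [alphaF_gUK]
  exact eval₂_int_mem _ (Algebra.subset_adjoin (Set.mem_singleton _)) _

/-- **`G = α(g(u)) ≡ 1` modulo `ℓ`** on the chart at infinity of level `N ℓ`. -/
theorem alphaF_gUK_sub_one [Fact ℓ.Prime] :
    ∃ r ∈ Rinf K (N * ℓ) O, alphaF K N ℓ (gUK K N ℓ) - 1 = (ℓ : FF K (N * ℓ)) * r := by
  obtain ⟨h, hh⟩ := gPoly_eq_one_add ℓ
  refine ⟨eval₂ (Int.castRingHom (FF K (N * ℓ))) (jF K (N * ℓ))⁻¹ h,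
    eval₂_int_mem _ (subset_chartAlg _ (Set.mem_singleton _)) _, ?_⟩
  rw [alphaF_gUK, hh, eval₂_add, eval₂_one, eval₂_mul, eval₂_C, eq_intCast, Int.cast_natCast]
  ring

/-- **`G · β(u)` is integral over `O[u']`**: the leading coefficient (in `β u`) of the bi-reflected
modular equation is `g(u')`. -/
theorem gUK_mul_betaF_inv_mem :
    alphaF K N ℓ (gUK K N ℓ) * betaF K N ℓ (jF K N)⁻¹ ∈ Rinf K (N * ℓ) O := by
  have hj0 : jF K N ≠ 0 := jF_ne_zero K N
  have ha : (alphaF K N ℓ (jF K N))⁻¹ ≠ 0 := inv_ne_zero (by rw [_root_.map_ne_zero]; exact hj0)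
  have hb : (betaF K N ℓ (jF K N))⁻¹ ≠ 0 := inv_ne_zero (by rw [_root_.map_ne_zero]; exact hj0)
  have h1 := evZ_biReflect (dedekindPsi ℓ) (modPoly ℓ) (modPoly_natDegree ℓ).le
    (natDegree_coeff_modPoly_le ℓ) ha hb
  rw [inv_inv, inv_inv, Integrality.evZ_modPoly_alpha_beta, mul_zero] at h1
  have h2 := isIntegral_leadingCoeff_mul_of_evZ (R := ↥O) _ _ _ h1
  rw [leadingCoeff_biReflect _ _ (by rw [← gPoly_eq_reflect]; exact gPoly_ne_zero ℓ),
    ← gPoly_eq_reflect, alphaF_jF] at h2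
  rw [mem_chartAlg_iff, alphaF_gUK, map_inv₀]
  exact h2

/-- **`β`-lifts on the chart at infinity.**  For `x ∈ Rinf K N O` some `G ^ n · β x` lies in
`Rinf K (N ℓ) O`, `G = α(g(u))`. -/
theorem exists_pow_mul_betaF_mem_Rinf {x : FF K N} (hx : x ∈ Rinf K N O) :
    ∃ n : ℕ, alphaF K N ℓ (gUK K N ℓ) ^ n * betaF K N ℓ x ∈ Rinf K (N * ℓ) O := by
  set G := alphaF K N ℓ (gUK K N ℓ) with hG
  set u' := (jF K (N * ℓ))⁻¹ with hu'
  by_cases hG0 : G = 0
  · exact ⟨1, by rw [hG0, pow_one, zero_mul]; exact Subalgebra.zero_mem _⟩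
  -- `β u` lies in the chart `{u', G⁻¹}`
  have hw : betaF K N ℓ (jF K N)⁻¹ ∈ chartAlg ↥O (FF K (N * ℓ)) {u', G⁻¹} := by
    have h1 : G * betaF K N ℓ (jF K N)⁻¹ ∈ chartAlg ↥O (FF K (N * ℓ)) {u', G⁻¹} :=
      chartAlg_mono (Set.singleton_subset_iff.2 (Set.mem_insert _ _))
        (gUK_mul_betaF_inv_mem K N ℓ O)
    have h2 : G⁻¹ ∈ chartAlg ↥O (FF K (N * ℓ)) {u', G⁻¹} :=
      subset_chartAlg _ (Set.mem_insert_of_mem _ (Set.mem_singleton _))
    have h3 := Subalgebra.mul_mem _ h2 h1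
    rwa [← mul_assoc, inv_mul_cancel₀ hG0, one_mul] at h3
  -- hence so does `β x`
  have hβx : betaF K N ℓ x ∈ chartAlg ↥O (FF K (N * ℓ)) {u', G⁻¹} := by
    rw [mem_chartAlg_iff] at hx
    exact mem_chartAlg_of_isIntegral_adjoin hw
      (Integrality.isIntegral_map_adjoin_singleton ((betaF K N ℓ).restrictScalars ↥O) hx)
  -- clear the denominator `G`
  have h2 : chartAlg ↥O (FF K (N * ℓ)) {u', G⁻¹} ≤
      chartAlg ↥O (FF K (N * ℓ)) (insert G⁻¹ {G, u'}) := by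
    apply chartAlg_mono
    rintro y (rfl | rfl)
    · exact Set.mem_insert_of_mem _ (Set.mem_insert_of_mem _ (Set.mem_singleton _))
    · exact Set.mem_insert _ _
  obtain ⟨n, hn⟩ := exists_pow_mul_mem_chartAlg (O := ↥O) (S := {G, u'})
    (Set.mem_insert _ _) hG0 (h2 hβx)
  exact ⟨n, chartAlg_insert_le_of_mem_adjoin (alphaF_gUK_mem_adjoin K N ℓ O) hn⟩

/-- `G ^ n ≡ 1` modulo `ℓ`. -/
theorem alphaF_gUK_pow_sub_one [Fact ℓ.Prime] (n : ℕ) :
    ∃ r ∈ Rinf K (N * ℓ) O, alphaF K N ℓ (gUK K N ℓ) ^ n - 1 = (ℓ : FF K (N * ℓ)) * r := by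
  obtain ⟨r, hr, h⟩ := alphaF_gUK_sub_one K N ℓ O
  have hG : alphaF K N ℓ (gUK K N ℓ) = 1 + (ℓ : FF K (N * ℓ)) * r := by rw [← h]; ring
  induction n with
  | zero => exact ⟨0, Subalgebra.zero_mem _, by rw [pow_zero, sub_self, mul_zero]⟩
  | succ n ih =>
    obtain ⟨s, hs, hs'⟩ := ih
    refine ⟨s * alphaF K N ℓ (gUK K N ℓ) + r,
      Subalgebra.add_mem _ (Subalgebra.mul_mem _ hs (alphaF_gUK_mem_Rinf K N ℓ O)) hr, ?_⟩
    have h1 : alphaF K N ℓ (gUK K N ℓ) ^ (n + 1) - 1 =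
        (alphaF K N ℓ (gUK K N ℓ) ^ n - 1) * alphaF K N ℓ (gUK K N ℓ) +
          (alphaF K N ℓ (gUK K N ℓ) - 1) := by ring
    rw [h1, hs', h]
    ring

/-- `α` maps the chart at infinity of level `N` into the chart at infinity of level `N ℓ`. -/
theorem alphaF_mem_Rinf {x : FF K N} (hx : x ∈ Rinf K N O) :
    alphaF K N ℓ x ∈ Rinf K (N * ℓ) O := by
  rw [mem_chartAlg_iff] at hx ⊢
  have h := Integrality.isIntegral_map_adjoin_singleton ((alphaF K N ℓ).restrictScalars ↥O) hx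
  rwa [AlgHom.restrictScalars_apply, AlgHom.restrictScalars_apply, map_inv₀, alphaF_jF] at h

/-- `α` on the charts at infinity. -/
noncomputable def alphaRinf : Rinf K N O →ₐ[↥O] Rinf K (N * ℓ) O :=
  (((alphaF K N ℓ).restrictScalars ↥O).comp (Rinf K N O).val).codRestrict (Rinf K (N * ℓ) O)
    fun x => alphaF_mem_Rinf K N ℓ O x.2

@[simp] theorem coe_alphaRinf (x : Rinf K N O) :
    ((alphaRinf K N ℓ O x : Rinf K (N * ℓ) O) : FF K (N * ℓ)) = alphaF K N ℓ (x : FF K N) := rfl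

/-- **`β`-lifts, packaged**: every `x ∈ Rinf K N O` has a lift `y ∈ Rinf K (N ℓ) O` of the form
`y = G ^ n · β x` with `G ^ n = 1 + ℓ r`, `r ∈ Rinf K (N ℓ) O`; hence `y - β x = ℓ · r · β x`. -/
theorem exists_betaF_lift [Fact ℓ.Prime] {x : FF K N} (hx : x ∈ Rinf K N O) :
    ∃ y ∈ Rinf K (N * ℓ) O, ∃ r ∈ Rinf K (N * ℓ) O,
      y = (1 + (ℓ : FF K (N * ℓ)) * r) * betaF K N ℓ x := by
  obtain ⟨n, hn⟩ := exists_pow_mul_betaF_mem_Rinf K N ℓ O hx
  obtain ⟨r, hr, h⟩ := alphaF_gUK_pow_sub_one K N ℓ O n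
  refine ⟨_, hn, r, hr, ?_⟩
  rw [← h]
  ring

end Level

end Fermat.Agent.P3G.BetaInf
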