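/-
P3-G block (G-N) (helper6), inputs (B) of the integrator `TwoComponents` for the FINITE chart:

* (B1) `rbarFin_eq : RbarFin K N O = SigmaFrob.Rbar κ N (SigmaFin κ N)` (the range of the Gauss
  reduction of `Rfin K N O` is the image in `κ((q))` of the integral closure of `κ[j̄]` in `FF κ N`),
  hence `hFr` (Frobenius stability of `RbarFin`, from `SigmaFrob`);
* (B2) the components: `thetaFin K (N ℓ) O` and `theta2 K N ℓ O hB` take values in `RbarFin K N O`
  on `Rfin K (N ℓ) O` (value in `FF κ N` by residue degree one + `hA2`; integral over `κ[j̄]` by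
  pushing the monic equation over `O[j]` through `θ_i`: `θ₁ j = j̄`, `θ₂ j = j̄ ^ ℓ`).
-/
import Mathlib
import Fermat.Agent.P3G.TwoComponents
import Fermat.Agent.P3G.SigmaFrob
import Fermat.Agent.N4F.C.ChartFibre
import Fermat.Agent.P3G.BetaInf

set_option autoImplicit false
set_option linter.unusedSectionVars false
set_option linter.style.haveILetI false

open ModularCurve Fermat.Agent.S28.Gauss Fermat.Agent.N4.Setting Fermat.Agent.N4.FibreEmbedding
open Fermat.Agent.N4.Chart Fermat.Agent.N4.IntClosure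
open Fermat.Agent.N4F.E.DegreeLevelRaise Fermat.Agent.N4F.E.GaussDVR AlgebraicCurve Polynomial
open Fermat.Agent.N4F.E IsLocalRing Fermat.Agent.P3G.RbarFin Fermat.Agent.P3G.TwoComponents
open Fermat.Agent.N4F.C.ChartFibre

noncomputable section

namespace Fermat.Agent.P3G.TwoComponentsB

/-! ### (B1) the range of the Gauss reduction of the finite chart -/

section B1

variable (K : Type) [Field K] [CharZero K] (N : ℕ) [NeZero N]
  (O : Subring K) [IsDiscreteValuationRing ↥O] [IsFractionRing ↥O K]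

set_option quotPrecheck false in
local notation "κ" => IsLocalRing.ResidueField ↥O

variable (hN : IsUnit ((N : ℕ) : ↥O))

theorem thetaFin_eq_coe_redFin (x : ↥(Rfin K N O)) :
    thetaFin K N O x = ((redFin K N O hN x : FF κ N) : LaurentSeries κ) :=
  (coe_redFin K N O hN x).symm

include hN in
theorem rbarFin_le : RbarFin K N O ≤ SigmaFrob.Rbar κ N (SigmaFin κ N) := by
  rintro y ⟨x, rfl⟩
  exact (SigmaFrob.mem_Rbar_iff κ N _).2
    ⟨redFin K N O hN x, redFin_mem_SigmaFin K N O hN x, (thetaFin_eq_coe_redFin K N O hN x).symm⟩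

variable (hprime : (fibreIdeal K N O (Rfin K N O)).IsPrime)
  (hDed : IsDedekindDomain (↥(Rfin K N O) ⧸ fibreIdeal K N O (Rfin K N O)))

include hN hprime hDed in
/-- **(B1)** `RbarFin K N O` is the image of `SigmaFin κ N` in `κ((q))`. -/
theorem rbarFin_eq : RbarFin K N O = SigmaFrob.Rbar κ N (SigmaFin κ N) := by
  refine le_antisymm (rbarFin_le K N O hN) ?_
  intro y hy
  obtain ⟨z, hz, rfl⟩ := (SigmaFrob.mem_Rbar_iff κ N _).1 hy
  obtain ⟨x, rfl⟩ := exists_redFin_eq K N O hN hprime hDed hz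
  exact ⟨x, thetaFin_eq_coe_redFin K N O hN x⟩

include hN hprime hDed in
/-- **`hFr`**: `RbarFin K N O` is stable under the coefficientwise Frobenius, both ways. -/
theorem hFr (ℓ : ℕ) [Fact ℓ.Prime] [CharP (IsLocalRing.ResidueField ↥O) ℓ]
    [PerfectRing (IsLocalRing.ResidueField ↥O) ℓ] (x : LaurentSeries κ) :
    CrossingLaurent.Fr κ ℓ x ∈ RbarFin K N O ↔ x ∈ RbarFin K N O := by
  rw [rbarFin_eq K N O hN hprime hDed]
  exact SigmaFrob.Fr_mem_RbarFin_iff κ ℓ N x

end B1

/-! ### Pushing integrality through a residue map -/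

section Push

variable {O F : Type*} [CommRing O] [IsLocalRing O] [Field F] [Algebra O F]

/-- A ring homomorphism `Θ` from the chart `chartAlg O F {s}` which reduces the constants
(`Θ a = c ā`) maps every element to an element integral over `κ[Θ s]`. -/
theorem isIntegralElem_map_chart {s : F} {A : Type*} [CommRing A]
    (c : IsLocalRing.ResidueField O →+* A)
    (Θ : ↥(chartAlg O F {s}) →+* A)
    (hΘc : ∀ a : O, Θ (algebraMap O ↥(chartAlg O F {s}) a) = c (IsLocalRing.residue O a))
    (x : ↥(chartAlg O F {s})) :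
    (eval₂RingHom c (Θ (chartGen (Set.mem_singleton s)))).IsIntegralElem (Θ x) := by
  obtain ⟨p, hp, hpx⟩ := (mem_chartAlg_singleton_iff s).mp x.2
  set toC : O[X] →+* ↥(chartAlg O F {s}) :=
    ((aeval (chartGen (O := O) (S := {s}) (Set.mem_singleton s)) :
      O[X] →ₐ[O] ↥(chartAlg O F {s})) : O[X] →+* ↥(chartAlg O F {s})) with htoC
  have hcoe : ∀ P : O[X], ((toC P : ↥(chartAlg O F {s})) : F) = aeval s P := by
    intro P
    have := Polynomial.aeval_algHom_apply (chartAlg O F {s}).val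
      (chartGen (O := O) (S := {s}) (Set.mem_singleton s)) P
    simpa [htoC] using this.symm
  have hcomp : Θ.comp toC =
      (eval₂RingHom c (Θ (chartGen (Set.mem_singleton s)))).comp
        (mapRingHom (IsLocalRing.residue O)) := by
    refine Polynomial.ringHom_ext (fun a => ?_) ?_
    · rw [RingHom.comp_apply, RingHom.comp_apply, coe_mapRingHom, Polynomial.map_C]
      have h1 : toC (C a) = algebraMap O ↥(chartAlg O F {s}) a := aeval_C _ a
      rw [h1, hΘc, coe_eval₂RingHom, eval₂_C]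
    · rw [RingHom.comp_apply, RingHom.comp_apply, coe_mapRingHom, Polynomial.map_X]
      have h1 : toC X = chartGen (Set.mem_singleton s) := aeval_X _
      rw [h1, coe_eval₂RingHom, eval₂_X]
  refine ⟨p.map (mapRingHom (IsLocalRing.residue O)), hp.map _, ?_⟩
  rw [eval₂_map, ← hcomp, ← hom_eval₂]
  have h0 : p.eval₂ toC x = 0 := by
    apply Subtype.ext
    have h1 := hom_eval₂ p toC (SubringClass.subtype (chartAlg O F {s})) x
    refine h1.trans ?_
    rw [ZeroMemClass.coe_zero, ← hpx]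
    congr 1
    exact RingHom.ext fun P => hcoe P
  rw [h0, map_zero]

end Push

/-! ### Elements of `FF k N` integral over `k[w]`, `w` in the chart, inside `k((q))` -/

section Sigma

variable (k : Type) [Field k] (N : ℕ)

/-- An element `z` of `FF k N` whose `q`-expansion is integral over `k[w]` (inside `k((q))`), `w` the
`q`-expansion of an element of `SigmaFin k N`, lies in `SigmaFin k N`. -/
theorem mem_chartAlg_of_isIntegralElem_coe {j W z : FF k N} (hW : W ∈ chartAlg k (FF k N) {j})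
    (h : (eval₂RingHom (HahnSeries.C : k →+* LaurentSeries k)
      (W : LaurentSeries k)).IsIntegralElem (z : LaurentSeries k)) :
    z ∈ chartAlg k (FF k N) {j} := by
  obtain ⟨p, hp, hpz⟩ := h
  have hcomp : (SigmaFrob.incl k N).comp
      ((aeval W : k[X] →ₐ[k] FF k N) : k[X] →+* FF k N) =
      eval₂RingHom (HahnSeries.C : k →+* LaurentSeries k) (W : LaurentSeries k) := by
    refine Polynomial.ringHom_ext (fun a => ?_) ?_
    · rw [RingHom.comp_apply, coe_eval₂RingHom, eval₂_C]
      have h1 : ((aeval W : k[X] →ₐ[k] FF k N) : k[X] →+* FF k N) (C a) =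
          algebraMap k (FF k N) a := aeval_C _ a
      rw [h1]
      show algebraMap k (LaurentSeries k) a = _
      rw [algebraMap_laurentSeries_eq_single]
      rfl
    · rw [RingHom.comp_apply, coe_eval₂RingHom, eval₂_X]
      have h1 : ((aeval W : k[X] →ₐ[k] FF k N) : k[X] →+* FF k N) X = W := aeval_X _
      rw [h1]
      rfl
  have hz : (((aeval W : k[X] →ₐ[k] FF k N) : k[X] →+* FF k N)).IsIntegralElem z := by
    refine ⟨p, hp, SigmaFrob.incl_injective k N ?_⟩
    rw [hom_eval₂, hcomp, map_zero]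
    exact hpz
  have hz' : z ∈ chartAlg k (FF k N) {W} := (mem_chartAlg_singleton_iff W).2 hz
  exact Fermat.Agent.P3G.BetaInf.mem_chartAlg_of_isIntegral_adjoin hW hz'

end Sigma

/-! ### (B2) the components of the finite chart of level `N ℓ` -/

section B2

variable (K : Type) [Field K] [CharZero K] (N : ℕ) [NeZero N] (ℓ : ℕ) [Fact ℓ.Prime]
  (O : Subring K) [IsDiscreteValuationRing ↥O] [IsFractionRing ↥O K]
  [CharP (IsLocalRing.ResidueField ↥O) ℓ]

set_option quotPrecheck false in
local notation "κ" => IsLocalRing.ResidueField ↥O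

attribute [local instance] AlphaSide.algFL AlphaSide.algGL AlphaSide.isScalarTower_GFL

set_option synthInstance.maxHeartbeats 400000

variable (hN : IsUnit ((N : ℕ) : ↥O))
  (hprime : (fibreIdeal K N O (Rfin K N O)).IsPrime)
  (hDed : IsDedekindDomain (↥(Rfin K N O) ⧸ fibreIdeal K N O (Rfin K N O)))
  (hA2 : ∀ x : ↥(gaussSubalgebra K N O),
    theta K N O x ∈ modularFunctionFieldFullC (IsLocalRing.ResidueField ↥O) N)
  (ι : K →+* ℂ) (hℓN : ¬ ℓ ∣ N)
  {S : Subring (FF K (N * ℓ))}
  {ev : ↥S →+* LaurentSeries (IsLocalRing.ResidueField ↥O)}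
  (hB : AlphaSide.BetaOut K N ℓ O S ev)

/-- `θ_M` reduces the constants. -/
theorem thetaFin_algebraMap (M : ℕ) [NeZero M] (a : ↥O) :
    thetaFin K M O (algebraMap ↥O ↥(Rfin K M O) a) = HahnSeries.C (IsLocalRing.residue ↥O a) :=
  rho_algebraMap K M O (sFin_le_gauss K M O) a

/-- `θ_M j = j̄`. -/
theorem thetaFin_jFin (M : ℕ) [NeZero M] : thetaFin K M O (jFin K M O) = jqModC κ :=
  theta_jF K M O

theorem alphaR_jFin :
    LevelIntegrality.alphaR K N ℓ O (jFin K N O) = jFin K (N * ℓ) O :=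
  Subtype.ext ((LevelIntegrality.coe_alphaR K N ℓ O _).trans (alphaF_jF K N ℓ))

/-- `θ₂` reduces the constants. -/
theorem theta2_algebraMap (a : ↥O) :
    theta2 K N ℓ O hB (algebraMap ↥O ↥(Rfin K (N * ℓ) O) a) =
      HahnSeries.C (IsLocalRing.residue ↥O a) := by
  have e0 : algebraMap ↥O ↥(Rfin K (N * ℓ) O) a =
      LevelIntegrality.alphaR K N ℓ O (algebraMap ↥O ↥(Rfin K N O) a) :=
    ((LevelIntegrality.alphaR K N ℓ O).commutes a).symm
  rw [e0, theta2_alphaR, thetaFin_algebraMap, qExpand_C]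

/-- `θ₂ j = j̄ ^ ℓ`. -/
theorem theta2_jFin : theta2 K N ℓ O hB (jFin K (N * ℓ) O) = jqModC κ ^ ℓ := by
  rw [← alphaR_jFin, theta2_alphaR, thetaFin_jFin]
  exact GaussResidue.qExpand_jqModC_eq_pow κ ℓ

include hN hprime hDed hA2 in
/-- A value of `θ_N` on `G_N` which is integral over `κ[w̄]`, `w ∈ SigmaFin κ N`, lies in
`RbarFin K N O`. -/
theorem theta_mem_rbarFin_of_isIntegralElem (a : ↥(gaussSubalgebra K N O)) {W : FF κ N}
    (hW : W ∈ SigmaFin κ N)
    (h : (eval₂RingHom (HahnSeries.C : κ →+* LaurentSeries κ)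
      (W : LaurentSeries κ)).IsIntegralElem (theta K N O a)) :
    theta K N O a ∈ RbarFin K N O := by
  rw [rbarFin_eq K N O hN hprime hDed]
  refine (SigmaFrob.mem_Rbar_iff κ N _).2 ⟨⟨theta K N O a, hA2 a⟩, ?_, rfl⟩
  exact mem_chartAlg_of_isIntegralElem_coe κ N hW h

include hN hprime hDed hA2 ι hℓN hB in
/-- **(B2), first component**: the Gauss reduction of the finite chart of level `N ℓ` takes its
values in `RbarFin K N O`. -/
theorem thetaFin_mem_rbar (r : ↥(Rfin K (N * ℓ) O)) :
    thetaFin K (N * ℓ) O r ∈ RbarFin K N O := by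
  haveI : FiniteDimensional (FF K N) (FF K (N * ℓ)) :=
    AlphaSide.finiteDimensional_alpha K N ℓ ι hℓN
  haveI := AlphaSide.charP_laurent K ℓ O
  haveI : @IsScalarTower ↥(gaussSubalgebra K N O) (FF K N) (FF K (N * ℓ)) Algebra.toSMul
      Algebra.toSMul Algebra.toSMul := AlphaSide.isScalarTower_GFL K N ℓ O
  obtain ⟨a, ha⟩ := FibreBase.exists_theta_eq (A := ↥(gaussSubalgebra K N O)) (F := FF K N)
    (L := FF K (N * ℓ)) (AlphaSide.finrank_alpha K N ℓ ι hℓN) (theta K N O)
    (AlphaSide.theta_mem_maximalIdeal K N O) (qExpand κ ℓ) (AlphaSide.pi1 K N ℓ O hB)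
    (AlphaSide.pi1_algebraMap K N ℓ O hB) (AlphaSide.x0 K N ℓ O) (AlphaSide.t0 K N O)
    (AlphaSide.hx0 K N ℓ O hB) (AlphaSide.ht0 K N ℓ O) (AlphaSide.pi2 K N ℓ O)
    (AlphaSide.pi2_algebraMap K N ℓ O) (AlphaSide.ker_ne K N ℓ O hB) (toClosure K N ℓ O r)
  have hval : thetaFin K (N * ℓ) O r = theta K N O a := (thetaFin_eq_pi2 K N ℓ O r).trans ha
  rw [hval]
  refine theta_mem_rbarFin_of_isIntegralElem K N O hN hprime hDed hA2 a (W := jF κ N)
    (subset_chartAlg _ (Set.mem_singleton _)) ?_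
  have h := isIntegralElem_map_chart (HahnSeries.C : κ →+* LaurentSeries κ)
    (thetaFin K (N * ℓ) O) (thetaFin_algebraMap K O (N * ℓ)) r
  have hg : thetaFin K (N * ℓ) O (chartGen (Set.mem_singleton (jF K (N * ℓ)))) =
      ((jF κ N : FF κ N) : LaurentSeries κ) := thetaFin_jFin K O (N * ℓ)
  rw [hg, hval] at h
  exact h

include hN hprime hDed hA2 in
/-- **(B2), second component**: the second place of the finite chart of level `N ℓ` takes its
values in `RbarFin K N O`, given that `ev` only takes values of `θ_N`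
(`FibreBase.exists_betaOut_range`). -/
theorem theta2_mem_rbar
    (hrange : ∀ y : S, ∃ a : ↥(gaussSubalgebra K N O), ev y = theta K N O a)
    (r : ↥(Rfin K (N * ℓ) O)) :
    theta2 K N ℓ O hB r ∈ RbarFin K N O := by
  obtain ⟨a, ha⟩ := hrange ⟨((toClosure K N ℓ O r :
      ↥(integralClosure ↥(gaussSubalgebra K N O) (FF K (N * ℓ)))) : FF K (N * ℓ)),
    AlphaSide.mem_S_of_mem_integralClosure K N ℓ O hB (toClosure K N ℓ O r).2⟩
  have hval : theta2 K N ℓ O hB r = theta K N O a :=
    (theta2_eq_pi1 K N ℓ O hB r).trans ((AlphaSide.pi1_apply K N ℓ O hB _).trans ha)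
  rw [hval]
  refine theta_mem_rbarFin_of_isIntegralElem K N O hN hprime hDed hA2 a (W := jF κ N ^ ℓ)
    (Subalgebra.pow_mem _ (subset_chartAlg _ (Set.mem_singleton _)) ℓ) ?_
  have h := isIntegralElem_map_chart (HahnSeries.C : κ →+* LaurentSeries κ)
    (theta2 K N ℓ O hB) (theta2_algebraMap K N ℓ O hB) r
  have hg : theta2 K N ℓ O hB (chartGen (Set.mem_singleton (jF K (N * ℓ)))) =
      ((jF κ N ^ ℓ : FF κ N) : LaurentSeries κ) := theta2_jFin K N ℓ O hB
  rw [hg, hval] at h
  exact h

end B2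

end Fermat.Agent.P3G.TwoComponentsB
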