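/-
P3-G / (G-N), helper13: **the finite chart of level `N ℓ`, final form.**

For `R = Rfin K (N ℓ) O = chartAlg ↥O (FF K (N ℓ)) {jF K (N ℓ)}`:

* `locPRat_fin` : **(Loc-P) at the rational places** (`Glue.LevelRoots.LocPRat K ϖ (jF K (N ℓ))`,
  input (I4) of the level glue), with no hypothesis beyond the base facts at the level;
* `crossingData_fin` : `Crossing.CrossingData` for `R`, with `Rb = RbarFin K N O` (Dedekind, not a
  field), `θ₁ =` Gauss reduction, `θ₂ =` the second place `S.ev` of a `FibreTwo.SecondVal`,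
  `ψ =` coefficientwise inverse Frobenius;
* `ker_inf_ker_eq_fin` : (V) `ker θ₁ ⊓ ker θ₂ = (ϖ)` for the corestricted maps.

Assembled from `P3G/TwoComponents` (coordinates), `P3G/TwoComponentsB` (helper6: `RbarFin` =
image of `SigmaFin`, Frobenius stability), `P3G/FibreSatKer` (helper12: (V)), `P3G/FibreIdent` +
`P3G/SecondValBridge` (helper15: `BetaOut` from a `SecondVal`, components), `G/LocPRat` (helper9).
-/
import Mathlib
import Fermat.Agent.P3G.TwoComponents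
import Fermat.Agent.P3G.TwoComponentsB
import Fermat.Agent.P3G.FibreSatKer
import Fermat.Agent.P3G.FibreIdent
import Fermat.Agent.G.LocPRat

set_option autoImplicit false
set_option linter.unusedSectionVars false
set_option linter.style.haveILetI false

open ModularCurve Fermat.Agent.S28.Gauss Fermat.Agent.N4.Setting Fermat.Agent.N4.FibreEmbedding
open Fermat.Agent.N4.Chart
open Fermat.Agent.N4F.E.DegreeLevelRaise Fermat.Agent.N4F.E.GaussDVR AlgebraicCurve Polynomial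
open Fermat.Agent.N4F.E IsLocalRing Fermat.Agent.P3G.RbarFin Fermat.Agent.P3G.TwoComponents

noncomputable section

namespace Fermat.Agent.P3G.TwoComponentsFinal

variable (K : Type) [Field K] [CharZero K] (N : ℕ) [NeZero N] (ℓ : ℕ) [Fact ℓ.Prime]
  (O : Subring K) [IsDiscreteValuationRing ↥O] [IsFractionRing ↥O K]
  [CharP (IsLocalRing.ResidueField ↥O) ℓ] [PerfectRing (IsLocalRing.ResidueField ↥O) ℓ]

set_option quotPrecheck false in
local notation "κ" => IsLocalRing.ResidueField ↥O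

attribute [local instance] AlphaSide.algFL AlphaSide.algGL AlphaSide.isScalarTower_GFL

set_option synthInstance.maxHeartbeats 400000

/-! ### Generic form: any `BetaOut`, block (B) as hypotheses -/

section Generic

variable (ι : K →+* ℂ) (hℓN : ¬ ℓ ∣ N)
  (hprime : (fibreIdeal K N O (Rfin K N O)).IsPrime)
  (hsmooth : IsDedekindDomain (↥(Rfin K N O) ⧸ fibreIdeal K N O (Rfin K N O)))
  {S : Subring (FF K (N * ℓ))}
  {ev : ↥S →+* LaurentSeries (IsLocalRing.ResidueField ↥O)}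
  (hB : AlphaSide.BetaOut K N ℓ O S ev)
  (hFr : ∀ x : LaurentSeries (IsLocalRing.ResidueField ↥O),
    CrossingLaurent.Fr (IsLocalRing.ResidueField ↥O) ℓ x ∈ RbarFin K N O ↔ x ∈ RbarFin K N O)
  (hθ₁ : ∀ r, thetaFin K (N * ℓ) O r ∈ RbarFin K N O)
  (hθ₂ : ∀ r, theta2 K N ℓ O hB r ∈ RbarFin K N O)
  {ϖ : ↥O} (hϖ : Irreducible ϖ)

include ι hℓN hprime hϖ in
/-- **(V)** for the finite chart as an equality. -/
theorem inf_ker_eq_span :
    RingHom.ker (thetaFin K (N * ℓ) O) ⊓ RingHom.ker (theta2 K N ℓ O hB) =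
      Ideal.span {algebraMap ↥O ↥(Rfin K (N * ℓ) O) ϖ} :=
  le_antisymm (FibreSatKer.ker_inf_ker_le_fin K N ℓ O ι hℓN hprime hB hϖ)
    (span_le_inf_ker K N ℓ O hB hϖ)

include ι hℓN hprime hsmooth hFr hθ₁ hθ₂ hϖ in
/-- **(Loc-P) at the rational places of the finite chart**, modulo block (B). -/
theorem locPRat_fin_of :
    Fermat.Agent.P3G.Glue.LevelRoots.LocPRat K ϖ (jF K (N * ℓ)) := by
  haveI := Fermat.Agent.N4.ModPolySetting.finiteDimensional_FF K (N * ℓ)
  have hV := FibreSatKer.ker_inf_ker_le_fin K N ℓ O ι hℓN hprime hB hϖ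
  refine Fermat.Agent.G.LocPRatGlue.locPRat_of_coordinates (O := ↥O) (K := K)
    (F := FF K (N * ℓ)) (jF K (N * ℓ)) (Fermat.Agent.N4.FFAlgebraic.transcendental_jF K (N * ℓ))
    (thetaFin K (N * ℓ) O) (theta2 K N ℓ O hB) hϖ
    (inf_ker_eq_span K N ℓ O ι hℓN hprime hB hϖ) ?_ ?_ ?_
  · intro 𝔫 h𝔫 hk1 hk2
    haveI := h𝔫
    obtain ⟨z₁, z₂, z₁', z₂', u, v, -, -, -, -, h3, h4, h5, h6, -, h8, -⟩ :=
      exists_crossing_coordinates K N ℓ O hB hprime hsmooth hFr hθ₁ hθ₂ hV 𝔫 hk1 hk2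
    exact ⟨u, v, h3, h4, h5, h6, h8⟩
  · intro 𝔫 h𝔫 hk1 hk2
    haveI := h𝔫
    obtain ⟨z, hz, -, h⟩ :=
      exists_smooth_coordinate₁ K N ℓ O hB hprime hsmooth hFr hθ₁ hθ₂ hV 𝔫 hk1 hk2
    exact ⟨z, hz, h⟩
  · intro 𝔫 h𝔫 hk2 hk1
    haveI := h𝔫
    obtain ⟨z, hz, -, h⟩ :=
      exists_smooth_coordinate₂ K N ℓ O hB hprime hsmooth hFr hθ₁ hθ₂ hV 𝔫 hk2 hk1
    exact ⟨z, hz, h⟩

end Generic

/-! ### `S`-language: everything driven by a `FibreTwo.SecondVal` -/

section SecondVal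

variable (hN : IsUnit ((N : ℕ) : ↥O)) (ι : K →+* ℂ) (hℓN : ¬ ℓ ∣ N)
  (hprime : (fibreIdeal K N O (Rfin K N O)).IsPrime)
  (hsmooth : IsDedekindDomain (↥(Rfin K N O) ⧸ fibreIdeal K N O (Rfin K N O)))
  (hA2 : ∀ x : ↥(gaussSubalgebra K N O),
    theta K N O x ∈ modularFunctionFieldFullC (IsLocalRing.ResidueField ↥O) N)
  (S₂ : FibreTwo.SecondVal K N ℓ O)
  {ϖ : ↥O} (hϖ : Irreducible ϖ)

/-- The second reduction of the finite chart attached to a `SecondVal`. -/
def theta2S : ↥(Rfin K (N * ℓ) O) →+* LaurentSeries κ :=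
  theta2 K N ℓ O (FibreIdent.betaOut_of_secondVal K N ℓ O S₂)

/-- `θ₂` is the restriction of `S.ev`. -/
theorem theta2S_apply (r : ↥(Rfin K (N * ℓ) O)) :
    theta2S K N ℓ O S₂ r =
      S₂.ev ⟨(r : FF K (N * ℓ)), SecondValBridge.Rfin_le_V K N ℓ O S₂ r.2⟩ := by
  unfold theta2S
  rw [theta2_eq_pi1, AlphaSide.pi1_apply]
  exact congrArg S₂.ev (Subtype.ext (coe_toClosure K N ℓ O r))

include hN hprime hsmooth in
/-- `hFr`. -/
theorem fr_mem_iff (x : LaurentSeries κ) :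
    CrossingLaurent.Fr κ ℓ x ∈ RbarFin K N O ↔ x ∈ RbarFin K N O :=
  TwoComponentsB.hFr K N O hN hprime hsmooth ℓ x

include hN ι hℓN hprime hsmooth hA2 S₂ in
/-- `hθ₁`: the Gauss reduction of `Rfin K (N ℓ) O` takes values in `RbarFin K N O`. -/
theorem thetaFin_mem_rbar (r : ↥(Rfin K (N * ℓ) O)) :
    thetaFin K (N * ℓ) O r ∈ RbarFin K N O := by
  rw [TwoComponentsB.rbarFin_eq K N O hN hprime hsmooth, thetaFin_apply]
  exact SecondValBridge.theta_mem_RbarFin K N ℓ O S₂ ι hℓN hA2 r.2 _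

include hN hprime hsmooth hA2 in
/-- `hθ₂`: the second reduction of `Rfin K (N ℓ) O` takes values in `RbarFin K N O`. -/
theorem theta2S_mem_rbar (r : ↥(Rfin K (N * ℓ) O)) :
    theta2S K N ℓ O S₂ r ∈ RbarFin K N O := by
  rw [TwoComponentsB.rbarFin_eq K N O hN hprime hsmooth, theta2S_apply]
  exact SecondValBridge.ev_mem_RbarFin K N ℓ O S₂ hA2 r.2 _

include hN ι hℓN hprime hsmooth hA2 in
/-- **`Crossing.CrossingData` for the finite chart of level `N ℓ`.** -/
theorem crossingData_fin :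
    Crossing.CrossingData ℓ (LevelIntegrality.alphaR K N ℓ O).toRingHom
      (LevelIntegrality.betaR K N ℓ O).toRingHom
      (CrossingLaurent.res (RbarFin K N O) (thetaFin K N O) (thetaFin_mem K N O))
      (CrossingLaurent.res (RbarFin K N O) (thetaFin K (N * ℓ) O)
        (thetaFin_mem_rbar K N ℓ O hN ι hℓN hprime hsmooth hA2 S₂))
      (CrossingLaurent.res (RbarFin K N O) (theta2S K N ℓ O S₂)
        (theta2S_mem_rbar K N ℓ O hN hprime hsmooth hA2 S₂))
      (CrossingLaurent.psi (RbarFin K N O) (fr_mem_iff K N ℓ O hN hprime hsmooth)) :=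
  CrossingLaurent.crossingData (fr_mem_iff K N ℓ O hN hprime hsmooth) (thetaFin_mem K N O)
    (thetaFin_mem_rbar K N ℓ O hN ι hℓN hprime hsmooth hA2 S₂)
    (theta2S_mem_rbar K N ℓ O hN hprime hsmooth hA2 S₂)
    (laurentData K N ℓ O (FibreIdent.betaOut_of_secondVal K N ℓ O S₂))

include hN ι hℓN hprime hsmooth hA2 hϖ in
/-- **(V) for the corestricted maps**: `ker θ₁ ⊓ ker θ₂ = (ϖ)`. -/
theorem ker_inf_ker_eq_fin :
    RingHom.ker (CrossingLaurent.res (RbarFin K N O) (thetaFin K (N * ℓ) O)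
        (thetaFin_mem_rbar K N ℓ O hN ι hℓN hprime hsmooth hA2 S₂)) ⊓
      RingHom.ker (CrossingLaurent.res (RbarFin K N O) (theta2S K N ℓ O S₂)
        (theta2S_mem_rbar K N ℓ O hN hprime hsmooth hA2 S₂)) =
      Ideal.span {algebraMap ↥O ↥(Rfin K (N * ℓ) O) ϖ} := by
  rw [CrossingLaurent.ker_res, CrossingLaurent.ker_res]
  exact inf_ker_eq_span K N ℓ O ι hℓN hprime
    (FibreIdent.betaOut_of_secondVal K N ℓ O S₂) hϖ

include hN ι hℓN hprime hsmooth hA2 hϖ in
/-- **(Loc-P) at the rational places of the finite chart of level `N ℓ`.** -/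
theorem locPRat_fin :
    Fermat.Agent.P3G.Glue.LevelRoots.LocPRat K ϖ (jF K (N * ℓ)) := by
  obtain ⟨S₂⟩ := FibreTwo.nonempty_secondVal K N ℓ O ι hℓN hprime hA2
  exact locPRat_fin_of K N ℓ O ι hℓN hprime hsmooth
    (FibreIdent.betaOut_of_secondVal K N ℓ O S₂) (fr_mem_iff K N ℓ O hN hprime hsmooth)
    (thetaFin_mem_rbar K N ℓ O hN ι hℓN hprime hsmooth hA2 S₂)
    (theta2S_mem_rbar K N ℓ O hN hprime hsmooth hA2 S₂) hϖ

end SecondVal

end Fermat.Agent.P3G.TwoComponentsFinal
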