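/-
P3-G block (G-N) (helper19), mirror of helper13's `P3G/RbarFin.lean` for the chart at infinity:
**the Gauss reduction of the chart at infinity and its range.**

Level `(K, O)` (Setting language), `κ` the residue field of `O`.
* `thetaInf K M O : Rinf K M O →+* κ((q))` the Gauss reduction on the chart at infinity of level `M`;
* `RbarInf K M O` its range (`quotEquivRbarInf : Rinf / ϖ ≃+* RbarInf`), a Dedekind domain
  (`isDedekindDomain_RbarInf`, from (S)) which is not a field (`not_isField_RbarInf`);
* `exists_sub_algebraMap_mem` : closed points of the special fibre are `κ`-rational (`κ` alg. closed).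
-/
import Mathlib
import Fermat.Agent.P3G.RbarFin

set_option autoImplicit false
set_option linter.unusedSectionVars false
set_option linter.style.haveILetI false
set_option linter.dupNamespace false

open ModularCurve Fermat.Agent.S28.Gauss Fermat.Agent.N4.Setting Fermat.Agent.N4.FibreEmbedding
open Fermat.Agent.N4.Chart
open Fermat.Agent.N4F.E.DegreeLevelRaise Fermat.Agent.N4F.E.GaussDVR AlgebraicCurve Polynomial
open Fermat.Agent.N4F.E IsLocalRing

noncomputable section

namespace Fermat.Agent.P3G.RbarInf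

section Level

variable (K : Type) [Field K] [CharZero K] (M : ℕ) [NeZero M]
  (O : Subring K) [IsDiscreteValuationRing ↥O] [IsFractionRing ↥O K]

set_option quotPrecheck false in
local notation "κ" => IsLocalRing.ResidueField ↥O

theorem sInf_le_gauss : ({(jF K M)⁻¹} : Set (FF K M)) ⊆ (gaussSubalgebra K M O : Set (FF K M)) :=
  Set.singleton_subset_iff.mpr (jF_inv_mem_gaussSubalgebra K M O)

/-- The Gauss reduction on the chart at infinity of level `M`. -/
def thetaInf : ↥(Rinf K M O) →+* LaurentSeries κ := rho K M O (sInf_le_gauss K M O)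

theorem thetaInf_apply (x : ↥(Rinf K M O)) :
    thetaInf K M O x =
      theta K M O ⟨(x : FF K M), chartAlg_le_gaussSubalgebra K M O (sInf_le_gauss K M O) x.2⟩ :=
  rfl

/-- The reduction of the chart at infinity: the coordinate ring of the affine special fibre, inside
`κ((q))`. -/
def RbarInf : Subring (LaurentSeries κ) := (thetaInf K M O).range

theorem thetaInf_mem (x : ↥(Rinf K M O)) : thetaInf K M O x ∈ RbarInf K M O := ⟨x, rfl⟩

theorem transcendental_theta_jF_inv :
    Transcendental κ (theta K M O ⟨(jF K M)⁻¹, jF_inv_mem_gaussSubalgebra K M O⟩) := by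
  rw [theta_jF_inv]
  intro halg
  exact Fermat.Agent.S24.FFBasics.transcendental_jqModC _ (by simpa using halg.inv)

theorem ker_thetaInf (hprime : (fibreIdeal K M O (Rinf K M O)).IsPrime) :
    RingHom.ker (thetaInf K M O) = fibreIdeal K M O (Rinf K M O) :=
  ker_rho_eq K M O (jF_inv_mem_gaussSubalgebra K M O) (transcendental_theta_jF_inv K M O) hprime

/-- `Rinf / ϖ ≃ Rbar`. -/
def quotEquivRbarInf (hprime : (fibreIdeal K M O (Rinf K M O)).IsPrime) :
    (↥(Rinf K M O) ⧸ fibreIdeal K M O (Rinf K M O)) ≃+* ↥(RbarInf K M O) :=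
  (Ideal.quotEquivOfEq (ker_thetaInf K M O hprime).symm).trans
    (RingHom.quotientKerEquivRange (thetaInf K M O))

theorem isDedekindDomain_RbarInf (hprime : (fibreIdeal K M O (Rinf K M O)).IsPrime)
    (hsmooth : IsDedekindDomain (↥(Rinf K M O) ⧸ fibreIdeal K M O (Rinf K M O))) :
    IsDedekindDomain ↥(RbarInf K M O) :=
  @Fermat.Agent.N4F.C.ChartRange.isDedekindDomain_of_ringEquiv
    (↥(Rinf K M O) ⧸ fibreIdeal K M O (Rinf K M O)) _ (Ideal.Quotient.commRing _) _ hsmooth
    (quotEquivRbarInf K M O hprime)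

theorem not_isField_RbarInf (hprime : (fibreIdeal K M O (Rinf K M O)).IsPrime) :
    ¬ IsField ↥(RbarInf K M O) := by
  obtain ⟨ϖ, hϖ⟩ := IsDiscreteValuationRing.exists_irreducible ↥O
  intro h
  have h1 : IsField (↥(Rinf K M O) ⧸ fibreIdeal K M O (Rinf K M O)) :=
    (quotEquivRbarInf K M O hprime).toMulEquiv.isField h
  rw [fibreIdeal_eq_span K M O hϖ] at h1
  exact Fermat.Agent.N4.S18Glue.not_isField_fibre K M O (jF_inv_mem_gaussSubalgebra K M O)
    (transcendental_theta_jF_inv K M O) hϖ h1

/-- Closed points of the special fibre of the chart at infinity are rational (`κ` algebraically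
closed). -/
theorem exists_sub_algebraMap_mem [IsAlgClosed (IsLocalRing.ResidueField ↥O)] {ϖ : ↥O}
    (hϖ : Irreducible ϖ) (𝔫 : Ideal ↥(Rinf K M O)) [𝔫.IsMaximal]
    (h𝔫 : algebraMap ↥O ↥(Rinf K M O) ϖ ∈ 𝔫) (r : ↥(Rinf K M O)) :
    ∃ a : ↥O, r - algebraMap ↥O ↥(Rinf K M O) a ∈ 𝔫 :=
  (Fermat.Agent.N4.SmoothDescent.ratPt_of_isMaximal hϖ.maximalIdeal_eq (Set.finite_singleton _)
    𝔫 h𝔫).rat r

end Level

end Fermat.Agent.P3G.RbarInf
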