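/-
P3-G block (G-N) (helper19), mirror of helper13's `P3G/TwoComponents.lean` for the CHART AT INFINITY:
**local structure of the level-`N ℓ` chart `Rinf K (N ℓ) O` at every closed point of its special fibre**
(characteristic `ℓ ∤ N`).

Level `(K, O)` (Setting language), `κ` the residue field of `O`, `R₀ := Rinf K N O`,
`R := Rinf K (N ℓ) O`, `θ := RbarInf.thetaInf K N O`, `Rbar := RbarInf.RbarInf K N O`,
`α := BetaInf.alphaRinf` (a homomorphism), and — since `β (Rinf N) ⊄ Rinf (N ℓ)` — the PLAIN FUNCTION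
`β' = betaInf : R₀ → R`, `β' x = (1 + ℓ r) · β x` chosen by `BetaInf.exists_betaF_lift`
(`Crossing`/`CrossingLaurent` take plain functions).

* `theta1 := thetaInf K (N ℓ) O` (Gauss reduction, `= pi2|R`), `theta2Inf := ev|R = pi1|R` (second place
  of block E), `toClosureInf : R → C_α`;
* `laurentDataInf` : `θ₁∘α = θ`, `θ₂∘β' = θ`, `θ₁∘β' = φ∘θ`, `θ₂∘α = φ∘θ`;
* `span_le_inf_ker` : `ϖ R ≤ ker θ₁ ⊓ ker θ₂`;
* `ker_le_or_ker_le`, `exists_crossing_coordinates`, `exists_smooth_coordinate₁/₂` : at every maximal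
  `𝔫 ∋ ϖ` of `R`: crossing coordinates `(u, v)` or a smooth coordinate `z`.

Inputs taken as hypotheses: `(V)` (`ker θ₁ ⊓ ker θ₂ ≤ ϖ R`), `(b)` (`θ_i(R) ⊆ Rbar`), Frobenius-stability
of `Rbar`, `(∗)`/`(S)` at level `N` for the chart at infinity, and `(∗)` for the finite chart (used by
`AlphaSide.betaF_mem_closure`).
-/
import Mathlib
import Fermat.Agent.P3G.RbarInf
import Fermat.Agent.P3G.BetaInf
import Fermat.Agent.P3G.TwoComponents

set_option autoImplicit false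
set_option linter.unusedSectionVars false
set_option linter.style.haveILetI false

open ModularCurve Fermat.Agent.S28.Gauss Fermat.Agent.N4.Setting Fermat.Agent.N4.FibreEmbedding
open Fermat.Agent.N4.Chart
open Fermat.Agent.N4F.E.DegreeLevelRaise Fermat.Agent.N4F.E.GaussDVR AlgebraicCurve Polynomial
open Fermat.Agent.N4F.E IsLocalRing Fermat.Agent.P3G.RbarInf

noncomputable section

namespace Fermat.Agent.P3G.TwoComponentsInf

section Two

variable (K : Type) [Field K] [CharZero K] (N : ℕ) [NeZero N] (ℓ : ℕ) [Fact ℓ.Prime]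
  (O : Subring K) [IsDiscreteValuationRing ↥O] [IsFractionRing ↥O K]

set_option quotPrecheck false in
local notation "κ" => IsLocalRing.ResidueField ↥O

attribute [local instance] AlphaSide.algFL AlphaSide.algGL AlphaSide.isScalarTower_GFL

set_option synthInstance.maxHeartbeats 400000

theorem adjoin_alphaF_jF_inv_le :
    Algebra.adjoin ↥O {alphaF K N ℓ (jF K N)⁻¹} ≤ Integrality.alphaGauss K N ℓ O :=
  Algebra.adjoin_le (Set.singleton_subset_iff.mpr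
    (Integrality.alphaF_mem_alphaGauss K N ℓ O (jF_inv_mem_gaussSubalgebra K N O)))

/-- The chart at infinity of level `N ℓ` lies in the integral closure `C_α` of `α (G_N)`. -/
theorem mem_closure_of_mem_Rinf {x : FF K (N * ℓ)} (hx : x ∈ Rinf K (N * ℓ) O) :
    x ∈ integralClosure ↥(gaussSubalgebra K N O) (FF K (N * ℓ)) := by
  have hx' : IsIntegral (Algebra.adjoin ↥O {alphaF K N ℓ (jF K N)⁻¹}) x := by
    rw [map_inv₀, alphaF_jF]
    exact hx
  refine BetaSide.isIntegral_of_le_range (R := ↥(gaussSubalgebra K N O))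
    (Algebra.adjoin ↥O {alphaF K N ℓ (jF K N)⁻¹}) ?_ hx'
  intro s hs
  obtain ⟨x, hx, rfl⟩ := adjoin_alphaF_jF_inv_le K N ℓ O hs
  exact ⟨⟨x, hx⟩, rfl⟩

/-- The inclusion `Rinf K (N ℓ) O → C_α`. -/
def toClosureInf : ↥(Rinf K (N * ℓ) O) →+*
    ↥(integralClosure ↥(gaussSubalgebra K N O) (FF K (N * ℓ))) :=
  RingHom.codRestrict ((Rinf K (N * ℓ) O).val.toRingHom)
    (integralClosure ↥(gaussSubalgebra K N O) (FF K (N * ℓ)))
    (fun x => mem_closure_of_mem_Rinf K N ℓ O x.2)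

theorem coe_toClosureInf (x : ↥(Rinf K (N * ℓ) O)) :
    ((toClosureInf K N ℓ O x : ↥(integralClosure ↥(gaussSubalgebra K N O) (FF K (N * ℓ)))) :
      FF K (N * ℓ)) = (x : FF K (N * ℓ)) :=
  RingHom.codRestrict_apply _ _ _ _

variable {S : Subring (FF K (N * ℓ))}
  {ev : ↥S →+* LaurentSeries (IsLocalRing.ResidueField ↥O)}
  (hB : AlphaSide.BetaOut K N ℓ O S ev)

/-- The second reduction of the chart at infinity of level `N ℓ`: the restriction of the second place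
`ev` of block E. -/
def theta2Inf : ↥(Rinf K (N * ℓ) O) →+* LaurentSeries κ :=
  (AlphaSide.pi1 K N ℓ O hB).comp (toClosureInf K N ℓ O)

theorem theta2Inf_eq_pi1 (x : ↥(Rinf K (N * ℓ) O)) :
    theta2Inf K N ℓ O hB x = AlphaSide.pi1 K N ℓ O hB (toClosureInf K N ℓ O x) :=
  RingHom.comp_apply _ _ _

/-- The first reduction of the chart at infinity of level `N ℓ` is the restriction of the place `pi2`
of `C_α` (the Gauss reduction). -/
theorem thetaInf_eq_pi2 (x : ↥(Rinf K (N * ℓ) O)) :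
    thetaInf K (N * ℓ) O x = AlphaSide.pi2 K N ℓ O (toClosureInf K N ℓ O x) := by
  rw [thetaInf_apply, AlphaSide.pi2_apply]
  exact congrArg (theta K (N * ℓ) O) (Subtype.ext (coe_toClosureInf K N ℓ O x).symm)

theorem gauss_of_mem_Rinf (x : ↥(Rinf K N O)) : (x : FF K N) ∈ gaussSubalgebra K N O :=
  chartAlg_le_gaussSubalgebra K N O (sInf_le_gauss K N O) x.2

/-- `θ₁ ∘ α = θ`. -/
theorem thetaInf_alphaRinf (x : ↥(Rinf K N O)) :
    thetaInf K (N * ℓ) O (BetaInf.alphaRinf K N ℓ O x) = thetaInf K N O x := by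
  rw [thetaInf_apply, thetaInf_apply]
  exact theta_alphaF K O N ℓ ⟨(x : FF K N), gauss_of_mem_Rinf K N O x⟩

/-- `θ₂ ∘ α = φ ∘ θ`. -/
theorem theta2Inf_alphaRinf (x : ↥(Rinf K N O)) :
    theta2Inf K N ℓ O hB (BetaInf.alphaRinf K N ℓ O x) =
      qExpand κ ℓ (thetaInf K N O x) := by
  have e : toClosureInf K N ℓ O (BetaInf.alphaRinf K N ℓ O x) =
      algebraMap ↥(gaussSubalgebra K N O)
        ↥(integralClosure ↥(gaussSubalgebra K N O) (FF K (N * ℓ)))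
        ⟨(x : FF K N), gauss_of_mem_Rinf K N O x⟩ :=
    Subtype.ext ((coe_toClosureInf K N ℓ O _).trans (BetaInf.coe_alphaRinf K N ℓ O x))
  rw [theta2Inf_eq_pi1, thetaInf_apply, e]
  exact AlphaSide.pi1_algebraMap K N ℓ O hB ⟨(x : FF K N), gauss_of_mem_Rinf K N O x⟩

/-! #### The `β`-lift -/

/-- The `β`-lift `β' x = (1 + ℓ r) · β x ∈ Rinf K (N ℓ) O` of `x ∈ Rinf K N O` (a plain function). -/
def betaInf (x : ↥(Rinf K N O)) : ↥(Rinf K (N * ℓ) O) :=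
  ⟨Classical.choose (BetaInf.exists_betaF_lift K N ℓ O x.2),
    (Classical.choose_spec (BetaInf.exists_betaF_lift K N ℓ O x.2)).1⟩

theorem betaInf_spec (x : ↥(Rinf K N O)) :
    ∃ r : ↥(Rinf K (N * ℓ) O), ((betaInf K N ℓ O x : ↥(Rinf K (N * ℓ) O)) : FF K (N * ℓ)) =
      (1 + (ℓ : FF K (N * ℓ)) * (r : FF K (N * ℓ))) * betaF K N ℓ (x : FF K N) := by
  obtain ⟨r, hr, h⟩ := (Classical.choose_spec (BetaInf.exists_betaF_lift K N ℓ O x.2)).2
  exact ⟨⟨r, hr⟩, h⟩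

variable [CharP (IsLocalRing.ResidueField ↥O) ℓ]

/-- `θ₁ ∘ β' = φ ∘ θ`. -/
theorem thetaInf_betaInf (x : ↥(Rinf K N O)) :
    thetaInf K (N * ℓ) O (betaInf K N ℓ O x) = qExpand κ ℓ (thetaInf K N O x) := by
  haveI := AlphaSide.charP_laurent K ℓ O
  obtain ⟨r, hr⟩ := betaInf_spec K N ℓ O x
  have hxG := gauss_of_mem_Rinf K N O x
  have hrG : (r : FF K (N * ℓ)) ∈ gaussSubalgebra K (N * ℓ) O :=
    gauss_of_mem_Rinf K (N * ℓ) O r
  have hbG : betaF K N ℓ (x : FF K N) ∈ gaussSubalgebra K (N * ℓ) O := betaF_mem K O N ℓ hxG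
  have e : (⟨((betaInf K N ℓ O x : ↥(Rinf K (N * ℓ) O)) : FF K (N * ℓ)),
      gauss_of_mem_Rinf K (N * ℓ) O (betaInf K N ℓ O x)⟩ : gaussSubalgebra K (N * ℓ) O) =
      (1 + (ℓ : gaussSubalgebra K (N * ℓ) O) * ⟨(r : FF K (N * ℓ)), hrG⟩) *
        ⟨betaF K N ℓ (x : FF K N), hbG⟩ := by
    apply Subtype.ext
    rw [hr]
    simp only [MulMemClass.coe_mul, AddMemClass.coe_add, OneMemClass.coe_one,
      SubringClass.coe_natCast]
  rw [thetaInf_apply, thetaInf_apply, e, map_mul, map_add, map_one, map_mul, map_natCast,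
    CharP.cast_eq_zero, zero_mul, add_zero, one_mul]
  exact theta_betaF K O N ℓ ⟨(x : FF K N), hxG⟩

variable (ι : K →+* ℂ) (hℓN : ¬ ℓ ∣ N) (hprime : (fibreIdeal K N O (Rfin K N O)).IsPrime)

include ι hℓN hprime in
/-- `θ₂ ∘ β' = θ`. -/
theorem theta2Inf_betaInf (x : ↥(Rinf K N O)) :
    theta2Inf K N ℓ O hB (betaInf K N ℓ O x) = thetaInf K N O x := by
  haveI := AlphaSide.charP_laurent K ℓ O
  obtain ⟨r, hr⟩ := betaInf_spec K N ℓ O x
  have hxG := gauss_of_mem_Rinf K N O x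
  have hbC : betaF K N ℓ (x : FF K N) ∈
      integralClosure ↥(gaussSubalgebra K N O) (FF K (N * ℓ)) :=
    AlphaSide.betaF_mem_closure K N ℓ O ι hℓN hprime hB hxG
  have e : toClosureInf K N ℓ O (betaInf K N ℓ O x) =
      (1 + (ℓ : ↥(integralClosure ↥(gaussSubalgebra K N O) (FF K (N * ℓ)))) *
        toClosureInf K N ℓ O r) * ⟨betaF K N ℓ (x : FF K N), hbC⟩ := by
    apply Subtype.ext
    rw [coe_toClosureInf, hr]
    simp only [MulMemClass.coe_mul, AddMemClass.coe_add, OneMemClass.coe_one,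
      SubringClass.coe_natCast, coe_toClosureInf]
  rw [theta2Inf_eq_pi1, e, map_mul, map_add, map_one, map_mul, map_natCast,
    CharP.cast_eq_zero, zero_mul, add_zero, one_mul, thetaInf_apply]
  exact AlphaSide.pi1_beta K N ℓ O hB ⟨(x : FF K N), hxG⟩ hbC

include ι hℓN hprime in
/-- The four identities in the shape of `CrossingLaurent.LaurentData` (`β'` a plain function). -/
theorem laurentDataInf :
    CrossingLaurent.LaurentData (ℓ := ℓ) (RbarInf K N O)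
      (BetaInf.alphaRinf K N ℓ O) (betaInf K N ℓ O)
      (thetaInf K N O) (thetaInf K (N * ℓ) O) (theta2Inf K N ℓ O hB) where
  surj := fun _ hy => hy
  h1 := thetaInf_alphaRinf K N ℓ O
  h2 := theta2Inf_betaInf K N ℓ O hB ι hℓN hprime
  h3 := thetaInf_betaInf K N ℓ O
  h4 := theta2Inf_alphaRinf K N ℓ O hB

/-- `ϖ` lies in both kernels. -/
theorem span_le_inf_ker {ϖ : ↥O} (hϖ : Irreducible ϖ) :
    Ideal.span {algebraMap ↥O ↥(Rinf K (N * ℓ) O) ϖ} ≤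
      RingHom.ker (thetaInf K (N * ℓ) O) ⊓ RingHom.ker (theta2Inf K N ℓ O hB) := by
  rw [Ideal.span_le, Set.singleton_subset_iff]
  have e0 : algebraMap ↥O ↥(Rinf K (N * ℓ) O) ϖ =
      BetaInf.alphaRinf K N ℓ O (algebraMap ↥O ↥(Rinf K N O) ϖ) :=
    ((BetaInf.alphaRinf K N ℓ O).commutes ϖ).symm
  have e1 : thetaInf K N O (algebraMap ↥O ↥(Rinf K N O) ϖ) = 0 := by
    have h := rho_algebraMap K N O (sInf_le_gauss K N O) ϖ
    rw [residue_irreducible K O hϖ, map_zero] at h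
    exact h
  refine ⟨?_, ?_⟩
  · show thetaInf K (N * ℓ) O _ = 0
    rw [e0, thetaInf_alphaRinf, e1]
  · show theta2Inf K N ℓ O hB _ = 0
    rw [e0, theta2Inf_alphaRinf, e1, map_zero]

end Two

/-! ### Local structure at the closed points of the special fibre -/

section Local

variable (K : Type) [Field K] [CharZero K] (N : ℕ) [NeZero N] (ℓ : ℕ) [Fact ℓ.Prime]
  (O : Subring K) [IsDiscreteValuationRing ↥O] [IsFractionRing ↥O K]
  [CharP (IsLocalRing.ResidueField ↥O) ℓ] [PerfectRing (IsLocalRing.ResidueField ↥O) ℓ]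

set_option quotPrecheck false in
local notation "κ" => IsLocalRing.ResidueField ↥O

variable {S : Subring (FF K (N * ℓ))}
  {ev : ↥S →+* LaurentSeries (IsLocalRing.ResidueField ↥O)}
  (hB : AlphaSide.BetaOut K N ℓ O S ev)
  (ι : K →+* ℂ) (hℓN : ¬ ℓ ∣ N) (hprime : (fibreIdeal K N O (Rfin K N O)).IsPrime)
  (hprimeInf : (fibreIdeal K N O (Rinf K N O)).IsPrime)
  (hsmoothInf : IsDedekindDomain (↥(Rinf K N O) ⧸ fibreIdeal K N O (Rinf K N O)))
  (hFr : ∀ x : LaurentSeries (IsLocalRing.ResidueField ↥O),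
    CrossingLaurent.Fr (IsLocalRing.ResidueField ↥O) ℓ x ∈ RbarInf K N O ↔ x ∈ RbarInf K N O)
  (hθ₁ : ∀ r, thetaInf K (N * ℓ) O r ∈ RbarInf K N O)
  (hθ₂ : ∀ r, theta2Inf K N ℓ O hB r ∈ RbarInf K N O)
  {ϖ : ↥O} (hϖ : Irreducible ϖ)
  (hV : RingHom.ker (thetaInf K (N * ℓ) O) ⊓ RingHom.ker (theta2Inf K N ℓ O hB) ≤
    Ideal.span {algebraMap ↥O ↥(Rinf K (N * ℓ) O) ϖ})
  (𝔫 : Ideal ↥(Rinf K (N * ℓ) O)) [h𝔫 : 𝔫.IsMaximal]

include hϖ hV in
/-- Every closed point of the special fibre lies on one of the two components. -/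
theorem ker_le_or_ker_le (hmem : algebraMap ↥O ↥(Rinf K (N * ℓ) O) ϖ ∈ 𝔫) :
    RingHom.ker (thetaInf K (N * ℓ) O) ≤ 𝔫 ∨ RingHom.ker (theta2Inf K N ℓ O hB) ≤ 𝔫 :=
  Crossing.ker_le_or_ker_le _ _ 𝔫
    (hV.trans ((Ideal.span_singleton_le_iff_mem _).2 hmem))

include ι hℓN hprime hprimeInf hsmoothInf hFr hθ₁ hθ₂ hV in
/-- **Crossing point**: coordinates `u, v` (built from level-`N` functions through `α`, `β'`). -/
theorem exists_crossing_coordinates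
    (hk1 : RingHom.ker (thetaInf K (N * ℓ) O) ≤ 𝔫)
    (hk2 : RingHom.ker (theta2Inf K N ℓ O hB) ≤ 𝔫) :
    ∃ z₁ z₂ z₁' z₂' : ↥(Rinf K N O), ∃ u v : ↥(Rinf K (N * ℓ) O),
      u = BetaInf.alphaRinf K N ℓ O z₁ - (betaInf K N ℓ O z₂') ^ ℓ ∧
      v = betaInf K N ℓ O z₂ - (BetaInf.alphaRinf K N ℓ O z₁') ^ ℓ ∧
      u ∈ 𝔫 ∧ v ∈ 𝔫 ∧ theta2Inf K N ℓ O hB u = 0 ∧ thetaInf K (N * ℓ) O v = 0 ∧
      thetaInf K (N * ℓ) O u ≠ 0 ∧ theta2Inf K N ℓ O hB v ≠ 0 ∧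
      u * v ∈ Ideal.span {algebraMap ↥O ↥(Rinf K (N * ℓ) O) ϖ} ∧
      (∀ m ∈ 𝔫, ∃ s : ↥(Rinf K (N * ℓ) O), s ∉ 𝔫 ∧
        s * m ∈ Ideal.span {u, v, algebraMap ↥O ↥(Rinf K (N * ℓ) O) ϖ}) ∧
      ∀ m ∈ 𝔫, ∃ s a b : ↥(Rinf K (N * ℓ) O), s ∉ 𝔫 ∧
        s * m - a * u - b * v ∈
          RingHom.ker (thetaInf K (N * ℓ) O) ⊓ RingHom.ker (theta2Inf K N ℓ O hB) := by
  haveI := isDedekindDomain_RbarInf K N O hprimeInf hsmoothInf
  obtain ⟨z₁, -, z₂, -, z₁', -, z₂', -, u, v, hu, hv, h1, h2, h3, h4, h5, h6, -, -, h7, h8, h9⟩ :=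
    CrossingLaurent.exists_crossing_coordinates (ℓ := ℓ) (Rbar := RbarInf K N O) hFr
      (thetaInf_mem K N O) hθ₁ hθ₂ (not_isField_RbarInf K N O hprimeInf) 𝔫
      (laurentDataInf K N ℓ O hB ι hℓN hprime) hk1 hk2 ⊤ (fun y hy => by
        obtain ⟨z, hz⟩ := hy
        exact ⟨z, trivial, hz⟩) hV
  exact ⟨z₁, z₂, z₁', z₂', u, v, hu, hv, h1, h2, h3, h4, h5, h6, h7, h8, h9⟩

include ι hℓN hprime hprimeInf hsmoothInf hFr hθ₁ hθ₂ hV in
/-- **Smooth point on the first component.** -/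
theorem exists_smooth_coordinate₁
    (hk1 : RingHom.ker (thetaInf K (N * ℓ) O) ≤ 𝔫)
    (hk2 : ¬ RingHom.ker (theta2Inf K N ℓ O hB) ≤ 𝔫) :
    ∃ z ∈ 𝔫, thetaInf K (N * ℓ) O z ≠ 0 ∧
      ∀ m ∈ 𝔫, ∃ s : ↥(Rinf K (N * ℓ) O), s ∉ 𝔫 ∧
        s * m ∈ Ideal.span {z, algebraMap ↥O ↥(Rinf K (N * ℓ) O) ϖ} := by
  haveI := isDedekindDomain_RbarInf K N O hprimeInf hsmoothInf
  obtain ⟨z, hz, h1, -, h2⟩ :=
    CrossingLaurent.exists_smooth_coordinate₁ (ℓ := ℓ) (Rbar := RbarInf K N O) hFr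
      (thetaInf_mem K N O) hθ₁ hθ₂ (not_isField_RbarInf K N O hprimeInf) 𝔫
      (laurentDataInf K N ℓ O hB ι hℓN hprime) hk1 hk2 hV
  exact ⟨z, hz, h1, h2⟩

include ι hℓN hprime hprimeInf hsmoothInf hFr hθ₁ hθ₂ hV in
/-- **Smooth point on the second component.** -/
theorem exists_smooth_coordinate₂
    (hk2 : RingHom.ker (theta2Inf K N ℓ O hB) ≤ 𝔫)
    (hk1 : ¬ RingHom.ker (thetaInf K (N * ℓ) O) ≤ 𝔫) :
    ∃ z ∈ 𝔫, theta2Inf K N ℓ O hB z ≠ 0 ∧
      ∀ m ∈ 𝔫, ∃ s : ↥(Rinf K (N * ℓ) O), s ∉ 𝔫 ∧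
        s * m ∈ Ideal.span {z, algebraMap ↥O ↥(Rinf K (N * ℓ) O) ϖ} := by
  haveI := isDedekindDomain_RbarInf K N O hprimeInf hsmoothInf
  obtain ⟨z, hz, h1, -, h2⟩ :=
    CrossingLaurent.exists_smooth_coordinate₂ (ℓ := ℓ) (Rbar := RbarInf K N O) hFr
      (thetaInf_mem K N O) hθ₁ hθ₂ (not_isField_RbarInf K N O hprimeInf) 𝔫
      (laurentDataInf K N ℓ O hB ι hℓN hprime) hk2 hk1 hV
  exact ⟨z, hz, h1, h2⟩

end Local

end Fermat.Agent.P3G.TwoComponentsInf
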