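/-
P3-G block (G-N) (helper19), mirror of helper6's `P3G/TwoComponentsB.lean` (part (B1)) for the CHART AT
INFINITY:

* (B1) `rbarInf_eq : RbarInf K N O = SigmaFrob.Rbar κ N (SigmaInf κ N)` (the range of the Gauss
  reduction of `Rinf K N O` is the image in `κ((q))` of the integral closure of `κ[1/j̄]` in
  `FF κ N`), hence `hFrInf` (Frobenius stability of `RbarInf`, from `SigmaFrob`) = hypothesis `hFr`
  of `TwoComponentsInf`.
-/
import Mathlib
import Fermat.Agent.P3G.TwoComponentsInf
import Fermat.Agent.P3G.SigmaFrob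
import Fermat.Agent.N4F.C.ChartFibre

set_option autoImplicit false
set_option linter.unusedSectionVars false
set_option linter.style.haveILetI false

open ModularCurve Fermat.Agent.S28.Gauss Fermat.Agent.N4.Setting Fermat.Agent.N4.FibreEmbedding
open Fermat.Agent.N4.Chart Fermat.Agent.N4.IntClosure
open Fermat.Agent.N4F.E.DegreeLevelRaise Fermat.Agent.N4F.E.GaussDVR AlgebraicCurve Polynomial
open Fermat.Agent.N4F.E IsLocalRing Fermat.Agent.P3G.RbarInf Fermat.Agent.P3G.TwoComponentsInf
open Fermat.Agent.N4F.C.ChartFibre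

noncomputable section

namespace Fermat.Agent.P3G.TwoComponentsInfB

/-! ### (B1) the range of the Gauss reduction of the chart at infinity -/

section B1

variable (K : Type) [Field K] [CharZero K] (N : ℕ) [NeZero N]
  (O : Subring K) [IsDiscreteValuationRing ↥O] [IsFractionRing ↥O K]

set_option quotPrecheck false in
local notation "κ" => IsLocalRing.ResidueField ↥O

variable (hN : IsUnit ((N : ℕ) : ↥O))

theorem thetaInf_eq_coe_redInf (x : ↥(Rinf K N O)) :
    thetaInf K N O x = ((redInf K N O hN x : FF κ N) : LaurentSeries κ) :=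
  (coe_redInf K N O hN x).symm

include hN in
theorem rbarInf_le : RbarInf K N O ≤ SigmaFrob.Rbar κ N (SigmaInf κ N) := by
  rintro y ⟨x, rfl⟩
  exact (SigmaFrob.mem_Rbar_iff κ N _).2
    ⟨redInf K N O hN x, redInf_mem_SigmaInf K N O hN x, (thetaInf_eq_coe_redInf K N O hN x).symm⟩

variable (hprime : (fibreIdeal K N O (Rinf K N O)).IsPrime)
  (hDed : IsDedekindDomain (↥(Rinf K N O) ⧸ fibreIdeal K N O (Rinf K N O)))

include hN hprime hDed in
/-- **(B1)** `RbarInf K N O` is the image of `SigmaInf κ N` in `κ((q))`. -/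
theorem rbarInf_eq : RbarInf K N O = SigmaFrob.Rbar κ N (SigmaInf κ N) := by
  refine le_antisymm (rbarInf_le K N O hN) ?_
  intro y hy
  obtain ⟨z, hz, rfl⟩ := (SigmaFrob.mem_Rbar_iff κ N _).1 hy
  obtain ⟨x, rfl⟩ := exists_redInf_eq K N O hN hprime hDed hz
  exact ⟨x, thetaInf_eq_coe_redInf K N O hN x⟩

include hN hprime hDed in
/-- **`hFr`**: `RbarInf K N O` is stable under the coefficientwise Frobenius, both ways. -/
theorem hFrInf (ℓ : ℕ) [Fact ℓ.Prime] [CharP (IsLocalRing.ResidueField ↥O) ℓ]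
    [PerfectRing (IsLocalRing.ResidueField ↥O) ℓ] (x : LaurentSeries κ) :
    CrossingLaurent.Fr κ ℓ x ∈ RbarInf K N O ↔ x ∈ RbarInf K N O := by
  rw [rbarInf_eq K N O hN hprime hDed]
  exact SigmaFrob.Fr_mem_RbarInf_iff κ ℓ N x

end B1

end Fermat.Agent.P3G.TwoComponentsInfB
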