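/-
P3-G / (G-N), helper19 (1:1 mirror of helper13's `P3G/TwoComponentsFinal.lean`):
**the chart at infinity of level `N ℓ`, final form.**

For `R = Rinf K (N ℓ) O = chartAlg ↥O (FF K (N ℓ)) {(jF K (N ℓ))⁻¹}`:

* `locPRat_inf` : **(Loc-P) at the rational places** (`Glue.LevelRoots.LocPRat K ϖ (jF K (N ℓ))⁻¹`,
  input (I4) of the level glue), with no hypothesis beyond the base facts at the level;
* `crossingData_inf` : `Crossing.CrossingData` for `R`, with `Rb = RbarInf K N O` (Dedekind, not a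
  field), `θ₁ =` Gauss reduction, `θ₂ =` the second place `S.ev` of a `FibreTwo.SecondVal`,
  `ψ =` coefficientwise inverse Frobenius, `α = BetaInf.alphaRinf`, `β' = TwoComponentsInf.betaInf`;
* `ker_inf_ker_eq_inf` : (V) `ker θ₁ ⊓ ker θ₂ = (ϖ)` for the corestricted maps.

Assembled from `P3G/TwoComponentsInf` (coordinates), `P3G/TwoComponentsInfB` (`RbarInf` = image of
`SigmaInf`, Frobenius stability), `P3G/FibreSatKer` (helper12: (V)), `P3G/FibreIdent` +
`P3G/SecondValBridge` (helper15: `BetaOut` from a `SecondVal`, components), `G/LocPRat` (helper9).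
-/
import Mathlib
import Fermat.Agent.P3G.TwoComponentsInf
import Fermat.Agent.P3G.TwoComponentsInfB
import Fermat.Agent.P3G.FibreSatKer
import Fermat.Agent.P3G.FibreIdent
import Fermat.Agent.G.LocPRat

set_option autoImplicit false
set_option linter.unusedSectionVars false
set_option linter.style.haveILetI false

open ModularCurve Fermat.Agent.S28.Gauss Fermat.Agent.N4.Setting Fermat.Agent.N4.FibreEmbedding
open Fermat.Agent.N4.Chart
open Fermat.Agent.N4F.E.DegreeLevelRaise Fermat.Agent.N4F.E.GaussDVR AlgebraicCurve Polynomial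
open Fermat.Agent.N4F.E IsLocalRing Fermat.Agent.P3G.RbarInf Fermat.Agent.P3G.TwoComponentsInf
open IntermediateField

noncomputable section

namespace Fermat.Agent.P3G.TwoComponentsInfFinal

variable (K : Type) [Field K] [CharZero K] (N : ℕ) [NeZero N] (ℓ : ℕ) [Fact ℓ.Prime]
  (O : Subring K) [IsDiscreteValuationRing ↥O] [IsFractionRing ↥O K]
  [CharP (IsLocalRing.ResidueField ↥O) ℓ] [PerfectRing (IsLocalRing.ResidueField ↥O) ℓ]

set_option quotPrecheck false in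
local notation "κ" => IsLocalRing.ResidueField ↥O

attribute [local instance] AlphaSide.algFL AlphaSide.algGL AlphaSide.isScalarTower_GFL

set_option synthInstance.maxHeartbeats 400000

/-! ### Generic form: any `BetaOut`, block (B) as hypotheses -/

section Generic

variable (ι : K →+* ℂ) (hℓN : ¬ ℓ ∣ N)
  (hprime : (fibreIdeal K N O (Rfin K N O)).IsPrime)
  (hprimeInf : (fibreIdeal K N O (Rinf K N O)).IsPrime)
  (hsmoothInf : IsDedekindDomain (↥(Rinf K N O) ⧸ fibreIdeal K N O (Rinf K N O)))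
  {S : Subring (FF K (N * ℓ))}
  {ev : ↥S →+* LaurentSeries (IsLocalRing.ResidueField ↥O)}
  (hB : AlphaSide.BetaOut K N ℓ O S ev)
  (hFr : ∀ x : LaurentSeries (IsLocalRing.ResidueField ↥O),
    CrossingLaurent.Fr (IsLocalRing.ResidueField ↥O) ℓ x ∈ RbarInf K N O ↔ x ∈ RbarInf K N O)
  (hθ₁ : ∀ r, thetaInf K (N * ℓ) O r ∈ RbarInf K N O)
  (hθ₂ : ∀ r, theta2Inf K N ℓ O hB r ∈ RbarInf K N O)
  {ϖ : ↥O} (hϖ : Irreducible ϖ)

include ι hℓN hprime hprimeInf in
/-- **(V) for the chart at infinity, in the shape `hV` of `P3G/TwoComponentsInf`.** -/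
theorem ker_inf_ker_le_inf {ϖ : ↥O} (hϖ : Irreducible ϖ) :
    RingHom.ker (thetaInf K (N * ℓ) O) ⊓ RingHom.ker (theta2Inf K N ℓ O hB) ≤
      Ideal.span {algebraMap ↥O ↥(Rinf K (N * ℓ) O) ϖ} := by
  rintro x ⟨h1, h2⟩
  have h1' : AlphaSide.pi2 K N ℓ O (toClosureInf K N ℓ O x) = 0 := by
    rw [← thetaInf_eq_pi2]
    exact h1
  have h2' : AlphaSide.pi1 K N ℓ O hB (toClosureInf K N ℓ O x) = 0 := h2
  obtain ⟨y, hyR, hy⟩ := FibreSatKer.exists_eq_mul_of_mem_inf K N ℓ O ι hℓN hprime hB hprimeInf hϖ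
    (toClosureInf K N ℓ O x) (by rw [coe_toClosureInf]; exact x.2) h2' h1'
  rw [Ideal.mem_span_singleton]
  refine ⟨⟨y, hyR⟩, Subtype.ext ?_⟩
  rw [coe_toClosureInf] at hy
  rw [hy]
  rfl

include ι hℓN hprime hprimeInf hϖ in
/-- **(V)** for the chart at infinity as an equality. -/
theorem inf_ker_eq_span_inf :
    RingHom.ker (thetaInf K (N * ℓ) O) ⊓ RingHom.ker (theta2Inf K N ℓ O hB) =
      Ideal.span {algebraMap ↥O ↥(Rinf K (N * ℓ) O) ϖ} :=
  le_antisymm (ker_inf_ker_le_inf K N ℓ O ι hℓN hprime hprimeInf hB hϖ)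
    (span_le_inf_ker K N ℓ O hB hϖ)

include ι hℓN hprime hprimeInf hsmoothInf hFr hθ₁ hθ₂ hϖ in
/-- **(Loc-P) at the rational places of the chart at infinity**, modulo block (B). -/
theorem locPRat_inf_of :
    Fermat.Agent.P3G.Glue.LevelRoots.LocPRat K ϖ (jF K (N * ℓ))⁻¹ := by
  haveI := Fermat.Agent.N4.ModPolySetting.finiteDimensional_FF K (N * ℓ)
  have hj := Fermat.Agent.N4.FFAlgebraic.transcendental_jF K (N * ℓ)
  have hjinv : Transcendental K (jF K (N * ℓ))⁻¹ := fun h => hj (by simpa using h.inv)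
  haveI : FiniteDimensional K⟮(jF K (N * ℓ))⁻¹⟯ (FF K (N * ℓ)) := by
    rw [Fermat.Agent.N4.Cover.Main.adjoin_inv_eq]; infer_instance
  have hV := ker_inf_ker_le_inf K N ℓ O ι hℓN hprime hprimeInf hB hϖ
  refine Fermat.Agent.G.LocPRatGlue.locPRat_of_coordinates (O := ↥O) (K := K)
    (F := FF K (N * ℓ)) (jF K (N * ℓ))⁻¹ hjinv
    (thetaInf K (N * ℓ) O) (theta2Inf K N ℓ O hB) hϖ
    (inf_ker_eq_span_inf K N ℓ O ι hℓN hprime hprimeInf hB hϖ) ?_ ?_ ?_
  · intro 𝔫 h𝔫 hk1 hk2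
    haveI := h𝔫
    obtain ⟨z₁, z₂, z₁', z₂', u, v, -, -, -, -, h3, h4, h5, h6, -, h8, -⟩ :=
      exists_crossing_coordinates K N ℓ O hB ι hℓN hprime hprimeInf hsmoothInf hFr hθ₁ hθ₂ hV 𝔫
        hk1 hk2
    exact ⟨u, v, h3, h4, h5, h6, h8⟩
  · intro 𝔫 h𝔫 hk1 hk2
    haveI := h𝔫
    obtain ⟨z, hz, -, h⟩ :=
      exists_smooth_coordinate₁ K N ℓ O hB ι hℓN hprime hprimeInf hsmoothInf hFr hθ₁ hθ₂ hV 𝔫
        hk1 hk2
    exact ⟨z, hz, h⟩
  · intro 𝔫 h𝔫 hk2 hk1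
    haveI := h𝔫
    obtain ⟨z, hz, -, h⟩ :=
      exists_smooth_coordinate₂ K N ℓ O hB ι hℓN hprime hprimeInf hsmoothInf hFr hθ₁ hθ₂ hV 𝔫
        hk2 hk1
    exact ⟨z, hz, h⟩

end Generic

/-! ### `S`-language: everything driven by a `FibreTwo.SecondVal` -/

section SecondVal

variable (hN : IsUnit ((N : ℕ) : ↥O)) (ι : K →+* ℂ) (hℓN : ¬ ℓ ∣ N)
  (hprime : (fibreIdeal K N O (Rfin K N O)).IsPrime)
  (hprimeInf : (fibreIdeal K N O (Rinf K N O)).IsPrime)
  (hsmoothInf : IsDedekindDomain (↥(Rinf K N O) ⧸ fibreIdeal K N O (Rinf K N O)))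
  (hA2 : ∀ x : ↥(gaussSubalgebra K N O),
    theta K N O x ∈ modularFunctionFieldFullC (IsLocalRing.ResidueField ↥O) N)
  (S₂ : FibreTwo.SecondVal K N ℓ O)
  {ϖ : ↥O} (hϖ : Irreducible ϖ)

/-- The second reduction of the chart at infinity attached to a `SecondVal`. -/
def theta2InfS : ↥(Rinf K (N * ℓ) O) →+* LaurentSeries κ :=
  theta2Inf K N ℓ O (FibreIdent.betaOut_of_secondVal K N ℓ O S₂)

/-- `θ₂` is the restriction of `S.ev`. -/
theorem theta2InfS_apply (r : ↥(Rinf K (N * ℓ) O)) :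
    theta2InfS K N ℓ O S₂ r =
      S₂.ev ⟨(r : FF K (N * ℓ)), SecondValBridge.Rinf_le_V K N ℓ O S₂ r.2⟩ := by
  unfold theta2InfS
  rw [theta2Inf_eq_pi1, AlphaSide.pi1_apply]
  exact congrArg S₂.ev (Subtype.ext (coe_toClosureInf K N ℓ O r))

include hN hprimeInf hsmoothInf in
/-- `hFr`. -/
theorem fr_mem_iff_inf (x : LaurentSeries κ) :
    CrossingLaurent.Fr κ ℓ x ∈ RbarInf K N O ↔ x ∈ RbarInf K N O :=
  TwoComponentsInfB.hFrInf K N O hN hprimeInf hsmoothInf ℓ x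

include hN ι hℓN hprimeInf hsmoothInf hA2 S₂ in
/-- `hθ₁`: the Gauss reduction of `Rinf K (N ℓ) O` takes values in `RbarInf K N O`. -/
theorem thetaInf_mem_rbar (r : ↥(Rinf K (N * ℓ) O)) :
    thetaInf K (N * ℓ) O r ∈ RbarInf K N O := by
  rw [TwoComponentsInfB.rbarInf_eq K N O hN hprimeInf hsmoothInf, thetaInf_apply]
  exact SecondValBridge.theta_mem_RbarInf K N ℓ O S₂ ι hℓN hA2 r.2 _

include hN hprimeInf hsmoothInf hA2 in
/-- `hθ₂`: the second reduction of `Rinf K (N ℓ) O` takes values in `RbarInf K N O`. -/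
theorem theta2InfS_mem_rbar (r : ↥(Rinf K (N * ℓ) O)) :
    theta2InfS K N ℓ O S₂ r ∈ RbarInf K N O := by
  rw [TwoComponentsInfB.rbarInf_eq K N O hN hprimeInf hsmoothInf, theta2InfS_apply]
  exact SecondValBridge.ev_mem_RbarInf K N ℓ O S₂ hA2 r.2 _

include hN ι hℓN hprime hprimeInf hsmoothInf hA2 in
/-- **`Crossing.CrossingData` for the chart at infinity of level `N ℓ`** (`β'` a plain function). -/
theorem crossingData_inf :
    Crossing.CrossingData ℓ (BetaInf.alphaRinf K N ℓ O) (betaInf K N ℓ O)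
      (CrossingLaurent.res (RbarInf K N O) (thetaInf K N O) (thetaInf_mem K N O))
      (CrossingLaurent.res (RbarInf K N O) (thetaInf K (N * ℓ) O)
        (thetaInf_mem_rbar K N ℓ O hN ι hℓN hprimeInf hsmoothInf hA2 S₂))
      (CrossingLaurent.res (RbarInf K N O) (theta2InfS K N ℓ O S₂)
        (theta2InfS_mem_rbar K N ℓ O hN hprimeInf hsmoothInf hA2 S₂))
      (CrossingLaurent.psi (RbarInf K N O) (fr_mem_iff_inf K N ℓ O hN hprimeInf hsmoothInf)) :=
  CrossingLaurent.crossingData (fr_mem_iff_inf K N ℓ O hN hprimeInf hsmoothInf)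
    (thetaInf_mem K N O)
    (thetaInf_mem_rbar K N ℓ O hN ι hℓN hprimeInf hsmoothInf hA2 S₂)
    (theta2InfS_mem_rbar K N ℓ O hN hprimeInf hsmoothInf hA2 S₂)
    (laurentDataInf K N ℓ O (FibreIdent.betaOut_of_secondVal K N ℓ O S₂) ι hℓN hprime)

include hN ι hℓN hprime hprimeInf hsmoothInf hA2 hϖ in
/-- **(V) for the corestricted maps**: `ker θ₁ ⊓ ker θ₂ = (ϖ)`. -/
theorem ker_inf_ker_eq_inf :
    RingHom.ker (CrossingLaurent.res (RbarInf K N O) (thetaInf K (N * ℓ) O)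
        (thetaInf_mem_rbar K N ℓ O hN ι hℓN hprimeInf hsmoothInf hA2 S₂)) ⊓
      RingHom.ker (CrossingLaurent.res (RbarInf K N O) (theta2InfS K N ℓ O S₂)
        (theta2InfS_mem_rbar K N ℓ O hN hprimeInf hsmoothInf hA2 S₂)) =
      Ideal.span {algebraMap ↥O ↥(Rinf K (N * ℓ) O) ϖ} := by
  rw [CrossingLaurent.ker_res, CrossingLaurent.ker_res]
  exact inf_ker_eq_span_inf K N ℓ O ι hℓN hprime hprimeInf
    (FibreIdent.betaOut_of_secondVal K N ℓ O S₂) hϖ

include hN ι hℓN hprime hprimeInf hsmoothInf hA2 hϖ in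
/-- **(Loc-P) at the rational places of the chart at infinity of level `N ℓ`.** -/
theorem locPRat_inf :
    Fermat.Agent.P3G.Glue.LevelRoots.LocPRat K ϖ (jF K (N * ℓ))⁻¹ := by
  obtain ⟨S₂⟩ := FibreTwo.nonempty_secondVal K N ℓ O ι hℓN hprime hA2
  exact locPRat_inf_of K N ℓ O ι hℓN hprime hprimeInf hsmoothInf
    (FibreIdent.betaOut_of_secondVal K N ℓ O S₂)
    (fr_mem_iff_inf K N ℓ O hN hprimeInf hsmoothInf)
    (thetaInf_mem_rbar K N ℓ O hN ι hℓN hprimeInf hsmoothInf hA2 S₂)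
    (theta2InfS_mem_rbar K N ℓ O hN hprimeInf hsmoothInf hA2 S₂) hϖ

end SecondVal

end Fermat.Agent.P3G.TwoComponentsInfFinal
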