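/-
P3-G, block (G-A) (helper19): THE CONTRADICTION AT A FIXED BASE for the modular function field,
on top of helper18's semilocal `no_split_cover_of_strong` (the analogue of
`N4/S18Glue/BaseMain.no_torsion_at_base` with a reducible reduced special fibre).

`K ⊆ Q̄` a field (a type with `[Algebra K Q̄]`), `O ⊆ K` a discrete valuation ring with fraction field
`K`, `p` a prime invertible in `O`, `ζ_p ∈ O`; `W ⊆ FF K N` a semilocal Gauss ring for both charts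
`chartAlg O (FF K N) {j^{±1}}`.  If `f ∈ FF K N` is congruent to `1` modulo `ϖ W`, has local roots
congruent to `1` modulo `ϖ W` at every closed point of the special fibres of both charts, and is NOT
a `p`-th power in `Q̄ · F_N`: contradiction.
-/
import Mathlib
import Fermat.Agent.N4.S18Glue.BaseMain
import Fermat.Agent.P3G.Cover.Main

set_option autoImplicit false
set_option linter.unusedSectionVars false
set_option linter.style.haveILetI false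

open ModularCurve Polynomial AlgebraicCurve IntermediateField

namespace Fermat.Agent.P3G.AtBase

open Fermat.Agent.N4.Setting Fermat.Agent.N4.Chart Fermat.Agent.N4.S18Glue
  Fermat.Agent.P3G.Cover.Lift

local notation "Qbar" => AlgebraicClosure ℚ

variable (K : Type) [Field K] [CharZero K] [Algebra K Qbar] [Algebra.IsAlgebraic K Qbar]
  (N : ℕ) [NeZero N] (O : Subring K) [IsDiscreteValuationRing ↥O] [IsFractionRing ↥O K]

set_option maxHeartbeats 3200000 in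
/-- **The contradiction at a fixed base, reducible reduced special fibre**, general vertical
unit `g`. -/
theorem no_kummer_at_base {ϖ : ↥O} (hϖ : Irreducible ϖ)
    (W : Subring (FF K N)) [IsIntegrallyClosed W] [IsFractionRing W (FF K N)]
    (hWp : IsSemiGaussRing W (algebraMap ↥O (chartAlg ↥O (FF K N) {jF K N}) ϖ))
    (hWm : IsSemiGaussRing W (algebraMap ↥O (chartAlg ↥O (FF K N) {(jF K N)⁻¹}) ϖ))
    {p : ℕ} (hp : p.Prime) (hpO : IsUnit ((p : ℕ) : ↥O)) {ζ : ↥O} (hζ : IsPrimitiveRoot ζ p)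
    {f g : FF K N} (hf0 : f ≠ 0) (hg0 : g ≠ 0) (hg : g ∈ W) (hgi : g⁻¹ ∈ W)
    (hτ : ∃ w₀ ∈ W, (g⁻¹) ^ p * f - 1 = algebraMap ↥O (FF K N) ϖ * w₀)
    (hlocp : ∀ 𝔫 : Ideal (chartAlg ↥O (FF K N) {jF K N}), 𝔫.IsMaximal →
      algebraMap ↥O (chartAlg ↥O (FF K N) {jF K N}) ϖ ∈ 𝔫 → ∃ η : FF K N, η ≠ 0 ∧
      (∃ a r : chartAlg ↥O (FF K N) {jF K N}, a ∉ 𝔫 ∧ r ∉ 𝔫 ∧
        f * algebraMap (chartAlg ↥O (FF K N) {jF K N}) (FF K N) a =
          η ^ p * algebraMap (chartAlg ↥O (FF K N) {jF K N}) (FF K N) r) ∧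
      ∃ w ∈ W, η - g = algebraMap ↥O (FF K N) ϖ * w)
    (hlocm : ∀ 𝔫 : Ideal (chartAlg ↥O (FF K N) {(jF K N)⁻¹}), 𝔫.IsMaximal →
      algebraMap ↥O (chartAlg ↥O (FF K N) {(jF K N)⁻¹}) ϖ ∈ 𝔫 → ∃ η : FF K N, η ≠ 0 ∧
      (∃ a r : chartAlg ↥O (FF K N) {(jF K N)⁻¹}, a ∉ 𝔫 ∧ r ∉ 𝔫 ∧
        f * algebraMap (chartAlg ↥O (FF K N) {(jF K N)⁻¹}) (FF K N) a =
          η ^ p * algebraMap (chartAlg ↥O (FF K N) {(jF K N)⁻¹}) (FF K N) r) ∧
      ∃ w ∈ W, η - g = algebraMap ↥O (FF K N) ϖ * w)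
    (hnp : ∀ h : ↥(modularFunctionFieldBar N), h ^ p ≠ phiK K N f) : False := by
  -- irreducibility
  have hirrF : Irreducible (X ^ p - C (phiK K N f) : (↥(modularFunctionFieldBar N))[X]) :=
    (X_pow_sub_C_irreducible_iff_of_prime hp).mpr hnp
  have hirr0 : Irreducible (X ^ p - C f : (FF K N)[X]) := by
    refine (X_pow_sub_C_irreducible_iff_of_prime hp).mpr fun b hb => hnp (phiK K N b) ?_
    rw [← map_pow, hb]
  haveI : Fact (Irreducible (X ^ p - C f : (FF K N)[X])) := ⟨hirr0⟩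
  haveI := Fermat.Agent.N4.ModPolySetting.finiteDimensional_FF K N
  -- the Kummer extension
  let F' := AdjoinRoot (X ^ p - C f : (FF K N)[X])
  have ht : (AdjoinRoot.root (X ^ p - C f : (FF K N)[X])) ^ p = algebraMap (FF K N) F' f := by
    have h := AdjoinRoot.eval₂_root (X ^ p - C f : (FF K N)[X])
    rw [eval₂_sub, eval₂_pow, eval₂_X, eval₂_C, sub_eq_zero] at h
    exact h
  have htop : (FF K N)⟮AdjoinRoot.root (X ^ p - C f : (FF K N)[X])⟯ = ⊤ :=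
    IntermediateField.adjoin_eq_top_of_algebra _ _ (AdjoinRoot.adjoinRoot_eq_top)
  have halg : ∀ x : F', IsAlgebraic K x → x ∈ (algebraMap K F').range := by
    letI := algKBar K N
    haveI := isScalarTower_KBar K N
    exact Fermat.Agent.N4.KummerConst.algClosed_in_kummer (K := K) (L := Qbar) (phiKAlg K N)
      (algClosed_in_FF K N) hp f hirrF _ ht htop
  exact Fermat.Agent.P3G.Cover.Main.no_split_cover_of_strong (O := ↥O) (K₀ := K) (F₀ := FF K N)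
    (F' := F') (jF K N) (Fermat.Agent.N4.FFAlgebraic.transcendental_jF K N) hϖ W hWp hWm hp hpO hζ
    hf0 ht htop hirr0 halg hg0 hg hgi hτ hlocp hlocm

/-- **The contradiction at a fixed base**, vertical unit `g = 1`: `f ≡ 1` modulo `ϖ W` with local
roots `≡ 1` modulo `ϖ W`. -/
theorem no_kummer_at_base_one {ϖ : ↥O} (hϖ : Irreducible ϖ)
    (W : Subring (FF K N)) [IsIntegrallyClosed W] [IsFractionRing W (FF K N)]
    (hWp : IsSemiGaussRing W (algebraMap ↥O (chartAlg ↥O (FF K N) {jF K N}) ϖ))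
    (hWm : IsSemiGaussRing W (algebraMap ↥O (chartAlg ↥O (FF K N) {(jF K N)⁻¹}) ϖ))
    {p : ℕ} (hp : p.Prime) (hpO : IsUnit ((p : ℕ) : ↥O)) {ζ : ↥O} (hζ : IsPrimitiveRoot ζ p)
    {f : FF K N} (hf0 : f ≠ 0)
    (hτ : ∃ w₀ ∈ W, f - 1 = algebraMap ↥O (FF K N) ϖ * w₀)
    (hlocp : ∀ 𝔫 : Ideal (chartAlg ↥O (FF K N) {jF K N}), 𝔫.IsMaximal →
      algebraMap ↥O (chartAlg ↥O (FF K N) {jF K N}) ϖ ∈ 𝔫 → ∃ η : FF K N, η ≠ 0 ∧
      (∃ a r : chartAlg ↥O (FF K N) {jF K N}, a ∉ 𝔫 ∧ r ∉ 𝔫 ∧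
        f * algebraMap (chartAlg ↥O (FF K N) {jF K N}) (FF K N) a =
          η ^ p * algebraMap (chartAlg ↥O (FF K N) {jF K N}) (FF K N) r) ∧
      ∃ w ∈ W, η - 1 = algebraMap ↥O (FF K N) ϖ * w)
    (hlocm : ∀ 𝔫 : Ideal (chartAlg ↥O (FF K N) {(jF K N)⁻¹}), 𝔫.IsMaximal →
      algebraMap ↥O (chartAlg ↥O (FF K N) {(jF K N)⁻¹}) ϖ ∈ 𝔫 → ∃ η : FF K N, η ≠ 0 ∧
      (∃ a r : chartAlg ↥O (FF K N) {(jF K N)⁻¹}, a ∉ 𝔫 ∧ r ∉ 𝔫 ∧
        f * algebraMap (chartAlg ↥O (FF K N) {(jF K N)⁻¹}) (FF K N) a =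
          η ^ p * algebraMap (chartAlg ↥O (FF K N) {(jF K N)⁻¹}) (FF K N) r) ∧
      ∃ w ∈ W, η - 1 = algebraMap ↥O (FF K N) ϖ * w)
    (hnp : ∀ h : ↥(modularFunctionFieldBar N), h ^ p ≠ phiK K N f) : False := by
  refine no_kummer_at_base K N O hϖ W hWp hWm hp hpO hζ (g := 1) hf0 one_ne_zero W.one_mem
    (by rw [inv_one]; exact W.one_mem) ?_ hlocp hlocm hnp
  obtain ⟨w₀, hw₀, h⟩ := hτ
  exact ⟨w₀, hw₀, by rw [inv_one, one_pow, one_mul]; exact h⟩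

end Fermat.Agent.P3G.AtBase
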