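/-
P3-G glue (G-X1): **the special fibre with two vertical components is connected** — there is a
crossing point in one of the two charts — and **the two vertical constants of a function with local
roots agree**.

Setting = helper18's (G-C): `O` a discrete valuation ring with uniformiser `π`, fraction field `K₀`
of characteristic `0`, `F₀` a finite extension of `K₀(j)` in which `K₀` is algebraically closed, the
two charts `R₊ = chartAlg O F₀ {j}`, `R₋ = chartAlg O F₀ {j⁻¹}`, and a common semilocal Gauss ring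
`W = V₁ ∩ V₂` of the two charts, `V₁ V₂` two valuation subrings of `F₀` with uniformiser `π`
(`e = 1`: `x ∈ 𝔪_{V_i} → x / π ∈ V_i`).

* `dvd_of_mem_nonunits`: `r ∈ R±`, `r ∈ 𝔪_{V₁} ∩ 𝔪_{V₂}` ⇒ `π ∣ r` (the fibre is reduced);
* `exists_crossing`: there is a maximal ideal of `R₊` or of `R₋` containing both vertical ideals
  `𝔓_i = R± ∩ 𝔪_{V_i}` (else the idempotents `(1,0)` of the two charts glue and contradict
  `IntClosureCech.idempotent_mod_eq_zero_or_one_chart`);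
* `const_sub_mem_span`: if `f ≡ c₁` at `V₁`, `f ≡ c₂` at `V₂` (`c_i ∈ O`) and at every closed point
  of the fibre `f = (unit) · t ^ p` with `t ≡ 1` at both `V_i`, then `c₁ ≡ c₂ mod π`.
-/
import Mathlib
import Fermat.Agent.N4.Chart
import Fermat.Agent.N4.ChartFinite
import Fermat.Agent.N4.IntClosureCech
import Fermat.Agent.P3G.Cover.Lift

set_option autoImplicit false
set_option linter.unusedSectionVars false

open IntermediateField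

namespace Fermat.Agent.P3G.Connected

open Fermat.Agent.N4.Chart Fermat.Agent.N4.ChartFinite Fermat.Agent.N4.IntClosureCech
  Fermat.Agent.P3G.Cover.Lift

variable {O K₀ : Type*} [CommRing O] [IsDomain O] [IsDiscreteValuationRing O]
  [Field K₀] [CharZero K₀] [Algebra O K₀] [IsFractionRing O K₀]
variable {F₀ : Type*} [Field F₀] [Algebra K₀ F₀] [Algebra O F₀] [IsScalarTower O K₀ F₀]

/-- Membership in `π R` for a chart `R` of `F₀`. -/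
theorem mem_span_iff {π : O} (hπF : algebraMap O F₀ π ≠ 0) {S : Set F₀} (x : chartAlg O F₀ S) :
    x ∈ Ideal.span {algebraMap O (chartAlg O F₀ S) π} ↔
      (algebraMap O F₀ π)⁻¹ * (x : F₀) ∈ chartAlg O F₀ S := by
  have hcoe : ((algebraMap O (chartAlg O F₀ S) π : chartAlg O F₀ S) : F₀) = algebraMap O F₀ π := rfl
  rw [Ideal.mem_span_singleton']
  constructor
  · rintro ⟨a, rfl⟩
    have : (algebraMap O F₀ π)⁻¹ *
        ((a * algebraMap O (chartAlg O F₀ S) π : chartAlg O F₀ S) : F₀) = (a : F₀) := by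
      rw [MulMemClass.coe_mul, hcoe]
      field_simp
    rw [this]
    exact a.2
  · intro h
    refine ⟨⟨_, h⟩, Subtype.ext ?_⟩
    show (algebraMap O F₀ π)⁻¹ * (x : F₀) *
      ((algebraMap O (chartAlg O F₀ S) π : chartAlg O F₀ S) : F₀) = x
    rw [hcoe]
    field_simp

section Vertical

variable {π : O} {S : Set F₀} (V₁ V₂ : ValuationSubring F₀) (W : Subring F₀)

/-- **The fibre is reduced**: an element of the chart lying in both vertical maximal ideals is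
divisible by `π`. -/
theorem dvd_of_mem_nonunits (hWV : ∀ x, x ∈ W ↔ x ∈ V₁ ∧ x ∈ V₂)
    (hW : IsSemiGaussRing W (algebraMap O (chartAlg O F₀ S) π))
    (he₁ : ∀ x ∈ V₁.nonunits, x * (algebraMap O F₀ π)⁻¹ ∈ V₁)
    (he₂ : ∀ x ∈ V₂.nonunits, x * (algebraMap O F₀ π)⁻¹ ∈ V₂)
    (r : chartAlg O F₀ S) (h1 : (r : F₀) ∈ V₁.nonunits) (h2 : (r : F₀) ∈ V₂.nonunits) :
    algebraMap O (chartAlg O F₀ S) π ∣ r := by
  apply hW.sat r
  have hπ0 : algebraMap O F₀ π ≠ 0 := hW.ne_zero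
  refine ⟨(r : F₀) * (algebraMap O F₀ π)⁻¹, (hWV _).2 ⟨he₁ _ h1, he₂ _ h2⟩, ?_⟩
  show (r : F₀) = algebraMap O F₀ π * ((r : F₀) * (algebraMap O F₀ π)⁻¹)
  field_simp

/-- The vertical ideal `R ∩ 𝔪_V` of a chart `R ⊆ V`. -/
def vertIdeal (V : ValuationSubring F₀) (R : Subalgebra O F₀) (hR : ∀ r : R, (r : F₀) ∈ V) :
    Ideal R where
  carrier := {r | (r : F₀) ∈ V.nonunits}
  add_mem' {a b} ha hb := by
    simp only [Set.mem_ofPred_eq] at ha hb ⊢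
    rw [ValuationSubring.mem_nonunits_iff] at ha hb ⊢
    rw [Subalgebra.coe_add]
    exact lt_of_le_of_lt (V.valuation.map_add _ _) (max_lt ha hb)
  zero_mem' := by
    simp only [Set.mem_ofPred_eq]
    rw [ValuationSubring.mem_nonunits_iff]
    simp
  smul_mem' c r hr := by
    simp only [Set.mem_ofPred_eq] at hr ⊢
    rw [ValuationSubring.mem_nonunits_iff] at hr ⊢
    rw [smul_eq_mul, Subalgebra.coe_mul, map_mul]
    have hc : V.valuation (c : F₀) ≤ 1 := (V.valuation_le_one_iff _).2 (hR c)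
    rw [mul_comm]
    exact mul_lt_one_of_lt_of_le hr hc

theorem mem_vertIdeal_iff (V : ValuationSubring F₀) (R : Subalgebra O F₀)
    (hR : ∀ r : R, (r : F₀) ∈ V) (r : R) : r ∈ vertIdeal V R hR ↔ (r : F₀) ∈ V.nonunits :=
  Iff.rfl

theorem one_not_mem_nonunits (V : ValuationSubring F₀) : (1 : F₀) ∉ V.nonunits := by
  rw [ValuationSubring.mem_nonunits_iff]
  simp

theorem add_mem_nonunits (V : ValuationSubring F₀) {a b : F₀} (ha : a ∈ V.nonunits)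
    (hb : b ∈ V.nonunits) : a + b ∈ V.nonunits := by
  rw [ValuationSubring.mem_nonunits_iff] at ha hb ⊢
  exact lt_of_le_of_lt (V.valuation.map_add _ _) (max_lt ha hb)

theorem sub_mem_nonunits (V : ValuationSubring F₀) {a b : F₀} (ha : a ∈ V.nonunits)
    (hb : b ∈ V.nonunits) : a - b ∈ V.nonunits := by
  rw [ValuationSubring.mem_nonunits_iff] at ha hb ⊢
  exact lt_of_le_of_lt (V.valuation.map_sub _ _) (max_lt ha hb)

theorem mul_mem_nonunits_of_mem (V : ValuationSubring F₀) {a b : F₀} (ha : a ∈ V)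
    (hb : b ∈ V.nonunits) : a * b ∈ V.nonunits := by
  rw [ValuationSubring.mem_nonunits_iff] at hb ⊢
  rw [map_mul, mul_comm]
  exact mul_lt_one_of_lt_of_le hb ((V.valuation_le_one_iff _).2 ha)

end Vertical

section Main

variable (j : F₀) {π : O} (V₁ V₂ : ValuationSubring F₀) (W : Subring F₀)

/-- In a chart without crossing point the two vertical ideals are comaximal. -/
theorem exists_add_eq_one_of_no_crossing {S : Set F₀}
    (hR₁ : ∀ r : chartAlg O F₀ S, (r : F₀) ∈ V₁) (hR₂ : ∀ r : chartAlg O F₀ S, (r : F₀) ∈ V₂)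
    (hno : ¬ ∃ 𝔫 : Ideal (chartAlg O F₀ S), 𝔫.IsMaximal ∧
      (∀ r : chartAlg O F₀ S, (r : F₀) ∈ V₁.nonunits → r ∈ 𝔫) ∧
      (∀ r : chartAlg O F₀ S, (r : F₀) ∈ V₂.nonunits → r ∈ 𝔫)) :
    ∃ a b : chartAlg O F₀ S, (a : F₀) ∈ V₁.nonunits ∧ (b : F₀) ∈ V₂.nonunits ∧ a + b = 1 := by
  have htop : vertIdeal V₁ (chartAlg O F₀ S) hR₁ ⊔ vertIdeal V₂ (chartAlg O F₀ S) hR₂ = ⊤ := by
    by_contra hne
    obtain ⟨𝔫, h𝔫, hle⟩ := Ideal.exists_le_maximal _ hne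
    exact hno ⟨𝔫, h𝔫, fun r hr => hle (Ideal.mem_sup_left hr),
      fun r hr => hle (Ideal.mem_sup_right hr)⟩
  have h1 : (1 : chartAlg O F₀ S) ∈
      vertIdeal V₁ (chartAlg O F₀ S) hR₁ ⊔ vertIdeal V₂ (chartAlg O F₀ S) hR₂ := by
    rw [htop]; trivial
  obtain ⟨a, ha, b, hb, hab⟩ := Submodule.mem_sup.1 h1
  exact ⟨a, b, ha, hb, hab⟩

/-- `a + b = 1` with `a ∈ 𝔓₁`, `b ∈ 𝔓₂` ⇒ `a` is an idempotent modulo `π`. -/
theorem sq_sub_mem_span {S : Set F₀} (hWV : ∀ x, x ∈ W ↔ x ∈ V₁ ∧ x ∈ V₂)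
    (hW : IsSemiGaussRing W (algebraMap O (chartAlg O F₀ S) π))
    (he₁ : ∀ x ∈ V₁.nonunits, x * (algebraMap O F₀ π)⁻¹ ∈ V₁)
    (he₂ : ∀ x ∈ V₂.nonunits, x * (algebraMap O F₀ π)⁻¹ ∈ V₂)
    (a b : chartAlg O F₀ S) (ha : (a : F₀) ∈ V₁.nonunits) (hb : (b : F₀) ∈ V₂.nonunits)
    (hab : a + b = 1) :
    a ^ 2 - a ∈ Ideal.span {algebraMap O (chartAlg O F₀ S) π} := by
  have h₁ : ∀ r : chartAlg O F₀ S, (r : F₀) ∈ V₁ := fun r => ((hWV _).1 (hW.le r)).1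
  have h₂ : ∀ r : chartAlg O F₀ S, (r : F₀) ∈ V₂ := fun r => ((hWV _).1 (hW.le r)).2
  have h1 : a ^ 2 - a = -(a * b) := by
    have : b = 1 - a := by rw [← hab]; ring
    rw [this]; ring
  rw [h1]
  refine (Ideal.neg_mem_iff _).2 (Ideal.mem_span_singleton.2 ?_)
  apply dvd_of_mem_nonunits V₁ V₂ W hWV hW he₁ he₂
  · rw [Subalgebra.coe_mul, mul_comm]
    exact mul_mem_nonunits_of_mem V₁ (h₁ b) ha
  · rw [Subalgebra.coe_mul]
    exact mul_mem_nonunits_of_mem V₂ (h₂ a) hb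

/-- An element of the overlap chart lying in both vertical maximal ideals is divisible by `π`
there. -/
theorem inv_mul_mem_overlap (hj0 : j ≠ 0) (hWV : ∀ x, x ∈ W ↔ x ∈ V₁ ∧ x ∈ V₂)
    (hWp : IsSemiGaussRing W (algebraMap O (chartAlg O F₀ {j}) π))
    (he₁ : ∀ x ∈ V₁.nonunits, x * (algebraMap O F₀ π)⁻¹ ∈ V₁)
    (he₂ : ∀ x ∈ V₂.nonunits, x * (algebraMap O F₀ π)⁻¹ ∈ V₂)
    (x : F₀) (hx : x ∈ chartAlg O F₀ {j, j⁻¹}) (hx₁ : x ∈ V₁.nonunits) (hx₂ : x ∈ V₂.nonunits) :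
    (algebraMap O F₀ π)⁻¹ * x ∈ chartAlg O F₀ {j, j⁻¹} := by
  have hπF : algebraMap O F₀ π ≠ 0 := hWp.ne_zero
  have hp₁ : ∀ r : chartAlg O F₀ {j}, (r : F₀) ∈ V₁ := fun r => ((hWV _).1 (hWp.le r)).1
  have hp₂ : ∀ r : chartAlg O F₀ {j}, (r : F₀) ∈ V₂ := fun r => ((hWV _).1 (hWp.le r)).2
  have hz0 : x ∈ chartAlg O F₀ (insert j⁻¹ {j}) := by
    rw [Set.pair_comm] at hx; exact hx
  obtain ⟨n, hn⟩ := exists_pow_mul_mem_chartAlg (O := O) (Set.mem_singleton j) hj0 hz0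
  have hjV₁ : j ^ n ∈ V₁ := pow_mem (hp₁ ⟨j, subset_chartAlg _ (Set.mem_singleton j)⟩) n
  have hjV₂ : j ^ n ∈ V₂ := pow_mem (hp₂ ⟨j, subset_chartAlg _ (Set.mem_singleton j)⟩) n
  have hdvd : algebraMap O (chartAlg O F₀ {j}) π ∣ (⟨_, hn⟩ : chartAlg O F₀ {j}) :=
    dvd_of_mem_nonunits V₁ V₂ W hWV hWp he₁ he₂ ⟨_, hn⟩
      (mul_mem_nonunits_of_mem V₁ hjV₁ hx₁) (mul_mem_nonunits_of_mem V₂ hjV₂ hx₂)
  obtain ⟨z, hz⟩ := hdvd
  have hzF : j ^ n * x = algebraMap O F₀ π * (z : F₀) :=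
    congrArg (fun w : chartAlg O F₀ {j} => (w : F₀)) hz
  have hjn : j ^ n ≠ 0 := pow_ne_zero n hj0
  have h4 : (algebraMap O F₀ π)⁻¹ * x = (j⁻¹) ^ n * (z : F₀) := by
    rw [inv_pow, inv_mul_eq_iff_eq_mul₀ hπF, ← mul_assoc, mul_comm _ (j ^ n)⁻¹, mul_assoc,
      ← hzF, ← mul_assoc, inv_mul_cancel₀ hjn, one_mul]
  rw [h4]
  exact mul_mem (pow_mem (subset_chartAlg _ (by simp)) n)
    (chartAlg_mono (subset_pair_left j) z.2)

/-- **(G-X1)(a): there is a crossing point** in the chart `j ≠ ∞` or in the chart `j ≠ 0`. -/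
theorem exists_crossing (hj : Transcendental K₀ j) [FiniteDimensional K₀⟮j⟯ F₀]
    (halg : ∀ x : F₀, IsAlgebraic K₀ x → x ∈ (algebraMap K₀ F₀).range)
    (hπ : Irreducible π)
    (hWV : ∀ x, x ∈ W ↔ x ∈ V₁ ∧ x ∈ V₂)
    (hWp : IsSemiGaussRing W (algebraMap O (chartAlg O F₀ {j}) π))
    (hWm : IsSemiGaussRing W (algebraMap O (chartAlg O F₀ {j⁻¹}) π))
    (hπ₁ : algebraMap O F₀ π ∈ V₁.nonunits) (hπ₂ : algebraMap O F₀ π ∈ V₂.nonunits)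
    (he₁ : ∀ x ∈ V₁.nonunits, x * (algebraMap O F₀ π)⁻¹ ∈ V₁)
    (he₂ : ∀ x ∈ V₂.nonunits, x * (algebraMap O F₀ π)⁻¹ ∈ V₂) :
    (∃ 𝔫 : Ideal (chartAlg O F₀ {j}), 𝔫.IsMaximal ∧
      (∀ r : chartAlg O F₀ {j}, (r : F₀) ∈ V₁.nonunits → r ∈ 𝔫) ∧
      (∀ r : chartAlg O F₀ {j}, (r : F₀) ∈ V₂.nonunits → r ∈ 𝔫)) ∨
    (∃ 𝔫 : Ideal (chartAlg O F₀ {j⁻¹}), 𝔫.IsMaximal ∧
      (∀ r : chartAlg O F₀ {j⁻¹}, (r : F₀) ∈ V₁.nonunits → r ∈ 𝔫) ∧
      (∀ r : chartAlg O F₀ {j⁻¹}, (r : F₀) ∈ V₂.nonunits → r ∈ 𝔫)) := by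
  by_contra hcon
  rw [not_or] at hcon
  obtain ⟨hnop, hnom⟩ := hcon
  have hπF : algebraMap O F₀ π ≠ 0 := hWp.ne_zero
  have hj0 : j ≠ 0 := fun h0 => hj (h0 ▸ isAlgebraic_zero)
  have hp₁ : ∀ r : chartAlg O F₀ {j}, (r : F₀) ∈ V₁ := fun r => ((hWV _).1 (hWp.le r)).1
  have hp₂ : ∀ r : chartAlg O F₀ {j}, (r : F₀) ∈ V₂ := fun r => ((hWV _).1 (hWp.le r)).2
  have hm₁ : ∀ r : chartAlg O F₀ {j⁻¹}, (r : F₀) ∈ V₁ := fun r => ((hWV _).1 (hWm.le r)).1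
  have hm₂ : ∀ r : chartAlg O F₀ {j⁻¹}, (r : F₀) ∈ V₂ := fun r => ((hWV _).1 (hWm.le r)).2
  obtain ⟨ap, bp, hap, hbp, habp⟩ := exists_add_eq_one_of_no_crossing V₁ V₂ hp₁ hp₂ hnop
  obtain ⟨am, bm, ham, hbm, habm⟩ := exists_add_eq_one_of_no_crossing V₁ V₂ hm₁ hm₂ hnom
  have habpF : (ap : F₀) + (bp : F₀) = 1 :=
    congrArg (fun z : chartAlg O F₀ {j} => (z : F₀)) habp
  have habmF : (am : F₀) + (bm : F₀) = 1 :=
    congrArg (fun z : chartAlg O F₀ {j⁻¹} => (z : F₀)) habm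
  have hep := sq_sub_mem_span V₁ V₂ W hWV hWp he₁ he₂ ap bp hap hbp habp
  have hem := sq_sub_mem_span V₁ V₂ W hWV hWm he₁ he₂ am bm ham hbm habm
  -- compatibility on the overlap
  have hcompat : chartIncl (O := O) (subset_pair_left j) ap -
      chartIncl (O := O) (subset_pair_right j) am ∈
        Ideal.span {algebraMap O (chartAlg O F₀ {j, j⁻¹}) π} := by
    rw [mem_span_iff hπF, Subalgebra.coe_sub, coe_chartIncl, coe_chartIncl]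
    have hx₁ : (ap : F₀) - (am : F₀) ∈ V₁.nonunits := sub_mem_nonunits V₁ hap ham
    have hx₂ : (ap : F₀) - (am : F₀) ∈ V₂.nonunits := by
      have : (ap : F₀) - (am : F₀) = (bm : F₀) - (bp : F₀) := by
        rw [sub_eq_sub_iff_add_eq_add, habpF, add_comm, habmF]
      rw [this]
      exact sub_mem_nonunits V₂ hbm hbp
    exact inv_mul_mem_overlap j V₁ V₂ W hj0 hWV hWp he₁ he₂ _
      (sub_mem (chartAlg_mono (subset_pair_left j) ap.2)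
        (chartAlg_mono (subset_pair_right j) am.2)) hx₁ hx₂
  have hne : (1 : chartAlg O F₀ {j}) ∉ Ideal.span {algebraMap O (chartAlg O F₀ {j}) π} := by
    rw [mem_span_iff hπF]
    intro h
    apply hWp.not_unit
    have h1 := hWp.le ⟨_, h⟩
    have h2 : algebraMap (chartAlg O F₀ {j}) F₀ ⟨_, h⟩ = (algebraMap O F₀ π)⁻¹ * 1 := rfl
    rw [h2, mul_one] at h1
    exact h1
  rcases idempotent_mod_eq_zero_or_one_chart (O := O) (K := K₀) j hj halg hπ hne ap am hep hem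
    hcompat with ⟨h0, -⟩ | ⟨h1, -⟩
  · -- `ap ∈ π R₊ ⊆ 𝔪_{V₂}`, so `1 = ap + bp ∈ 𝔪_{V₂}`
    obtain ⟨z, hz⟩ := Ideal.mem_span_singleton'.1 h0
    have hapF : (z : F₀) * algebraMap O F₀ π = (ap : F₀) :=
      congrArg (fun w : chartAlg O F₀ {j} => (w : F₀)) hz
    have : (ap : F₀) ∈ V₂.nonunits := by
      rw [← hapF]
      exact mul_mem_nonunits_of_mem V₂ (hp₂ z) hπ₂
    apply one_not_mem_nonunits V₂
    rw [← habpF]
    exact add_mem_nonunits V₂ this hbp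
  · obtain ⟨z, hz⟩ := Ideal.mem_span_singleton'.1 h1
    have h2 : (z : F₀) * algebraMap O F₀ π = (ap : F₀) - 1 :=
      congrArg (fun w : chartAlg O F₀ {j} => (w : F₀)) hz
    have hbpF : (bp : F₀) = -((z : F₀) * algebraMap O F₀ π) := by
      rw [h2, ← habpF]; ring
    have : (bp : F₀) ∈ V₁.nonunits := by
      rw [hbpF]
      have h5 := mul_mem_nonunits_of_mem V₁ (hp₁ z) hπ₁
      rw [ValuationSubring.mem_nonunits_iff] at h5 ⊢
      rwa [Valuation.map_neg]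
    apply one_not_mem_nonunits V₁
    rw [← habpF]
    exact add_mem_nonunits V₁ hap this

/-- `t ≡ 1` at `V` ⇒ `t ^ p ≡ 1` at `V`. -/
theorem pow_sub_one_mem_nonunits (V : ValuationSubring F₀) {t : F₀} (ht : t - 1 ∈ V.nonunits)
    (p : ℕ) : t ^ p - 1 ∈ V.nonunits := by
  have htV : t ∈ V := by
    have h1 : t - 1 ∈ V := V.nonunits_subset ht
    have : t = (t - 1) + 1 := by ring
    rw [this]
    exact V.add_mem _ _ h1 V.one_mem
  rw [← geom_sum_mul]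
  refine mul_mem_nonunits_of_mem V ?_ ht
  exact sum_mem fun i _ => pow_mem htV i

/-- Local consequence at a crossing point: if `f ≡ c_i` at `V_i` and `f a = t ^ p r` with `a r ∉ 𝔫`,
`t ≡ 1` at both `V_i`, and `𝔫` contains both vertical ideals, then `c₁ ≡ c₂ mod π`. -/
theorem const_sub_mem_span_of_crossing {S : Set F₀} (hπ : Irreducible π)
    (hR₁ : ∀ r : chartAlg O F₀ S, (r : F₀) ∈ V₁) (hR₂ : ∀ r : chartAlg O F₀ S, (r : F₀) ∈ V₂)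
    (𝔫 : Ideal (chartAlg O F₀ S)) (h𝔫 : 𝔫.IsMaximal)
    (h𝔫₁ : ∀ r : chartAlg O F₀ S, (r : F₀) ∈ V₁.nonunits → r ∈ 𝔫)
    (h𝔫₂ : ∀ r : chartAlg O F₀ S, (r : F₀) ∈ V₂.nonunits → r ∈ 𝔫)
    (p : ℕ) (f : F₀) (c₁ c₂ : O)
    (hf₁ : f - algebraMap O F₀ c₁ ∈ V₁.nonunits) (hf₂ : f - algebraMap O F₀ c₂ ∈ V₂.nonunits)
    (t : F₀) (a r : chartAlg O F₀ S) (ht₁ : t - 1 ∈ V₁.nonunits) (ht₂ : t - 1 ∈ V₂.nonunits)
    (ha : a ∉ 𝔫) (hfa : f * (a : F₀) = t ^ p * (r : F₀)) :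
    c₁ - c₂ ∈ Ideal.span {π} := by
  -- `c_i a - r ∈ 𝔓_i`
  have key : ∀ (V : ValuationSubring F₀) (c : O), (∀ r : chartAlg O F₀ S, (r : F₀) ∈ V) →
      f - algebraMap O F₀ c ∈ V.nonunits → t - 1 ∈ V.nonunits →
      ((algebraMap O (chartAlg O F₀ S) c * a - r : chartAlg O F₀ S) : F₀) ∈ V.nonunits := by
    intro V c hR hf ht
    have h1 : ((algebraMap O (chartAlg O F₀ S) c * a - r : chartAlg O F₀ S) : F₀) =
        (a : F₀) * -(f - algebraMap O F₀ c) + (r : F₀) * (t ^ p - 1) := by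
      rw [Subalgebra.coe_sub, Subalgebra.coe_mul]
      have : ((algebraMap O (chartAlg O F₀ S) c : chartAlg O F₀ S) : F₀) = algebraMap O F₀ c := rfl
      rw [this]
      linear_combination hfa
    rw [h1]
    refine add_mem_nonunits V (mul_mem_nonunits_of_mem V (hR a) ?_)
      (mul_mem_nonunits_of_mem V (hR r) (pow_sub_one_mem_nonunits V ht p))
    rw [ValuationSubring.mem_nonunits_iff] at hf ⊢
    rwa [Valuation.map_neg]
  have h1 := h𝔫₁ _ (key V₁ c₁ hR₁ hf₁ ht₁)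
  have h2 := h𝔫₂ _ (key V₂ c₂ hR₂ hf₂ ht₂)
  have h3 : algebraMap O (chartAlg O F₀ S) (c₁ - c₂) * a ∈ 𝔫 := by
    have := 𝔫.sub_mem h1 h2
    have e : algebraMap O (chartAlg O F₀ S) c₁ * a - r -
        (algebraMap O (chartAlg O F₀ S) c₂ * a - r) =
        algebraMap O (chartAlg O F₀ S) (c₁ - c₂) * a := by
      rw [map_sub]; ring
    rwa [e] at this
  have h4 : algebraMap O (chartAlg O F₀ S) (c₁ - c₂) ∈ 𝔫 :=
    (h𝔫.isPrime.mem_or_mem h3).resolve_right ha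
  by_contra hc
  rw [← hπ.maximalIdeal_eq, IsLocalRing.mem_maximalIdeal, mem_nonunits_iff, not_not] at hc
  exact h𝔫.ne_top (Ideal.eq_top_of_isUnit_mem _ h4 (hc.map _))

/-- **(G-X1)(b): the two vertical constants agree.** If `f ≡ c₁` at `V₁`, `f ≡ c₂` at `V₂`
(`c_i ∈ O`) and at every closed point `𝔫 ∋ π` of either chart `f = (unit at 𝔫) · t ^ p` with
`t ≡ 1` at both `V_i`, then `c₁ ≡ c₂ mod π`. -/
theorem const_sub_mem_span (hj : Transcendental K₀ j) [FiniteDimensional K₀⟮j⟯ F₀]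
    (halg : ∀ x : F₀, IsAlgebraic K₀ x → x ∈ (algebraMap K₀ F₀).range)
    (hπ : Irreducible π)
    (hWV : ∀ x, x ∈ W ↔ x ∈ V₁ ∧ x ∈ V₂)
    (hWp : IsSemiGaussRing W (algebraMap O (chartAlg O F₀ {j}) π))
    (hWm : IsSemiGaussRing W (algebraMap O (chartAlg O F₀ {j⁻¹}) π))
    (hπ₁ : algebraMap O F₀ π ∈ V₁.nonunits) (hπ₂ : algebraMap O F₀ π ∈ V₂.nonunits)
    (he₁ : ∀ x ∈ V₁.nonunits, x * (algebraMap O F₀ π)⁻¹ ∈ V₁)
    (he₂ : ∀ x ∈ V₂.nonunits, x * (algebraMap O F₀ π)⁻¹ ∈ V₂)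
    (p : ℕ) (f : F₀) (c₁ c₂ : O)
    (hf₁ : f - algebraMap O F₀ c₁ ∈ V₁.nonunits) (hf₂ : f - algebraMap O F₀ c₂ ∈ V₂.nonunits)
    (hlocp : ∀ 𝔫 : Ideal (chartAlg O F₀ {j}), 𝔫.IsMaximal →
      algebraMap O (chartAlg O F₀ {j}) π ∈ 𝔫 → ∃ (t : F₀) (a r : chartAlg O F₀ {j}),
        t - 1 ∈ V₁.nonunits ∧ t - 1 ∈ V₂.nonunits ∧ a ∉ 𝔫 ∧ f * (a : F₀) = t ^ p * (r : F₀))
    (hlocm : ∀ 𝔫 : Ideal (chartAlg O F₀ {j⁻¹}), 𝔫.IsMaximal →
      algebraMap O (chartAlg O F₀ {j⁻¹}) π ∈ 𝔫 → ∃ (t : F₀) (a r : chartAlg O F₀ {j⁻¹}),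
        t - 1 ∈ V₁.nonunits ∧ t - 1 ∈ V₂.nonunits ∧ a ∉ 𝔫 ∧ f * (a : F₀) = t ^ p * (r : F₀)) :
    c₁ - c₂ ∈ Ideal.span {π} := by
  have hp₁ : ∀ r : chartAlg O F₀ {j}, (r : F₀) ∈ V₁ := fun r => ((hWV _).1 (hWp.le r)).1
  have hp₂ : ∀ r : chartAlg O F₀ {j}, (r : F₀) ∈ V₂ := fun r => ((hWV _).1 (hWp.le r)).2
  have hm₁ : ∀ r : chartAlg O F₀ {j⁻¹}, (r : F₀) ∈ V₁ := fun r => ((hWV _).1 (hWm.le r)).1
  have hm₂ : ∀ r : chartAlg O F₀ {j⁻¹}, (r : F₀) ∈ V₂ := fun r => ((hWV _).1 (hWm.le r)).2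
  rcases exists_crossing j V₁ V₂ W hj halg hπ hWV hWp hWm hπ₁ hπ₂ he₁ he₂ with
    ⟨𝔫, h𝔫, h1, h2⟩ | ⟨𝔫, h𝔫, h1, h2⟩
  · obtain ⟨t, a, r, ht₁, ht₂, ha, hfa⟩ := hlocp 𝔫 h𝔫 (h1 _ hπ₁)
    exact const_sub_mem_span_of_crossing V₁ V₂ hπ hp₁ hp₂ 𝔫 h𝔫 h1 h2 p f c₁ c₂ hf₁ hf₂ t a r
      ht₁ ht₂ ha hfa
  · obtain ⟨t, a, r, ht₁, ht₂, ha, hfa⟩ := hlocm 𝔫 h𝔫 (h1 _ hπ₁)
    exact const_sub_mem_span_of_crossing V₁ V₂ hπ hm₁ hm₂ 𝔫 h𝔫 h1 h2 p f c₁ c₂ hf₁ hf₂ t a r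
      ht₁ ht₂ ha hfa

end Main

end Fermat.Agent.P3G.Connected
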