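/-
P3-G, block (G-N): the BRIDGE from the element-wise outputs of `P3G/Crossing.lean`
(`∀ m ∈ 𝔫, ∃ s ∉ 𝔫, s * m ∈ span {u, v, ϖ}` etc., in the chart `R`) to the hypotheses of the
local-ring files `P3G/NodeLocP.lean` (`RatGen`, `NodeSyz`, `u v ∈ (ϖ)`), `P3G/NodeLocal.lean`
(`maximalIdeal S = span {u, v, ϖ}` / `span {z, ϖ}`) and `P3G/NodeApprox.lean`, in ANY localisation
`S` of `R` at `𝔫` (`[IsLocalization.AtPrime S 𝔫]`: `Localization.AtPrime 𝔫` or a subalgebra of the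
function field).

Setting: `O → R → S`, `θ₁ θ₂ : R →+* Rb` (`Rb` a domain), `𝔫` maximal in `R`, `ϖ : O`,
`w := algebraMap O R ϖ ∈ ker θ₁ ⊓ ker θ₂ ≤ (w)`, residue field of `𝔫` = image of `O`.
-/
import Mathlib
import Fermat.Agent.P3G.Crossing
import Fermat.Agent.P3G.CrossingLaurent
import Fermat.Agent.P3G.NodeLocP

set_option autoImplicit false

namespace Fermat.Agent.P3G.CrossingLocal

open Fermat.Agent.P3G.NodeDeform Fermat.Agent.P3G.NodeLocP IsLocalRing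

/-! ### Generalities on a localisation at a maximal ideal -/

section Loc

variable {R S : Type*} [CommRing R] [CommRing S] [Algebra R S]
  (𝔫 : Ideal R) [h𝔫 : 𝔫.IsMaximal] [IsLocalization.AtPrime S 𝔫]

/-- `t a' ∈ I`, `t ∉ 𝔫` ⇒ the image of `a'` lies in `I S`. -/
theorem algebraMap_mem_map_of_mul_mem {I : Ideal R} {a' t : R} (ht : t ∉ 𝔫) (h : t * a' ∈ I) :
    algebraMap R S a' ∈ I.map (algebraMap R S) := by
  have hu : IsUnit (algebraMap R S t) := IsLocalization.map_units S (⟨t, ht⟩ : 𝔫.primeCompl)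
  have h1 : algebraMap R S (t * a') ∈ I.map (algebraMap R S) := Ideal.mem_map_of_mem _ h
  rw [map_mul] at h1
  exact (Ideal.unit_mul_mem_iff_mem _ hu).1 h1

/-- The image of `y` lies in `I S` ⇒ `t y ∈ I` for some `t ∉ 𝔫`. -/
theorem exists_mul_mem_of_algebraMap_mem_map {I : Ideal R} {y : R}
    (h : algebraMap R S y ∈ I.map (algebraMap R S)) : ∃ t : R, t ∉ 𝔫 ∧ t * y ∈ I := by
  have h1 : IsLocalization.mk' S y (1 : 𝔫.primeCompl) ∈ I.map (algebraMap R S) := by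
    rwa [IsLocalization.mk'_one]
  obtain ⟨s, hs, hsy⟩ := (IsLocalization.mk'_mem_map_algebraMap_iff 𝔫.primeCompl S I y 1).1 h1
  exact ⟨s, hs, hsy⟩

/-- Every element of `S` is a fraction `a = a' / s`. -/
theorem exists_mul_eq (a : S) : ∃ a' s : R, s ∉ 𝔫 ∧ a * algebraMap R S s = algebraMap R S a' := by
  obtain ⟨⟨a', s⟩, h⟩ := IsLocalization.surj 𝔫.primeCompl a
  exact ⟨a', s, s.2, h⟩

/-- `a = a'/s` with `a' ∈ I S` ⇒ `a ∈ I S`. -/
theorem mem_map_of_mul_eq {I : Ideal R} {a : S} {a' s : R} (hs : s ∉ 𝔫)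
    (h : a * algebraMap R S s = algebraMap R S a')
    (ha' : algebraMap R S a' ∈ I.map (algebraMap R S)) : a ∈ I.map (algebraMap R S) := by
  have hu : IsUnit (algebraMap R S s) := IsLocalization.map_units S (⟨s, hs⟩ : 𝔫.primeCompl)
  rw [← h, mul_comm] at ha'
  exact (Ideal.unit_mul_mem_iff_mem _ hu).1 ha'

variable [IsLocalRing S]

include h𝔫 in
/-- Every element of `S` is congruent to an element of `R` modulo the maximal ideal. -/
theorem exists_sub_algebraMap_mem (x : S) : ∃ x₀ : R, x - algebraMap R S x₀ ∈ maximalIdeal S := by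
  obtain ⟨y, hy⟩ := (IsLocalization.AtPrime.equivQuotMaximalIdeal 𝔫 S).surjective
    (Ideal.Quotient.mk _ x)
  obtain ⟨x₀, rfl⟩ := Ideal.Quotient.mk_surjective y
  rw [IsLocalization.AtPrime.equivQuotMaximalIdeal_apply_mk] at hy
  exact ⟨x₀, (Ideal.Quotient.eq.1 hy.symm)⟩

theorem algebraMap_mem_maximalIdeal {m : R} (hm : m ∈ 𝔫) :
    algebraMap R S m ∈ maximalIdeal S := by
  rw [← IsLocalization.AtPrime.map_eq_maximalIdeal 𝔫 S]
  exact Ideal.mem_map_of_mem _ hm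

end Loc

/-! ### The bridge at a crossing point -/

section Node

variable {O R Rb S : Type*} [CommRing O] [CommRing R] [CommRing Rb] [IsDomain Rb] [CommRing S]
  [Algebra O R] [Algebra R S] [Algebra O S] [IsScalarTower O R S]
  (θ₁ θ₂ : R →+* Rb) (𝔫 : Ideal R) [h𝔫 : 𝔫.IsMaximal] [IsLocalization.AtPrime S 𝔫]
  (ϖ : O) {u v : R}

/-- The element-wise data of a crossing point, as exported by
`Crossing.exists_crossing_coordinates` / `CrossingLaurent.exists_crossing_coordinates`. -/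
structure NodeData (u v : R) : Prop where
  hu : u ∈ 𝔫
  hv : v ∈ 𝔫
  hu2 : θ₂ u = 0
  hv1 : θ₁ v = 0
  hu1 : θ₁ u ≠ 0
  hv2 : θ₂ v ≠ 0
  hw1 : θ₁ (algebraMap O R ϖ) = 0
  hw2 : θ₂ (algebraMap O R ϖ) = 0
  hw : algebraMap O R ϖ ∈ 𝔫
  hinf : RingHom.ker θ₁ ⊓ RingHom.ker θ₂ ≤ Ideal.span {algebraMap O R ϖ}
  hA2 : ∀ m ∈ 𝔫, ∃ s a b : R, s ∉ 𝔫 ∧
    s * m - a * u - b * v ∈ RingHom.ker θ₁ ⊓ RingHom.ker θ₂
  hres : ∀ x : R, ∃ a : O, x - algebraMap O R a ∈ 𝔫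

variable {θ₁ θ₂ 𝔫 ϖ}

namespace NodeData

variable (D : NodeData θ₁ θ₂ 𝔫 ϖ u v)

include D in
/-- `𝔫 = (u, v, w)` locally at `𝔫`. -/
theorem exists_mul_mem_span {m : R} (hm : m ∈ 𝔫) :
    ∃ s : R, s ∉ 𝔫 ∧ s * m ∈ Ideal.span {u, v, algebraMap O R ϖ} := by
  obtain ⟨s, a, b, hs, h⟩ := D.hA2 m hm
  obtain ⟨r, hr⟩ := Ideal.mem_span_singleton'.1 (D.hinf h)
  refine ⟨s, hs, ?_⟩
  have he : s * m = a * u + b * v + r * algebraMap O R ϖ := by rw [hr]; ring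
  rw [he]
  exact Ideal.add_mem _ (Ideal.add_mem _ (Ideal.mul_mem_left _ _ (Ideal.subset_span (by simp)))
    (Ideal.mul_mem_left _ _ (Ideal.subset_span (by simp))))
    (Ideal.mul_mem_left _ _ (Ideal.subset_span (by simp)))

include D in
/-- `ker θ₁ = (v, w)` locally at `𝔫`. -/
theorem exists_mul_mem_span_of_mem_ker₁ {m : R} (hm : m ∈ RingHom.ker θ₁)
    (hk1 : RingHom.ker θ₁ ≤ 𝔫) :
    ∃ s : R, s ∉ 𝔫 ∧ s * m ∈ Ideal.span {v, algebraMap O R ϖ} := by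
  obtain ⟨s, a, b, hs, h⟩ := D.hA2 m (hk1 hm)
  refine ⟨s, hs, ?_⟩
  -- `θ₁ a = 0`
  have h1 : θ₁ (s * m - a * u - b * v) = 0 := h.1
  rw [map_sub, map_sub, map_mul, map_mul, map_mul, D.hv1, (RingHom.mem_ker).1 hm] at h1
  have ha : θ₁ a = 0 := by
    have : θ₁ a * θ₁ u = 0 := by simpa using h1
    exact (mul_eq_zero.1 this).resolve_right D.hu1
  have hau : a * u ∈ RingHom.ker θ₁ ⊓ RingHom.ker θ₂ :=
    Ideal.mem_inf.2 ⟨RingHom.mem_ker.2 (by rw [map_mul, ha, zero_mul]),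
      RingHom.mem_ker.2 (by rw [map_mul, D.hu2, mul_zero])⟩
  obtain ⟨r, hr⟩ := Ideal.mem_span_singleton'.1 (D.hinf h)
  obtain ⟨r', hr'⟩ := Ideal.mem_span_singleton'.1 (D.hinf hau)
  have he : s * m = b * v + (r + r') * algebraMap O R ϖ := by
    rw [add_mul, hr, hr']; ring
  rw [he]
  exact Ideal.add_mem _ (Ideal.mul_mem_left _ _ (Ideal.subset_span (by simp)))
    (Ideal.mul_mem_left _ _ (Ideal.subset_span (by simp)))

include D in
/-- `ker θ₂ = (u, w)` locally at `𝔫`. -/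
theorem exists_mul_mem_span_of_mem_ker₂ {m : R} (hm : m ∈ RingHom.ker θ₂)
    (hk2 : RingHom.ker θ₂ ≤ 𝔫) :
    ∃ s : R, s ∉ 𝔫 ∧ s * m ∈ Ideal.span {u, algebraMap O R ϖ} := by
  obtain ⟨s, a, b, hs, h⟩ := D.hA2 m (hk2 hm)
  refine ⟨s, hs, ?_⟩
  have h1 : θ₂ (s * m - a * u - b * v) = 0 := h.2
  rw [map_sub, map_sub, map_mul, map_mul, map_mul, D.hu2, (RingHom.mem_ker).1 hm] at h1
  have hb : θ₂ b = 0 := by
    have : θ₂ b * θ₂ v = 0 := by simpa using h1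
    exact (mul_eq_zero.1 this).resolve_right D.hv2
  have hbv : b * v ∈ RingHom.ker θ₁ ⊓ RingHom.ker θ₂ :=
    Ideal.mem_inf.2 ⟨RingHom.mem_ker.2 (by rw [map_mul, D.hv1, mul_zero]),
      RingHom.mem_ker.2 (by rw [map_mul, hb, zero_mul])⟩
  obtain ⟨r, hr⟩ := Ideal.mem_span_singleton'.1 (D.hinf h)
  obtain ⟨r', hr'⟩ := Ideal.mem_span_singleton'.1 (D.hinf hbv)
  have he : s * m = a * u + (r + r') * algebraMap O R ϖ := by
    rw [add_mul, hr, hr']; ring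
  rw [he]
  exact Ideal.add_mem _ (Ideal.mul_mem_left _ _ (Ideal.subset_span (by simp)))
    (Ideal.mul_mem_left _ _ (Ideal.subset_span (by simp)))

include D in
/-- `u v ∈ (w)` in `R`. -/
theorem mul_mem_span : u * v ∈ Ideal.span {algebraMap O R ϖ} :=
  D.hinf (Ideal.mem_inf.2 ⟨RingHom.mem_ker.2 (by rw [map_mul, D.hv1, mul_zero]),
    RingHom.mem_ker.2 (by rw [map_mul, D.hu2, zero_mul])⟩)

variable (S)

theorem algebraMap_w : algebraMap R S (algebraMap O R ϖ) = algebraMap O S ϖ :=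
  (IsScalarTower.algebraMap_apply O R S ϖ).symm

include D in
/-- `u v ∈ (ϖ)` in `S`. -/
theorem mul_mem_span_loc :
    algebraMap R S u * algebraMap R S v ∈ Ideal.span {algebraMap O S ϖ} := by
  have h := Ideal.mem_map_of_mem (algebraMap R S) D.mul_mem_span
  rwa [Ideal.map_span, Set.image_singleton, map_mul, algebraMap_w] at h

variable [IsLocalRing S]

include D in
/-- **`𝔪_S = (u, v, ϖ)`** (hypothesis `hm` of `NodeLocal.Node.ker_eq` and of `NodeApprox`). -/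
theorem maximalIdeal_eq_span :
    maximalIdeal S = Ideal.span {algebraMap R S u, algebraMap R S v, algebraMap O S ϖ} := by
  have h := Crossing.maximalIdeal_eq_span_image 𝔫 S {u, v, algebraMap O R ϖ}
    (by
      intro x hx
      rcases hx with rfl | rfl | rfl
      · exact D.hu
      · exact D.hv
      · exact D.hw)
    (fun m hm => D.exists_mul_mem_span hm)
  rw [h, Set.image_insert_eq, Set.image_insert_eq, Set.image_singleton, algebraMap_w]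

include D in
theorem u_mem : algebraMap R S u ∈ maximalIdeal S := algebraMap_mem_maximalIdeal 𝔫 D.hu

include D in
theorem v_mem : algebraMap R S v ∈ maximalIdeal S := algebraMap_mem_maximalIdeal 𝔫 D.hv

include D in
theorem w_mem : algebraMap O S ϖ ∈ maximalIdeal S := by
  rw [IsScalarTower.algebraMap_apply O R S ϖ]
  exact algebraMap_mem_maximalIdeal 𝔫 D.hw

include D in
/-- Residue field of `S` = image of `O`. -/
theorem exists_sub_mem (x : S) : ∃ a : O, x - algebraMap O S a ∈ maximalIdeal S := by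
  obtain ⟨x₀, hx₀⟩ := exists_sub_algebraMap_mem 𝔫 x
  obtain ⟨a, ha⟩ := D.hres x₀
  refine ⟨a, ?_⟩
  have h2 : algebraMap R S (x₀ - algebraMap O R a) ∈ maximalIdeal S :=
    algebraMap_mem_maximalIdeal 𝔫 ha
  rw [map_sub, ← IsScalarTower.algebraMap_apply] at h2
  have := Ideal.add_mem _ hx₀ h2
  simpa using this

include D in
/-- **`RatGen ϖ u v`** in `S` (hypothesis `hH` of `NodeLocP.exists_locP_prime`,
of `NodeDeform.exists_approx`). -/
theorem ratGen : RatGen ϖ (algebraMap R S u) (algebraMap R S v) := by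
  intro x
  obtain ⟨a, ha⟩ := D.exists_sub_mem S x
  rw [D.maximalIdeal_eq_span S, Ideal.mem_span_insert] at ha
  obtain ⟨p, z, hz, hpz⟩ := ha
  rw [Ideal.mem_span_insert] at hz
  obtain ⟨q, z', hz', hqz⟩ := hz
  obtain ⟨r, hr⟩ := Ideal.mem_span_singleton'.1 hz'
  refine ⟨a, p, q, r, ?_⟩
  have : x = algebraMap O S a + (x - algebraMap O S a) := by ring
  rw [this, hpz, hqz, ← hr]
  ring

include D in
/-- **The node syzygy property** in `S` (hypothesis `hNS` of `NodeLocP.exists_locP_prime`). -/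
theorem nodeSyz (hk1 : RingHom.ker θ₁ ≤ 𝔫) (hk2 : RingHom.ker θ₂ ≤ 𝔫) :
    NodeSyz ϖ (algebraMap R S u) (algebraMap R S v) := by
  intro a b hab
  obtain ⟨a', s₁, hs₁, ha'⟩ := exists_mul_eq (S := S) 𝔫 a
  obtain ⟨b', s₂, hs₂, hb'⟩ := exists_mul_eq (S := S) 𝔫 b
  -- the relation in `R`, up to a factor outside `𝔫`
  have h1 : algebraMap R S (a' * s₂ * u + b' * s₁ * v) ∈
      (Ideal.span {algebraMap O R ϖ}).map (algebraMap R S) := by
    rw [Ideal.map_span, Set.image_singleton, algebraMap_w]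
    have e : algebraMap R S (a' * s₂ * u + b' * s₁ * v) =
        (a * algebraMap R S u + b * algebraMap R S v) *
          (algebraMap R S s₁ * algebraMap R S s₂) := by
      simp only [map_add, map_mul, ← ha', ← hb']
      ring
    rw [e]
    exact Ideal.mul_mem_right _ _ hab
  obtain ⟨t, ht, htw⟩ := exists_mul_mem_of_algebraMap_mem_map (S := S) 𝔫 h1
  obtain ⟨r, hr⟩ := Ideal.mem_span_singleton'.1 htw
  have hts₂ : t * s₂ ∉ 𝔫 := fun h => (h𝔫.isPrime.mem_or_mem h).elim ht hs₂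
  have hts₁ : t * s₁ ∉ 𝔫 := fun h => (h𝔫.isPrime.mem_or_mem h).elim ht hs₁
  constructor
  · -- `t s₂ a' ∈ ker θ₁`
    have h2 : θ₁ (t * (a' * s₂ * u + b' * s₁ * v)) = 0 := by
      rw [← hr, map_mul, D.hw1, mul_zero]
    have h3 : θ₁ (t * s₂ * a') * θ₁ u = 0 := by
      rw [← map_mul]
      have e : t * s₂ * a' * u = t * (a' * s₂ * u + b' * s₁ * v) - t * b' * s₁ * v := by ring
      rw [e, map_sub, h2, map_mul θ₁ (t * b' * s₁) v, D.hv1, mul_zero, sub_zero]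
    have h4 : t * s₂ * a' ∈ RingHom.ker θ₁ := (mul_eq_zero.1 h3).resolve_right D.hu1
    obtain ⟨t', ht', h5⟩ := D.exists_mul_mem_span_of_mem_ker₁ h4 hk1
    have h6 : algebraMap R S a' ∈
        (Ideal.span {v, algebraMap O R ϖ}).map (algebraMap R S) := by
      refine algebraMap_mem_map_of_mul_mem (S := S) 𝔫
        (t := t' * (t * s₂)) (fun h => (h𝔫.isPrime.mem_or_mem h).elim ht' hts₂) ?_
      rwa [mul_assoc]
    have h7 := mem_map_of_mul_eq (S := S) 𝔫 hs₁ ha' h6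
    rwa [Ideal.map_span, Set.image_insert_eq, Set.image_singleton, algebraMap_w] at h7
  · have h2 : θ₂ (t * (a' * s₂ * u + b' * s₁ * v)) = 0 := by
      rw [← hr, map_mul, D.hw2, mul_zero]
    have h3 : θ₂ (t * s₁ * b') * θ₂ v = 0 := by
      rw [← map_mul]
      have e : t * s₁ * b' * v = t * (a' * s₂ * u + b' * s₁ * v) - t * a' * s₂ * u := by ring
      rw [e, map_sub, h2, map_mul θ₂ (t * a' * s₂) u, D.hu2, mul_zero, sub_zero]
    have h4 : t * s₁ * b' ∈ RingHom.ker θ₂ := (mul_eq_zero.1 h3).resolve_right D.hv2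
    obtain ⟨t', ht', h5⟩ := D.exists_mul_mem_span_of_mem_ker₂ h4 hk2
    have h6 : algebraMap R S b' ∈
        (Ideal.span {u, algebraMap O R ϖ}).map (algebraMap R S) := by
      refine algebraMap_mem_map_of_mul_mem (S := S) 𝔫
        (t := t' * (t * s₁)) (fun h => (h𝔫.isPrime.mem_or_mem h).elim ht' hts₁) ?_
      rwa [mul_assoc]
    have h7 := mem_map_of_mul_eq (S := S) 𝔫 hs₂ hb' h6
    rwa [Ideal.map_span, Set.image_insert_eq, Set.image_singleton, algebraMap_w] at h7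

end NodeData

end Node

/-! ### The bridge at a smooth point -/

section Smooth

variable {O R S : Type*} [CommRing O] [CommRing R] [CommRing S]
  [Algebra O R] [Algebra R S] [Algebra O S] [IsScalarTower O R S]
  (𝔫 : Ideal R) [h𝔫 : 𝔫.IsMaximal] [IsLocalization.AtPrime S 𝔫] [IsLocalRing S]
  (ϖ : O) {z : R}

include h𝔫 in
/-- **`𝔪_S = (z, ϖ)`** at a smooth point (hypothesis of `NodeLocal.Smooth.ker_eq`). -/
theorem maximalIdeal_eq_span_smooth (hz : z ∈ 𝔫) (hw : algebraMap O R ϖ ∈ 𝔫)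
    (hgen : ∀ m ∈ 𝔫, ∃ s : R, s ∉ 𝔫 ∧ s * m ∈ Ideal.span {z, algebraMap O R ϖ}) :
    maximalIdeal S = Ideal.span {algebraMap R S z, algebraMap O S ϖ} := by
  have h := Crossing.maximalIdeal_eq_span_image 𝔫 S {z, algebraMap O R ϖ}
    (by
      intro x hx
      rcases hx with rfl | rfl
      · exact hz
      · exact hw)
    hgen
  rw [h, Set.image_insert_eq, Set.image_singleton, ← IsScalarTower.algebraMap_apply]

end Smooth

/-! ### (Loc-P) at a crossing point: `NodeLocP.exists_locP_prime` fed by `NodeData` -/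

section LocP

variable {O R Rb S : Type*} [CommRing O] [IsDomain O] [IsDiscreteValuationRing O]
  [CommRing R] [CommRing Rb] [IsDomain Rb] [CommRing S] [IsDomain S] [IsNoetherianRing S]
  [Algebra O R] [Algebra R S] [Algebra O S] [IsScalarTower O R S]
  {θ₁ θ₂ : R →+* Rb} {𝔫 : Ideal R} [h𝔫 : 𝔫.IsMaximal] [IsLocalization.AtPrime S 𝔫] [IsLocalRing S]
  {ϖ : O} {u v : R}

/-- **(Loc-P) at a crossing point** (helper16's `NodeLocP.exists_locP_prime` with all node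
hypotheses discharged from `NodeData`): for a section `φ : S →ₐ[O] O` at which `S` is regular
(`hreg`) there is `b` with `φ b = 0`, `b ≡ u` or `v (mod ϖ)`, generating `ker φ` at `ker φ`, and a
unit at every other horizontal prime. -/
theorem exists_locP_of_nodeData (D : NodeData θ₁ θ₂ 𝔫 ϖ u v) (hirr : Irreducible ϖ)
    (hk1 : RingHom.ker θ₁ ≤ 𝔫) (hk2 : RingHom.ker θ₂ ≤ 𝔫) (φ : S →ₐ[O] O)
    (hreg : ∃ g ∈ RingHom.ker (φ : S →+* O), ∃ r, r ∉ RingHom.ker (φ : S →+* O) ∧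
      ∀ z ∈ RingHom.ker (φ : S →+* O), r * z ∈ Ideal.span {g}) :
    ∃ b : S, φ b = 0 ∧
      (b - algebraMap R S u ∈ Ideal.span {algebraMap O S ϖ} ∨
        b - algebraMap R S v ∈ Ideal.span {algebraMap O S ϖ}) ∧
      (∃ y : S, y ∉ RingHom.ker (φ : S →+* O) ∧
        ∀ z ∈ RingHom.ker (φ : S →+* O), y * z ∈ Ideal.span {b}) ∧
      (∀ (q : Ideal S), q.IsPrime → b ∈ q → algebraMap O S ϖ ∉ q →
        RingHom.ker (φ : S →+* O) ≤ q) :=
  exists_locP_prime hirr (D.w_mem S) (D.u_mem S) (D.v_mem S) (D.ratGen S) (D.mul_mem_span_loc S)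
    (D.nodeSyz S hk1 hk2) φ hreg

end LocP

/-! ### One-stop constructors of `NodeData` -/

section OneStop

open Fermat.Agent.P3G.Crossing

variable {O RM R Rb : Type*} [CommRing O] [CommRing RM] [CommRing R] [CommRing Rb]
  [IsDedekindDomain Rb] [Algebra O R]
  {ℓ : ℕ} {α β : RM → R} {θ : RM →+* Rb} {θ₁ θ₂ : R →+* Rb} {ψ : Rb ≃+* Rb}

/-- **Crossing point ⇒ `NodeData`** (abstract `Rb`-valued form): at a maximal ideal `𝔫` containing
both kernels there are `u = α z₁ − (β z₂')^ℓ`, `v = β z₂ − (α z₁')^ℓ` (`z`'s in `Z`) with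
`NodeData θ₁ θ₂ 𝔫 ϖ u v`. -/
theorem exists_nodeData (D : CrossingData ℓ α β θ θ₁ θ₂ ψ) (𝔫 : Ideal R) [h𝔫 : 𝔫.IsMaximal]
    (hk1 : RingHom.ker θ₁ ≤ 𝔫) (hk2 : RingHom.ker θ₂ ≤ 𝔫)
    (Z : Subring RM) (hZ : ∀ y : Rb, ∃ z ∈ Z, θ z = y) (hbot : 𝔫.map θ₁ ≠ ⊥)
    (ϖ : O) (hw1 : θ₁ (algebraMap O R ϖ) = 0) (hw2 : θ₂ (algebraMap O R ϖ) = 0)
    (hinf : RingHom.ker θ₁ ⊓ RingHom.ker θ₂ ≤ Ideal.span {algebraMap O R ϖ})
    (hres : ∀ x : R, ∃ a : O, x - algebraMap O R a ∈ 𝔫) :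
    ∃ z₁ ∈ Z, ∃ z₂ ∈ Z, ∃ z₁' ∈ Z, ∃ z₂' ∈ Z, ∃ u v : R,
      u = α z₁ - (β z₂') ^ ℓ ∧ v = β z₂ - (α z₁') ^ ℓ ∧ NodeData θ₁ θ₂ 𝔫 ϖ u v := by
  obtain ⟨z₁, hz₁, z₂, hz₂, z₁', hz₁', z₂', hz₂', u, v, hu, hv, hu𝔫, hv𝔫, hu2, hv1, hu1, hv2,
      hu1sq, hv2sq, -, -⟩ :=
    Crossing.exists_crossing_coordinates D 𝔫 hk1 hk2 Z hZ hbot hinf
  refine ⟨z₁, hz₁, z₂, hz₂, z₁', hz₁', z₂', hz₂', u, v, hu, hv, ?_⟩
  exact
    { hu := hu𝔫
      hv := hv𝔫
      hu2 := RingHom.mem_ker.1 hu2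
      hv1 := RingHom.mem_ker.1 hv1
      hu1 := fun h => hu1 (RingHom.mem_ker.2 h)
      hv2 := fun h => hv2 (RingHom.mem_ker.2 h)
      hw1 := hw1
      hw2 := hw2
      hw := hk1 (RingHom.mem_ker.2 hw1)
      hinf := hinf
      hA2 := fun m hm => CrossingLaurent.exists_mul_sub_sub_mem_inf θ₁ θ₂ D.surj₁ D.surj₂ 𝔫 hk1
        hu𝔫 hu1sq hv𝔫 hv1 hv2sq hm
      hres := hres }

end OneStop

section OneStopLaurent

open Fermat.Agent.P3G.CrossingLaurent ModularCurve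

variable {κ : Type*} [Field κ] {ℓ : ℕ} [Fact ℓ.Prime] [CharP κ ℓ] [PerfectRing κ ℓ]
  {Rbar : Subring (LaurentSeries κ)} (hFr : ∀ x, Fr κ ℓ x ∈ Rbar ↔ x ∈ Rbar)
  {O R₀ R : Type*} [CommRing O] [CommRing R₀] [CommRing R] [Algebra O R]
  {α β : R₀ → R} {θ : R₀ →+* LaurentSeries κ} {θ₁ θ₂ : R →+* LaurentSeries κ}
  (hθ : ∀ x, θ x ∈ Rbar) (hθ₁ : ∀ r, θ₁ r ∈ Rbar) (hθ₂ : ∀ r, θ₂ r ∈ Rbar)
  [IsDedekindDomain Rbar] (hfield : ¬ IsField Rbar)

include hFr hθ hθ₁ hθ₂ hfield in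
/-- **Crossing point ⇒ `NodeData`**, `LaurentSeries`-valued form (helper13's #1246 interface):
`NodeData` for the corestricted maps `res Rbar θ₁ hθ₁`, `res Rbar θ₂ hθ₂`. -/
theorem exists_nodeData_laurent (D : LaurentData (ℓ := ℓ) Rbar α β θ θ₁ θ₂)
    (𝔫 : Ideal R) [h𝔫 : 𝔫.IsMaximal]
    (hk1 : RingHom.ker θ₁ ≤ 𝔫) (hk2 : RingHom.ker θ₂ ≤ 𝔫)
    (Z : Subring R₀) (hZ : ∀ y ∈ Rbar, ∃ z ∈ Z, θ z = y)
    (ϖ : O) (hw1 : θ₁ (algebraMap O R ϖ) = 0) (hw2 : θ₂ (algebraMap O R ϖ) = 0)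
    (hinf : RingHom.ker θ₁ ⊓ RingHom.ker θ₂ ≤ Ideal.span {algebraMap O R ϖ})
    (hres : ∀ x : R, ∃ a : O, x - algebraMap O R a ∈ 𝔫) :
    ∃ z₁ ∈ Z, ∃ z₂ ∈ Z, ∃ z₁' ∈ Z, ∃ z₂' ∈ Z, ∃ u v : R,
      u = α z₁ - (β z₂') ^ ℓ ∧ v = β z₂ - (α z₁') ^ ℓ ∧
      NodeData (res Rbar θ₁ hθ₁) (res Rbar θ₂ hθ₂) 𝔫 ϖ u v := by
  have CD := crossingData hFr hθ hθ₁ hθ₂ D
  have hk1' : RingHom.ker (res Rbar θ₁ hθ₁) ≤ 𝔫 := by rwa [ker_res]
  have hk2' : RingHom.ker (res Rbar θ₂ hθ₂) ≤ 𝔫 := by rwa [ker_res]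
  have hinf' : RingHom.ker (res Rbar θ₁ hθ₁) ⊓ RingHom.ker (res Rbar θ₂ hθ₂) ≤
      Ideal.span {algebraMap O R ϖ} := by rwa [ker_res, ker_res]
  have hZ' : ∀ y : Rbar, ∃ z ∈ Z, res Rbar θ hθ z = y := fun y => by
    obtain ⟨z, hz, hzy⟩ := hZ y y.2
    exact ⟨z, hz, Subtype.ext hzy⟩
  exact exists_nodeData CD 𝔫 hk1' hk2' Z hZ' (map_ne_bot hfield 𝔫 CD.surj₁ hk1') ϖ
    (Subtype.ext hw1) (Subtype.ext hw2) hinf' hres

end OneStopLaurent

end Fermat.Agent.P3G.CrossingLocal
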