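import Mathlib

set_option autoImplicit false

namespace Fermat.Agent.P3G.DiscreteVal

open Polynomial

variable {F L : Type*} [Field F] [Field L]

/-- An element which is infinitely small with respect to the values of `φ(F)` is not algebraic
over `φ(F)`: in an algebraic relation the lowest term would strictly dominate. -/
theorem not_infinitesimal (φ : F →+* L) (V : ValuationSubring L) {x : L} (hx0 : x ≠ 0)
    (hx : ∀ c : F, c ≠ 0 → V.valuation x < V.valuation (φ c)) {p : F[X]} (hp : p ≠ 0)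
    (hpx : p.eval₂ φ x = 0) : False := by
  classical
  set v := V.valuation with hv
  set m := p.natTrailingDegree with hm
  have hcm : p.coeff m ≠ 0 := by
    exact trailingCoeff_nonzero_iff_nonzero.mpr hp
  have hx1 : v x < 1 := by simpa using hx 1 one_ne_zero
  have hvx0 : v x ≠ 0 := (Valuation.ne_zero_iff _).mpr hx0
  have hmain0 : φ (p.coeff m) * x ^ m ≠ 0 :=
    mul_ne_zero ((map_ne_zero φ).mpr hcm) (pow_ne_zero _ hx0)
  have hvmain0 : v (φ (p.coeff m) * x ^ m) ≠ 0 := (Valuation.ne_zero_iff _).mpr hmain0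
  have hmmem : m ∈ Finset.range (p.natDegree + 1) := by
    rw [Finset.mem_range]; exact Nat.lt_succ_of_le (natTrailingDegree_le_natDegree p)
  rw [eval₂_eq_sum_range, ← Finset.add_sum_erase _ _ hmmem] at hpx
  have hrest : v (∑ i ∈ (Finset.range (p.natDegree + 1)).erase m, φ (p.coeff i) * x ^ i)
      < v (φ (p.coeff m) * x ^ m) := by
    refine Valuation.map_sum_lt v hvmain0 ?_
    intro i hi
    rw [Finset.mem_erase] at hi
    by_cases hci : p.coeff i = 0
    · rw [hci, map_zero, zero_mul, map_zero]; exact zero_lt_iff.mpr hvmain0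
    · have hmi : m < i := lt_of_le_of_ne (natTrailingDegree_le_of_ne_zero hci) (Ne.symm hi.1)
      obtain ⟨k, rfl⟩ := Nat.exists_eq_add_of_lt hmi
      have hci0 : v (φ (p.coeff (m + k + 1))) ≠ 0 :=
        (Valuation.ne_zero_iff _).mpr ((map_ne_zero φ).mpr hci)
      have h1 : v x * v (φ (p.coeff (m + k + 1))) < v (φ (p.coeff m)) := by
        have := hx (p.coeff m / p.coeff (m + k + 1)) (div_ne_zero hcm hci)
        rw [map_div₀, map_div₀] at this
        exact (lt_div_iff₀ (zero_lt_iff.mpr hci0)).mp this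
      have h2 : v x ^ k ≤ 1 := pow_le_one₀ zero_le hx1.le
      have h3 : 0 < v x ^ m := zero_lt_iff.mpr (pow_ne_zero _ hvx0)
      calc v (φ (p.coeff (m + k + 1)) * x ^ (m + k + 1))
          = (v x * v (φ (p.coeff (m + k + 1)))) * v x ^ m * v x ^ k := by
            rw [map_mul, map_pow, pow_succ, pow_add]; ac_rfl
        _ ≤ (v x * v (φ (p.coeff (m + k + 1)))) * v x ^ m * 1 := by gcongr
        _ = (v x * v (φ (p.coeff (m + k + 1)))) * v x ^ m := mul_one _
        _ < v (φ (p.coeff m)) * v x ^ m := mul_lt_mul_of_pos_right h1 h3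
        _ = v (φ (p.coeff m) * x ^ m) := by rw [map_mul, map_pow]
  have hneg : φ (p.coeff m) * x ^ m
      = - ∑ i ∈ (Finset.range (p.natDegree + 1)).erase m, φ (p.coeff i) * x ^ i :=
    eq_neg_of_add_eq_zero_left hpx
  rw [hneg, Valuation.map_neg] at hrest
  exact lt_irrefl _ hrest

section Main

variable (φ : F →+* L) (V : ValuationSubring L) {π : L}

theorem mem_nonunits_iff_inv_notMem {y : L} (hy : y ≠ 0) : y ∈ V.nonunits ↔ y⁻¹ ∉ V := by
  have hpos : 0 < V.valuation y := zero_lt_iff.mpr ((Valuation.ne_zero_iff _).mpr hy)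
  rw [V.mem_nonunits_iff, ← V.valuation_le_one_iff, map_inv₀, not_le, one_lt_inv₀ hpos]

/-- `e = 1` in valuation form: every nonunit has value at most that of `π`. -/
theorem valuation_le_of_mem_nonunits (hπ0 : π ≠ 0)
    (he : ∀ y ∈ V.nonunits, y * π⁻¹ ∈ V) {y : L} (hy : y ∈ V.nonunits) :
    V.valuation y ≤ V.valuation π := by
  have h := (V.valuation_le_one_iff _).mpr (he y hy)
  rw [map_mul, map_inv₀] at h
  have hπv : 0 < V.valuation π := zero_lt_iff.mpr ((Valuation.ne_zero_iff _).mpr hπ0)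
  simpa using (mul_inv_le_iff₀ hπv).mp h

/-- **The value group is `v(π)^ℤ`.**  If `V` has ramification index one over `π`
(`he`), the values of `φ(F)` are powers of `v(π)` (`hF`) and `L` is algebraic over `φ(F)`
(`halg`), then every nonzero element of `L` has value a power of `v(π)`. -/
theorem exists_zpow_eq (hπ0 : π ≠ 0) (hπ : π ∈ V.nonunits)
    (he : ∀ y ∈ V.nonunits, y * π⁻¹ ∈ V)
    (hF : ∀ c : F, c ≠ 0 → ∃ n : ℤ, V.valuation (φ c) = V.valuation π ^ n)
    (halg : ∀ x : L, ∃ p : F[X], p ≠ 0 ∧ p.eval₂ φ x = 0) {x : L} (hx0 : x ≠ 0) :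
    ∃ n : ℤ, V.valuation x = V.valuation π ^ n := by
  set v := V.valuation with hv
  set γ := v π with hγ
  have hγ0 : 0 < γ := zero_lt_iff.mpr ((Valuation.ne_zero_iff _).mpr hπ0)
  have hγ1 : γ < 1 := V.mem_nonunits_iff.mp hπ
  have hdown : ∀ {a b : ℤ}, a ≤ b → v x ≤ γ ^ b → v x ≤ γ ^ a := fun hab h =>
    h.trans (zpow_le_zpow_right_of_le_one₀ hγ0 hγ1.le hab)
  by_cases hall : ∀ n : ℤ, v x ≤ γ ^ n
  · -- `x` would be infinitely small
    exfalso
    obtain ⟨p, hp, hpx⟩ := halg x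
    refine not_infinitesimal φ V hx0 (fun c hc => ?_) hp hpx
    obtain ⟨n, hn⟩ := hF c hc
    rw [hn]
    exact (hall (n + 1)).trans_lt (zpow_lt_zpow_right_of_lt_one₀ hγ0 hγ1 (lt_add_one n))
  · push Not at hall
    obtain ⟨b, hb⟩ := hall
    by_cases hex : ∃ n : ℤ, v x ≤ γ ^ n
    · obtain ⟨n, hn, hmax⟩ := Int.exists_greatest_of_bdd (P := fun n => v x ≤ γ ^ n)
        ⟨b, fun z hz => by
          by_contra hzb
          push Not at hzb
          exact absurd (hdown hzb.le hz) (not_le.mpr hb)⟩ hex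
      refine ⟨n, le_antisymm hn ?_⟩
      by_contra hlt
      push Not at hlt
      have hy : x * (π ^ n)⁻¹ ∈ V.nonunits := by
        rw [V.mem_nonunits_iff, map_mul, map_inv₀, map_zpow₀]
        exact (mul_inv_lt_iff₀ (zpow_pos hγ0 n)).mpr (by simpa using hlt)
      have h2 := valuation_le_of_mem_nonunits V hπ0 he hy
      rw [map_mul, map_inv₀, map_zpow₀] at h2
      have h3 : v x ≤ γ ^ (n + 1) := by
        rw [zpow_add_one₀ hγ0.ne']
        have := (mul_inv_le_iff₀ (zpow_pos hγ0 n)).mp h2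
        rwa [mul_comm] at this
      have := hmax (n + 1) h3
      omega
    · -- `x` would be infinitely large
      exfalso
      push Not at hex
      obtain ⟨p, hp, hpx⟩ := halg x⁻¹
      refine not_infinitesimal φ V (inv_ne_zero hx0) (fun c hc => ?_) hp hpx
      obtain ⟨n, hn⟩ := hF c hc
      rw [hn, map_inv₀]
      have := hex (-n)
      rw [zpow_neg] at this
      exact inv_lt_of_inv_lt₀ (zpow_pos hγ0 n) this

/-- A ring automorphism stabilising `V` stabilises its maximal ideal. -/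
theorem apply_mem_nonunits (τ : L ≃+* L) (hτV : ∀ x, τ x ∈ V ↔ x ∈ V) {y : L}
    (hy : y ∈ V.nonunits) : τ y ∈ V.nonunits := by
  rcases eq_or_ne y 0 with rfl | hy0
  · rwa [map_zero]
  · have hτy0 : τ y ≠ 0 := (map_ne_zero τ).mpr hy0
    rw [mem_nonunits_iff_inv_notMem V hτy0, ← map_inv₀, hτV]
    exact (mem_nonunits_iff_inv_notMem V hy0).mp hy

theorem symm_mem_iff (τ : L ≃+* L) (hτV : ∀ x, τ x ∈ V ↔ x ∈ V) (x : L) :
    τ.symm x ∈ V ↔ x ∈ V := by
  rw [← hτV (τ.symm x), RingEquiv.apply_symm_apply]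

/-- An automorphism stabilising `V` preserves the value of a generator of the maximal ideal. -/
theorem valuation_apply_pi_eq (hπ0 : π ≠ 0) (hπ : π ∈ V.nonunits)
    (he : ∀ y ∈ V.nonunits, y * π⁻¹ ∈ V) (τ : L ≃+* L) (hτV : ∀ x, τ x ∈ V ↔ x ∈ V) :
    V.valuation (τ π) = V.valuation π := by
  refine le_antisymm (valuation_le_of_mem_nonunits V hπ0 he (apply_mem_nonunits V τ hτV hπ)) ?_
  have h1 : τ.symm π * π⁻¹ ∈ V :=
    he _ (apply_mem_nonunits V τ.symm (symm_mem_iff V τ hτV) hπ)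
  have h2 : τ (τ.symm π * π⁻¹) ∈ V := (hτV _).mpr h1
  rw [map_mul, RingEquiv.apply_symm_apply, map_inv₀] at h2
  have h3 := (V.valuation_le_one_iff _).mpr h2
  rw [map_mul, map_inv₀] at h3
  have hpos : 0 < V.valuation (τ π) :=
    zero_lt_iff.mpr ((Valuation.ne_zero_iff _).mpr ((map_ne_zero τ).mpr hπ0))
  simpa using (mul_inv_le_iff₀ hpos).mp h3

/-- An automorphism stabilising `V` preserves valuation-one elements. -/
theorem valuation_apply_eq_one (τ : L ≃+* L) (hτV : ∀ x, τ x ∈ V ↔ x ∈ V) {u : L}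
    (hu : V.valuation u = 1) : V.valuation (τ u) = 1 := by
  have hu0 : u ≠ 0 := by
    rintro rfl
    rw [map_zero] at hu
    exact zero_ne_one hu
  have h1 : τ u ∈ V := (hτV u).mpr ((V.valuation_le_one_iff u).mp hu.le)
  have h2 : τ u⁻¹ ∈ V :=
    (hτV _).mpr ((V.valuation_le_one_iff _).mp (by rw [map_inv₀, hu, inv_one]))
  rw [map_inv₀] at h2
  have h1' := (V.valuation_le_one_iff _).mpr h1
  have h2' := (V.valuation_le_one_iff _).mpr h2
  rw [map_inv₀] at h2'
  have hpos : 0 < V.valuation (τ u) :=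
    zero_lt_iff.mpr ((Valuation.ne_zero_iff _).mpr ((map_ne_zero τ).mpr hu0))
  exact le_antisymm h1' ((inv_le_one₀ hpos).mp h2')

/-- **`hval` for a valuation ring with `e = 1` algebraic over a discretely valued subfield.**
Every ring automorphism stabilising `V` preserves the valuation. -/
theorem valuation_apply_eq (hπ0 : π ≠ 0) (hπ : π ∈ V.nonunits)
    (he : ∀ y ∈ V.nonunits, y * π⁻¹ ∈ V)
    (hF : ∀ c : F, c ≠ 0 → ∃ n : ℤ, V.valuation (φ c) = V.valuation π ^ n)
    (halg : ∀ x : L, ∃ p : F[X], p ≠ 0 ∧ p.eval₂ φ x = 0)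
    (τ : L ≃+* L) (hτV : ∀ x, τ x ∈ V ↔ x ∈ V) (x : L) :
    V.valuation (τ x) = V.valuation x := by
  rcases eq_or_ne x 0 with rfl | hx0
  · rw [map_zero]
  obtain ⟨n, hn⟩ := exists_zpow_eq φ V hπ0 hπ he hF halg hx0
  have hγ0 : V.valuation π ≠ 0 := (Valuation.ne_zero_iff _).mpr hπ0
  have hu : V.valuation (x * (π ^ n)⁻¹) = 1 := by
    rw [map_mul, map_inv₀, map_zpow₀, hn, mul_inv_cancel₀ (zpow_ne_zero _ hγ0)]
  have hx : x = (x * (π ^ n)⁻¹) * π ^ n := by
    rw [mul_assoc, inv_mul_cancel₀ (zpow_ne_zero _ hπ0), mul_one]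
  calc V.valuation (τ x) = V.valuation (τ ((x * (π ^ n)⁻¹) * π ^ n)) := by rw [← hx]
    _ = V.valuation (τ (x * (π ^ n)⁻¹)) * V.valuation (τ π) ^ n := by
        rw [map_mul τ, map_zpow₀ τ, map_mul, map_zpow₀]
    _ = V.valuation x := by
        rw [valuation_apply_eq_one V τ hτV hu, valuation_apply_pi_eq V hπ0 hπ he τ hτV, one_mul, hn]

/-- **`V` is a discrete valuation ring.** -/
theorem isDiscreteValuationRing (hπ0 : π ≠ 0) (hπ : π ∈ V.nonunits)
    (he : ∀ y ∈ V.nonunits, y * π⁻¹ ∈ V)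
    (hF : ∀ c : F, c ≠ 0 → ∃ n : ℤ, V.valuation (φ c) = V.valuation π ^ n)
    (halg : ∀ x : L, ∃ p : F[X], p ≠ 0 ∧ p.eval₂ φ x = 0) :
    IsDiscreteValuationRing ↥V := by
  have hγ0 : 0 < V.valuation π := zero_lt_iff.mpr ((Valuation.ne_zero_iff _).mpr hπ0)
  have hγ1 : V.valuation π < 1 := V.mem_nonunits_iff.mp hπ
  have hnon : ∀ a : ↥V, ¬ IsUnit a → (a : L) ∈ V.nonunits := by
    intro a ha
    rw [V.valuation_eq_one_iff] at ha
    exact V.mem_nonunits_iff.mpr (lt_of_le_of_ne (V.valuation_le_one a) ha)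
  refine IsDiscreteValuationRing.ofHasUnitMulPowIrreducibleFactorization
    ⟨⟨π, V.nonunits_subset hπ⟩, ?_, ?_⟩
  · rw [irreducible_iff]
    refine ⟨?_, ?_⟩
    · rw [V.valuation_eq_one_iff]
      exact hγ1.ne
    · intro a b hab
      by_contra hcon
      push Not at hcon
      have ha := valuation_le_of_mem_nonunits V hπ0 he (hnon a hcon.1)
      have hb := valuation_le_of_mem_nonunits V hπ0 he (hnon b hcon.2)
      have hab' : π = (a : L) * (b : L) := by
        have := congrArg (fun z : ↥V => (z : L)) hab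
        simpa using this
      have h1 : V.valuation π = V.valuation (a : L) * V.valuation (b : L) := by
        rw [← map_mul, ← hab']
      have h2 : V.valuation π ≤ V.valuation π * V.valuation π := by
        calc V.valuation π = V.valuation (a : L) * V.valuation (b : L) := h1
          _ ≤ V.valuation π * V.valuation π := mul_le_mul' ha hb
      have h3 : V.valuation π * V.valuation π < V.valuation π * 1 :=
        mul_lt_mul_of_pos_left hγ1 hγ0
      rw [mul_one] at h3
      exact lt_irrefl _ (h2.trans_lt h3)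
  · intro x hx
    have hx0 : (x : L) ≠ 0 := fun h => hx (Subtype.ext h)
    obtain ⟨n, hn⟩ := exists_zpow_eq φ V hπ0 hπ he hF halg hx0
    have hn0 : 0 ≤ n := by
      by_contra hneg
      push Not at hneg
      have h1 := one_lt_zpow_of_neg₀ hγ0 hγ1 hneg
      rw [← hn] at h1
      exact lt_irrefl _ (h1.trans_le (V.valuation_le_one x))
    obtain ⟨k, rfl⟩ := Int.eq_ofNat_of_zero_le hn0
    rw [zpow_natCast] at hn
    have hu : V.valuation ((x : L) * (π ^ k)⁻¹) = 1 := by
      rw [map_mul, map_inv₀, map_pow, hn, mul_inv_cancel₀ (pow_ne_zero _ hγ0.ne')]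
    have huV : (x : L) * (π ^ k)⁻¹ ∈ V := (V.valuation_le_one_iff _).mp hu.le
    have hunit : IsUnit (⟨(x : L) * (π ^ k)⁻¹, huV⟩ : ↥V) := by
      rw [V.valuation_eq_one_iff]
      exact hu
    refine ⟨k, hunit.unit, Subtype.ext ?_⟩
    simp only [IsUnit.unit_spec, MulMemClass.coe_mul, SubmonoidClass.coe_pow]
    rw [mul_comm, mul_assoc, inv_mul_cancel₀ (pow_ne_zero _ hπ0), mul_one]

end Main

end Fermat.Agent.P3G.DiscreteVal
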