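/-
P3-G / (G-N1), helper12: **bridge between the two constructions of the second Gauss valuation**.

`FibreSat.V₂` (α-side: localisation of `C_α` at `ker pi1`) equals `S₂.V` for ANY
`S₂ : FibreTwo.SecondVal K N ℓ O` (β-side, helper15) — by `S₂.only_two`.  Hence all of `(V)` for the
pair `(gaussVS K (Nℓ) O, S₂.V)`, which is the pair `GammaV2` proves `hval₂/htriv₂` for:

* `V₂_eq`, `mem_Cα_iff'`, `W S₂ := gaussVS ⊓ S₂.V` (as a `Subring`), `W_eq`;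
* `twoVal : PowCover.TwoVal ϖ (W S₂) (gaussVS K (Nℓ) O) S₂.V`;
* `semiP`, `semiM : IsSemiGaussRing (W S₂) (algebraMap ↥O ↥(Rfin/Rinf K (Nℓ) O) ϖ)`;
* `exists_eq_mul_of_mem_nonunits_fin/inf` : `x ∈ R±`, `x ∈ 𝔪(V₁)`, `x ∈ 𝔪(S₂.V)` ⇒ `x = ϖ y`, `y ∈ R±`.
-/
import Mathlib
import Fermat.Agent.P3G.FibreSat
import Fermat.Agent.P3G.FibreTwo
import Fermat.Agent.P3G.Assembly.PowCover

set_option autoImplicit false
set_option linter.unusedSectionVars false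
set_option linter.style.haveILetI false

open Polynomial IsLocalRing

open ModularCurve Fermat.Agent.S28.Gauss Fermat.Agent.N4.Setting Fermat.Agent.N4.FibreEmbedding
open Fermat.Agent.N4F.E.DegreeLevelRaise Fermat.Agent.N4F.E.GaussDVR AlgebraicCurve
open Fermat.Agent.N4F.E Fermat.Agent.N4F.E.AlphaSide
open Fermat.Agent.P3G.FibreSat
open Fermat.Agent.P3G.Cover.Lift Fermat.Agent.P3G.Cover.OfValuations
open Fermat.Agent.P3G.Assembly.PowCover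

noncomputable section

namespace Fermat.Agent.P3G.FibreSatBridge

variable (K : Type) [Field K] [CharZero K] (N : ℕ) [NeZero N] (ℓ : ℕ) [Fact ℓ.Prime]
  (O : Subring K) [IsDiscreteValuationRing ↥O] [IsFractionRing ↥O K]

set_option quotPrecheck false in
local notation "κ" => IsLocalRing.ResidueField ↥O

attribute [local instance] AlphaSide.algFL AlphaSide.algGL AlphaSide.isScalarTower_GFL

set_option synthInstance.maxHeartbeats 400000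

variable [CharP (IsLocalRing.ResidueField ↥O) ℓ]
  (ι : K →+* ℂ) (hℓN : ¬ ℓ ∣ N)
  (hprime : (fibreIdeal K N O (Rfin K N O)).IsPrime)
  {S : Subring (FF K (N * ℓ))} {ev : ↥S →+* LaurentSeries (IsLocalRing.ResidueField ↥O)}
  (hB : BetaOut K N ℓ O S ev)
  (S₂ : FibreTwo.SecondVal K N ℓ O)

/-- for `x ∈ C_α`: `pi1 x = 0 ↔ x ∈ 𝔪(V₂)`. -/
theorem pi1_eq_zero_iff (x : Cα K N ℓ O) :
    pi1 K N ℓ O hB x = 0 ↔ (x : FF K (N * ℓ)) ∈ (V₂ K N ℓ O ι hℓN hprime hB).nonunits := by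
  rw [mem_nonunits_V₂_iff]
  constructor
  · intro h
    exact ⟨x, 1, h, by rw [map_one]; exact one_ne_zero, by simp⟩
  · rintro ⟨a, b, ha, hb, hab⟩
    have : x * b = a := Subtype.ext hab
    have h2 : pi1 K N ℓ O hB x * pi1 K N ℓ O hB b = 0 := by rw [← map_mul, this, ha]
    exact (mul_eq_zero.mp h2).resolve_right hb

/-- for `x ∈ C_α`: `pi2 x = 0 ↔ x ∈ 𝔪(V₁)`. -/
theorem pi2_eq_zero_iff (x : Cα K N ℓ O) :
    pi2 K N ℓ O x = 0 ↔ (x : FF K (N * ℓ)) ∈ (gaussVS K (N * ℓ) O).nonunits := by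
  rw [mem_nonunits_gaussVS_iff, pi2_apply]
  constructor
  · intro h
    exact ⟨_, h⟩
  · rintro ⟨_, h⟩
    exact h

/-- `V₂ ≠ V₁`. -/
theorem V₂_ne_gauss : V₂ K N ℓ O ι hℓN hprime hB ≠ gaussVS K (N * ℓ) O := by
  intro h
  apply ker_ne K N ℓ O hB
  ext x
  rw [RingHom.mem_ker, RingHom.mem_ker, pi2_eq_zero_iff, pi1_eq_zero_iff K N ℓ O ι hℓN hprime hB, h]

theorem algebraMap_O_eq (ϖ : ↥O) :
    algebraMap K (FF K (N * ℓ)) (ϖ : K) = algebraMap ↥O (FF K (N * ℓ)) ϖ := rfl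

/-- **The two constructions of the second Gauss valuation subring agree.** -/
theorem V₂_eq : V₂ K N ℓ O ι hℓN hprime hB = S₂.V := by
  rcases S₂.only_two (V₂ K N ℓ O ι hℓN hprime hB)
    (fun x hx => Cα_le_V₂ K N ℓ O ι hℓN hprime hB
      (betaF_mem_closure K N ℓ O ι hℓN hprime hB hx))
    (fun ϖ hϖ => by
      rw [algebraMap_O_eq]
      exact unif_mem_nonunits_V₂ K N ℓ O ι hℓN hprime hB hϖ) with h | h
  · exact absurd h (V₂_ne_gauss K N ℓ O ι hℓN hprime hB)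
  · exact h

/-- `W := V₁ ⊓ V₂` as a subring of `FF K (N ℓ)`. -/
def W : Subring (FF K (N * ℓ)) := (gaussVS K (N * ℓ) O).toSubring ⊓ S₂.V.toSubring

theorem mem_W_iff {x : FF K (N * ℓ)} :
    x ∈ W K N ℓ O S₂ ↔ x ∈ gaussVS K (N * ℓ) O ∧ x ∈ S₂.V := Iff.rfl

include ι hℓN hprime hB in
/-- `C_α = V₁ ∩ S₂.V`. -/
theorem mem_Cα_iff' {x : FF K (N * ℓ)} :
    x ∈ Cα K N ℓ O ↔ x ∈ gaussVS K (N * ℓ) O ∧ x ∈ S₂.V := by
  rw [mem_Cα_iff K N ℓ O ι hℓN hprime hB, V₂_eq K N ℓ O ι hℓN hprime hB S₂]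

include ι hℓN hprime hB in
theorem W_eq : W K N ℓ O S₂ = (Cα K N ℓ O).toSubring := by
  ext x
  rw [mem_W_iff, ← mem_Cα_iff' K N ℓ O ι hℓN hprime hB S₂]
  rfl

include ι hℓN hprime hB in
theorem W_eq_iInf : W K N ℓ O S₂ = iInfSubring (Vpair K N ℓ O ι hℓN hprime hB) := by
  rw [W_eq K N ℓ O ι hℓN hprime hB S₂, iInfSubring_Vpair_eq K N ℓ O ι hℓN hprime hB]

include ι hℓN hprime hB in
/-- **`TwoVal`** for the pair `(gaussVS K (N ℓ) O, S₂.V)`. -/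
theorem twoVal {ϖ : ↥O} (hϖ : Irreducible ϖ) :
    TwoVal ϖ (W K N ℓ O S₂) (gaussVS K (N * ℓ) O) S₂.V where
  mem_iff _ := Iff.rfl
  pi_mem₁ := unif_mem_nonunits_V₁ K N ℓ O hϖ
  pi_mem₂ := by
    rw [← V₂_eq K N ℓ O ι hℓN hprime hB S₂]
    exact unif_mem_nonunits_V₂ K N ℓ O ι hℓN hprime hB hϖ
  unif₁ _ hx := mul_inv_mem_gaussVS K O hϖ hx
  unif₂ x hx := by
    rw [← V₂_eq K N ℓ O ι hℓN hprime hB S₂] at hx ⊢
    exact mul_inv_mem_V₂ K N ℓ O ι hℓN hprime hB hϖ hx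
  pi_ne := algebraMap_ne_zero K (N * ℓ) O hϖ.ne_zero

include ι hℓN hprime hB in
/-- **semi-Gauss ring, finite chart**, for `W = V₁ ⊓ S₂.V`. -/
theorem semiP {ϖ : ↥O} (hϖ : Irreducible ϖ) :
    IsSemiGaussRing (W K N ℓ O S₂) (algebraMap ↥O ↥(Rfin K (N * ℓ) O) ϖ) := by
  rw [W_eq_iInf K N ℓ O ι hℓN hprime hB S₂]
  exact isSemiGaussRing_fin K N ℓ O ι hℓN hprime hB hϖ

include ι hℓN hprime hB in
/-- **semi-Gauss ring, chart at infinity**, for `W = V₁ ⊓ S₂.V`. -/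
theorem semiM (hprimeInf : (fibreIdeal K N O (Rinf K N O)).IsPrime) {ϖ : ↥O}
    (hϖ : Irreducible ϖ) :
    IsSemiGaussRing (W K N ℓ O S₂) (algebraMap ↥O ↥(Rinf K (N * ℓ) O) ϖ) := by
  rw [W_eq_iInf K N ℓ O ι hℓN hprime hB S₂]
  exact isSemiGaussRing_inf K N ℓ O ι hℓN hprime hB hprimeInf hϖ

include ι hℓN hprime hB in
/-- **(V), finite chart, valuation form**: `x ∈ Rfin K (Nℓ) O` in both maximal ideals is `ϖ ·` an
element of the chart. -/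
theorem exists_eq_mul_of_mem_nonunits_fin {ϖ : ↥O} (hϖ : Irreducible ϖ) {x : FF K (N * ℓ)}
    (h1 : x ∈ (gaussVS K (N * ℓ) O).nonunits) (h2 : x ∈ S₂.V.nonunits)
    (hx : x ∈ Rfin K (N * ℓ) O) :
    ∃ y ∈ Rfin K (N * ℓ) O, x = algebraMap ↥O (FF K (N * ℓ)) ϖ * y := by
  obtain ⟨w, hw, e⟩ := (twoVal K N ℓ O ι hℓN hprime hB S₂ hϖ).exists_eq_mul h1 h2
  have hwC : w ∈ Cα K N ℓ O := (mem_Cα_iff' K N ℓ O ι hℓN hprime hB S₂).mpr hw
  exact ⟨w, sat_fin K N ℓ O hprime hϖ hwC (e ▸ hx), e⟩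

include ι hℓN hprime hB in
/-- **(V), chart at infinity, valuation form.** -/
theorem exists_eq_mul_of_mem_nonunits_inf (hprimeInf : (fibreIdeal K N O (Rinf K N O)).IsPrime)
    {ϖ : ↥O} (hϖ : Irreducible ϖ) {x : FF K (N * ℓ)}
    (h1 : x ∈ (gaussVS K (N * ℓ) O).nonunits) (h2 : x ∈ S₂.V.nonunits)
    (hx : x ∈ Rinf K (N * ℓ) O) :
    ∃ y ∈ Rinf K (N * ℓ) O, x = algebraMap ↥O (FF K (N * ℓ)) ϖ * y := by
  obtain ⟨w, hw, e⟩ := (twoVal K N ℓ O ι hℓN hprime hB S₂ hϖ).exists_eq_mul h1 h2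
  have hwC : w ∈ Cα K N ℓ O := (mem_Cα_iff' K N ℓ O ι hℓN hprime hB S₂).mpr hw
  exact ⟨w, sat_inf K N ℓ O hprimeInf hϖ hwC (e ▸ hx), e⟩

end Fermat.Agent.P3G.FibreSatBridge
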