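import Mathlib
import Fermat.Agent.P3G.GammaV2
import Fermat.Agent.P3G.Cover.OfValuations
import Fermat.Agent.P3G.Assembly.LevelGeomOfPoints
import Fermat.Agent.P3G.FibreIdent

/-!
# P3-G, block (G-Γ) (helper28): the vertical data `VertLevel` at a stable level

`K` a `Γ`-stable level with `O_K = baseRing A K` a discrete valuation ring, `ℓ ∤ N`,
`S : FibreTwo.SecondVal (Lvl K) N ℓ O_K`, `V₁ = gaussVS (Lvl K) (N ℓ) O_K`, `V₂ = S.V`,
`W = V₁ ∩ V₂` (`Wvert`).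

* `chartAlg_le_valuationSubring` : a chart `chartAlg O F {s}` lies in every valuation subring
  containing `O` and `s`;
* `Rfin_le_secondVal`, `Rinf_le_secondVal`, `Rfin_le_gaussVS`, `Rinf_le_gaussVS`;
* `twoVal` : `PowCover.TwoVal ϖ W V₁ V₂` (unconditional);
* `isSemiGaussRing_fin/_inf`, `isFractionRing_Wvert`, `isIntegrallyClosed_Wvert` from the saturation
  statement `hsat` of the chart;
* `vertLevel` : helper19's `LevelGeomOfPoints.VertLevel` for `σ` in the inertia group, from the two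
  saturation statements alone.
-/

set_option autoImplicit false
set_option linter.unusedSectionVars false
set_option linter.style.haveILetI false

open AlgebraicCurve ModularCurve
open Fermat.Agent.N4.BigDVR Fermat.Agent.N4.FrobDensity Fermat.Agent.N4.Setting
open Fermat.Agent.N4.Chart Fermat.Agent.N4.FibreEmbedding
open Fermat.Agent.N4F.C Fermat.Agent.N4F.C.Levels Fermat.Agent.N4F.C.LevelCharts
open Fermat.Agent.N4F.C.CoeffAut Fermat.Agent.N4F.C.Galois Fermat.Agent.N4F.C.LevelTheta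
open Fermat.Agent.N4F.E.DegreeLevelRaise Fermat.Agent.N4F.E.GaussDVR
open Fermat.Agent.S28.Gauss

namespace Fermat.Agent.P3G.GammaVert

open Fermat.Agent.P3G.Gamma Fermat.Agent.P3G.GammaTame Fermat.Agent.P3G.GammaAut
open Fermat.Agent.P3G.GammaGauss Fermat.Agent.P3G.GammaLevelMaps Fermat.Agent.P3G.FibreTwo
open Fermat.Agent.P3G.GammaV2 Fermat.Agent.P3G.Cover.Lift Fermat.Agent.P3G.Cover.OfValuations
open Fermat.Agent.P3G.Assembly.PowCover Fermat.Agent.P3G.Assembly.LevelGeomOfPoints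

local notation "Γ" => (AlgebraicClosure ℚ ≃ₐ[ℚ] AlgebraicClosure ℚ)

/-! ### A chart lies in every valuation subring containing its generator -/

section Generic

variable {O F : Type*} [CommRing O] [Field F] [Algebra O F]

theorem chartAlg_le_valuationSubring (V : ValuationSubring F)
    (hO : ∀ a : O, algebraMap O F a ∈ V) {s : F} (hs : s ∈ V) {x : F}
    (hx : x ∈ chartAlg O F {s}) : x ∈ V := by
  rw [mem_chartAlg_iff] at hx
  let Vs : Subalgebra O F :=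
    { V.toSubring.toSubsemiring with
      algebraMap_mem' := hO }
  have hadj : Algebra.adjoin O ({s} : Set F) ≤ Vs :=
    Algebra.adjoin_le (Set.singleton_subset_iff.mpr hs)
  let φ : ↥(Algebra.adjoin O ({s} : Set F)) →+* ↥V :=
    { toFun := fun a => ⟨a, hadj a.2⟩
      map_one' := rfl
      map_mul' := fun _ _ => rfl
      map_zero' := rfl
      map_add' := fun _ _ => rfl }
  have hxi : IsIntegral ↥V x := hx.map_of_comp_eq φ (RingHom.id F) (by ext a; rfl)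
  obtain ⟨y, hy⟩ := IsIntegrallyClosed.algebraMap_eq_of_integral hxi
  rw [← hy]
  exact y.2

end Generic

variable (K : IntermediateField ℚ Qb) (hK : ∀ (τ : Γ) (x : Qb), x ∈ K → τ x ∈ K)
  (N : ℕ) [NeZero N] (ℓ : ℕ) [hℓ : Fact ℓ.Prime]
  (A : ValuationSubring Qb) [IsDiscreteValuationRing ↥(baseRing A K)]
  (S : SecondVal (Lvl K) N ℓ (baseRing A K))

/-- The two vertical valuation rings. -/
noncomputable def Vvert : Fin 2 → ValuationSubring (FF (Lvl K) (N * ℓ)) :=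
  ![gaussVS (Lvl K) (N * ℓ) (baseRing A K), S.V]

/-- `W = V₁ ∩ V₂`. -/
noncomputable def Wvert : Subring (FF (Lvl K) (N * ℓ)) := iInfSubring (Vvert K N ℓ A S)

theorem mem_Wvert_iff (x : FF (Lvl K) (N * ℓ)) :
    x ∈ Wvert K N ℓ A S ↔ x ∈ gaussVS (Lvl K) (N * ℓ) (baseRing A K) ∧ x ∈ S.V := by
  unfold Wvert
  rw [mem_iInfSubring, Fin.forall_fin_two]
  rfl

/-- Constants of `O_K` lie in `V₂`. -/
theorem algebraMap_mem_secondVal (a : ↥(baseRing A K)) :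
    algebraMap ↥(baseRing A K) (FF (Lvl K) (N * ℓ)) a ∈ S.V := by
  have hmem : algebraMap ↥(baseRing A K) (FF (Lvl K) N) a ∈
      gaussSubalgebra (Lvl K) N (baseRing A K) :=
    (gaussSubalgebra (Lvl K) N (baseRing A K)).algebraMap_mem a
  have h := S.alpha_mem _ hmem
  have h4 : alphaF (Lvl K) N ℓ (algebraMap ↥(baseRing A K) (FF (Lvl K) N) a) =
      algebraMap ↥(baseRing A K) (FF (Lvl K) (N * ℓ)) a := by
    rw [algebraMap_base_eq, AlgHom.commutes]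
    rfl
  rwa [h4] at h

theorem jF_mem_secondVal : jF (Lvl K) (N * ℓ) ∈ S.V := by
  rw [← alphaF_jF]
  exact S.alpha_mem _ (jF_mem_gaussSubalgebra (Lvl K) N (baseRing A K))

theorem jF_inv_mem_secondVal : (jF (Lvl K) (N * ℓ))⁻¹ ∈ S.V := by
  rw [← alphaF_jF, ← map_inv₀]
  exact S.alpha_mem _ (jF_inv_mem_gaussSubalgebra (Lvl K) N (baseRing A K))

theorem Rfin_le_secondVal {x : FF (Lvl K) (N * ℓ)}
    (hx : x ∈ Rfin (Lvl K) (N * ℓ) (baseRing A K)) : x ∈ S.V :=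
  chartAlg_le_valuationSubring S.V (algebraMap_mem_secondVal K N ℓ A S)
    (jF_mem_secondVal K N ℓ A S) hx

theorem Rinf_le_secondVal {x : FF (Lvl K) (N * ℓ)}
    (hx : x ∈ Rinf (Lvl K) (N * ℓ) (baseRing A K)) : x ∈ S.V :=
  chartAlg_le_valuationSubring S.V (algebraMap_mem_secondVal K N ℓ A S)
    (jF_inv_mem_secondVal K N ℓ A S) hx

theorem Rfin_le_gaussVS (M : ℕ) [NeZero M] {x : FF (Lvl K) M}
    (hx : x ∈ Rfin (Lvl K) M (baseRing A K)) : x ∈ gaussVS (Lvl K) M (baseRing A K) :=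
  chartAlg_le_gaussSubalgebra (Lvl K) M (baseRing A K)
    (Set.singleton_subset_iff.mpr (jF_mem_gaussSubalgebra (Lvl K) M (baseRing A K))) hx

theorem Rinf_le_gaussVS (M : ℕ) [NeZero M] {x : FF (Lvl K) M}
    (hx : x ∈ Rinf (Lvl K) M (baseRing A K)) : x ∈ gaussVS (Lvl K) M (baseRing A K) :=
  chartAlg_le_gaussSubalgebra (Lvl K) M (baseRing A K)
    (Set.singleton_subset_iff.mpr (jF_inv_mem_gaussSubalgebra (Lvl K) M (baseRing A K))) hx

/-- The uniformiser is a nonunit of `V₁`. -/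
theorem unif_mem_nonunits_gaussVS (M : ℕ) [NeZero M] {ϖ : ↥(baseRing A K)} (hϖ : Irreducible ϖ) :
    algebraMap ↥(baseRing A K) (FF (Lvl K) M) ϖ ∈ (gaussVS (Lvl K) M (baseRing A K)).nonunits := by
  have hmem : algebraMap ↥(baseRing A K) (FF (Lvl K) M) ϖ ∈
      gaussSubalgebra (Lvl K) M (baseRing A K) :=
    (gaussSubalgebra (Lvl K) M (baseRing A K)).algebraMap_mem ϖ
  exact (mem_nonunits_gaussVS_iff (Lvl K) M (baseRing A K) hmem).mpr
    (theta_unif (Lvl K) M (baseRing A K) hϖ)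

/-- **`TwoVal`** for `V₁ = gaussVS`, `V₂ = S.V`, `W = V₁ ∩ V₂`. -/
theorem twoVal {ϖ : ↥(baseRing A K)} (hϖ : Irreducible ϖ) :
    TwoVal ϖ (Wvert K N ℓ A S) (gaussVS (Lvl K) (N * ℓ) (baseRing A K)) S.V where
  mem_iff := mem_Wvert_iff K N ℓ A S
  pi_mem₁ := unif_mem_nonunits_gaussVS K A (N * ℓ) hϖ
  pi_mem₂ := unif_mem_nonunits_secondVal K N ℓ S hϖ
  unif₁ := fun _ hx => mul_inv_mem_gaussVS K (N * ℓ) hϖ hx
  unif₂ := fun x hx => S.ram_one ϖ hϖ x hx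
  pi_ne := algebraMap_unif_ne_zero K N ℓ hϖ

/-! ### The semilocal Gauss ring `W` from the saturation statement of a chart -/

/-- The family `hle` for the finite chart. -/
theorem Rfin_le_Vvert (i : Fin 2) (r : ↥(Rfin (Lvl K) (N * ℓ) (baseRing A K))) :
    algebraMap ↥(Rfin (Lvl K) (N * ℓ) (baseRing A K)) (FF (Lvl K) (N * ℓ)) r ∈
      Vvert K N ℓ A S i := by
  fin_cases i
  · exact Rfin_le_gaussVS K A (N * ℓ) r.2
  · exact Rfin_le_secondVal K N ℓ A S r.2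

theorem Rinf_le_Vvert (i : Fin 2) (r : ↥(Rinf (Lvl K) (N * ℓ) (baseRing A K))) :
    algebraMap ↥(Rinf (Lvl K) (N * ℓ) (baseRing A K)) (FF (Lvl K) (N * ℓ)) r ∈
      Vvert K N ℓ A S i := by
  fin_cases i
  · exact Rinf_le_gaussVS K A (N * ℓ) r.2
  · exact Rinf_le_secondVal K N ℓ A S r.2

/-- **`IsSemiGaussRing W ϖ` on a chart containing `O_K`, from its saturation statement.** -/
theorem isSemiGaussRing_chart {ϖ : ↥(baseRing A K)} (hϖ : Irreducible ϖ)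
    (s : FF (Lvl K) (N * ℓ))
    (hle₁ : ∀ r : ↥(chartAlg ↥(baseRing A K) (FF (Lvl K) (N * ℓ)) {s}),
      (r : FF (Lvl K) (N * ℓ)) ∈ gaussVS (Lvl K) (N * ℓ) (baseRing A K))
    (hle₂ : ∀ r : ↥(chartAlg ↥(baseRing A K) (FF (Lvl K) (N * ℓ)) {s}),
      (r : FF (Lvl K) (N * ℓ)) ∈ S.V)
    (hsat : ∀ r : ↥(chartAlg ↥(baseRing A K) (FF (Lvl K) (N * ℓ)) {s}),
      (r : FF (Lvl K) (N * ℓ)) * (algebraMap (Lvl K) (FF (Lvl K) (N * ℓ)) (ϖ : Lvl K))⁻¹ ∈
        gaussVS (Lvl K) (N * ℓ) (baseRing A K) →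
      (r : FF (Lvl K) (N * ℓ)) * (algebraMap (Lvl K) (FF (Lvl K) (N * ℓ)) (ϖ : Lvl K))⁻¹ ∈ S.V →
      (r : FF (Lvl K) (N * ℓ)) * (algebraMap (Lvl K) (FF (Lvl K) (N * ℓ)) (ϖ : Lvl K))⁻¹ ∈
        chartAlg ↥(baseRing A K) (FF (Lvl K) (N * ℓ)) {s}) :
    IsSemiGaussRing (Wvert K N ℓ A S)
      (algebraMap ↥(baseRing A K) (chartAlg ↥(baseRing A K) (FF (Lvl K) (N * ℓ)) {s}) ϖ) := by
  have hϖ0 := algebraMap_unif_ne_zero K N ℓ (A := A) hϖ
  refine isSemiGaussRing_iInf (Vvert K N ℓ A S) _ ?_ ?_ hϖ0 ?_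
  · intro i r
    fin_cases i
    · exact hle₁ r
    · exact hle₂ r
  · intro i
    fin_cases i
    · exact unif_mem_nonunits_gaussVS K A (N * ℓ) hϖ
    · exact unif_mem_nonunits_secondVal K N ℓ S hϖ
  · intro r hr
    have h1 := hr 0
    have h2 := hr 1
    have hmem := hsat r h1 h2
    refine ⟨⟨_, hmem⟩, Subtype.ext ?_⟩
    show (r : FF (Lvl K) (N * ℓ)) =
      algebraMap (Lvl K) (FF (Lvl K) (N * ℓ)) (ϖ : Lvl K) *
        ((r : FF (Lvl K) (N * ℓ)) * (algebraMap (Lvl K) (FF (Lvl K) (N * ℓ)) (ϖ : Lvl K))⁻¹)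
    rw [mul_comm (r : FF (Lvl K) (N * ℓ)), ← mul_assoc, mul_inv_cancel₀ hϖ0, one_mul]

/-- The fraction field of `W` is `F_K(N ℓ)`. -/
theorem isFractionRing_Wvert [IsFractionRing ↥(baseRing A K) (Lvl K)] :
    IsFractionRing ↥(Wvert K N ℓ A S) (FF (Lvl K) (N * ℓ)) := by
  have hj : Transcendental (Lvl K) (jF (Lvl K) (N * ℓ)) :=
    Fermat.Agent.N4.FFAlgebraic.transcendental_jF (Lvl K) (N * ℓ)
  haveI : FiniteDimensional (IntermediateField.adjoin (Lvl K) {jF (Lvl K) (N * ℓ)})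
      (FF (Lvl K) (N * ℓ)) :=
    Fermat.Agent.N4.ModPolySetting.finiteDimensional_FF (Lvl K) (N * ℓ)
  haveI : IsFractionRing (chartAlg ↥(baseRing A K) (FF (Lvl K) (N * ℓ)) {jF (Lvl K) (N * ℓ)})
      (FF (Lvl K) (N * ℓ)) :=
    Fermat.Agent.N4.Cover.Main.isFractionRing_chartAlg (O := ↥(baseRing A K)) (K₀ := Lvl K)
      (jF (Lvl K) (N * ℓ)) hj
  exact isFractionRing_iInfSubring (R := ↥(Rfin (Lvl K) (N * ℓ) (baseRing A K)))
    (Vvert K N ℓ A S) (Rfin_le_Vvert K N ℓ A S)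

/-- `W` is integrally closed. -/
theorem isIntegrallyClosed_Wvert [IsFractionRing ↥(baseRing A K) (Lvl K)] :
    IsIntegrallyClosed ↥(Wvert K N ℓ A S) := by
  have hj : Transcendental (Lvl K) (jF (Lvl K) (N * ℓ)) :=
    Fermat.Agent.N4.FFAlgebraic.transcendental_jF (Lvl K) (N * ℓ)
  haveI : FiniteDimensional (IntermediateField.adjoin (Lvl K) {jF (Lvl K) (N * ℓ)})
      (FF (Lvl K) (N * ℓ)) :=
    Fermat.Agent.N4.ModPolySetting.finiteDimensional_FF (Lvl K) (N * ℓ)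
  haveI : IsFractionRing (chartAlg ↥(baseRing A K) (FF (Lvl K) (N * ℓ)) {jF (Lvl K) (N * ℓ)})
      (FF (Lvl K) (N * ℓ)) :=
    Fermat.Agent.N4.Cover.Main.isFractionRing_chartAlg (O := ↥(baseRing A K)) (K₀ := Lvl K)
      (jF (Lvl K) (N * ℓ)) hj
  exact isIntegrallyClosed_iInfSubring (R := ↥(Rfin (Lvl K) (N * ℓ) (baseRing A K)))
    (Vvert K N ℓ A S) (Rfin_le_Vvert K N ℓ A S)

/-- The saturation statement of a chart `R` of `F_K(N ℓ)` with respect to the two vertical valuation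
rings: `r ∈ R` with `r / ϖ ∈ V₁ ∩ V₂` has `r / ϖ ∈ R`. -/
def SatChart (ϖ : ↥(baseRing A K)) (s : FF (Lvl K) (N * ℓ)) : Prop :=
  ∀ r : ↥(chartAlg ↥(baseRing A K) (FF (Lvl K) (N * ℓ)) {s}),
    (r : FF (Lvl K) (N * ℓ)) * (algebraMap (Lvl K) (FF (Lvl K) (N * ℓ)) (ϖ : Lvl K))⁻¹ ∈
      gaussVS (Lvl K) (N * ℓ) (baseRing A K) →
    (r : FF (Lvl K) (N * ℓ)) * (algebraMap (Lvl K) (FF (Lvl K) (N * ℓ)) (ϖ : Lvl K))⁻¹ ∈ S.V →
    (r : FF (Lvl K) (N * ℓ)) * (algebraMap (Lvl K) (FF (Lvl K) (N * ℓ)) (ϖ : Lvl K))⁻¹ ∈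
      chartAlg ↥(baseRing A K) (FF (Lvl K) (N * ℓ)) {s}

theorem isSemiGaussRing_fin {ϖ : ↥(baseRing A K)} (hϖ : Irreducible ϖ)
    (hsat : SatChart K N ℓ A S ϖ (jF (Lvl K) (N * ℓ))) :
    IsSemiGaussRing (Wvert K N ℓ A S)
      (algebraMap ↥(baseRing A K) (Rfin (Lvl K) (N * ℓ) (baseRing A K)) ϖ) :=
  isSemiGaussRing_chart K N ℓ A S hϖ _ (fun r => Rfin_le_gaussVS K A (N * ℓ) r.2)
    (fun r => Rfin_le_secondVal K N ℓ A S r.2) hsat

theorem isSemiGaussRing_inf {ϖ : ↥(baseRing A K)} (hϖ : Irreducible ϖ)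
    (hsat : SatChart K N ℓ A S ϖ (jF (Lvl K) (N * ℓ))⁻¹) :
    IsSemiGaussRing (Wvert K N ℓ A S)
      (algebraMap ↥(baseRing A K) (Rinf (Lvl K) (N * ℓ) (baseRing A K)) ϖ) :=
  isSemiGaussRing_chart K N ℓ A S hϖ _ (fun r => Rinf_le_gaussVS K A (N * ℓ) r.2)
    (fun r => Rinf_le_secondVal K N ℓ A S r.2) hsat

/-- **The vertical data at a stable level**, for `σ` in the inertia group, from the saturation
statements of the two charts alone. -/
theorem vertLevel (hℓN : ¬ ℓ ∣ N) {σ : Γ} (hσ : σ ∈ A.inertiaSubgroupIn ℚ)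
    {ϖ : ↥(baseRing A K)} (hϖ : Irreducible ϖ)
    (hsatP : SatChart K N ℓ A S ϖ (jF (Lvl K) (N * ℓ)))
    (hsatM : SatChart K N ℓ A S ϖ (jF (Lvl K) (N * ℓ))⁻¹) :
    VertLevel A K hK (N * ℓ) σ ϖ (Wvert K N ℓ A S)
      (gaussVS (Lvl K) (N * ℓ) (baseRing A K)) S.V where
  irr := hϖ
  twoVal := twoVal K N ℓ A S hϖ
  semiP := isSemiGaussRing_fin K N ℓ A S hϖ hsatP
  semiM := isSemiGaussRing_inf K N ℓ A S hϖ hsatM
  val₁ := valuation_levelFF_gaussVS K hK (N * ℓ)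
    (mem_decompositionSubgroup_of_mem_inertia hσ)
  val₂ := valuation_levelFF_secondVal K hK N ℓ S hℓN
    (mem_decompositionSubgroup_of_mem_inertia hσ)
  triv₁ := trivialOnResidue_gaussVS K hK (N * ℓ) hσ
  triv₂ := trivialOnResidue_secondVal K hK N ℓ S hσ

/-! ### The saturation statements from the irreducibility of the special fibres of level `N` -/

section Unconditional

variable [IsFractionRing ↥(baseRing A K) (Lvl K)]
  [CharP (IsLocalRing.ResidueField ↥(baseRing A K)) ℓ] (ι : Lvl K →+* ℂ) (hℓN : ¬ ℓ ∣ N)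
  (hprime : (fibreIdeal (Lvl K) N (baseRing A K) (Rfin (Lvl K) N (baseRing A K))).IsPrime)
  (hprimeInf : (fibreIdeal (Lvl K) N (baseRing A K) (Rinf (Lvl K) N (baseRing A K))).IsPrime)

include ι hℓN hprime in
theorem satChart_fin {ϖ : ↥(baseRing A K)} (hϖ : Irreducible ϖ) :
    SatChart K N ℓ A S ϖ (jF (Lvl K) (N * ℓ)) := fun r h1 h2 =>
  Fermat.Agent.P3G.FibreIdent.hsat_fin_secondVal (Lvl K) N ℓ (baseRing A K) ι hℓN hprime S hϖ
    r.2 h1 h2

include ι hℓN hprime hprimeInf in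
theorem satChart_inf {ϖ : ↥(baseRing A K)} (hϖ : Irreducible ϖ) :
    SatChart K N ℓ A S ϖ (jF (Lvl K) (N * ℓ))⁻¹ := fun r h1 h2 =>
  Fermat.Agent.P3G.FibreIdent.hsat_inf_secondVal (Lvl K) N ℓ (baseRing A K) ι hℓN hprime S
    hprimeInf hϖ r.2 h1 h2

include ι hℓN hprime hprimeInf in
/-- **The vertical data at a stable level** for `σ` in the inertia group, from the irreducibility of
the two special fibres of level `N`. -/
theorem vertLevel_of_isPrime {σ : Γ} (hσ : σ ∈ A.inertiaSubgroupIn ℚ)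
    {ϖ : ↥(baseRing A K)} (hϖ : Irreducible ϖ) :
    VertLevel A K hK (N * ℓ) σ ϖ (Wvert K N ℓ A S)
      (gaussVS (Lvl K) (N * ℓ) (baseRing A K)) S.V :=
  vertLevel K hK N ℓ A S hℓN hσ hϖ (satChart_fin K N ℓ A S ι hℓN hprime hϖ)
    (satChart_inf K N ℓ A S ι hℓN hprime hprimeInf hϖ)

include ι hℓN hprime hprimeInf in
/-- The part of the vertical data valid for every element of the decomposition group (all of
`VertLevel` except the triviality on the residue fields). -/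
theorem vertDecomp_of_isPrime {τ : Γ} (hτ : τ ∈ A.decompositionSubgroup ℚ)
    {ϖ : ↥(baseRing A K)} (hϖ : Irreducible ϖ) :
    TwoVal ϖ (Wvert K N ℓ A S) (gaussVS (Lvl K) (N * ℓ) (baseRing A K)) S.V ∧
    IsSemiGaussRing (Wvert K N ℓ A S)
      (algebraMap ↥(baseRing A K) (Rfin (Lvl K) (N * ℓ) (baseRing A K)) ϖ) ∧
    IsSemiGaussRing (Wvert K N ℓ A S)
      (algebraMap ↥(baseRing A K) (Rinf (Lvl K) (N * ℓ) (baseRing A K)) ϖ) ∧
    (∀ x : FF (Lvl K) (N * ℓ),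
      (gaussVS (Lvl K) (N * ℓ) (baseRing A K)).valuation (levelFF K hK (N * ℓ) τ • x) =
        (gaussVS (Lvl K) (N * ℓ) (baseRing A K)).valuation x) ∧
    (∀ x : FF (Lvl K) (N * ℓ),
      S.V.valuation (levelFF K hK (N * ℓ) τ • x) = S.V.valuation x) :=
  ⟨twoVal K N ℓ A S hϖ,
    isSemiGaussRing_fin K N ℓ A S hϖ (satChart_fin K N ℓ A S ι hℓN hprime hϖ),
    isSemiGaussRing_inf K N ℓ A S hϖ (satChart_inf K N ℓ A S ι hℓN hprime hprimeInf hϖ),
    valuation_levelFF_gaussVS K hK (N * ℓ) hτ,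
    valuation_levelFF_secondVal K hK N ℓ S hℓN hτ⟩

end Unconditional

end Fermat.Agent.P3G.GammaVert
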