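/-
P3-G, glue block (G-A1) (helper21): LEVEL DESCENT of the torsion data.

PART A (generic).  Setting of `C/Levels` "Generic": `K ⊂ L` fields (`L/K` algebraic, char 0),
`F/K`, `F'/L` function fields in the prelude's `Place` language, `φ : F →ₐ[K] F'` with
`F' = L(φ F)` and `L`, `φ F` linearly disjoint; `g`, `g'` semilinear automorphisms of `F`, `F'`
intertwined by `φ`.

* `residueTrivial_iff_bijective` : the two rationality notions agree;
* `restrictPlace_smul` : restriction of places commutes with the semilinear action;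
* `descDiv` : descent of divisors (`Finsupp.mapDomain` of the restriction of places);
  `descDiv_apply_restrict`, `descDiv_apply_eq_zero`, `descDiv_smul`, `degree_descDiv`;
* `IsDivOf.desc` : if `div (φ y) = E` and `E` has rational support then `div y = descDiv E`.
-/
import Mathlib
import Fermat.Prelude.Def_AlgebraicCurve_BaseChangeGalois
import Fermat.Agent.N4F.C.Rationality
import Fermat.Agent.N4F.E.GenericFibre
import Fermat.Agent.N4F.E.PlaceValue
import Fermat.Agent.N4F.A.LevelMaps
import Fermat.Agent.P3G.GammaDict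
import Fermat.Agent.P3G.GammaAut

set_option autoImplicit false
set_option linter.unusedSectionVars false
set_option linter.style.haveILetI false

open AlgebraicCurve ModularCurve
open Fermat.Agent.S24
open Fermat.Agent.S24.PlaceDeriv (ResidueTrivial)
open Fermat.Agent.N4F.C.Levels
open Fermat.Agent.P3G.GammaDict

noncomputable section

namespace Fermat.Agent.P3G.LevelDescent

/-! ### Rationality -/

section Rational

variable {K F : Type*} [Field K] [Field F] [Algebra K F]

/-- The two notions of rationality of a place agree. -/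
theorem residueTrivial_iff_bijective (v : Place K F) :
    ResidueTrivial v ↔ Function.Bijective (algebraMap K v.ResidueField) := by
  constructor
  · intro h
    refine ⟨(algebraMap K v.ResidueField).injective, fun y => ?_⟩
    obtain ⟨u, rfl⟩ := IsLocalRing.residue_surjective y
    obtain ⟨c, hc⟩ := h u
    refine ⟨c, ?_⟩
    have h1 : IsLocalRing.residue v.toValuationSubring
        (u - algebraMap K v.toValuationSubring c) = 0 :=
      (IsLocalRing.residue_eq_zero_iff _).mpr hc
    rw [map_sub, sub_eq_zero] at h1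
    rw [h1]
    rfl
  · intro h u
    obtain ⟨c, hc⟩ := h.2 (IsLocalRing.residue v.toValuationSubring u)
    refine ⟨c, ?_⟩
    rw [← IsLocalRing.residue_eq_zero_iff, map_sub, sub_eq_zero, ← hc]
    rfl

end Rational

/-! ### Restriction of places and semilinear automorphisms -/

section Generic

variable {K L F F' : Type*} [Field K] [Field L] [Field F] [Field F']
  [Algebra K L] [Algebra K F] [Algebra L F'] [Algebra K F'] [IsScalarTower K L F']
  [CharZero K] [Algebra.IsAlgebraic K L]
  (φ : F →ₐ[K] F') (hgen : IntermediateField.adjoin L (Set.range φ) = ⊤)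

/-- `g'` on `F'` and `g` on `F` are intertwined by `φ`. -/
def Intertwines (g : SemilinearAut K F) (g' : SemilinearAut L F') : Prop :=
  ∀ y : F, φ (g • y) = g' • φ y

variable {φ}

theorem Intertwines.inv {g : SemilinearAut K F} {g' : SemilinearAut L F'}
    (h : Intertwines φ g g') : Intertwines φ g⁻¹ g'⁻¹ := by
  intro y
  have h1 := h (g⁻¹ • y)
  rw [smul_inv_smul] at h1
  rw [h1, inv_smul_smul]

theorem Intertwines.mul {g₁ g₂ : SemilinearAut K F} {g₁' g₂' : SemilinearAut L F'}
    (h₁ : Intertwines φ g₁ g₁') (h₂ : Intertwines φ g₂ g₂') :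
    Intertwines φ (g₁ * g₂) (g₁' * g₂') := by
  intro y
  rw [mul_smul, mul_smul, h₁, h₂]

theorem Intertwines.one : Intertwines φ (1 : SemilinearAut K F) (1 : SemilinearAut L F') := by
  intro y
  rw [one_smul, one_smul]

/-- Extension of places is compatible with intertwined semilinear automorphisms. -/
theorem extends_smul {g : SemilinearAut K F} {g' : SemilinearAut L F'}
    (h : Intertwines φ g g') {v : Place K F} {P : Place L F'}
    (hvP : PlaceExtend.Extends L φ v P) : PlaceExtend.Extends L φ (g • v) (g' • P) := by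
  intro f
  rw [Fermat.Agent.N4F.C.CoeffAut.mem_smul_place_iff,
    Fermat.Agent.N4F.C.CoeffAut.mem_smul_place_iff, ← h.inv f]
  exact hvP _

/-- **Restriction of places commutes with the semilinear action.** -/
theorem restrictPlace_smul {g : SemilinearAut K F} {g' : SemilinearAut L F'}
    (h : Intertwines φ g g') (P : Place L F') :
    restrictPlace φ hgen (g' • P) = g • restrictPlace φ hgen P :=
  (eq_restrictPlace_of_extends hgen (extends_smul h (extends_restrictPlace φ hgen P))).symm

/-! ### Descent of divisors -/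

variable (φ)

/-- The places of `F'` whose restriction to `F` is rational. -/
def RatAbove : Set (Place L F') := {P | ResidueTrivial (restrictPlace φ hgen P)}

/-- Descent of divisors along the restriction of places. -/
def descDiv : Divisor L F' →+ Divisor K F :=
  Finsupp.mapDomain.addMonoidHom (restrictPlace φ hgen)

theorem descDiv_apply_def (D : Divisor L F') :
    descDiv φ hgen D = Finsupp.mapDomain (restrictPlace φ hgen) D := rfl

theorem descDiv_single (P : Place L F') (n : ℤ) :
    descDiv φ hgen (Finsupp.single P n) = Finsupp.single (restrictPlace φ hgen P) n := by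
  rw [descDiv_apply_def, Finsupp.mapDomain_single]

variable {φ}

/-- Restriction is injective on the places with rational restriction. -/
theorem injOn_restrictPlace (hd : PlaceExtend.LinDisj L φ) :
    Set.InjOn (restrictPlace φ hgen) (RatAbove φ hgen) := by
  intro P hP P' _ hPP'
  have h1 := extends_restrictPlace φ hgen P
  have h2 := extends_restrictPlace φ hgen P'
  rw [← hPP'] at h2
  exact (PlaceExtend.existsUnique_extends hd hgen hP).unique h1 h2

/-- The value of the descended divisor at the restriction of a place with rational restriction. -/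
theorem descDiv_apply_restrict (hd : PlaceExtend.LinDisj L φ) {D : Divisor L F'}
    (hD : ∀ P ∈ D.support, P ∈ RatAbove φ hgen) {P : Place L F'} (hP : P ∈ RatAbove φ hgen) :
    descDiv φ hgen D (restrictPlace φ hgen P) = D P :=
  Finsupp.mapDomain_apply' (RatAbove φ hgen) D (fun Q hQ => hD Q (Finset.mem_coe.mp hQ))
    (injOn_restrictPlace hgen hd) hP

/-- The value of the descended divisor at a place extended by `P` (rational case). -/
theorem descDiv_apply_of_extends (hd : PlaceExtend.LinDisj L φ) {D : Divisor L F'}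
    (hD : ∀ P ∈ D.support, P ∈ RatAbove φ hgen) {v : Place K F} (hv : ResidueTrivial v)
    {P : Place L F'} (hvP : PlaceExtend.Extends L φ v P) : descDiv φ hgen D v = D P := by
  have h1 : v = restrictPlace φ hgen P := eq_restrictPlace_of_extends hgen hvP
  have hP : P ∈ RatAbove φ hgen := by
    show ResidueTrivial (restrictPlace φ hgen P)
    rw [← h1]; exact hv
  rw [h1]
  exact descDiv_apply_restrict hgen hd hD hP

/-- The descended divisor vanishes at non-rational places. -/
theorem descDiv_apply_eq_zero {D : Divisor L F'}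
    (hD : ∀ P ∈ D.support, P ∈ RatAbove φ hgen) {v : Place K F} (hv : ¬ ResidueTrivial v) :
    descDiv φ hgen D v = 0 := by
  classical
  rw [← Finsupp.notMem_support_iff]
  intro hmem
  have h1 := Finsupp.mapDomain_support hmem
  obtain ⟨P, hP, rfl⟩ := Finset.mem_image.mp h1
  exact hv (hD P hP)

/-- The support of the descended divisor consists of rational places. -/
theorem residueTrivial_of_mem_support_descDiv {D : Divisor L F'}
    (hD : ∀ P ∈ D.support, P ∈ RatAbove φ hgen) {v : Place K F}
    (hv : v ∈ (descDiv φ hgen D).support) : ResidueTrivial v := by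
  by_contra h
  exact (Finsupp.mem_support_iff.mp hv) (descDiv_apply_eq_zero hgen hD h)

/-- Descent commutes with the semilinear action. -/
theorem descDiv_smul {g : SemilinearAut K F} {g' : SemilinearAut L F'}
    (h : Intertwines φ g g') (D : Divisor L F') :
    descDiv φ hgen (g' • D) = g • descDiv φ hgen D := by
  rw [descDiv_apply_def, descDiv_apply_def, SemilinearAut.divisor_smul_def,
    SemilinearAut.divisor_smul_def, ← Finsupp.mapDomain_comp, ← Finsupp.mapDomain_comp]
  congr 1
  funext P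
  exact restrictPlace_smul hgen h P

/-- The rational-support condition is stable under the semilinear action. -/
theorem ratAbove_smul {g : SemilinearAut K F} {g' : SemilinearAut L F'}
    (h : Intertwines φ g g') {P : Place L F'} (hP : P ∈ RatAbove φ hgen) :
    g' • P ∈ RatAbove φ hgen := by
  show ResidueTrivial (restrictPlace φ hgen (g' • P))
  rw [restrictPlace_smul hgen h, residueTrivial_iff_bijective]
  exact Fermat.Agent.N4F.E.PlaceValue.bijective_smul g
    ((residueTrivial_iff_bijective _).mp hP)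

theorem ratAbove_support_smul {g : SemilinearAut K F} {g' : SemilinearAut L F'}
    (h : Intertwines φ g g') {D : Divisor L F'}
    (hD : ∀ P ∈ D.support, P ∈ RatAbove φ hgen) :
    ∀ P ∈ (g' • D).support, P ∈ RatAbove φ hgen := by
  intro P hP
  rw [Finsupp.mem_support_iff, SemilinearAut.divisor_smul_apply] at hP
  have h1 := ratAbove_smul hgen h (hD _ (Finsupp.mem_support_iff.mpr hP))
  rwa [smul_inv_smul] at h1

theorem ratAbove_support_add {D E : Divisor L F'}
    (hD : ∀ P ∈ D.support, P ∈ RatAbove φ hgen) (hE : ∀ P ∈ E.support, P ∈ RatAbove φ hgen) :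
    ∀ P ∈ (D + E).support, P ∈ RatAbove φ hgen := by
  classical
  intro P hP
  rcases Finset.mem_union.mp (Finsupp.support_add hP) with h | h
  · exact hD P h
  · exact hE P h

theorem ratAbove_support_neg {D : Divisor L F'}
    (hD : ∀ P ∈ D.support, P ∈ RatAbove φ hgen) :
    ∀ P ∈ (-D).support, P ∈ RatAbove φ hgen := by
  intro P hP
  rw [Finsupp.support_neg] at hP
  exact hD P hP

theorem ratAbove_support_sub {D E : Divisor L F'}
    (hD : ∀ P ∈ D.support, P ∈ RatAbove φ hgen) (hE : ∀ P ∈ E.support, P ∈ RatAbove φ hgen) :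
    ∀ P ∈ (D - E).support, P ∈ RatAbove φ hgen := by
  rw [sub_eq_add_neg]
  exact ratAbove_support_add hgen hD (ratAbove_support_neg hgen hE)

theorem ratAbove_support_nsmul {D : Divisor L F'}
    (hD : ∀ P ∈ D.support, P ∈ RatAbove φ hgen) (m : ℕ) :
    ∀ P ∈ (m • D).support, P ∈ RatAbove φ hgen := by
  intro P hP
  refine hD P ?_
  rw [Finsupp.mem_support_iff] at hP ⊢
  intro h0
  apply hP
  rw [Finsupp.smul_apply, h0, smul_zero]

/-- **Descent of principal divisors**: if `div (φ y) = E` with `E` of rational support, then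
`div y = descDiv E`. -/
theorem IsDivOf.desc (hd : PlaceExtend.LinDisj L φ) {y : F} {E : Divisor L F'}
    (hE : ∀ P ∈ E.support, P ∈ RatAbove φ hgen) (hy : IsDivOf (φ y) E) :
    IsDivOf y (descDiv φ hgen E) := by
  refine ⟨fun h0 => hy.1 (by rw [h0, map_zero]), fun v => ?_⟩
  by_cases hv : ResidueTrivial v
  · obtain ⟨P, hvP, -⟩ := (PlaceExtend.existsUnique_extends hd hgen hv)
    rw [descDiv_apply_of_extends hgen hd hE hv hvP, hy.2 P,
      PlaceExtend.Extends.ord_map hgen hv hvP]
  · rw [descDiv_apply_eq_zero hgen hE hv]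
    obtain ⟨P, hvP, hord⟩ := exists_extends φ hgen v
    rw [← hord y, ← hy.2 P]
    symm
    rw [← Finsupp.notMem_support_iff]
    intro hP
    apply hv
    have h1 : v = restrictPlace φ hgen P := eq_restrictPlace_of_extends hgen hvP
    rw [h1]
    exact hE P hP

/-- Descent of a second difference. -/
theorem descDiv_secondDiff {g : SemilinearAut K F} {g' : SemilinearAut L F'}
    (h : Intertwines φ g g') (D : Divisor L F') :
    descDiv φ hgen (g' • g' • D - g' • D - (g' • D - D)) =
      g • g • descDiv φ hgen D - g • descDiv φ hgen D -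
        (g • descDiv φ hgen D - descDiv φ hgen D) := by
  rw [map_sub, map_sub, map_sub, descDiv_smul hgen h, descDiv_smul hgen h]

/-- Rational support of a second difference. -/
theorem ratAbove_support_secondDiff {g : SemilinearAut K F} {g' : SemilinearAut L F'}
    (h : Intertwines φ g g') {D : Divisor L F'}
    (hD : ∀ P ∈ D.support, P ∈ RatAbove φ hgen) :
    ∀ P ∈ (g' • g' • D - g' • D - (g' • D - D)).support, P ∈ RatAbove φ hgen := by
  have h1 := ratAbove_support_smul hgen h hD
  have h2 := ratAbove_support_smul hgen h h1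
  exact ratAbove_support_sub hgen (ratAbove_support_sub hgen h2 h1)
    (ratAbove_support_sub hgen h1 hD)

/-- The degree of the descended divisor, when all places of `F'` have degree one. -/
theorem degree_descDiv (hdeg : ∀ P : Place L F', P.deg = 1) {D : Divisor L F'}
    (hD : ∀ P ∈ D.support, P ∈ RatAbove φ hgen) :
    Divisor.degree (descDiv φ hgen D) = Divisor.degree D := by
  classical
  rw [descDiv_apply_def, Finsupp.mapDomain, Finsupp.sum, map_sum]
  conv_rhs => rw [← Finsupp.sum_single D, Finsupp.sum, map_sum]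
  refine Finset.sum_congr rfl fun P hP => ?_
  rw [Divisor.degree_single, Divisor.degree_single, hdeg P,
    Fermat.Agent.N4F.E.GenericFibre.deg_eq_one_of_bijective _
      ((residueTrivial_iff_bijective _).mp (hD P hP))]

end Generic

/-! ### PART B: the modular function fields -/

section Modular

local notation "Qb" => AlgebraicClosure ℚ
local notation "Γ" => (AlgebraicClosure ℚ ≃ₐ[ℚ] AlgebraicClosure ℚ)

open Fermat.Agent.N4F.C Fermat.Agent.N4F.C.Galois Fermat.Agent.N4.Setting

variable (N : ℕ) [NeZero N]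

/-- A function of `Q̄ · F_N` without zeros and poles is constant. -/
theorem exists_const_of_forall_ord_eq_zero {t : Fb N} (ht : t ≠ 0)
    (h : ∀ P : Place Qb (Fb N), P.ord t = 0) :
    ∃ c : Qb, c ≠ 0 ∧ t = algebraMap Qb (Fb N) c := by
  have halg : IsAlgebraic Qb t := by
    by_contra htr
    haveI := Fermat.Agent.N4F.A.LevelMaps.finiteDimensional_adjoin_simple N (f := t) htr
    haveI halg' : Algebra.IsAlgebraic ↥(IntermediateField.adjoin Qb {t}) (Fb N) :=
      Algebra.IsAlgebraic.of_finite _ _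
    haveI hsep : Algebra.IsSeparable ↥(IntermediateField.adjoin Qb {t}) (Fb N) :=
      Algebra.IsAlgebraic.isSeparable_of_perfectField
    obtain ⟨Z, hZ1, hZ2⟩ := Fermat.Agent.S24.exists_zeroDivisor (K := Qb) (F := Fb N) (h := t) htr
    have hZ0 : Z = 0 := by
      ext v
      rw [hZ1 v, h v]
      rfl
    rw [hZ0, map_zero] at hZ2
    have hpos : 0 < Module.finrank ↥(IntermediateField.adjoin Qb {t}) (Fb N) := Module.finrank_pos
    omega
  haveI : Algebra.IsAlgebraic Qb ↥(IntermediateField.adjoin Qb {t}) :=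
    IntermediateField.isAlgebraic_adjoin_simple halg.isIntegral
  have hbot := IntermediateField.eq_bot_of_isAlgClosed_of_isAlgebraic
    (IntermediateField.adjoin Qb {t})
  have hmem : t ∈ (⊥ : IntermediateField Qb (Fb N)) := by
    rw [← hbot]
    exact IntermediateField.mem_adjoin_simple_self Qb t
  obtain ⟨c, hc⟩ := IntermediateField.mem_bot.mp hmem
  refine ⟨c, ?_, hc.symm⟩
  rintro rfl
  rw [map_zero] at hc
  exact ht hc.symm

/-- Two functions with the same divisor differ by a nonzero constant. -/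
theorem exists_const_of_isDivOf {a b : Fb N} {D : Divisor Qb (Fb N)}
    (ha : IsDivOf a D) (hb : IsDivOf b D) :
    ∃ c : Qb, c ≠ 0 ∧ a = algebraMap Qb (Fb N) c * b := by
  have h1 := ha.div hb
  rw [sub_self] at h1
  obtain ⟨c, hc, hcab⟩ := exists_const_of_forall_ord_eq_zero N h1.1
    (fun P => by rw [← h1.2 P]; rfl)
  refine ⟨c, hc, ?_⟩
  rw [← hcab, div_mul_cancel₀ _ hb.1]

/-! #### The `Q̄`-level data of a torsion class -/

variable (σ : Γ) (p k : ℕ) (x : JZero N)

/-- The `Q̄`-level data attached to a class `x` killed by `p ^ (k+1)` with `p • (σ - 1)² x = 0`: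
`x = [D]`, `div f = p^(k+1) D`, `div κ = p (σ-1)² D`, `κ ^ (p^k) = c · (σ² f · f / (σ f)²)`. -/
structure TorsionData where
  /-- the divisor -/
  D : Divisor.degZero (K := Qb) (F := Fb N)
  /-- the function with `div f = p^(k+1) D` -/
  f : Fb N
  /-- the function with `div κ = p (σ-1)² D` -/
  κ : Fb N
  /-- the constant -/
  c : Qb
  mk_eq : Pic0.mk D = x
  isDivOf_f : IsDivOf f (p ^ (k + 1) • (D : Divisor Qb (Fb N)))
  isDivOf_κ : IsDivOf κ (p • (diffDiv (gal N σ) (diffDiv (gal N σ) D) : Divisor Qb (Fb N)))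
  c_ne : c ≠ 0
  pow_eq : κ ^ p ^ k = algebraMap Qb (Fb N) c * diffFn (gal N σ) (diffFn (gal N σ) f)

/-- The data exist. -/
theorem exists_torsionData (hx : p ^ (k + 1) • x = 0)
    (hpx : p • (σ • σ • x - σ • x - (σ • x - x)) = 0) : Nonempty (TorsionData N σ p k x) := by
  obtain ⟨D, f, hD, hf⟩ := exists_isDivOf_of_torsion N x (p ^ (k + 1)) hx
  subst hD
  have key : p • (gal N σ • gal N σ • Pic0.mk D - gal N σ • Pic0.mk D -
      (gal N σ • Pic0.mk D - Pic0.mk D)) = 0 := by
    rw [← galois_smul_eq, ← galois_smul_eq]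
    exact hpx
  obtain ⟨κ, hκ⟩ := exists_isDivOf_of_nsmul_secondDiff_eq_zero (gal N σ) D key
  have h1 : IsDivOf (diffFn (gal N σ) (diffFn (gal N σ) f))
      (p ^ (k + 1) • (diffDiv (gal N σ) (diffDiv (gal N σ) D) : Divisor Qb (Fb N))) :=
    hf.diff_diff (gal N σ)
  have h2 : IsDivOf (κ ^ p ^ k)
      (p ^ (k + 1) • (diffDiv (gal N σ) (diffDiv (gal N σ) D) : Divisor Qb (Fb N))) := by
    have := hκ.pow (p ^ k)
    rwa [smul_smul, ← pow_succ] at this
  obtain ⟨c, hc, hcab⟩ := exists_const_of_isDivOf N h2 h1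
  exact ⟨⟨D, f, κ, c, rfl, hf, hκ, hc, hcab⟩⟩

variable {N σ p k x}

/-- **Back to the class**: if `κ = c' · w ^ p` then `(σ - 1)² x = 0`. -/
theorem TorsionData.secondDiff_eq_zero (T : TorsionData N σ p k x) (hp : p ≠ 0) {c' : Qb}
    {w : Fb N} (hc' : c' ≠ 0) (h : T.κ = algebraMap Qb (Fb N) c' * w ^ p) :
    σ • σ • x - σ • x - (σ • x - x) = 0 := by
  rw [← T.mk_eq]
  exact secondDiff_eq_zero_of_isDivOf N σ hp T.D T.isDivOf_κ hc' h

theorem TorsionData.f_ne_zero (T : TorsionData N σ p k x) : T.f ≠ 0 := T.isDivOf_f.1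

theorem TorsionData.κ_ne_zero (T : TorsionData N σ p k x) : T.κ ≠ 0 := T.isDivOf_κ.1

/-- The data are defined over the level `K`. -/
def TorsionData.DefinedOver (T : TorsionData N σ p k x) (K : IntermediateField ℚ Qb) : Prop :=
  T.c ∈ K ∧ T.f ∈ Set.range (levK N K) ∧ T.κ ∈ Set.range (levK N K) ∧
    ∀ P ∈ (T.D : Divisor Qb (Fb N)).support, ResidueTrivial (restrictK N K P)

/-- The data are defined over every level containing a suitable number field. -/
theorem TorsionData.exists_definedOver (T : TorsionData N σ p k x) :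
    ∃ K₁ : IntermediateField ℚ Qb, FiniteDimensional ℚ K₁ ∧
      ∀ K : IntermediateField ℚ Qb, K₁ ≤ K → T.DefinedOver K := by
  classical
  obtain ⟨K₀, hK₀fin, hK₀⟩ := exists_finiteDimensional_level N {T.f, T.κ}
    (T.D : Divisor Qb (Fb N)).support
  haveI := hK₀fin
  haveI : Algebra.IsAlgebraic ℚ Qb := AlgebraicClosure.isAlgebraic ℚ
  haveI : FiniteDimensional ℚ (IntermediateField.adjoin ℚ ({T.c} : Set Qb)) :=
    IntermediateField.finiteDimensional_adjoin fun y _ =>
      (Algebra.IsAlgebraic.isAlgebraic y).isIntegral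
  refine ⟨K₀ ⊔ IntermediateField.adjoin ℚ ({T.c} : Set Qb),
    IntermediateField.finiteDimensional_sup _ _, fun K hK => ?_⟩
  obtain ⟨h1, h2⟩ := hK₀ K (le_trans le_sup_left hK)
  refine ⟨?_, h1 _ (by simp), h1 _ (by simp), h2⟩
  exact hK (le_sup_right (a := K₀)
    (IntermediateField.subset_adjoin ℚ _ (Set.mem_singleton T.c)))

/-! #### The level-`K` data -/

section Level

variable (T : TorsionData N σ p k x) {K : IntermediateField ℚ Qb} (hK : T.DefinedOver K)

/-- The constant at level `K`. -/
def TorsionData.cK : Lvl K := (Lvl.toSub K).symm ⟨T.c, hK.1⟩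

/-- `f` at level `K`. -/
def TorsionData.fK : FF (Lvl K) N := hK.2.1.choose

/-- `κ` at level `K`. -/
def TorsionData.κK : FF (Lvl K) N := hK.2.2.1.choose

/-- `D` at level `K`. -/
def TorsionData.DK : Divisor (Lvl K) (FF (Lvl K) N) :=
  descDiv (levK N K) (adjoin_range_lev (Lvl K) N) (T.D : Divisor Qb (Fb N))

theorem TorsionData.algebraMap_cK : algebraMap (Lvl K) Qb (T.cK hK) = T.c := rfl

theorem TorsionData.cK_ne_zero : T.cK hK ≠ 0 := by
  intro h0
  apply T.c_ne
  rw [← T.algebraMap_cK hK, h0, map_zero]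

theorem TorsionData.levK_fK : levK N K (T.fK hK) = T.f := hK.2.1.choose_spec

theorem TorsionData.levK_κK : levK N K (T.κK hK) = T.κ := hK.2.2.1.choose_spec

theorem TorsionData.fK_ne_zero : T.fK hK ≠ 0 := by
  intro h0
  apply T.f_ne_zero
  rw [← T.levK_fK hK, h0, map_zero]

theorem TorsionData.κK_ne_zero : T.κK hK ≠ 0 := by
  intro h0
  apply T.κ_ne_zero
  rw [← T.levK_κK hK, h0, map_zero]

include hK in
theorem TorsionData.ratAbove_D :
    ∀ P ∈ (T.D : Divisor Qb (Fb N)).support,
      P ∈ RatAbove (levK N K) (adjoin_range_lev (Lvl K) N) := hK.2.2.2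

include hK in
/-- The support of `D_K` consists of rational places. -/
theorem TorsionData.residueTrivial_of_mem_support {v : Place (Lvl K) (FF (Lvl K) N)}
    (hv : v ∈ (T.DK (K := K)).support) : ResidueTrivial v :=
  residueTrivial_of_mem_support_descDiv _ (T.ratAbove_D hK) hv

include hK in
theorem TorsionData.bijective_of_mem_support {v : Place (Lvl K) (FF (Lvl K) N)}
    (hv : v ∈ (T.DK (K := K)).support) : Function.Bijective (algebraMap (Lvl K) v.ResidueField) :=
  (residueTrivial_iff_bijective v).mp (T.residueTrivial_of_mem_support hK hv)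

include hK in
/-- `D_K` at the restriction of a place of the support. -/
theorem TorsionData.DK_apply_restrictK {P : Place Qb (Fb N)}
    (hP : ResidueTrivial (restrictK N K P)) :
    T.DK (K := K) (restrictK N K P) = (T.D : Divisor Qb (Fb N)) P :=
  descDiv_apply_restrict _ (linDisj_lev (Lvl K) N) (T.ratAbove_D hK) hP

include hK in
/-- `D_K` has degree zero. -/
theorem TorsionData.degree_DK : Divisor.degree (T.DK (K := K)) = 0 := by
  have h1 := degree_descDiv (φ := levK N K) (adjoin_range_lev (Lvl K) N)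
    (fun P => Fermat.Agent.N4F.E.GenericFibre.deg_eq_one_of_bijective P
      ((residueTrivial_iff_bijective P).mp
        (Fermat.Agent.N4F.C.Levels.residueTrivial_bar N P))) (T.ratAbove_D hK)
  rw [TorsionData.DK, h1]
  exact T.D.2

/-- `div f_K = p^(k+1) D_K`. -/
theorem TorsionData.isDivOf_fK : IsDivOf (T.fK hK) (p ^ (k + 1) • T.DK (K := K)) := by
  have h1 : IsDivOf (levK N K (T.fK hK)) (p ^ (k + 1) • (T.D : Divisor Qb (Fb N))) := by
    rw [T.levK_fK hK]; exact T.isDivOf_f
  have h2 := IsDivOf.desc (adjoin_range_lev (Lvl K) N) (linDisj_lev (Lvl K) N)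
    (ratAbove_support_nsmul _ (T.ratAbove_D hK) (p ^ (k + 1))) h1
  rwa [map_nsmul] at h2

variable {gK : SemilinearAut (Lvl K) (FF (Lvl K) N)}
  (hint : Intertwines (levK N K) gK (gal N σ))

include hint in
/-- `div κ_K = p (g_K - 1)² D_K`. -/
theorem TorsionData.isDivOf_κK :
    IsDivOf (T.κK hK) (p • (gK • gK • T.DK (K := K) - gK • T.DK (K := K) -
      (gK • T.DK (K := K) - T.DK (K := K)))) := by
  have h1 : IsDivOf (levK N K (T.κK hK))
      (p • (gal N σ • gal N σ • (T.D : Divisor Qb (Fb N)) - gal N σ • (T.D : Divisor Qb (Fb N)) -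
        (gal N σ • (T.D : Divisor Qb (Fb N)) - (T.D : Divisor Qb (Fb N))))) := by
    rw [T.levK_κK hK, ← coe_diffDiv_diffDiv]; exact T.isDivOf_κ
  have h2 := IsDivOf.desc (adjoin_range_lev (Lvl K) N) (linDisj_lev (Lvl K) N)
    (ratAbove_support_nsmul _
      (ratAbove_support_secondDiff _ hint (T.ratAbove_D hK)) p) h1
  rwa [map_nsmul, descDiv_secondDiff _ hint] at h2

include hint in
/-- `κ_K ^ (p^k) = c_K · (g_K² f_K · f_K / (g_K f_K)²)`. -/
theorem TorsionData.κK_pow :
    T.κK hK ^ p ^ k = algebraMap (Lvl K) (FF (Lvl K) N) (T.cK hK) *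
      (gK • gK • T.fK hK * T.fK hK / (gK • T.fK hK) ^ 2) := by
  apply Fermat.Agent.N4F.C.Levels.lev_injective (Lvl K) N
  rw [map_pow, map_mul, map_div₀, map_mul, map_pow, hint, hint]
  have h1 := T.pow_eq
  rw [diffFn_diffFn (gal N σ) T.f_ne_zero] at h1
  rw [show (lev (Lvl K) N) (T.κK hK) = T.κ from T.levK_κK hK,
    show (lev (Lvl K) N) (T.fK hK) = T.f from T.levK_fK hK, h1, AlgHom.commutes]
  rfl

/-- **Back to the class from level `K`**: if `κ_K = c' · w ^ p` then `(σ - 1)² x = 0`. -/
theorem TorsionData.secondDiff_eq_zero_of_κK (hp : p ≠ 0) {c' : Lvl K} {w : FF (Lvl K) N}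
    (hc' : c' ≠ 0) (h : T.κK hK = algebraMap (Lvl K) (FF (Lvl K) N) c' * w ^ p) :
    σ • σ • x - σ • x - (σ • x - x) = 0 := by
  refine T.secondDiff_eq_zero hp (c' := algebraMap (Lvl K) Qb c') (w := levK N K w) ?_ ?_
  · rwa [ne_eq, map_eq_zero]
  · rw [← T.levK_κK hK, h, map_mul, map_pow, AlgHom.commutes]
    rfl

/-- The function form of the back-transfer: if `κ_K = c' · w ^ p` at level `K` then the same holds
over `Q̄`. -/
theorem TorsionData.exists_eq_of_κK {c' : Lvl K} {w : FF (Lvl K) N}
    (hc' : c' ≠ 0) (h : T.κK hK = algebraMap (Lvl K) (FF (Lvl K) N) c' * w ^ p) :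
    ∃ (c'' : Qb) (w' : Fb N), c'' ≠ 0 ∧ T.κ = algebraMap Qb (Fb N) c'' * w' ^ p := by
  refine ⟨algebraMap (Lvl K) Qb c', levK N K w, ?_, ?_⟩
  · rwa [ne_eq, map_eq_zero]
  · rw [← T.levK_κK hK, h, map_mul, map_pow, AlgHom.commutes]
    rfl

end Level

/-! #### The concrete action at a stable level -/

/-- helper28's coefficientwise action `levelFF` at a `Γ`-stable level is intertwined with the
prelude's Galois action on `Q̄ · F_N`. -/
theorem intertwines_levelFF (K : IntermediateField ℚ Qb)
    (hK : ∀ (τ : Γ) (y : Qb), y ∈ K → τ y ∈ K) (N : ℕ) [NeZero N] (τ : Γ) :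
    Intertwines (levK N K) (Fermat.Agent.P3G.GammaAut.levelFF K hK N τ) (gal N τ) :=
  fun f => Fermat.Agent.P3G.GammaAut.levK_levelFF_smul K hK N τ f

/-! #### From the function form (helper19's `GeomStepAt`) to the data -/

/-- **The data of the Kummer form**: `f ≠ 0` with `p^k ∣ ord_P f` everywhere, `j < k`, and
`κ ^ (p^j) = c · (σ - 1)² f` give a class `x` and a `TorsionData N σ p j x` with these `f, κ, c`. -/
theorem exists_torsionData_of_step {p : ℕ} (hp : p.Prime) {k j : ℕ} (hjk : j < k)
    {f κ : Fb N} {c : Qb} (hf : f ≠ 0) (hc : c ≠ 0)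
    (hdiv : ∀ P : Place Qb (Fb N), ((p ^ k : ℕ) : ℤ) ∣ P.ord f)
    (hκ : κ ^ (p ^ j) = algebraMap Qb (Fb N) c * diffFn (gal N σ) (diffFn (gal N σ) f)) :
    ∃ (x : JZero N) (T : TorsionData N σ p j x), T.f = f ∧ T.κ = κ ∧ T.c = c := by
  classical
  haveI := Fermat.Agent.N4F.A.LevelMaps.hasPrincipalDivisors_bar N
  obtain ⟨D₀, hD₀, hdeg₀⟩ := HasPrincipalDivisors.exists_divisor (K := Qb) (F := Fb N) f hf
  have hpj : (((p ^ (j + 1) : ℕ)) : ℤ) ≠ 0 := by
    exact_mod_cast pow_ne_zero _ hp.ne_zero
  have hdvd : ∀ P : Place Qb (Fb N), ((p ^ (j + 1) : ℕ) : ℤ) ∣ D₀ P := by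
    intro P
    rw [hD₀ P]
    refine dvd_trans ?_ (hdiv P)
    exact_mod_cast pow_dvd_pow p (Nat.succ_le_of_lt hjk)
  -- the divisor `D' = D₀ / p^(j+1)`
  let D' : Divisor Qb (Fb N) := D₀.mapRange (fun n => n / ((p ^ (j + 1) : ℕ) : ℤ)) (by simp)
  have hD' : p ^ (j + 1) • D' = D₀ := by
    ext P
    rw [Finsupp.smul_apply, Finsupp.mapRange_apply, nsmul_eq_mul]
    exact Int.mul_ediv_cancel' (hdvd P)
  have hdeg' : D' ∈ Divisor.degZero (K := Qb) (F := Fb N) := by
    rw [Divisor.mem_degZero]
    have h1 : Divisor.degree (p ^ (j + 1) • D') = 0 := by rw [hD']; exact hdeg₀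
    rw [map_nsmul, nsmul_eq_mul] at h1
    rcases mul_eq_zero.mp h1 with h2 | h2
    · exact absurd h2 hpj
    · exact h2
  let D : Divisor.degZero (K := Qb) (F := Fb N) := ⟨D', hdeg'⟩
  have hfD : IsDivOf f (p ^ (j + 1) • (D : Divisor Qb (Fb N))) := by
    refine ⟨hf, fun P => ?_⟩
    show (p ^ (j + 1) • D') P = P.ord f
    rw [hD', hD₀ P]
  have hh := hfD.diff_diff (gal N σ)
  have hκ0 : κ ≠ 0 := by
    intro h0
    rw [h0, zero_pow (pow_ne_zero _ hp.ne_zero)] at hκ
    exact (mul_ne_zero ((map_ne_zero _).mpr hc) hh.1) hκ.symm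
  have hκD : IsDivOf κ
      (p • (diffDiv (gal N σ) (diffDiv (gal N σ) D) : Divisor Qb (Fb N))) := by
    refine ⟨hκ0, fun P => ?_⟩
    have h1 : P.ord (κ ^ (p ^ j)) = P.ord (diffFn (gal N σ) (diffFn (gal N σ) f)) := by
      rw [hκ, ← (hh.const_mul hc).2 P, hh.2 P]
    rw [← zpow_natCast, P.ord_zpow, ← hh.2 P, Finsupp.smul_apply, nsmul_eq_mul, pow_succ] at h1
    rw [Finsupp.smul_apply, nsmul_eq_mul]
    have hpj0 : (((p ^ j : ℕ)) : ℤ) ≠ 0 := by exact_mod_cast pow_ne_zero _ hp.ne_zero
    have h2 : ((p ^ j : ℕ) : ℤ) * P.ord κ = ((p ^ j : ℕ) : ℤ) *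
        ((p : ℤ) * (diffDiv (gal N σ) (diffDiv (gal N σ) D) : Divisor Qb (Fb N)) P) := by
      rw [h1]; push_cast; ring
    exact (mul_left_cancel₀ hpj0 h2).symm
  exact ⟨Pic0.mk D, ⟨D, f, κ, c, rfl, hfD, hκD, hc, hκ⟩, rfl, rfl, rfl⟩

/-- **ALL-IN-ONE level form of the Kummer data** (no structure to unfold).  For the data of
`GeomStepAt` there is a number field `K₁` such that at EVERY `Γ`-stable level `K ⊇ K₁`, with
`g_K := levelFF K hK N σ`: a divisor `D_K` of degree `0` with rational support, and `f_K, κ_K, c_K`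
lifting `f, κ, c`, with `div f_K = p^(j+1) D_K`, `div κ_K = p (g_K - 1)² D_K` and
`κ_K ^ (p^j) = c_K · g_K² f_K · f_K / (g_K f_K)²`. -/
theorem exists_level_form {p : ℕ} (hp : p.Prime) {k j : ℕ} (hjk : j < k)
    {f κ : Fb N} {c : Qb} (hf : f ≠ 0) (hc : c ≠ 0)
    (hdiv : ∀ P : Place Qb (Fb N), ((p ^ k : ℕ) : ℤ) ∣ P.ord f)
    (hκ : κ ^ (p ^ j) = algebraMap Qb (Fb N) c * diffFn (gal N σ) (diffFn (gal N σ) f)) :
    ∃ K₁ : IntermediateField ℚ Qb, FiniteDimensional ℚ K₁ ∧
      ∀ (K : IntermediateField ℚ Qb), K₁ ≤ K →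
        ∀ hK : ∀ (τ : Γ) (y : Qb), y ∈ K → τ y ∈ K,
        ∃ (DK : Divisor (Lvl K) (FF (Lvl K) N)) (fK κK : FF (Lvl K) N) (cK : Lvl K),
          levK N K fK = f ∧ levK N K κK = κ ∧ algebraMap (Lvl K) Qb cK = c ∧
          fK ≠ 0 ∧ κK ≠ 0 ∧ cK ≠ 0 ∧
          (∀ v ∈ DK.support, Function.Bijective (algebraMap (Lvl K) v.ResidueField)) ∧
          Divisor.degree DK = 0 ∧
          IsDivOf fK (p ^ (j + 1) • DK) ∧
          IsDivOf κK (p • (Fermat.Agent.P3G.GammaAut.levelFF K hK N σ •
              Fermat.Agent.P3G.GammaAut.levelFF K hK N σ • DK -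
            Fermat.Agent.P3G.GammaAut.levelFF K hK N σ • DK -
            (Fermat.Agent.P3G.GammaAut.levelFF K hK N σ • DK - DK))) ∧
          κK ^ p ^ j = algebraMap (Lvl K) (FF (Lvl K) N) cK *
            (Fermat.Agent.P3G.GammaAut.levelFF K hK N σ •
              Fermat.Agent.P3G.GammaAut.levelFF K hK N σ • fK * fK /
              (Fermat.Agent.P3G.GammaAut.levelFF K hK N σ • fK) ^ 2) := by
  obtain ⟨x, T, rfl, rfl, rfl⟩ := exists_torsionData_of_step hp hjk hf hc hdiv hκ
  obtain ⟨K₁, hK₁fin, hK₁⟩ := T.exists_definedOver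
  refine ⟨K₁, hK₁fin, fun K hKK₁ hK => ?_⟩
  have hdef := hK₁ K hKK₁
  have hint := intertwines_levelFF K hK N σ
  exact ⟨T.DK, T.fK hdef, T.κK hdef, T.cK hdef, T.levK_fK hdef, T.levK_κK hdef,
    T.algebraMap_cK hdef, T.fK_ne_zero hdef, T.κK_ne_zero hdef, T.cK_ne_zero hdef,
    fun v hv => T.bijective_of_mem_support hdef hv, T.degree_DK hdef, T.isDivOf_fK hdef,
    T.isDivOf_κK hdef hint, T.κK_pow hdef hint⟩

end Modular

end Fermat.Agent.P3G.LevelDescent
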