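import Mathlib
import Fermat.Agent.P3G.UCrit
import Fermat.Agent.P3G.Assembly.PowCover
import Fermat.Agent.G.Points
import Fermat.Agent.G.PointsLoc
import Fermat.Agent.N4.Cover.Main

/-!
# P3-G, block (G-L), part 2: local roots of a second difference on a chart

Setting of `P3G.Cover.Main` / `P3G.Assembly.PowCover`: `O` a discrete valuation ring with uniformiser
`π`, `K₀ = Frac O` of characteristic `0`, `F₀` a function field over `K₀`, `s ∈ F₀` transcendental with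
`F₀ / K₀(s)` finite, `R = chartAlg O F₀ {s}`; `V₁, V₂` the two vertical valuation rings, `W = V₁ ∩ V₂`
(`PowCover.TwoVal`).  `g` a semilinear automorphism of `F₀ / K₀` (an inertia element) preserving the
valuations of `V₁, V₂` and trivial on their residue fields, and preserving the set of places centred at
every closed point of the special fibre of `R`.

* `hh_sd` : `sd σ f ≡ 1` modulo `π W` for every `f ≠ 0` (the hypothesis `hh` of
  `StepOfLevel.exists_pow_eq_of_level`);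
* `localRoots_sd` : if `e ∣ ord_Q f` for every place `Q` and every place in the support of `div f`
  centred at a closed point `𝔫` of the special fibre has a local equation at `𝔫` (Loc-P), then
  `PowCover.LocalRoots π W s (sd σ f) e`: the local roots are
  `t_𝔫 = ∏_P (σ²b_P · b_P / (σ b_P)²) ^ (ord_P f / e)`.

This is `SecondDiff.exists_localRoot_strong` + `UCrit.exists_localRoot_strong_at` instantiated with
`Pl := Place K₀ F₀`, `τ := g • ·`, `g := 1`, at every closed point of the chart.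
-/

set_option autoImplicit false
set_option linter.unusedSectionVars false
set_option linter.style.haveILetI false

namespace Fermat.Agent.P3G.LocalRootsSd

open IntermediateField AlgebraicCurve Fermat.Agent.N4.Chart Fermat.Agent.P3G.SecondDiff Fermat.Agent.P3G.UCrit
  Fermat.Agent.P3G.Assembly.PowCover Fermat.Agent.G.Points Fermat.Agent.P3G.Cover.OfValuations
  Fermat.Agent.G

universe u

section Places

variable {K F : Type*} [Field K] [Field F] [Algebra K F]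

/-- `ord` is multiplicative on the places of `F / K`. -/
theorem ordMul_place : OrdMul (fun (Q : Place K F) (x : F) => Q.ord x) :=
  fun Q _ _ hf hg => Q.ord_mul hf hg

/-- The permutation of the places induced by a semilinear automorphism is compatible with its action
on functions. -/
theorem compat_place (g : SemilinearAut K F) :
    Compat (fun (Q : Place K F) (x : F) => Q.ord x) (SemilinearAut.toRingAut g)
      (MulAction.toPerm g) :=
  fun Q f => SemilinearAut.ord_smul g Q f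

theorem toPerm_symm_place (g : SemilinearAut K F) (Q : Place K F) :
    (MulAction.toPerm g : Equiv.Perm (Place K F)).symm Q = g⁻¹ • Q := rfl

end Places

section TwoV

variable {F : Type*} [Field F] (V₁ V₂ : ValuationSubring F)

theorem forall_fin_two_vs {P : ValuationSubring F → Prop} (h1 : P V₁) (h2 : P V₂) :
    ∀ i : Fin 2, P (![V₁, V₂] i) := by
  intro i
  fin_cases i
  · exact h1
  · exact h2

theorem mem_iInfSubring_pair {x : F} : x ∈ iInfSubring ![V₁, V₂] ↔ x ∈ V₁ ∧ x ∈ V₂ := by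
  rw [mem_iInfSubring]
  constructor
  · intro h
    exact ⟨h 0, h 1⟩
  · rintro ⟨h1, h2⟩
    exact forall_fin_two_vs V₁ V₂ (P := fun V => x ∈ V) h1 h2

end TwoV

variable {O K₀ : Type*} [CommRing O] [IsDomain O] [IsDiscreteValuationRing O]
  [Field K₀] [CharZero K₀] [Algebra O K₀] [IsFractionRing O K₀]
variable {F₀ : Type u} [Field F₀] [Algebra K₀ F₀] [Algebra O F₀] [IsScalarTower O K₀ F₀]

/-- **The second difference is `≡ 1` modulo `π W`.** -/
theorem hh_sd {π : O} {W : Subring F₀} {V₁ V₂ : ValuationSubring F₀} (hT : TwoVal π W V₁ V₂)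
    (σ : F₀ ≃+* F₀)
    (hval₁ : ∀ b, V₁.valuation (σ b) = V₁.valuation b)
    (hval₂ : ∀ b, V₂.valuation (σ b) = V₂.valuation b)
    (htriv₁ : ∀ x ∈ V₁, σ x - x ∈ V₁.nonunits) (htriv₂ : ∀ x ∈ V₂, σ x - x ∈ V₂.nonunits)
    {f : F₀} (hf : f ≠ 0) :
    ∃ w ∈ W, sd σ f - 1 = algebraMap O F₀ π * w :=
  hT.exists_eq_mul (sd_sub_one_mem_nonunits σ hval₁ htriv₁ hf)
    (sd_sub_one_mem_nonunits σ hval₂ htriv₂ hf)

/-- In a `TwoVal` situation the uniformiser `π` generates the maximal ideals of `V₁` and `V₂`. -/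
theorem pi_gen_of_twoVal {π : O} {W : Subring F₀} {V₁ V₂ : ValuationSubring F₀}
    (hT : TwoVal π W V₁ V₂) :
    ∀ (i : Fin 2) (x : F₀), (![V₁, V₂] i).valuation x < 1 →
      (![V₁, V₂] i).valuation x ≤ (![V₁, V₂] i).valuation (algebraMap O F₀ π) := by
  have key : ∀ V : ValuationSubring F₀, (∀ x ∈ V.nonunits, x * (algebraMap O F₀ π)⁻¹ ∈ V) →
      ∀ x : F₀, V.valuation x < 1 → V.valuation x ≤ V.valuation (algebraMap O F₀ π) := by
    intro V hV x hx
    have h1 := hV x (V.mem_nonunits_iff.2 hx)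
    rw [← V.valuation_le_one_iff, map_mul, map_inv₀] at h1
    have h0 : V.valuation (algebraMap O F₀ π) ≠ 0 := (map_ne_zero _).2 hT.pi_ne
    rwa [← div_eq_mul_inv, div_le_one₀ (zero_lt_iff.2 h0)] at h1
  exact forall_fin_two_vs V₁ V₂
    (P := fun V => ∀ x : F₀, V.valuation x < 1 → V.valuation x ≤ V.valuation (algebraMap O F₀ π))
    (key V₁ hT.unif₁) (key V₂ hT.unif₂)

/-- **Local roots of a second difference.**  See the file header. -/
theorem localRoots_sd (s : F₀) (hs : Transcendental K₀ s) [FiniteDimensional K₀⟮s⟯ F₀]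
    {π : O} (hπ : Irreducible π) (W : Subring F₀) (V₁ V₂ : ValuationSubring F₀)
    (hT : TwoVal π W V₁ V₂)
    (hR₁ : ∀ r : chartAlg O F₀ {s}, (r : F₀) ∈ V₁) (hR₂ : ∀ r : chartAlg O F₀ {s}, (r : F₀) ∈ V₂)
    (hsat : ∀ r : chartAlg O F₀ {s}, (r : F₀) ∈ V₁.nonunits → (r : F₀) ∈ V₂.nonunits →
      algebraMap O (chartAlg O F₀ {s}) π ∣ r)
    (g : SemilinearAut K₀ F₀)
    (hval₁ : ∀ b : F₀, V₁.valuation (g • b) = V₁.valuation b)
    (hval₂ : ∀ b : F₀, V₂.valuation (g • b) = V₂.valuation b)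
    (htriv₁ : ∀ x ∈ V₁, g • x - x ∈ V₁.nonunits) (htriv₂ : ∀ x ∈ V₂, g • x - x ∈ V₂.nonunits)
    (hstab : ∀ (𝔫 : Ideal (chartAlg O F₀ {s})) [𝔫.IsMaximal],
      algebraMap O (chartAlg O F₀ {s}) π ∈ 𝔫 → ∀ Q : Place K₀ F₀,
        CentredAt (chartAlg O F₀ {s}) 𝔫 Q → CentredAt (chartAlg O F₀ {s}) 𝔫 (g⁻¹ • Q))
    {f : F₀} (hf : f ≠ 0) {e : ℕ} (hdiv : ∀ Q : Place K₀ F₀, (e : ℤ) ∣ Q.ord f)
    (T : Finset (Place K₀ F₀)) (hsupp : ∀ Q : Place K₀ F₀, Q.ord f ≠ 0 → Q ∈ T)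
    (hLocP : ∀ (𝔫 : Ideal (chartAlg O F₀ {s})) [𝔫.IsMaximal],
      algebraMap O (chartAlg O F₀ {s}) π ∈ 𝔫 → ∀ Q : Place K₀ F₀,
        CentredAt (chartAlg O F₀ {s}) 𝔫 Q → Q.ord f ≠ 0 →
        ∃ b : F₀, b ≠ 0 ∧ Q.ord b = 1 ∧
          ∀ Q' : Place K₀ F₀, CentredAt (chartAlg O F₀ {s}) 𝔫 Q' → Q' ≠ Q → Q'.ord b = 0) :
    LocalRoots π W s (sd (SemilinearAut.toRingAut g) f) e := by
  classical
  intro 𝔫 h𝔫 hπ𝔫
  haveI : 𝔫.IsMaximal := h𝔫
  haveI : IsFractionRing (chartAlg O F₀ {s}) F₀ :=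
    Fermat.Agent.N4.Cover.Main.isFractionRing_chartAlg (O := O) (K₀ := K₀) s hs
  haveI : IsIntegrallyClosed (chartAlg O F₀ {s}) :=
    Fermat.Agent.N4.Cover.Main.isIntegrallyClosed_chartAlg (O := O) (K₀ := K₀) s hs
  haveI : IsNoetherianRing (chartAlg O F₀ {s}) :=
    Fermat.Agent.N4.IntClosure.isNoetherianRing_chartAlg (O := O) (K := K₀) s hs
  set σ : F₀ ≃+* F₀ := SemilinearAut.toRingAut g with hσ
  set τ : Equiv.Perm (Place K₀ F₀) := MulAction.toPerm g with hτdef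
  set V : Fin 2 → ValuationSubring F₀ := ![V₁, V₂] with hVdef
  -- the hypotheses of `UCrit`
  have hV : ∀ (i : Fin 2) (r : chartAlg O F₀ {s}),
      algebraMap (chartAlg O F₀ {s}) F₀ r ∈ V i := by
    intro i r
    exact forall_fin_two_vs V₁ V₂ (P := fun V => (r : F₀) ∈ V) (hR₁ r) (hR₂ r) i
  have hϖV : ∀ i : Fin 2, algebraMap (chartAlg O F₀ {s}) F₀
      (algebraMap O (chartAlg O F₀ {s}) π) ∈ (V i).nonunits := by
    intro i
    have h1 : algebraMap (chartAlg O F₀ {s}) F₀ (algebraMap O (chartAlg O F₀ {s}) π) =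
        algebraMap O F₀ π := rfl
    rw [h1]
    exact forall_fin_two_vs V₁ V₂ (P := fun V => algebraMap O F₀ π ∈ V.nonunits)
      hT.pi_mem₁ hT.pi_mem₂ i
  have hsat' : ∀ r : chartAlg O F₀ {s},
      (∀ i : Fin 2, algebraMap (chartAlg O F₀ {s}) F₀ r ∈ (V i).nonunits) →
      algebraMap O (chartAlg O F₀ {s}) π ∣ r := fun r h => hsat r (h 0) (h 1)
  have hvalV : ∀ (i : Fin 2) (b : F₀), (V i).valuation (σ b) = (V i).valuation b := fun i =>
    forall_fin_two_vs V₁ V₂ (P := fun V => ∀ b : F₀, V.valuation (σ b) = V.valuation b)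
      hval₁ hval₂ i
  have htrivV : ∀ i : Fin 2, ∀ x ∈ V i, σ x - x ∈ (V i).nonunits := fun i =>
    forall_fin_two_vs V₁ V₂ (P := fun V => ∀ x ∈ V, σ x - x ∈ V.nonunits) htriv₁ htriv₂ i
  have hord : OrdMul (fun (Q : Place K₀ F₀) (x : F₀) => Q.ord x) := ordMul_place
  have hτ : Compat (fun (Q : Place K₀ F₀) (x : F₀) => Q.ord x) σ τ := compat_place g
  -- places centred at `𝔫`
  have hCiff : ∀ Q : Place K₀ F₀, Q ∈ centredSet K₀ 𝔫 ↔ CentredAt (chartAlg O F₀ {s}) 𝔫 Q :=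
    fun Q => (centredAt_iff (R := chartAlg O F₀ {s}) (𝔫 := 𝔫) (v := Q)).symm
  have hC : ∀ Q ∈ centredSet K₀ 𝔫, τ.symm Q ∈ centredSet K₀ 𝔫 := by
    intro Q hQ
    rw [hCiff] at hQ ⊢
    exact hstab 𝔫 hπ𝔫 Q hQ
  -- the divisor `D = div f / e`
  set D : Place K₀ F₀ → ℤ := fun Q => Q.ord f / (e : ℤ) with hDdef
  have hDeq : ∀ Q : Place K₀ F₀, Q.ord f = (e : ℤ) * D Q := fun Q =>
    (Int.mul_ediv_cancel' (hdiv Q)).symm
  set S : Finset (Place K₀ F₀) :=
    T.filter (fun Q => Q ∈ centredSet K₀ 𝔫 ∧ Q.ord f ≠ 0) with hSdef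
  have hS : ∀ P ∈ S, CentredAt (chartAlg O F₀ {s}) 𝔫 P ∧ P.ord f ≠ 0 := by
    intro P hP
    have h := (Finset.mem_filter.1 hP).2
    exact ⟨(hCiff P).1 h.1, h.2⟩
  have hD : ∀ P ∈ centredSet K₀ 𝔫, P ∉ S → D P = 0 := by
    intro P hPC hPS
    have h0 : P.ord f = 0 := by
      by_contra hne
      exact hPS (Finset.mem_filter.2 ⟨hsupp P hne, hPC, hne⟩)
    show P.ord f / (e : ℤ) = 0
    rw [h0, Int.zero_ediv]
  -- local equations
  have hex : ∀ P : Place K₀ F₀, ∃ b : F₀, P ∈ S → (b ≠ 0 ∧ P.ord b = 1 ∧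
      ∀ Q' : Place K₀ F₀, CentredAt (chartAlg O F₀ {s}) 𝔫 Q' → Q' ≠ P → Q'.ord b = 0) := by
    intro P
    by_cases hP : P ∈ S
    · obtain ⟨b, hb⟩ := hLocP 𝔫 hπ𝔫 P (hS P hP).1 (hS P hP).2
      exact ⟨b, fun _ => hb⟩
    · exact ⟨1, fun h => absurd h hP⟩
  choose b hb using hex
  have hsd0 : sd σ f ≠ 0 := sd_ne_zero σ hf
  obtain ⟨η, hη0, hη1, w, hw, hηw⟩ := exists_localRoot_strong_at (K := K₀) V hV hπ hϖV hsat' 𝔫
    hT.pi_ne (pi_gen_of_twoVal hT) σ hvalV htrivV hord hτ hC S D hD b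
    (fun P hP => (hb P hP).1) (fun P hP => (hb P hP).2.1)
    (fun P hP Q hQ hQP => (hb P hP).2.2 Q ((hCiff Q).1 hQ) hQP)
    (p := e) (f := sd σ f) (g := 1) hsd0
    (fun Q _ => by
      rw [ord_sd hord hτ Q hf]
      show (τ.symm (τ.symm Q)).ord f - 2 * (τ.symm Q).ord f + Q.ord f = _
      rw [hDeq (τ.symm (τ.symm Q)), hDeq (τ.symm Q), hDeq Q]
      ring)
    (fun i => (isPU_sd σ (hvalV i) (htrivV i) hf).valuation_eq_one)
    one_ne_zero (fun Q _ => Q.ord_one) (fun i => map_one _)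
  exact ⟨η, hη0, hη1, w, (hT.mem_iff w).2 ((mem_iInfSubring_pair V₁ V₂).1 hw), hηw⟩

/-- `g⁻¹` preserves the places centred at a closed point of the special fibre, if `g` preserves the
chart and is trivial modulo `π` on it (`PointsLoc.centredAt_smul` for `g⁻¹`). -/
theorem centredAt_inv_smul {R : Subalgebra O F₀} {g : SemilinearAut K₀ F₀} {π : O}
    (hR : PointsLoc.StableUnder g R) (ht : PointsLoc.TrivialMod g R π)
    (𝔫 : Ideal ↥R) [𝔫.IsPrime] (hπ𝔫 : algebraMap O ↥R π ∈ 𝔫) {Q : Place K₀ F₀}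
    (hQ : CentredAt R 𝔫 Q) : CentredAt R 𝔫 (g⁻¹ • Q) := by
  have hR' : PointsLoc.StableUnder g⁻¹ R := by
    intro r
    rw [hR (g⁻¹ • r), smul_inv_smul]
  have ht' : PointsLoc.TrivialMod g⁻¹ R π := by
    intro r hr
    obtain ⟨t, ht1, ht2⟩ := ht.inv hR r hr
    refine ⟨-t, R.neg_mem ht1, ?_⟩
    rw [mul_neg, ← ht2]
    ring
  exact PointsLoc.centredAt_smul hR' ht' 𝔫 hπ𝔫 hQ

/-- **Local roots of a second difference**, with the stability of the sets of centred places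
derived from `g R = R` and `g ≡ id` modulo `π R`. -/
theorem localRoots_sd_of_trivialMod (s : F₀) (hs : Transcendental K₀ s)
    [FiniteDimensional K₀⟮s⟯ F₀]
    {π : O} (hπ : Irreducible π) (W : Subring F₀) (V₁ V₂ : ValuationSubring F₀)
    (hT : TwoVal π W V₁ V₂)
    (hR₁ : ∀ r : chartAlg O F₀ {s}, (r : F₀) ∈ V₁) (hR₂ : ∀ r : chartAlg O F₀ {s}, (r : F₀) ∈ V₂)
    (hsat : ∀ r : chartAlg O F₀ {s}, (r : F₀) ∈ V₁.nonunits → (r : F₀) ∈ V₂.nonunits →
      algebraMap O (chartAlg O F₀ {s}) π ∣ r)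
    (g : SemilinearAut K₀ F₀)
    (hval₁ : ∀ b : F₀, V₁.valuation (g • b) = V₁.valuation b)
    (hval₂ : ∀ b : F₀, V₂.valuation (g • b) = V₂.valuation b)
    (htriv₁ : ∀ x ∈ V₁, g • x - x ∈ V₁.nonunits) (htriv₂ : ∀ x ∈ V₂, g • x - x ∈ V₂.nonunits)
    (hR : PointsLoc.StableUnder g (chartAlg O F₀ {s}))
    (ht : PointsLoc.TrivialMod g (chartAlg O F₀ {s}) π)
    {f : F₀} (hf : f ≠ 0) {e : ℕ} (hdiv : ∀ Q : Place K₀ F₀, (e : ℤ) ∣ Q.ord f)
    (T : Finset (Place K₀ F₀)) (hsupp : ∀ Q : Place K₀ F₀, Q.ord f ≠ 0 → Q ∈ T)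
    (hLocP : ∀ (𝔫 : Ideal (chartAlg O F₀ {s})) [𝔫.IsMaximal],
      algebraMap O (chartAlg O F₀ {s}) π ∈ 𝔫 → ∀ Q : Place K₀ F₀,
        CentredAt (chartAlg O F₀ {s}) 𝔫 Q → Q.ord f ≠ 0 →
        ∃ b : F₀, b ≠ 0 ∧ Q.ord b = 1 ∧
          ∀ Q' : Place K₀ F₀, CentredAt (chartAlg O F₀ {s}) 𝔫 Q' → Q' ≠ Q → Q'.ord b = 0) :
    LocalRoots π W s (sd (SemilinearAut.toRingAut g) f) e :=
  localRoots_sd s hs hπ W V₁ V₂ hT hR₁ hR₂ hsat g hval₁ hval₂ htriv₁ htriv₂
    (fun 𝔫 _ hπ𝔫 _ hQ => centredAt_inv_smul hR ht 𝔫 hπ𝔫 hQ) hf hdiv T hsupp hLocP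

/-- `localRoots_sd` with the second difference written with the action of `g`. -/
theorem sd_toRingAut (g : SemilinearAut K₀ F₀) (f : F₀) :
    sd (SemilinearAut.toRingAut g) f = g • g • f * f / (g • f) ^ 2 := rfl

end Fermat.Agent.P3G.LocalRootsSd
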