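/-
P3-G blocks (G-N)/(G-L), pure commutative algebra (Mathlib + `P3G/NodeDeform` + `P3G/NodeLocal`):
**the point calculus at a crossing point with a FINITE-ORDER normal form** `u v = c + ε G`
(no completion, no exact normal form, `c = 0` allowed).

* `maximalIdeal_eq_span_of_transversal` (A2): in a local ring `S` with two ideals `𝔭₁ ∩ 𝔭₂ ⊆ (ϖ)`,
  `v ∈ 𝔭₁`, such that the image of `u` generates the maximal ideal of `S ⧸ 𝔭₁` and the image of `v`
  that of `S ⧸ 𝔭₂` (transversality), `𝔪_S = (u, v, ϖ)`; `mul_mem_span_of_mem`: `u v ∈ (ϖ)`.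
* `ratGen_of_span`: `NodeDeform.RatGen` from `𝔪_S = (u, v, ϖ)` and residue field `O / ϖ`;
  `exists_isApprox`: approximations of every order (wrapper around `NodeDeform.exists_approx`).
* `Approx.*`: `O` a discrete valuation ring, `φ : S →ₐ[O] O` an `O`-point, `𝔪_S = (u, v, ϖ)`,
  `u v = c + ε G` with `ε = φ u * e'`, `e' ∈ 𝔪_O` ("`v(φ u) < v(ε)`"; `ε = 0` is the exact case),
  `φ u ≠ 0`:
  - `key_identity`: `(v - β)(u - ε B) = (u - α)(ε A - β)`;
  - `cofactor_not_mem_ker`: `u - ε B ∉ ker φ`;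
  - `mul_ker_le`: `(u - ε B) · ker φ ⊆ (u - α)` (so `b_P := u - α_P` generates `ker φ` after
    localising at `ker φ`: a simple zero at `P`);
  - `ker_le_of_mem_prime`: a prime `𝔮 ∋ u - α` not containing the constant `α` contains `ker φ`;
  - `eq_comp_of_map_eq_zero`: a point `φ'` with values in a domain `O' ⊇ O` at which `u - α`
    vanishes is `φ` (so `b_P` is a unit at every other point centred at `𝔫`): (Loc-P);
  - `exists_mul_eq_const_mul`: `u v = α m` with `m ∈ (ϖ)` (vertical part: at a valuation `w₂`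
    with `w₂(v) = 0 < w₂(ϖ)`, `w₂(u) > w₂(α)` and `(u - α)/(-α) = 1 - m / v ≡ 1`).
-/
import Fermat.Agent.P3G.NodeDeform
import Fermat.Agent.P3G.NodeLocal

set_option autoImplicit false
set_option linter.unusedSectionVars false

namespace Fermat.Agent.P3G.NodeApprox

open IsLocalRing

section Transversal

variable {S : Type*} [CommRing S] [IsLocalRing S]

/-- **(A2) transversality ⇒ `𝔪 = (u, v, ϖ)`.** -/
theorem maximalIdeal_eq_span_of_transversal (ϖ u v : S) (p₁ p₂ : Ideal S)
    (hp : p₁ ⊓ p₂ ≤ Ideal.span {ϖ}) (hv : v ∈ p₁)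
    (hϖ : ϖ ∈ maximalIdeal S) (hum : u ∈ maximalIdeal S) (hvm : v ∈ maximalIdeal S)
    (h1 : ∀ m ∈ maximalIdeal S, ∃ a, m - a * u ∈ p₁)
    (h2 : ∀ m ∈ maximalIdeal S, ∃ b, m - b * v ∈ p₂) :
    maximalIdeal S = Ideal.span {u, v, ϖ} := by
  apply le_antisymm
  · intro m hm
    obtain ⟨a, ha⟩ := h1 m hm
    have hm' : m - a * u ∈ maximalIdeal S :=
      Ideal.sub_mem _ hm (Ideal.mul_mem_left _ _ hum)
    obtain ⟨b, hb⟩ := h2 _ hm'
    have h3 : m - a * u - b * v ∈ p₁ := Ideal.sub_mem _ ha (Ideal.mul_mem_left _ _ hv)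
    obtain ⟨y, hy⟩ := Ideal.mem_span_singleton'.1 (hp ⟨h3, hb⟩)
    have : m = a * u + b * v + y * ϖ := by rw [hy]; ring
    rw [this]
    refine Ideal.add_mem _ (Ideal.add_mem _ ?_ ?_) ?_
    · exact Ideal.mul_mem_left _ _ (Ideal.subset_span (by simp))
    · exact Ideal.mul_mem_left _ _ (Ideal.subset_span (by simp))
    · exact Ideal.mul_mem_left _ _ (Ideal.subset_span (by simp))
  · rw [Ideal.span_le]
    intro x hx
    rcases hx with rfl | rfl | rfl
    · exact hum
    · exact hvm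
    · exact hϖ

/-- With `u ∈ 𝔭₂`, `v ∈ 𝔭₁` and `𝔭₁ ∩ 𝔭₂ ⊆ (ϖ)`: `u v = ϖ G`. -/
theorem mul_mem_span_of_mem (ϖ u v : S) (p₁ p₂ : Ideal S)
    (hp : p₁ ⊓ p₂ ≤ Ideal.span {ϖ}) (hu : u ∈ p₂) (hv : v ∈ p₁) :
    ∃ G, u * v = ϖ * G := by
  have : u * v ∈ p₁ ⊓ p₂ := ⟨Ideal.mul_mem_left _ _ hv, Ideal.mul_mem_right _ _ hu⟩
  obtain ⟨y, hy⟩ := Ideal.mem_span_singleton'.1 (hp this)
  exact ⟨y, by rw [← hy]; ring⟩

end Transversal

section RatGen

variable {O S : Type*} [CommRing O] [CommRing S] [IsLocalRing S] [Algebra O S]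

/-- `NodeDeform.RatGen` from `𝔪_S = (u, v, ϖ)` and "residue field `= O / ϖ`". -/
theorem ratGen_of_span (ϖ : O) (u v : S)
    (hm : maximalIdeal S = Ideal.span {u, v, algebraMap O S ϖ})
    (hres : ∀ x : S, ∃ a : O, x - algebraMap O S a ∈ maximalIdeal S) :
    NodeDeform.RatGen ϖ u v := by
  intro x
  obtain ⟨a, ha⟩ := hres x
  rw [hm] at ha
  obtain ⟨r, y, hy, hxy⟩ := Ideal.mem_span_insert.1 ha
  obtain ⟨s, z, hz, rfl⟩ := Ideal.mem_span_insert.1 hy
  obtain ⟨t, rfl⟩ := Ideal.mem_span_singleton'.1 hz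
  refine ⟨a, r, s, t, ?_⟩
  linear_combination hxy

/-- **(A1)** approximations of every order at a transversal crossing point. -/
theorem exists_isApprox (ϖ : O) (u v : S)
    (hm : maximalIdeal S = Ideal.span {u, v, algebraMap O S ϖ})
    (hres : ∀ x : S, ∃ a : O, x - algebraMap O S a ∈ maximalIdeal S)
    {G : S} (h : u * v = algebraMap O S ϖ * G) (n : ℕ) :
    ∃ (s t : S) (c : O) (G' : S), NodeDeform.IsApprox ϖ u v n s t c G' := by
  obtain ⟨s, t, c, G', h1, -⟩ := NodeDeform.exists_approx (ratGen_of_span ϖ u v hm hres) h n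
  exact ⟨s, t, c, G', h1⟩

end RatGen

/-! ### The point calculus with a finite-order normal form `u v = c + ε G` -/

namespace Approx

variable {O S : Type*} [CommRing O] [IsDomain O] [IsDiscreteValuationRing O]
  [CommRing S] [IsLocalRing S] [IsNoetherianRing S] [Algebra O S]
variable {ϖ : O} {u v : S} {c ε : O} {G : S}

/-- Constants of `𝔪_O` lie in `𝔪_S`. -/
theorem algebraMap_mem_maximalIdeal (φ : S →ₐ[O] O) {e : O} (he : e ∈ maximalIdeal O) :
    algebraMap O S e ∈ maximalIdeal S := by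
  rw [mem_maximalIdeal, mem_nonunits_iff] at he ⊢
  intro h
  apply he
  have := h.map (φ : S →+* O)
  simpa using this

/-- `1 - e B` is a unit of `S` for `e ∈ 𝔪_O`. -/
theorem isUnit_one_sub (φ : S →ₐ[O] O) {e : O} (he : e ∈ maximalIdeal O) (B : S) :
    IsUnit (1 - algebraMap O S e * B) := by
  by_contra hnu
  have h4 : 1 - algebraMap O S e * B ∈ maximalIdeal S := hnu
  have h5 : algebraMap O S e * B ∈ maximalIdeal S :=
    Ideal.mul_mem_right _ _ (algebraMap_mem_maximalIdeal φ he)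
  have : (1 : S) ∈ maximalIdeal S := by
    have := Ideal.add_mem _ h4 h5
    simpa using this
  exact (Ideal.ne_top_iff_one _).1 (maximalIdeal.isMaximal S).ne_top this

/-- The constant term: `c = α β - ε G(P)`. -/
theorem algebraMap_c_eq (huv : u * v = algebraMap O S c + algebraMap O S ε * G) (φ : S →ₐ[O] O) :
    algebraMap O S c =
      algebraMap O S (φ u) * algebraMap O S (φ v) - algebraMap O S ε * algebraMap O S (φ G) := by
  have h := congrArg (fun x => algebraMap O S (φ x)) huv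
  simp only [map_add, map_mul, AlgHom.commutes, Algebra.algebraMap_self_apply] at h
  rw [h]; ring

/-- **Key identity.** If `u v = c + ε G` then `(v - β)(u - ε B) = (u - α)(ε A - β)` for suitable
`A B`, where `α = φ u`, `β = φ v`. -/
theorem key_identity (hϖ : Irreducible ϖ)
    (hm : maximalIdeal S = Ideal.span {u, v, algebraMap O S ϖ})
    (huv : u * v = algebraMap O S c + algebraMap O S ε * G) (φ : S →ₐ[O] O) :
    ∃ A B : S, (v - algebraMap O S (φ v)) * (u - algebraMap O S ε * B) =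
      (u - algebraMap O S (φ u)) * (algebraMap O S ε * A - algebraMap O S (φ v)) := by
  have hG : G - algebraMap O S (φ G) ∈ RingHom.ker φ := by
    rw [RingHom.mem_ker, map_sub, AlgHom.commutes]
    simp
  rw [NodeLocal.Node.ker_eq hϖ hm φ, Ideal.mem_span_pair] at hG
  obtain ⟨A, B, hAB⟩ := hG
  refine ⟨A, B, ?_⟩
  have hc := algebraMap_c_eq huv φ
  have h1 : u * v = algebraMap O S (φ u) * algebraMap O S (φ v) +
      algebraMap O S ε * (A * (u - algebraMap O S (φ u)) + B * (v - algebraMap O S (φ v))) := by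
    linear_combination huv + hc - algebraMap O S ε * hAB
  linear_combination h1

/-- The cofactor `u - ε B` does not vanish at `P` when `ε = α e'`, `e' ∈ 𝔪_O`, `α = φ u ≠ 0`. -/
theorem cofactor_not_mem_ker (φ : S →ₐ[O] O) (B : S) {e' : O} (he' : e' ∈ maximalIdeal O)
    (hε : ε = φ u * e') (hα : φ u ≠ 0) :
    u - algebraMap O S ε * B ∉ RingHom.ker φ := by
  rw [RingHom.mem_ker]
  have h1 : φ (u - algebraMap O S ε * B) = φ u * (1 - e' * φ B) := by
    rw [map_sub, map_mul, AlgHom.commutes, hε]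
    simp only [Algebra.algebraMap_self_apply]
    ring
  rw [h1]
  have hunit : IsUnit (1 - e' * φ B) := by
    by_contra h
    have h2 : 1 - e' * φ B ∈ maximalIdeal O := h
    have h3 : e' * φ B ∈ maximalIdeal O := Ideal.mul_mem_right _ _ he'
    have : (1 : O) ∈ maximalIdeal O := by
      have := Ideal.add_mem _ h2 h3
      simpa using this
    exact (Ideal.ne_top_iff_one _).1 (maximalIdeal.isMaximal O).ne_top this
  exact mul_ne_zero hα hunit.ne_zero

/-- **Local generator at a point through an approximate node**: there is `y ∉ ker φ` with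
`y · ker φ ⊆ (u - α)`; so in the localisation at `ker φ` the maximal ideal is generated by
`b_P := u - α_P`. -/
theorem mul_ker_le (hϖ : Irreducible ϖ)
    (hm : maximalIdeal S = Ideal.span {u, v, algebraMap O S ϖ})
    (huv : u * v = algebraMap O S c + algebraMap O S ε * G) (φ : S →ₐ[O] O)
    {e' : O} (he' : e' ∈ maximalIdeal O) (hε : ε = φ u * e') (hα : φ u ≠ 0) :
    ∃ y : S, y ∉ RingHom.ker φ ∧ ∀ x ∈ RingHom.ker φ,
      y * x ∈ Ideal.span {u - algebraMap O S (φ u)} := by
  obtain ⟨A, B, hAB⟩ := key_identity hϖ hm huv φ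
  refine ⟨u - algebraMap O S ε * B, cofactor_not_mem_ker φ B he' hε hα, ?_⟩
  intro x hx
  rw [NodeLocal.Node.ker_eq hϖ hm φ, Ideal.mem_span_pair] at hx
  obtain ⟨r, s, rfl⟩ := hx
  rw [Ideal.mem_span_singleton']
  refine ⟨r * (u - algebraMap O S ε * B) +
    s * (algebraMap O S ε * A - algebraMap O S (φ v)), ?_⟩
  linear_combination (-s) * hAB

/-- **`P` is the only horizontal prime through `u - α`**: a prime `𝔮 ∋ u - α` not containing the
constant `α` contains `ker φ`. -/
theorem ker_le_of_mem_prime (hϖ : Irreducible ϖ)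
    (hm : maximalIdeal S = Ideal.span {u, v, algebraMap O S ϖ})
    (huv : u * v = algebraMap O S c + algebraMap O S ε * G) (φ : S →ₐ[O] O)
    {e' : O} (he' : e' ∈ maximalIdeal O) (hε : ε = φ u * e')
    (q : Ideal S) [q.IsPrime] (hq : u - algebraMap O S (φ u) ∈ q)
    (hαq : algebraMap O S (φ u) ∉ q) :
    RingHom.ker φ ≤ q := by
  obtain ⟨A, B, hAB⟩ := key_identity hϖ hm huv φ
  rw [NodeLocal.Node.ker_eq hϖ hm φ, Ideal.span_le]
  have hvq : v - algebraMap O S (φ v) ∈ q := by
    have h1 : (v - algebraMap O S (φ v)) * (u - algebraMap O S ε * B) ∈ q := by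
      rw [hAB]; exact Ideal.mul_mem_right _ _ hq
    rcases Ideal.IsPrime.mem_or_mem ‹q.IsPrime› h1 with h | h
    · exact h
    · exfalso
      have h2 : u - algebraMap O S ε * B = (u - algebraMap O S (φ u)) +
          algebraMap O S (φ u) * (1 - algebraMap O S e' * B) := by
        rw [hε, map_mul]; ring
      have h3 : algebraMap O S (φ u) * (1 - algebraMap O S e' * B) ∈ q := by
        have := Ideal.sub_mem _ h hq
        rwa [h2, add_sub_cancel_left] at this
      have hunit := isUnit_one_sub φ he' B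
      rcases Ideal.IsPrime.mem_or_mem ‹q.IsPrime› h3 with h6 | h6
      · exact hαq h6
      · exact (Ideal.ne_top_iff_one q).1 (Ideal.IsPrime.ne_top ‹q.IsPrime›)
          (by simpa using Ideal.mul_mem_left q (↑hunit.unit⁻¹ : S) h6)
  intro x hx
  rcases hx with rfl | rfl
  · exact hq
  · exact hvq

/-- **Uniqueness** ((Loc-P), "unit at every other point"): a point `φ'` with values in a domain
`O' ⊇ O` at which `u - α` vanishes is `φ`. -/
theorem eq_comp_of_map_eq_zero {O' : Type*} [CommRing O'] [IsDomain O'] [Algebra O O']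
    [FaithfulSMul O O'] (hϖ : Irreducible ϖ)
    (hm : maximalIdeal S = Ideal.span {u, v, algebraMap O S ϖ})
    (huv : u * v = algebraMap O S c + algebraMap O S ε * G) (φ : S →ₐ[O] O)
    {e' : O} (he' : e' ∈ maximalIdeal O) (hε : ε = φ u * e') (hα : φ u ≠ 0)
    (φ' : S →ₐ[O] O') (h : φ' (u - algebraMap O S (φ u)) = 0) :
    φ' = (Algebra.ofId O O').comp φ := by
  refine NodeLocal.eq_comp_of_le_ker φ φ' ?_
  have hinj : Function.Injective (algebraMap O O') := FaithfulSMul.algebraMap_injective O O'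
  haveI : (RingHom.ker φ').IsPrime := RingHom.ker_isPrime _
  refine ker_le_of_mem_prime hϖ hm huv φ he' hε (RingHom.ker φ') ((RingHom.mem_ker).2 h) ?_
  rw [RingHom.mem_ker, AlgHom.commutes]
  intro h0
  exact hα (hinj (by rw [h0, map_zero]))

/-- **Vertical part**: `u v = α m` with `m ∈ (ϖ)`; hence `w₂(u) > w₂(α)` at any valuation with
`w₂(v) = 0 < w₂(ϖ)`, and `(u - α)/(-α) = 1 - m / v ≡ 1` there. -/
theorem exists_mul_eq_const_mul (hϖ : Irreducible ϖ)
    (hm : maximalIdeal S = Ideal.span {u, v, algebraMap O S ϖ})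
    (huv : u * v = algebraMap O S c + algebraMap O S ε * G) (φ : S →ₐ[O] O)
    {e' : O} (he' : e' ∈ maximalIdeal O) (hε : ε = φ u * e') :
    ∃ m ∈ Ideal.span {algebraMap O S ϖ}, u * v = algebraMap O S (φ u) * m := by
  have hvm : v ∈ maximalIdeal S := by rw [hm]; exact Ideal.subset_span (by simp)
  obtain ⟨b₀, hb₀⟩ := Ideal.mem_span_singleton'.1 (NodeLocal.map_mem_span hϖ φ hvm)
  rw [hϖ.maximalIdeal_eq] at he'
  obtain ⟨e₀, he₀⟩ := Ideal.mem_span_singleton'.1 he'
  refine ⟨algebraMap O S (φ v) + algebraMap O S e' * (G - algebraMap O S (φ G)), ?_, ?_⟩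
  · rw [← hb₀, ← he₀, map_mul, map_mul]
    refine Ideal.add_mem _ (Ideal.mul_mem_left _ _ (Ideal.subset_span rfl)) ?_
    exact Ideal.mul_mem_right _ _ (Ideal.mul_mem_left _ _ (Ideal.subset_span rfl))
  · have hc := algebraMap_c_eq huv φ
    rw [huv, hc, hε, map_mul]; ring

end Approx

end Fermat.Agent.P3G.NodeApprox
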