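/-
P3-G, pure commutative algebra (Mathlib + NodeDeform + NodeLocal), helper10:
**rational points through an APPROXIMATE node — no exact normal form, no completion, no regularity.**

`O` a discrete valuation ring with uniformiser `ϖ`, `S` a noetherian local `O`-algebra with
`𝔪_S = (u, v, ϖ)` and an approximate node relation of order `n`
`u v = c + ϖ^(n+1) G` (`IsApproxNode`; such `u, v` exist for every `n` by `NodeDeform.exists_approx`).
An `O`-point centred at the closed point is `φ : S →ₐ[O] O`.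

* `LP` (local principality at depth `n`): if `φ u ∉ (ϖ^(n+1))` then `b := u - φ u` is a local
  generator of `ker φ` (`exists_mul_ker_le`: `d · ker φ ⊆ (b)` with `d ∉ ker φ`) and every point
  `φ'` (values in any domain `O' ⊇ O`) at which `b` vanishes is `φ` (`eq_comp_of_map_eq_zero`).
  This is (Loc-P) of the P3-G blueprint; the exact node `u v = c ≠ 0` of `NodeLocal.Node` is the
  special case `G = 0`.
* `Bad points are inertia-fixed`: if for every `n` there is an order-`n` approximation at which BOTH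
  `φ u`, `φ v` lie in `(ϖ^(n+1))`, then `ker φ = ⋂ₙ (u_n, v_n, ϖ^(n+1))` and
  `(v_n, ϖ^(n+1))`, `(u_n, ϖ^(n+1))` are the symbolic powers of the two vertical primes
  `𝔭₁ = (v, ϖ)`, `𝔭₂ = (u, ϖ)`; hence every ring automorphism `σ` of `S` fixing `𝔭₁`, `𝔭₂` and
  the ideal `(ϖ)` fixes `ker φ` (`ker_map_iff_of_deep`).
* `lp_or_deep`: the dichotomy for an arbitrary point.
-/
import Mathlib
import Fermat.Agent.P3G.NodeDeform
import Fermat.Agent.P3G.NodeLocal

set_option autoImplicit false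
set_option linter.unusedSectionVars false

namespace Fermat.Agent.P3G.NodePoints

open IsLocalRing
open Fermat.Agent.P3G.NodeLocal

variable {O S : Type*} [CommRing O] [IsDomain O] [IsDiscreteValuationRing O]
  [CommRing S] [IsLocalRing S] [IsNoetherianRing S] [Algebra O S]

/-- An approximate node of order `n`: `u v = c + ϖ^(n+1) G`. -/
def IsApproxNode (ϖ : O) (n : ℕ) (u v : S) (c : O) (G : S) : Prop :=
  u * v = algebraMap O S c + algebraMap O S ϖ ^ (n + 1) * G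

theorem isApproxNode_of_isApprox {ϖ : O} {n : ℕ} {u v s t : S} {c : O} {G : S}
    (h : NodeDeform.IsApprox ϖ u v n s t c G) :
    IsApproxNode ϖ n (u + algebraMap O S ϖ * s) (v + algebraMap O S ϖ * t) c G := h

section LP

variable {ϖ : O} {n : ℕ} {u v : S} {c : O} {G : S}

theorem map_mul_eq (happ : IsApproxNode ϖ n u v c G) (φ : S →ₐ[O] O) :
    φ u * φ v = c + ϖ ^ (n + 1) * φ G := by
  have h := congrArg φ happ
  rw [map_mul, map_add, map_mul, map_pow, AlgHom.commutes, AlgHom.commutes] at h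
  simpa using h

theorem uniformizer_mem_maximalIdeal
    (hm : maximalIdeal S = Ideal.span {u, v, algebraMap O S ϖ}) :
    algebraMap O S ϖ ∈ maximalIdeal S := by
  rw [hm]; exact Ideal.subset_span (by simp)

/-- **The key identity**: `(v - β)(u - ϖ^(n+1) B) = (u - α)(ϖ^(n+1) A - β)`. -/
theorem key_identity (hϖ : Irreducible ϖ)
    (hm : maximalIdeal S = Ideal.span {u, v, algebraMap O S ϖ})
    (happ : IsApproxNode ϖ n u v c G) (φ : S →ₐ[O] O) :
    ∃ A B : S, (v - algebraMap O S (φ v)) * (u - algebraMap O S ϖ ^ (n + 1) * B) =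
      (u - algebraMap O S (φ u)) * (algebraMap O S ϖ ^ (n + 1) * A - algebraMap O S (φ v)) := by
  have hG : G - algebraMap O S (φ G) ∈ RingHom.ker φ := by
    rw [RingHom.mem_ker, map_sub, AlgHom.commutes]
    simp
  rw [Node.ker_eq hϖ hm φ, Ideal.mem_span_pair] at hG
  obtain ⟨A, B, hAB⟩ := hG
  refine ⟨A, B, ?_⟩
  have h1 := map_mul_eq happ φ
  have h2 : algebraMap O S (φ u) * algebraMap O S (φ v) =
      algebraMap O S c + algebraMap O S ϖ ^ (n + 1) * algebraMap O S (φ G) := by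
    rw [← map_mul, h1, map_add, map_mul, map_pow]
  unfold IsApproxNode at happ
  linear_combination happ - h2 - (algebraMap O S ϖ) ^ (n + 1) * hAB

/-- **(Loc-P), local generator**: if `φ u ∉ (ϖ^(n+1))`, then `d · ker φ ⊆ (u - φ u)` for some
`d ∉ ker φ`; so `ker φ · S_{ker φ}` is generated by `b_P := u - α_P` (simple zero at `P`). -/
theorem exists_mul_ker_le (hϖ : Irreducible ϖ)
    (hm : maximalIdeal S = Ideal.span {u, v, algebraMap O S ϖ})
    (happ : IsApproxNode ϖ n u v c G) (φ : S →ₐ[O] O)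
    (hα : φ u ∉ Ideal.span {ϖ ^ (n + 1)}) :
    ∃ d : S, d ∉ RingHom.ker φ ∧
      ∀ x ∈ RingHom.ker φ, d * x ∈ Ideal.span {u - algebraMap O S (φ u)} := by
  obtain ⟨A, B, hid⟩ := key_identity hϖ hm happ φ
  refine ⟨u - algebraMap O S ϖ ^ (n + 1) * B, ?_, ?_⟩
  · intro hd
    rw [RingHom.mem_ker, map_sub, map_mul, map_pow, AlgHom.commutes, sub_eq_zero] at hd
    apply hα
    rw [Ideal.mem_span_singleton']
    refine ⟨φ B, ?_⟩
    rw [hd]
    simp [mul_comm]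
  · intro x hx
    rw [Node.ker_eq hϖ hm φ, Ideal.mem_span_pair] at hx
    obtain ⟨a, b, rfl⟩ := hx
    rw [Ideal.mem_span_singleton']
    refine ⟨(u - algebraMap O S ϖ ^ (n + 1) * B) * a +
      b * (algebraMap O S ϖ ^ (n + 1) * A - algebraMap O S (φ v)), ?_⟩
    linear_combination (-b) * hid

/-- **(Loc-P), uniqueness**: a point `φ'` (values in a domain `O' ⊇ O`) at which `u - α` vanishes
is `φ`, provided `α = φ u ∉ (ϖ^(n+1))`. -/
theorem eq_comp_of_map_eq_zero {O' : Type*} [CommRing O'] [IsDomain O'] [Algebra O O']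
    [FaithfulSMul O O'] (hϖ : Irreducible ϖ)
    (hm : maximalIdeal S = Ideal.span {u, v, algebraMap O S ϖ})
    (happ : IsApproxNode ϖ n u v c G) (φ : S →ₐ[O] O)
    (hα : φ u ∉ Ideal.span {ϖ ^ (n + 1)}) (φ' : S →ₐ[O] O')
    (h : φ' (u - algebraMap O S (φ u)) = 0) : φ' = (Algebra.ofId O O').comp φ := by
  obtain ⟨A, B, hid⟩ := key_identity hϖ hm happ φ
  have hinj : Function.Injective (algebraMap O O') := FaithfulSMul.algebraMap_injective O O'
  refine eq_comp_of_le_ker φ φ' ?_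
  rw [Node.ker_eq hϖ hm φ, Ideal.span_le]
  rintro x (rfl | rfl)
  · exact (RingHom.mem_ker).2 h
  · rw [SetLike.mem_coe, RingHom.mem_ker]
    have h1 := congrArg φ' hid
    rw [map_mul, map_mul, h, zero_mul] at h1
    rcases mul_eq_zero.1 h1 with h2 | h2
    · exact h2
    · exfalso
      -- `α = ε ϖ^a` with `a ≤ n`
      have hα0 : φ u ≠ 0 := fun h0 => hα (h0 ▸ Ideal.zero_mem _)
      obtain ⟨a, ε, hαε⟩ := IsDiscreteValuationRing.eq_unit_mul_pow_irreducible hα0 hϖ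
      have ha : a ≤ n := by
        by_contra hlt
        apply hα
        rw [Ideal.mem_span_singleton', hαε]
        obtain ⟨d, hd⟩ : ∃ d, a = n + 1 + d := ⟨a - (n + 1), by omega⟩
        exact ⟨(ε : O) * ϖ ^ d, by rw [hd]; ring⟩
      obtain ⟨k, hk⟩ : ∃ k, n + 1 = a + (k + 1) := ⟨n - a, by omega⟩
      -- the unit `η := ε - ϖ^(k+1) B` of `S`
      set w := algebraMap O S ϖ with hw
      have hwm : w ∈ maximalIdeal S := uniformizer_mem_maximalIdeal hm
      have hy : w ^ (k + 1) * B ∈ maximalIdeal S := by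
        rw [pow_succ, mul_assoc]
        exact Ideal.mul_mem_left _ _ (Ideal.mul_mem_right _ _ hwm)
      have hεu : IsUnit (algebraMap O S (ε : O)) := ε.isUnit.map _
      have hη : IsUnit (algebraMap O S (ε : O) - w ^ (k + 1) * B) := by
        by_contra hnu
        have h3 : algebraMap O S (ε : O) - w ^ (k + 1) * B ∈ maximalIdeal S :=
          (mem_maximalIdeal _).2 hnu
        have h4 := Ideal.add_mem _ h3 hy
        rw [sub_add_cancel] at h4
        exact ((mem_maximalIdeal _).1 h4) hεu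
      have hη' : φ' (algebraMap O S (ε : O) - w ^ (k + 1) * B) ≠ 0 := (hη.map φ').ne_zero
      -- but `ϖ^a · φ' η = φ' (u - ϖ^(n+1) B) = 0`
      have hu' : φ' u = algebraMap O O' (φ u) := by
        rw [map_sub, AlgHom.commutes, sub_eq_zero] at h
        exact h
      have h5 : algebraMap O O' ϖ ^ a * φ' (algebraMap O S (ε : O) - w ^ (k + 1) * B) = 0 := by
        rw [map_sub, map_mul, map_pow, AlgHom.commutes, hw, AlgHom.commutes]
        rw [map_sub, map_mul, map_pow, AlgHom.commutes, hu', hαε, hk] at h2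
        rw [map_mul, map_pow] at h2
        linear_combination h2
      rcases mul_eq_zero.1 h5 with h6 | h6
      · have : algebraMap O O' ϖ ≠ 0 := fun h0 =>
          hϖ.ne_zero (hinj (by rw [h0, map_zero]))
        exact pow_ne_zero a this h6
      · exact hη' h6

end LP

/-! ### Deep ("bad") points are fixed by inertia -/

section Deep

variable [IsDomain S] {ϖ : O}

/-- Membership in the `m`-th symbolic power of `𝔭` (w.r.t. the parameter `ϖ`):
`x ∈ ϖ^m S_𝔭 ∩ S`. -/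
def InSymb (ϖ : O) (𝔭 : Ideal S) (m : ℕ) (x : S) : Prop :=
  ∃ s : S, s ∉ 𝔭 ∧ s * x ∈ Ideal.span {algebraMap O S ϖ ^ m}

/-- `(v, ϖ^m)` is the `m`-th symbolic power of `𝔭 = (v, ϖ)` as soon as `u v ∈ (ϖ^m)` for some
`u ∉ 𝔭`. -/
theorem mem_span_of_inSymb {𝔭 : Ideal S} [h𝔭p : 𝔭.IsPrime] {u v : S}
    (h𝔭 : 𝔭 = Ideal.span {v, algebraMap O S ϖ}) (hu : u ∉ 𝔭)
    (hw : algebraMap O S ϖ ≠ 0) {m : ℕ}
    (huv : u * v ∈ Ideal.span {algebraMap O S ϖ ^ m}) {x : S} (hx : InSymb ϖ 𝔭 m x) :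
    x ∈ Ideal.span {v, algebraMap O S ϖ ^ m} := by
  set w := algebraMap O S ϖ with hwdef
  obtain ⟨s, hs, hsx⟩ := hx
  obtain ⟨e, he⟩ := Ideal.mem_span_singleton'.1 hsx
  obtain ⟨f, hf⟩ := Ideal.mem_span_singleton'.1 huv
  have key : ∀ k : ℕ, k ≤ m → x ∈ Ideal.span {v, w ^ k} := by
    intro k
    induction k with
    | zero =>
      intro _
      rw [pow_zero]
      have : Ideal.span {v, (1 : S)} = ⊤ :=
        Ideal.eq_top_of_isUnit_mem _ (Ideal.subset_span (by simp)) isUnit_one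
      rw [this]; trivial
    | succ k ih =>
      intro hk
      obtain ⟨y, z, hyz⟩ := Ideal.mem_span_pair.1 (ih (by omega))
      obtain ⟨j, hj⟩ : ∃ j, m = k + (j + 1) := ⟨m - k - 1, by omega⟩
      -- `u s z ∈ (w) ⊆ 𝔭`
      have h1 : w ^ k * (u * s * z) = w ^ k * (w ^ (j + 1) * (u * e - s * y * f)) := by
        have e1 : s * x = s * y * v + s * z * w ^ k := by rw [← hyz]; ring
        have e2 : w ^ m = w ^ k * w ^ (j + 1) := by rw [hj, pow_add]
        have he' : e * w ^ m = s * x := he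
        linear_combination (-u) * e1 - u * he' + (s * y) * hf + (u * e - s * y * f) * e2
      have h2 : u * s * z = w ^ (j + 1) * (u * e - s * y * f) :=
        mul_left_cancel₀ (pow_ne_zero k hw) h1
      have hwp : w ∈ 𝔭 := by rw [h𝔭]; exact Ideal.subset_span (by simp)
      have h3 : u * s * z ∈ 𝔭 := by
        rw [h2, pow_succ, mul_assoc]
        exact Ideal.mul_mem_left _ _ (Ideal.mul_mem_right _ _ hwp)
      have hz : z ∈ 𝔭 := by
        rcases h𝔭p.mem_or_mem h3 with h4 | h4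
        · rcases h𝔭p.mem_or_mem h4 with h5 | h5
          · exact absurd h5 hu
          · exact absurd h5 hs
        · exact h4
      rw [h𝔭] at hz
      obtain ⟨y', z', hz'⟩ := Ideal.mem_span_pair.1 hz
      rw [Ideal.mem_span_pair]
      refine ⟨y + y' * w ^ k, z', ?_⟩
      rw [← hyz, ← hz']
      ring
  exact key m le_rfl

/-- The symbolic powers are stable under ring automorphisms fixing `𝔭` and the ideal `(ϖ)`. -/
theorem inSymb_map (σ : S ≃+* S) {𝔭 : Ideal S} (hσ𝔭 : ∀ x, x ∈ 𝔭 ↔ σ x ∈ 𝔭)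
    (hσw : σ (algebraMap O S ϖ) ∈ Ideal.span {algebraMap O S ϖ}) {m : ℕ} {x : S}
    (hx : InSymb ϖ 𝔭 m x) : InSymb ϖ 𝔭 m (σ x) := by
  obtain ⟨s, hs, hsx⟩ := hx
  obtain ⟨e, he⟩ := Ideal.mem_span_singleton'.1 hsx
  obtain ⟨ρ, hρ⟩ := Ideal.mem_span_singleton'.1 hσw
  refine ⟨σ s, fun h => hs ((hσ𝔭 s).2 h), ?_⟩
  rw [Ideal.mem_span_singleton']
  refine ⟨σ e * ρ ^ m, ?_⟩
  rw [← map_mul, ← he, map_mul, map_pow, ← hρ]
  ring

theorem span_pair_congr {v v' w : S} (hv : v' - v ∈ Ideal.span {w}) :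
    Ideal.span {v', w} = Ideal.span {v, w} := by
  obtain ⟨a, ha⟩ := Ideal.mem_span_singleton'.1 hv
  apply le_antisymm
  · rw [Ideal.span_le]
    rintro z (rfl | rfl)
    · rw [SetLike.mem_coe, Ideal.mem_span_pair]
      exact ⟨1, a, by rw [ha]; ring⟩
    · exact Ideal.subset_span (by simp)
  · rw [Ideal.span_le]
    rintro z (rfl | rfl)
    · rw [SetLike.mem_coe, Ideal.mem_span_pair]
      exact ⟨1, -a, by linear_combination (-1 : S) * ha⟩
    · exact Ideal.subset_span (by simp)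

/-- A point `φ` is *deep of order `n`* w.r.t. the base coordinates `(u, v)` if some order-`n`
approximation `(u', v')` has both `φ u'`, `φ v'` in `(ϖ^(n+1))`. -/
def IsDeep (ϖ : O) (u v : S) (φ : S →ₐ[O] O) (n : ℕ) : Prop :=
  ∃ (u' v' : S) (c : O) (G : S), u' - u ∈ Ideal.span {algebraMap O S ϖ} ∧
    v' - v ∈ Ideal.span {algebraMap O S ϖ} ∧ IsApproxNode ϖ n u' v' c G ∧
    φ u' ∈ Ideal.span {ϖ ^ (n + 1)} ∧ φ v' ∈ Ideal.span {ϖ ^ (n + 1)}

variable {𝔭₁ 𝔭₂ : Ideal S} [h𝔭₁p : 𝔭₁.IsPrime] [h𝔭₂p : 𝔭₂.IsPrime] {u v : S}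

/-- One level of the argument: a point deep of order `n` satisfies
`φ (σ x) ∈ (ϖ^(n+1))` for all `x ∈ ker φ`. -/
theorem map_mem_of_isDeep (hϖ : Irreducible ϖ)
    (hm : maximalIdeal S = Ideal.span {u, v, algebraMap O S ϖ})
    (h₁ : 𝔭₁ = Ideal.span {v, algebraMap O S ϖ}) (h₂ : 𝔭₂ = Ideal.span {u, algebraMap O S ϖ})
    (hu : u ∉ 𝔭₁) (hv : v ∉ 𝔭₂) (hw : algebraMap O S ϖ ≠ 0) (φ : S →ₐ[O] O) {n : ℕ}
    (hdeep : IsDeep ϖ u v φ n)
    (σ : S ≃+* S) (hσ₁ : ∀ x, x ∈ 𝔭₁ ↔ σ x ∈ 𝔭₁) (hσ₂ : ∀ x, x ∈ 𝔭₂ ↔ σ x ∈ 𝔭₂)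
    (hσw : σ (algebraMap O S ϖ) ∈ Ideal.span {algebraMap O S ϖ})
    {x : S} (hx : x ∈ RingHom.ker φ) : φ (σ x) ∈ Ideal.span {ϖ ^ (n + 1)} := by
  set w := algebraMap O S ϖ with hwdef
  obtain ⟨u', v', c, G, hu', hv', happ, hα, hβ⟩ := hdeep
  have hm' : maximalIdeal S = Ideal.span {u', v', w} := by
    rw [hm]; exact (NodeDeform.span_eq_of_congr hu' hv').symm
  have hw1 : w ∈ 𝔭₁ := by rw [h₁]; exact Ideal.subset_span (by simp)
  have hw2 : w ∈ 𝔭₂ := by rw [h₂]; exact Ideal.subset_span (by simp)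
  have h₁' : 𝔭₁ = Ideal.span {v', w} := by rw [h₁]; exact (span_pair_congr hv').symm
  have h₂' : 𝔭₂ = Ideal.span {u', w} := by rw [h₂]; exact (span_pair_congr hu').symm
  have hu1 : u' ∉ 𝔭₁ := by
    intro h
    apply hu
    obtain ⟨a, ha⟩ := Ideal.mem_span_singleton'.1 hu'
    have : u = u' - a * w := by rw [ha]; ring
    rw [this]
    exact Ideal.sub_mem _ h (Ideal.mul_mem_left _ _ hw1)
  have hv2 : v' ∉ 𝔭₂ := by
    intro h
    apply hv
    obtain ⟨a, ha⟩ := Ideal.mem_span_singleton'.1 hv'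
    have : v = v' - a * w := by rw [ha]; ring
    rw [this]
    exact Ideal.sub_mem _ h (Ideal.mul_mem_left _ _ hw2)
  -- `c ∈ (ϖ^(n+1))`, hence `u' v' ∈ (w^(n+1))`
  have hc : c ∈ Ideal.span {ϖ ^ (n + 1)} := by
    have h1 := map_mul_eq happ φ
    have h2 : c = φ u' * φ v' - ϖ ^ (n + 1) * φ G := by rw [h1]; ring
    rw [h2]
    exact Ideal.sub_mem _ (Ideal.mul_mem_right _ _ hα)
      (Ideal.mul_mem_right _ _ (Ideal.mem_span_singleton_self _))
  have hmapc : ∀ a : O, a ∈ Ideal.span {ϖ ^ (n + 1)} →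
      algebraMap O S a ∈ Ideal.span {w ^ (n + 1)} := by
    intro a ha
    obtain ⟨b, hb⟩ := Ideal.mem_span_singleton'.1 ha
    rw [← hb, map_mul, map_pow]
    exact Ideal.mul_mem_left _ _ (Ideal.mem_span_singleton_self _)
  have huv : u' * v' ∈ Ideal.span {w ^ (n + 1)} := by
    unfold IsApproxNode at happ
    rw [happ]
    exact Ideal.add_mem _ (hmapc c hc) (Ideal.mul_mem_right _ _ (Ideal.mem_span_singleton_self _))
  have hvu : v' * u' ∈ Ideal.span {w ^ (n + 1)} := by rw [mul_comm]; exact huv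
  -- the ideal `𝔟 := φ⁻¹(ϖ^(n+1))`
  set 𝔟 : Ideal S := Ideal.comap φ.toRingHom (Ideal.span {ϖ ^ (n + 1)}) with h𝔟
  have hmem𝔟 : ∀ y : S, y ∈ 𝔟 ↔ φ y ∈ Ideal.span {ϖ ^ (n + 1)} := fun y => Iff.rfl
  have hwn : w ^ (n + 1) ∈ 𝔟 := by
    rw [hmem𝔟, map_pow, hwdef, AlgHom.commutes]
    exact Ideal.mem_span_singleton_self _
  have hσwn : σ w ^ (n + 1) ∈ 𝔟 := by
    obtain ⟨ρ, hρ⟩ := Ideal.mem_span_singleton'.1 hσw
    rw [← hρ, mul_pow]
    exact Ideal.mul_mem_left _ _ hwn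
  have hpair : ∀ t : S, φ t ∈ Ideal.span {ϖ ^ (n + 1)} →
      Ideal.span {t, w ^ (n + 1)} ≤ 𝔟 := by
    intro t ht
    rw [Ideal.span_le]
    rintro z (rfl | rfl)
    · exact ht
    · exact hwn
  -- `σ v' ∈ (v', w^(n+1))`, `σ u' ∈ (u', w^(n+1))`
  have hσv : σ v' ∈ 𝔟 := by
    have h1 : InSymb ϖ 𝔭₁ (n + 1) v' := ⟨u', hu1, huv⟩
    exact hpair v' hβ (mem_span_of_inSymb h₁' hu1 hw huv (inSymb_map σ hσ₁ hσw h1))
  have hσu : σ u' ∈ 𝔟 := by
    have h1 : InSymb ϖ 𝔭₂ (n + 1) u' := ⟨v', hv2, hvu⟩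
    exact hpair u' hα (mem_span_of_inSymb h₂' hv2 hw hvu (inSymb_map σ hσ₂ hσw h1))
  have hσconst : ∀ a : O, a ∈ Ideal.span {ϖ ^ (n + 1)} → σ (algebraMap O S a) ∈ 𝔟 := by
    intro a ha
    obtain ⟨b, hb⟩ := Ideal.mem_span_singleton'.1 ha
    rw [← hb, map_mul, map_pow, map_mul, map_pow]
    exact Ideal.mul_mem_left _ _ hσwn
  -- conclude
  rw [Node.ker_eq hϖ hm' φ, Ideal.mem_span_pair] at hx
  obtain ⟨a, b, rfl⟩ := hx
  rw [← hmem𝔟, map_add, map_mul, map_mul, map_sub, map_sub]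
  exact Ideal.add_mem _
    (Ideal.mul_mem_left _ _ (Ideal.sub_mem _ hσu (hσconst _ hα)))
    (Ideal.mul_mem_left _ _ (Ideal.sub_mem _ hσv (hσconst _ hβ)))

/-- In a discrete valuation ring, `⋂ₙ (ϖ^(n+1)) = 0`. -/
theorem eq_zero_of_forall_mem_span_pow (hϖ : Irreducible ϖ) {a : O}
    (h : ∀ n : ℕ, a ∈ Ideal.span {ϖ ^ (n + 1)}) : a = 0 := by
  by_contra ha
  obtain ⟨k, ε, hε⟩ := IsDiscreteValuationRing.eq_unit_mul_pow_irreducible ha hϖ
  obtain ⟨b, hb⟩ := Ideal.mem_span_singleton'.1 (h k)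
  -- `ε ϖ^k = b ϖ^(k+1)` ⇒ `ε = b ϖ`
  have h1 : ϖ ^ k * (ε : O) = ϖ ^ k * (b * ϖ) := by
    rw [hε] at hb
    linear_combination -hb
  have h2 : (ε : O) = b * ϖ := mul_left_cancel₀ (pow_ne_zero k hϖ.ne_zero) h1
  exact hϖ.not_isUnit (isUnit_of_mul_isUnit_right (h2 ▸ ε.isUnit))

/-- **Deep points are inertia-fixed**: if `φ` is deep of every order, then every ring automorphism
`σ` of `S` fixing the two vertical primes and the ideal `(ϖ)` maps `ker φ` into itself. -/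
theorem map_mem_ker_of_deep (hϖ : Irreducible ϖ)
    (hm : maximalIdeal S = Ideal.span {u, v, algebraMap O S ϖ})
    (h₁ : 𝔭₁ = Ideal.span {v, algebraMap O S ϖ}) (h₂ : 𝔭₂ = Ideal.span {u, algebraMap O S ϖ})
    (hu : u ∉ 𝔭₁) (hv : v ∉ 𝔭₂) (hw : algebraMap O S ϖ ≠ 0) (φ : S →ₐ[O] O)
    (hdeep : ∀ n : ℕ, IsDeep ϖ u v φ n)
    (σ : S ≃+* S) (hσ₁ : ∀ x, x ∈ 𝔭₁ ↔ σ x ∈ 𝔭₁) (hσ₂ : ∀ x, x ∈ 𝔭₂ ↔ σ x ∈ 𝔭₂)
    (hσw : σ (algebraMap O S ϖ) ∈ Ideal.span {algebraMap O S ϖ})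
    {x : S} (hx : x ∈ RingHom.ker φ) : σ x ∈ RingHom.ker φ := by
  rw [RingHom.mem_ker]
  exact eq_zero_of_forall_mem_span_pow hϖ fun n =>
    map_mem_of_isDeep hϖ hm h₁ h₂ hu hv hw φ (hdeep n) σ hσ₁ hσ₂ hσw hx

/-- Two-sided form: `σ (ker φ) = ker φ`. -/
theorem ker_map_iff_of_deep (hϖ : Irreducible ϖ)
    (hm : maximalIdeal S = Ideal.span {u, v, algebraMap O S ϖ})
    (h₁ : 𝔭₁ = Ideal.span {v, algebraMap O S ϖ}) (h₂ : 𝔭₂ = Ideal.span {u, algebraMap O S ϖ})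
    (hu : u ∉ 𝔭₁) (hv : v ∉ 𝔭₂) (hw : algebraMap O S ϖ ≠ 0) (φ : S →ₐ[O] O)
    (hdeep : ∀ n : ℕ, IsDeep ϖ u v φ n)
    (σ : S ≃+* S) (hσ₁ : ∀ x, x ∈ 𝔭₁ ↔ σ x ∈ 𝔭₁) (hσ₂ : ∀ x, x ∈ 𝔭₂ ↔ σ x ∈ 𝔭₂)
    (hσw : ∃ ρ : Sˣ, σ (algebraMap O S ϖ) = ρ * algebraMap O S ϖ) (x : S) :
    x ∈ RingHom.ker φ ↔ σ x ∈ RingHom.ker φ := by
  obtain ⟨ρ, hρ⟩ := hσw
  constructor
  · intro hx
    refine map_mem_ker_of_deep hϖ hm h₁ h₂ hu hv hw φ hdeep σ hσ₁ hσ₂ ?_ hx
    rw [hρ]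
    exact Ideal.mul_mem_left _ _ (Ideal.mem_span_singleton_self _)
  · intro hx
    have hsymm : σ.symm (algebraMap O S ϖ) ∈ Ideal.span {algebraMap O S ϖ} := by
      have h1 : algebraMap O S ϖ = σ.symm (ρ : S) * σ.symm (algebraMap O S ϖ) := by
        rw [← map_mul, ← hρ, RingEquiv.symm_apply_apply]
      have h2 : IsUnit (σ.symm (ρ : S)) := ρ.isUnit.map σ.symm
      obtain ⟨τ, hτ⟩ := h2
      rw [Ideal.mem_span_singleton']
      refine ⟨((τ⁻¹ : Sˣ) : S), ?_⟩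
      have h3 : ((τ⁻¹ : Sˣ) : S) * algebraMap O S ϖ =
          ((τ⁻¹ : Sˣ) : S) * (τ : S) * σ.symm (algebraMap O S ϖ) := by
        rw [mul_assoc, hτ, ← h1]
      rw [h3, Units.inv_mul, one_mul]
    have := map_mem_ker_of_deep hϖ hm h₁ h₂ hu hv hw φ hdeep σ.symm
      (fun y => by rw [hσ₁ (σ.symm y), RingEquiv.apply_symm_apply])
      (fun y => by rw [hσ₂ (σ.symm y), RingEquiv.apply_symm_apply]) hsymm hx
    rwa [RingEquiv.symm_apply_apply] at this

end Deep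

/-! ### The dichotomy -/

section Dichotomy

variable {ϖ : O} {u v : S}

/-- A point gives `RatGen`. -/
theorem ratGen_of_point (hm : maximalIdeal S = Ideal.span {u, v, algebraMap O S ϖ})
    (φ : S →ₐ[O] O) : NodeDeform.RatGen ϖ u v := by
  intro x
  have h1 : x - algebraMap O S (φ x) ∈ RingHom.ker φ := by
    rw [RingHom.mem_ker, map_sub, AlgHom.commutes]
    simp
  have h2 := ker_le_maximalIdeal φ h1
  rw [hm, Ideal.mem_span_insert] at h2
  obtain ⟨p, z, hz, hxz⟩ := h2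
  rw [Ideal.mem_span_pair] at hz
  obtain ⟨q, r, hqr⟩ := hz
  refine ⟨φ x, p, q, r, ?_⟩
  have h3 := hxz
  rw [← hqr] at h3
  linear_combination h3

/-- **Dichotomy**: an `O`-point through an approximate node either has a local generator of the
form `u' - φ u'` or `v' - φ v'` at some finite depth (so (Loc-P) holds by `exists_mul_ker_le` and
`eq_comp_of_map_eq_zero`), or it is deep of every order (hence inertia-fixed by
`ker_map_iff_of_deep`). -/
theorem lp_or_deep (hm : maximalIdeal S = Ideal.span {u, v, algebraMap O S ϖ}) {G₀ : S}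
    (huv : u * v = algebraMap O S ϖ * G₀) (φ : S →ₐ[O] O) :
    (∃ (n : ℕ) (u' v' : S) (c : O) (G : S), u' - u ∈ Ideal.span {algebraMap O S ϖ} ∧
      v' - v ∈ Ideal.span {algebraMap O S ϖ} ∧ IsApproxNode ϖ n u' v' c G ∧
      (φ u' ∉ Ideal.span {ϖ ^ (n + 1)} ∨ φ v' ∉ Ideal.span {ϖ ^ (n + 1)})) ∨
    (∀ n : ℕ, IsDeep ϖ u v φ n) := by
  by_cases h : ∀ n : ℕ, IsDeep ϖ u v φ n
  · exact Or.inr h
  · left
    push Not at h
    obtain ⟨n, hn⟩ := h
    obtain ⟨s, t, c, G, happ, -⟩ := NodeDeform.exists_approx (ratGen_of_point hm φ) huv n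
    refine ⟨n, u + algebraMap O S ϖ * s, v + algebraMap O S ϖ * t, c, G, ?_, ?_,
      isApproxNode_of_isApprox happ, ?_⟩
    · rw [Ideal.mem_span_singleton']; exact ⟨s, by ring⟩
    · rw [Ideal.mem_span_singleton']; exact ⟨t, by ring⟩
    · by_contra hcon
      push Not at hcon
      exact hn ⟨_, _, c, G, by rw [Ideal.mem_span_singleton']; exact ⟨s, by ring⟩,
        by rw [Ideal.mem_span_singleton']; exact ⟨t, by ring⟩,
        isApproxNode_of_isApprox happ, hcon.1, hcon.2⟩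

end Dichotomy

end Fermat.Agent.P3G.NodePoints
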