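/-
P3-G, block (G-N): `hres` — every closed point of the special fibre of a chart is RATIONAL over the
residue field `κ` of the base, when `κ` is algebraically closed.

Generic form (Mathlib + one lemma of S28/GaussRing): `O` a local ring with algebraically closed
residue field, `R` an `O`-algebra which is integral over `O[t]` for some `t : R`, `𝔫` a maximal ideal of
`R` containing `𝔪_O R`.  Then `O → R ⧸ 𝔫` is surjective:
`∀ x : R, ∃ a : O, x - algebraMap O R a ∈ 𝔫`
(= hypothesis `hres` of `CrossingLocal.NodeData`, of `NodeLocPLoc`, `NodeApprox.ratGen_of_span`).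

Chart form: `R = chartAlg O F {s}`.
-/
import Mathlib
import Fermat.Agent.N4.IntClosure
import Fermat.Agent.S28.GaussRing

set_option autoImplicit false

open Polynomial IsLocalRing

namespace Fermat.Agent.P3G.ResidueRational

/-- An element integral over an algebraically closed field lies in it. -/
theorem mem_range_of_isIntegral {κ L : Type*} [Field κ] [IsAlgClosed κ] [Field L] [Algebra κ L]
    {y : L} (hy : IsIntegral κ y) : y ∈ (algebraMap κ L).range :=
  minpoly.mem_range_of_degree_eq_one κ y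
    (IsAlgClosed.degree_eq_one_of_irreducible κ (minpoly.irreducible hy))

section Generic

variable {O R : Type*} [CommRing O] [IsLocalRing O] [IsAlgClosed (ResidueField O)]
  [CommRing R] [Algebra O R]

/-- **Closed points of the special fibre are rational** (generic form). -/
theorem exists_sub_algebraMap_mem (t : R)
    (hint : ∀ x : R, ((aeval t : O[X] →ₐ[O] R) : O[X] →+* R).IsIntegralElem x)
    (𝔫 : Ideal R) [h𝔫 : 𝔫.IsMaximal]
    (hle : ∀ a ∈ maximalIdeal O, algebraMap O R a ∈ 𝔫) (x : R) :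
    ∃ a : O, x - algebraMap O R a ∈ 𝔫 := by
  classical
  let _ : Field (R ⧸ 𝔫) := Ideal.Quotient.field 𝔫
  let π : R →+* R ⧸ 𝔫 := Ideal.Quotient.mk 𝔫
  let f : O →+* R ⧸ 𝔫 := π.comp (algebraMap O R)
  have hf : ∀ a ∈ maximalIdeal O, f a = 0 := fun a ha =>
    Ideal.Quotient.eq_zero_iff_mem.2 (hle a ha)
  let fbar : ResidueField O →+* R ⧸ 𝔫 := Ideal.Quotient.lift (maximalIdeal O) f hf
  let _ : Algebra (ResidueField O) (R ⧸ 𝔫) := fbar.toAlgebra
  have hfbar : ∀ a : O, algebraMap (ResidueField O) (R ⧸ 𝔫) (residue O a) =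
      π (algebraMap O R a) := fun a => rfl
  let g : O[X] →+* R ⧸ 𝔫 := π.comp ((aeval t : O[X] →ₐ[O] R) : O[X] →+* R)
  have hgX : g X = π t := by simp [g]
  have hgC : ∀ a : O, g (C a) = π (algebraMap O R a) := fun a => by simp [g]
  have hgint : ∀ y : R ⧸ 𝔫, g.IsIntegralElem y := by
    intro y
    obtain ⟨x, rfl⟩ := Ideal.Quotient.mk_surjective y
    obtain ⟨p, hp, hpx⟩ := hint x
    refine ⟨p, hp, ?_⟩
    have h := Polynomial.hom_eval₂ p ((aeval t : O[X] →ₐ[O] R) : O[X] →+* R) π x
    rw [hpx, map_zero] at h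
    exact h.symm
  -- Step 1: `π t` comes from `O`
  have ht : ∃ c : O, π t = π (algebraMap O R c) := by
    by_cases ht0 : π t = 0
    · exact ⟨0, by rw [ht0, map_zero, map_zero]⟩
    -- `(π t)⁻¹` lies in the range of `g`
    have hinv : (π t)⁻¹ ∈ g.range := by
      refine Fermat.Agent.S28.Gauss.mem_of_isIntegral_of_inv_mem g.range ?_ ?_
      · obtain ⟨p, hp, hpx⟩ := hgint (π t)⁻¹
        refine ⟨p.map g.rangeRestrict, hp.map _, ?_⟩
        rw [eval₂_map]
        exact hpx
      · rw [inv_inv]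
        exact ⟨X, hgX⟩
    obtain ⟨P, hP⟩ := hinv
    -- the relation `g (X * P - 1) = 0` reduces to a nonzero polynomial over `κ` killing `π t`
    have hQ : g (X * P - 1) = 0 := by
      rw [map_sub, map_mul, hgX, hP, map_one, mul_inv_cancel₀ ht0, sub_self]
    have hcomp : ((algebraMap (ResidueField O) (R ⧸ 𝔫)).comp (residue O)) = f := by
      ext a
      exact hfbar a
    have hgeval : ∀ Q : O[X], g Q = eval₂ (algebraMap (ResidueField O) (R ⧸ 𝔫)) (π t)
        (Q.map (residue O)) := by
      intro Q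
      rw [eval₂_map, hcomp]
      have : g = eval₂RingHom f (π t) := by
        refine Polynomial.ringHom_ext (fun a => ?_) ?_
        · rw [hgC]; simp [f]
        · rw [hgX]; simp
      rw [this]
      rfl
    have halg : IsAlgebraic (ResidueField O) (π t) := by
      refine ⟨(X * P - 1).map (residue O), fun h0 => ?_, ?_⟩
      · have h1 := congrArg (Polynomial.eval 0) h0
        simp at h1
      · rw [aeval_def, ← hgeval, hQ]
    obtain ⟨cbar, hc⟩ := mem_range_of_isIntegral halg.isIntegral
    obtain ⟨c, rfl⟩ := residue_surjective cbar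
    exact ⟨c, by rw [← hc, hfbar]⟩
  obtain ⟨c, hc⟩ := ht
  -- Step 2: every element of `R ⧸ 𝔫` is integral over `κ`
  let h : O[X] →+* ResidueField O := (residue O).comp (evalRingHom c)
  have hcomp2 : (algebraMap (ResidueField O) (R ⧸ 𝔫)).comp h = g := by
    refine Polynomial.ringHom_ext (fun a => ?_) ?_
    · rw [hgC]; simp [h, hfbar]
    · rw [hgX, hc]; simp [h, hfbar]
  have hxint : IsIntegral (ResidueField O) (π x) := by
    obtain ⟨p, hp, hpx⟩ := hgint (π x)
    refine ⟨p.map h, hp.map h, ?_⟩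
    rw [eval₂_map, hcomp2]
    exact hpx
  obtain ⟨abar, ha⟩ := mem_range_of_isIntegral hxint
  obtain ⟨a, rfl⟩ := residue_surjective abar
  refine ⟨a, ?_⟩
  rw [← Ideal.Quotient.eq]
  exact ha.symm.trans (hfbar a)

end Generic

/-! ### Charts -/

section Chart

open Fermat.Agent.N4.Chart Fermat.Agent.N4.IntClosure

variable {O F : Type*} [CommRing O] [IsLocalRing O] [IsAlgClosed (ResidueField O)]
  [Field F] [Algebra O F]

/-- The generator of the chart. -/
def tR (s : F) : chartAlg O F {s} := ⟨s, adjoin_le_chartAlg {s} (Algebra.subset_adjoin rfl)⟩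

/-- The chart is integral over `O[s]` (in the `IsIntegralElem` form). -/
theorem isIntegralElem_chart (s : F) (x : chartAlg O F {s}) :
    ((aeval (tR (O := O) s) : O[X] →ₐ[O] chartAlg O F {s}) :
      O[X] →+* chartAlg O F {s}).IsIntegralElem x := by
  obtain ⟨p, hp, hpx⟩ := (mem_chartAlg_singleton_iff s).1 x.2
  refine ⟨p, hp, Subtype.ext ?_⟩
  have h := Polynomial.hom_eval₂ p
    ((aeval (tR (O := O) s) : O[X] →ₐ[O] chartAlg O F {s}) : O[X] →+* chartAlg O F {s})
    ((chartAlg O F {s}).val : chartAlg O F {s} →+* F) x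
  have hcomp : ((chartAlg O F {s}).val : chartAlg O F {s} →+* F).comp
      ((aeval (tR (O := O) s) : O[X] →ₐ[O] chartAlg O F {s}) : O[X] →+* chartAlg O F {s}) =
      ((aeval s : O[X] →ₐ[O] F) : O[X] →+* F) := by
    refine Polynomial.ringHom_ext (fun a => ?_) ?_
    · simp
    · simp [tR]
  rw [hcomp] at h
  exact h.trans hpx

/-- **Closed points of the special fibre of a chart are rational**: `hres` for
`R = chartAlg O F {s}`. -/
theorem exists_sub_algebraMap_mem_chart (s : F) (𝔫 : Ideal (chartAlg O F {s})) [𝔫.IsMaximal]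
    (hle : ∀ a ∈ maximalIdeal O, algebraMap O (chartAlg O F {s}) a ∈ 𝔫)
    (x : chartAlg O F {s}) : ∃ a : O, x - algebraMap O (chartAlg O F {s}) a ∈ 𝔫 :=
  exists_sub_algebraMap_mem (tR s) (isIntegralElem_chart s) 𝔫 hle x

end Chart

section ChartDVR

open Fermat.Agent.N4.Chart Fermat.Agent.N4.IntClosure

variable {O F : Type*} [CommRing O] [IsDomain O] [IsDiscreteValuationRing O]
  [IsAlgClosed (ResidueField O)] [Field F] [Algebra O F]

/-- DVR form: it suffices that a uniformiser lies in `𝔫`. -/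
theorem exists_sub_algebraMap_mem_chart_of_irreducible
    {ϖ : O} (hϖ : Irreducible ϖ) (s : F) (𝔫 : Ideal (chartAlg O F {s})) [𝔫.IsMaximal]
    (hϖ𝔫 : algebraMap O (chartAlg O F {s}) ϖ ∈ 𝔫) (x : chartAlg O F {s}) :
    ∃ a : O, x - algebraMap O (chartAlg O F {s}) a ∈ 𝔫 := by
  refine exists_sub_algebraMap_mem_chart s 𝔫 (fun a ha => ?_) x
  rw [hϖ.maximalIdeal_eq, Ideal.mem_span_singleton] at ha
  obtain ⟨b, rfl⟩ := ha
  rw [map_mul]
  exact Ideal.mul_mem_right _ _ hϖ𝔫

end ChartDVR

end Fermat.Agent.P3G.ResidueRational
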