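/-
P3-G block (G-N) (helper6), inputs (B2) of the integrator for the chart AT INFINITY
(mirror of `P3G/TwoComponentsB.lean`, in the language of helper19's `RbarInf`/`TwoComponentsInf`):

* `rbar_le_rbarInf : SigmaFrob.Rbar κ N (SigmaInf κ N) ≤ RbarInf K N O` (the half of
  `RbarInf = image of SigmaInf` which is needed here);
* the components: `thetaInf K (N ℓ) O` and `theta2Inf K N ℓ O hB` take values in `RbarInf K N O` on
  `Rinf K (N ℓ) O` (value in `FF κ N` by residue degree one + `hA2`; integral over `κ[j̄⁻¹]` by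
  pushing the monic equation over `O[j⁻¹]` through `θ_i`: `θ₁ j⁻¹ = j̄⁻¹`, `θ₂ j⁻¹ = (j̄⁻¹) ^ ℓ`).
-/
import Mathlib
import Fermat.Agent.P3G.TwoComponentsInf
import Fermat.Agent.P3G.TwoComponentsB

set_option autoImplicit false
set_option linter.unusedSectionVars false
set_option linter.style.haveILetI false

open ModularCurve Fermat.Agent.S28.Gauss Fermat.Agent.N4.Setting Fermat.Agent.N4.FibreEmbedding
open Fermat.Agent.N4.Chart Fermat.Agent.N4.IntClosure
open Fermat.Agent.N4F.E.DegreeLevelRaise Fermat.Agent.N4F.E.GaussDVR AlgebraicCurve Polynomial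
open Fermat.Agent.N4F.E IsLocalRing Fermat.Agent.P3G.RbarInf Fermat.Agent.P3G.TwoComponentsInf
open Fermat.Agent.N4F.C.ChartFibre Fermat.Agent.P3G.TwoComponentsB

noncomputable section

namespace Fermat.Agent.P3G.TwoComponentsInfB2

section B2

variable (K : Type) [Field K] [CharZero K] (N : ℕ) [NeZero N] (ℓ : ℕ) [Fact ℓ.Prime]
  (O : Subring K) [IsDiscreteValuationRing ↥O] [IsFractionRing ↥O K]
  [CharP (IsLocalRing.ResidueField ↥O) ℓ]

set_option quotPrecheck false in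
local notation "κ" => IsLocalRing.ResidueField ↥O

attribute [local instance] AlphaSide.algFL AlphaSide.algGL AlphaSide.isScalarTower_GFL

set_option synthInstance.maxHeartbeats 400000

variable (hN : IsUnit ((N : ℕ) : ↥O))
  (hprimeInf : (fibreIdeal K N O (Rinf K N O)).IsPrime)
  (hDedInf : IsDedekindDomain (↥(Rinf K N O) ⧸ fibreIdeal K N O (Rinf K N O)))
  (hA2 : ∀ x : ↥(gaussSubalgebra K N O),
    theta K N O x ∈ modularFunctionFieldFullC (IsLocalRing.ResidueField ↥O) N)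
  (ι : K →+* ℂ) (hℓN : ¬ ℓ ∣ N)
  {S : Subring (FF K (N * ℓ))}
  {ev : ↥S →+* LaurentSeries (IsLocalRing.ResidueField ↥O)}
  (hB : AlphaSide.BetaOut K N ℓ O S ev)

theorem thetaInf_eq_coe_redInf (x : ↥(Rinf K N O)) :
    thetaInf K N O x = ((redInf K N O hN x : FF κ N) : LaurentSeries κ) :=
  (coe_redInf K N O hN x).symm

include hN hprimeInf hDedInf in
/-- The image of `SigmaInf κ N` in `κ((q))` lies in the range of the Gauss reduction of the chart
at infinity. -/
theorem rbar_le_rbarInf : SigmaFrob.Rbar κ N (SigmaInf κ N) ≤ RbarInf K N O := by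
  intro y hy
  obtain ⟨z, hz, rfl⟩ := (SigmaFrob.mem_Rbar_iff κ N _).1 hy
  obtain ⟨x, rfl⟩ := exists_redInf_eq K N O hN hprimeInf hDedInf hz
  exact ⟨x, thetaInf_eq_coe_redInf K N O hN x⟩

/-- `θ_M` reduces the constants (chart at infinity). -/
theorem thetaInf_algebraMap (M : ℕ) [NeZero M] (a : ↥O) :
    thetaInf K M O (algebraMap ↥O ↥(Rinf K M O) a) = HahnSeries.C (IsLocalRing.residue ↥O a) :=
  rho_algebraMap K M O (sInf_le_gauss K M O) a

/-- `θ_M j⁻¹ = j̄⁻¹`. -/
theorem thetaInf_jInvInf (M : ℕ) [NeZero M] :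
    thetaInf K M O (jInvInf K M O) = (jqModC κ)⁻¹ :=
  theta_jF_inv K M O

theorem alphaRinf_jInvInf :
    BetaInf.alphaRinf K N ℓ O (jInvInf K N O) = jInvInf K (N * ℓ) O :=
  Subtype.ext ((BetaInf.coe_alphaRinf K N ℓ O _).trans
    (by rw [coe_jInvInf, map_inv₀, alphaF_jF]; rfl))

/-- `θ₂` reduces the constants. -/
theorem theta2Inf_algebraMap (a : ↥O) :
    theta2Inf K N ℓ O hB (algebraMap ↥O ↥(Rinf K (N * ℓ) O) a) =
      HahnSeries.C (IsLocalRing.residue ↥O a) := by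
  have e0 : algebraMap ↥O ↥(Rinf K (N * ℓ) O) a =
      BetaInf.alphaRinf K N ℓ O (algebraMap ↥O ↥(Rinf K N O) a) :=
    ((BetaInf.alphaRinf K N ℓ O).commutes a).symm
  rw [e0, theta2Inf_alphaRinf, thetaInf_algebraMap, qExpand_C]

/-- `θ₂ j⁻¹ = (j̄⁻¹) ^ ℓ`. -/
theorem theta2Inf_jInvInf :
    theta2Inf K N ℓ O hB (jInvInf K (N * ℓ) O) = (jqModC κ)⁻¹ ^ ℓ := by
  rw [← alphaRinf_jInvInf, theta2Inf_alphaRinf, thetaInf_jInvInf, map_inv₀, inv_pow]
  congr 1
  exact GaussResidue.qExpand_jqModC_eq_pow κ ℓ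

include hN hprimeInf hDedInf hA2 in
/-- A value of `θ_N` on `G_N` which is integral over `κ[w̄]`, `w ∈ SigmaInf κ N`, lies in
`RbarInf K N O`. -/
theorem theta_mem_rbarInf_of_isIntegralElem (a : ↥(gaussSubalgebra K N O)) {W : FF κ N}
    (hW : W ∈ SigmaInf κ N)
    (h : (eval₂RingHom (HahnSeries.C : κ →+* LaurentSeries κ)
      (W : LaurentSeries κ)).IsIntegralElem (theta K N O a)) :
    theta K N O a ∈ RbarInf K N O := by
  apply rbar_le_rbarInf K N O hN hprimeInf hDedInf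
  refine (SigmaFrob.mem_Rbar_iff κ N _).2 ⟨⟨theta K N O a, hA2 a⟩, ?_, rfl⟩
  exact mem_chartAlg_of_isIntegralElem_coe κ N hW h

include hN hprimeInf hDedInf hA2 ι hℓN hB in
/-- **(B2) at infinity, first component**: the Gauss reduction of the chart at infinity of level
`N ℓ` takes its values in `RbarInf K N O`. -/
theorem thetaInf_mem_rbar (r : ↥(Rinf K (N * ℓ) O)) :
    thetaInf K (N * ℓ) O r ∈ RbarInf K N O := by
  haveI : FiniteDimensional (FF K N) (FF K (N * ℓ)) :=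
    AlphaSide.finiteDimensional_alpha K N ℓ ι hℓN
  haveI := AlphaSide.charP_laurent K ℓ O
  haveI : @IsScalarTower ↥(gaussSubalgebra K N O) (FF K N) (FF K (N * ℓ)) Algebra.toSMul
      Algebra.toSMul Algebra.toSMul := AlphaSide.isScalarTower_GFL K N ℓ O
  obtain ⟨a, ha⟩ := FibreBase.exists_theta_eq (A := ↥(gaussSubalgebra K N O)) (F := FF K N)
    (L := FF K (N * ℓ)) (AlphaSide.finrank_alpha K N ℓ ι hℓN) (theta K N O)
    (AlphaSide.theta_mem_maximalIdeal K N O) (qExpand κ ℓ) (AlphaSide.pi1 K N ℓ O hB)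
    (AlphaSide.pi1_algebraMap K N ℓ O hB) (AlphaSide.x0 K N ℓ O) (AlphaSide.t0 K N O)
    (AlphaSide.hx0 K N ℓ O hB) (AlphaSide.ht0 K N ℓ O) (AlphaSide.pi2 K N ℓ O)
    (AlphaSide.pi2_algebraMap K N ℓ O) (AlphaSide.ker_ne K N ℓ O hB) (toClosureInf K N ℓ O r)
  have hval : thetaInf K (N * ℓ) O r = theta K N O a := (thetaInf_eq_pi2 K N ℓ O r).trans ha
  rw [hval]
  refine theta_mem_rbarInf_of_isIntegralElem K N O hN hprimeInf hDedInf hA2 a (W := (jF κ N)⁻¹)
    (subset_chartAlg _ (Set.mem_singleton _)) ?_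
  have h := isIntegralElem_map_chart (HahnSeries.C : κ →+* LaurentSeries κ)
    (thetaInf K (N * ℓ) O) (thetaInf_algebraMap K O (N * ℓ)) r
  have hg : thetaInf K (N * ℓ) O (chartGen (Set.mem_singleton (jF K (N * ℓ))⁻¹)) =
      (((jF κ N)⁻¹ : FF κ N) : LaurentSeries κ) := thetaInf_jInvInf K O (N * ℓ)
  rw [hg, hval] at h
  exact h

include hN hprimeInf hDedInf hA2 in
/-- **(B2) at infinity, second component**: the second place of the chart at infinity of level
`N ℓ` takes its values in `RbarInf K N O`, given that `ev` only takes values of `θ_N`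
(`FibreBase.exists_betaOut_range`). -/
theorem theta2Inf_mem_rbar
    (hrange : ∀ y : S, ∃ a : ↥(gaussSubalgebra K N O), ev y = theta K N O a)
    (r : ↥(Rinf K (N * ℓ) O)) :
    theta2Inf K N ℓ O hB r ∈ RbarInf K N O := by
  obtain ⟨a, ha⟩ := hrange ⟨((toClosureInf K N ℓ O r :
      ↥(integralClosure ↥(gaussSubalgebra K N O) (FF K (N * ℓ)))) : FF K (N * ℓ)),
    AlphaSide.mem_S_of_mem_integralClosure K N ℓ O hB (toClosureInf K N ℓ O r).2⟩
  have hval : theta2Inf K N ℓ O hB r = theta K N O a :=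
    (theta2Inf_eq_pi1 K N ℓ O hB r).trans ((AlphaSide.pi1_apply K N ℓ O hB _).trans ha)
  rw [hval]
  refine theta_mem_rbarInf_of_isIntegralElem K N O hN hprimeInf hDedInf hA2 a
    (W := (jF κ N)⁻¹ ^ ℓ)
    (Subalgebra.pow_mem _ (subset_chartAlg _ (Set.mem_singleton _)) ℓ) ?_
  have h := isIntegralElem_map_chart (HahnSeries.C : κ →+* LaurentSeries κ)
    (theta2Inf K N ℓ O hB) (theta2Inf_algebraMap K N ℓ O hB) r
  have hg : theta2Inf K N ℓ O hB (chartGen (Set.mem_singleton (jF K (N * ℓ))⁻¹)) =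
      (((jF κ N)⁻¹ ^ ℓ : FF κ N) : LaurentSeries κ) := theta2Inf_jInvInf K N ℓ O hB
  rw [hg, hval] at h
  exact h

end B2

end Fermat.Agent.P3G.TwoComponentsInfB2
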